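import Mathlib
import Fermat.Prelude.Def_FLTPrelim_FreyPackage
import Fermat.Prelude.Def_FLTPrelim_GaloisRep
import Fermat.Prelude.Def_FLTPrelim_Ramification
import Fermat.Prelude.Def_FLTPrelim_CofixedLine

/-!
# S13 (a reducible Frey representation has a Galois-stable cofixed line): package interface

Architect: helper29.  Every package is ONE `def XxxStatement : Prop` below; its owner proves
`theorem xxx : XxxStatement` in his own file `Fermat/Agent/S13/<File>.lean`
(namespace `Fermat.Agent.S13`, helper names prefixed by the package tag).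
Nothing is proved in this file.

Notation: `V = E[p](Qbar)` for the Frey curve `E`, `G = Gal(Qbar/ℚ)`, `N` a Galois-stable
`𝔽_p`-line of `V`, `I_A` the inertia subgroup of a place `A` of `Qbar`.

Route (no Weil pairing, no S14):
* DIVX  : `V ≠ 0`.
* DIVC  : a point of exact order `p` is a root of the `p`-th division polynomial
          (hence `#V ≤ p²`, and `ψ_p = p ∏ (X - x(P))` when `#V = p²`).
* LOC2  : at places over `2` inertia acts trivially on `N` and on `V/N`, and `G` does NOT act
          trivially on `N`.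
* S05   : (landed) inertia at odd `q ≠ p` acts trivially on `V`.
* LOCP  : at a place over `p` inertia acts trivially on `N` or on `V/N`.
* MINK  : (landed, helper8) everywhere unramified implies trivial.
* CONJ  : inertia subgroups of two places over the same prime are conjugate.
* GLUE  : `N` is not fixed pointwise by `G`, so by MINK some inertia group moves `N`; it can only
          be at `p`; by LOCP + CONJ inertia at `p` is trivial on `V/N`; so `V/N` is unramified
          everywhere and MINK gives the cofixed line.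
-/

set_option autoImplicit false

open WeierstrassCurve WeierstrassCurve.Affine WeierstrassCurve.Affine.Point

namespace Fermat.Agent.S13

local notation "Qbar" => AlgebraicClosure ℚ
local notation "GQ" => (AlgebraicClosure ℚ ≃ₐ[ℚ] AlgebraicClosure ℚ)

/-- (DIVC) **Division polynomials, easy half.** On any Weierstrass curve over a field, a
nonsingular affine point killed by an odd prime `p` is a root of the `p`-th division polynomial
`preΨ' p` (Mathlib's univariate `ψ_p`). -/
def DivCStatement : Prop :=
  ∀ (F : Type) [Field F] [DecidableEq F] (W : WeierstrassCurve F) (p : ℕ), p.Prime → p ≠ 2 →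
    ∀ (x y : F) (h : W.toAffine.Nonsingular x y),
      p • (Point.some x y h : W.toAffine.Point) = 0 → (W.preΨ' p).eval x = 0

/-- (DIVX) **Existence of `p`-torsion.** The `p`-torsion of the Frey curve over `Qbar` is not
trivial. -/
def DivXStatement : Prop :=
  ∀ P : FreyPackage, Nontrivial (Submodule.torsionBy ℤ (P.freyCurve⁄Qbar).Point P.p)

/-- (CARD) The `p`-torsion of the Frey curve is finite of order at most `p²`
(consequence of DIVC and `natDegree_preΨ'`). -/
def CardStatement : Prop :=
  ∀ P : FreyPackage, Finite (Submodule.torsionBy ℤ (P.freyCurve⁄Qbar).Point P.p) ∧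
    Nat.card (Submodule.torsionBy ℤ (P.freyCurve⁄Qbar).Point P.p) ≤ P.p ^ 2

/-- (LOC2) **Local analysis at `2`** (multiplicative reduction, `p ∤ v₂(Δ)`): for a Galois-stable
line `N` in the two-dimensional `V`, inertia at every place over `2` acts trivially on `V/N` and
on `N`, and `N` is not fixed pointwise by `G_ℚ`. -/
def Loc2Statement : Prop :=
  ∀ (P : FreyPackage) (N : Submodule (ZMod P.p) (Submodule.torsionBy ℤ (P.freyCurve⁄Qbar).Point P.p)),
    IsGaloisStable ℚ N → N ≠ ⊥ → N ≠ ⊤ →
    Nat.card (Submodule.torsionBy ℤ (P.freyCurve⁄Qbar).Point P.p) = P.p ^ 2 →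
    (∀ A : ValuationSubring Qbar, A.LiesOverPrime 2 → ∀ σ ∈ A.inertiaSubgroupIn ℚ,
        ∀ x : Submodule.torsionBy ℤ (P.freyCurve⁄Qbar).Point P.p, σ • x - x ∈ N) ∧
    (∀ A : ValuationSubring Qbar, A.LiesOverPrime 2 → ∀ σ ∈ A.inertiaSubgroupIn ℚ,
        ∀ x ∈ N, σ • x = x) ∧
    (∃ σ : GQ, ∃ x ∈ N, σ • x ≠ x)

/-- (LOCP) **Local analysis at `p`**: for a Galois-stable line `N` in the two-dimensional `V`
and a place `A` over `p`, inertia at `A` acts trivially on `N` or on `V/N`. -/
def LocPStatement : Prop :=
  ∀ (P : FreyPackage) (N : Submodule (ZMod P.p) (Submodule.torsionBy ℤ (P.freyCurve⁄Qbar).Point P.p)),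
    IsGaloisStable ℚ N → N ≠ ⊥ → N ≠ ⊤ →
    Nat.card (Submodule.torsionBy ℤ (P.freyCurve⁄Qbar).Point P.p) = P.p ^ 2 →
    ∀ A : ValuationSubring Qbar, A.LiesOverPrime P.p →
      (∀ σ ∈ A.inertiaSubgroupIn ℚ, ∀ x ∈ N, σ • x = x) ∨
      (∀ σ ∈ A.inertiaSubgroupIn ℚ,
        ∀ x : Submodule.torsionBy ℤ (P.freyCurve⁄Qbar).Point P.p, σ • x - x ∈ N)

/-- (CONJ) Inertia subgroups at two places over the same rational prime are conjugate. -/
def ConjStatement : Prop :=
  ∀ (q : ℕ), q.Prime → ∀ A A' : ValuationSubring Qbar, A.LiesOverPrime q → A'.LiesOverPrime q →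
    ∃ g : GQ, ∀ σ ∈ A.inertiaSubgroupIn ℚ, g * σ * g⁻¹ ∈ A'.inertiaSubgroupIn ℚ

/-- (S05) the landed statement S05, as a hypothesis shape. -/
def OddUnramifiedStatement : Prop :=
  ∀ (P : FreyPackage) (q : ℕ), q.Prime → q ≠ 2 → q ≠ P.p → P.GaloisRepUnramifiedAt q

/-- (GLUE) the final assembly. -/
def GlueStatement : Prop :=
  DivXStatement → CardStatement → Loc2Statement → LocPStatement → ConjStatement →
    OddUnramifiedStatement →
    ∀ (P : FreyPackage),
      ¬ GaloisRepIsIrreducible (K := AlgebraicClosure ℚ) ℚ P.freyCurve P.p →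
      HasGaloisStableCofixedLine (K := AlgebraicClosure ℚ) ℚ P.freyCurve P.p

end Fermat.Agent.S13
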