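import Mathlib
import Fermat.Agent.S13.Defs

/-!
# S13, package CARD from DIVC

`cardOf_divC : DivCStatement → CardStatement`: the `p`-torsion of the Frey curve over `ℚ̄` is
finite of order at most `p²`, because the `x`-coordinate of every nonzero `p`-torsion point is a
root of the nonzero polynomial `preΨ' p` of degree at most `(p² - 1) / 2`, and at most two points
share an `x`-coordinate.

Generic core: `cardOf_torsion_of_roots` for any Weierstrass curve over any field.
-/

set_option autoImplicit false
set_option linter.unusedSectionVars false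
set_option linter.style.haveILetI false

open WeierstrassCurve WeierstrassCurve.Affine WeierstrassCurve.Affine.Point Polynomial

namespace Fermat.Agent.S13

local notation "Qbar" => AlgebraicClosure ℚ

/-- Abstract cardinality bound: a group whose nonzero elements are detected, up to sign, by a
function with values in a finite set `S` has at most `2 |S| + 1` elements. -/
theorem cardOf_finite_and_card_le {G K : Type*} [AddCommGroup G] (x : G → K) (S : Finset K)
    (hS : ∀ P : G, P ≠ 0 → x P ∈ S)
    (hx : ∀ P Q : G, P ≠ 0 → Q ≠ 0 → x P = x Q → P = Q ∨ P = -Q) :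
    Finite G ∧ Nat.card G ≤ 2 * S.card + 1 := by
  classical
  have hfin0 : ({P : G | P ≠ 0} : Set G).Finite := by
    apply Set.Finite.of_finite_fibers x
    · apply S.finite_toSet.subset
      rintro _ ⟨P, hP, rfl⟩
      exact hS P hP
    · rintro _ ⟨P₀, hP₀, rfl⟩
      apply ((Set.finite_singleton (-P₀)).insert P₀).subset
      rintro Q ⟨hQ, hQx⟩
      rcases hx Q P₀ hQ hP₀ hQx with h | h
      · left; exact h
      · right; exact h
  have hfin : Finite G := by
    have : (Set.univ : Set G) = insert 0 {P : G | P ≠ 0} := by
      ext P; by_cases hP : P = 0 <;> simp [hP]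
    have h2 : (Set.univ : Set G).Finite := by
      rw [this]; exact hfin0.insert 0
    exact Set.finite_univ_iff.mp h2
  refine ⟨hfin, ?_⟩
  haveI : Fintype G := Fintype.ofFinite G
  rw [Nat.card_eq_fintype_card, ← Finset.card_univ]
  have hsplit : (Finset.univ : Finset G) = insert 0 (Finset.univ.filter (fun P => P ≠ 0)) := by
    ext P; by_cases hP : P = 0 <;> simp [hP]
  rw [hsplit]
  refine (Finset.card_insert_le _ _).trans ?_
  have : (Finset.univ.filter (fun P : G => P ≠ 0)).card ≤ 2 * S.card := by
    apply Finset.card_le_mul_card_image_of_maps_to (f := x)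
    · intro P hP
      exact hS P (by simpa using hP)
    · intro b _
      by_cases hb : ∃ P₀ : G, P₀ ≠ 0 ∧ x P₀ = b
      · obtain ⟨P₀, hP₀, rfl⟩ := hb
        have hsub : (Finset.univ.filter (fun P : G => P ≠ 0)).filter (fun a => x a = x P₀)
            ⊆ {P₀, -P₀} := by
          intro Q hQ
          simp only [Finset.mem_filter, Finset.mem_univ, true_and] at hQ
          simp only [Finset.mem_insert, Finset.mem_singleton]
          exact hx Q P₀ hQ.1 hP₀ hQ.2
        exact (Finset.card_le_card hsub).trans Finset.card_le_two
      · have : (Finset.univ.filter (fun P : G => P ≠ 0)).filter (fun a => x a = b) = ∅ := by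
          ext Q
          simp only [Finset.mem_filter, Finset.mem_univ, true_and, Finset.notMem_empty,
            iff_false, not_and]
          intro hQ hQb
          exact hb ⟨Q, hQ, hQb⟩
        rw [this]; simp
  omega

section generic

variable {F : Type*} [Field F] [DecidableEq F] {W : Affine F}

/-- The `x`-coordinate of a point (junk value `0` at infinity). -/
def cardOf_xc : W.Point → F
  | .zero => 0
  | .some x _ _ => x

@[simp] theorem cardOf_xc_some {x y : F} (h : W.Nonsingular x y) :
    cardOf_xc (Point.some x y h) = x := rfl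

theorem cardOf_eq_or_eq_neg {P Q : W.Point} (hP : P ≠ 0) (hQ : Q ≠ 0)
    (h : cardOf_xc P = cardOf_xc Q) : P = Q ∨ P = -Q := by
  match P, Q, hP, hQ, h with
  | .zero, _, hP, _, _ => exact absurd rfl hP
  | _, .zero, _, hQ, _ => exact absurd rfl hQ
  | .some x₁ y₁ h₁, .some x₂ y₂ h₂, _, _, h =>
    simp only [cardOf_xc_some] at h
    exact Point.X_eq_iff.mp h

/-- **Generic root count.** If the `x`-coordinates of the nonzero `n`-torsion points of `W` are
roots of a nonzero polynomial of degree at most `d`, then the `n`-torsion is finite of order at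
most `2 d + 1`. -/
theorem cardOf_torsion_of_roots (W : Affine F) (n : ℕ) (d : ℕ) (f : F[X]) (hf : f ≠ 0)
    (hd : f.natDegree ≤ d)
    (hroot : ∀ (x y : F) (h : W.Nonsingular x y),
      n • (Point.some x y h : W.Point) = 0 → f.eval x = 0) :
    Finite (Submodule.torsionBy ℤ W.Point n) ∧
      Nat.card (Submodule.torsionBy ℤ W.Point n) ≤ 2 * d + 1 := by
  classical
  have hmem : ∀ P : Submodule.torsionBy ℤ W.Point n, n • (P : W.Point) = 0 := fun P => by
    have := P.2
    rwa [Submodule.mem_torsionBy_iff, natCast_zsmul] at this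
  have hne : ∀ P : Submodule.torsionBy ℤ W.Point n, P ≠ 0 → (P : W.Point) ≠ 0 :=
    fun P hP h => hP (Subtype.ext h)
  obtain ⟨h1, h2⟩ := cardOf_finite_and_card_le (G := Submodule.torsionBy ℤ W.Point n)
    (fun P => cardOf_xc (P : W.Point)) f.roots.toFinset
    (fun P hP => by
      rw [Multiset.mem_toFinset, mem_roots hf, IsRoot.def]
      have h0 := hne P hP
      have hn := hmem P
      match hQ : (P : W.Point), h0, hn with
      | .zero, h0, _ => exact absurd rfl h0
      | .some x y h, _, hn =>
        simpa using hroot x y h hn)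
    (fun P Q hP hQ hx => by
      rcases cardOf_eq_or_eq_neg (hne P hP) (hne Q hQ) hx with h | h
      · left; exact Subtype.ext h
      · right; exact Subtype.ext h)
  refine ⟨h1, h2.trans ?_⟩
  have := ((Multiset.toFinset_card_le _).trans (Polynomial.card_roots' f)).trans hd
  omega

/-- From the division-polynomial statement: the `p`-torsion (`p` an odd prime, invertible in
`F`) of any Weierstrass curve is finite of order at most `p²`. -/
theorem cardOf_torsion_le_sq {F : Type} [Field F] [DecidableEq F] (hdivc : DivCStatement)
    (W : WeierstrassCurve F) (p : ℕ) (hp : p.Prime) (hp2 : p ≠ 2) (hpF : (p : F) ≠ 0) :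
    Finite (Submodule.torsionBy ℤ W.toAffine.Point p) ∧
      Nat.card (Submodule.torsionBy ℤ W.toAffine.Point p) ≤ p ^ 2 := by
  have hodd : ¬ Even p := by
    rw [Nat.not_even_iff_odd]; exact hp.odd_of_ne_two hp2
  have hdeg : (W.preΨ' p).natDegree ≤ (p ^ 2 - 1) / 2 := by
    have := W.natDegree_preΨ'_le p
    simpa [hodd] using this
  obtain ⟨h1, h2⟩ := cardOf_torsion_of_roots W.toAffine p ((p ^ 2 - 1) / 2) (W.preΨ' p)
    (W.preΨ'_ne_zero hpF) hdeg (fun x y h hn => hdivc F W p hp hp2 x y h hn)
  refine ⟨h1, h2.trans ?_⟩
  have h1p : 1 ≤ p ^ 2 := Nat.one_le_pow _ _ hp.pos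
  omega

end generic

/-- (CARD) from (DIVC). -/
theorem cardOf_divC (hdivc : DivCStatement) : CardStatement := by
  intro P
  have hpF : ((P.p : ℕ) : Qbar) ≠ 0 := by
    exact_mod_cast P.hp0
  exact cardOf_torsion_le_sq hdivc (P.freyCurve⁄Qbar) P.p P.pp
    (by have := P.hp5; omega) hpF

end Fermat.Agent.S13
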