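import Mathlib
import Fermat.Agent.S13.Defs

/-!
# S13 / DIVC, part 1: the geometry of `x`-coordinates

For a Weierstrass curve `W` over a field and nonsingular affine points `Q`, `R` with different
`x`-coordinates `v`, `w`, the `x`-coordinates `up`, `um` of `Q + R`, `Q - R` satisfy

  `(v - w)² (up + um) = S(v, w)`,  `(v - w)² up um = T(v, w)`,

so that the biquadratic form `N(t; v, w) = t² (v - w)² - S(v, w) t + T(v, w)`, which is symmetric
in its three arguments, factors as `(v - w)² (t - up)(t - um)`.  We also record the duplication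
formula.  Everything is elementary algebra on top of Mathlib's group law.
-/

set_option autoImplicit false

open WeierstrassCurve WeierstrassCurve.Affine WeierstrassCurve.Affine.Point

namespace Fermat.Agent.S13

variable {F : Type*} [Field F] (W : WeierstrassCurve F)

/-- numerator of `x(Q+R) + x(Q-R)` -/
def divC_S (v w : F) : F := (v + w) * (2 * v * w + W.b₄) + W.b₂ * v * w + W.b₆

/-- numerator of `x(Q+R) * x(Q-R)` -/
def divC_T (v w : F) : F := v ^ 2 * w ^ 2 - W.b₄ * v * w - W.b₆ * (v + w) - W.b₈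

/-- the symmetric biquadratic form -/
def divC_N (u v w : F) : F := u ^ 2 * (v - w) ^ 2 - divC_S W v w * u + divC_T W v w

lemma divC_N_symm12 (u v w : F) : divC_N W u v w = divC_N W v u w := by
  simp only [divC_N, divC_S, divC_T]; ring

lemma divC_N_symm23 (u v w : F) : divC_N W u v w = divC_N W u w v := by
  simp only [divC_N, divC_S, divC_T]; ring

lemma divC_N_symm13 (u v w : F) : divC_N W u v w = divC_N W w v u := by
  simp only [divC_N, divC_S, divC_T]; ring

/-- the value of `N` on the diagonal -/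
lemma divC_N_diag (t v : F) :
    divC_N W t v v = (v ^ 4 - W.b₄ * v ^ 2 - 2 * W.b₆ * v - W.b₈) -
      (4 * v ^ 3 + W.b₂ * v ^ 2 + 2 * W.b₄ * v + W.b₆) * t := by
  simp only [divC_N, divC_S, divC_T]; ring

/-- sum formula -/
lemma divC_addX_sum {x₁ y₁ x₂ y₂ : F} (h₁ : W.toAffine.Equation x₁ y₁)
    (h₂ : W.toAffine.Equation x₂ y₂) (hx : x₁ ≠ x₂) :
    (x₁ - x₂) ^ 2 * (W.toAffine.addX x₁ x₂ ((y₁ - y₂) / (x₁ - x₂)) +
      W.toAffine.addX x₁ x₂ ((y₁ - W.toAffine.negY x₂ y₂) / (x₁ - x₂))) = divC_S W x₁ x₂ := by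
  have hD : x₁ - x₂ ≠ 0 := sub_ne_zero.mpr hx
  rw [Affine.equation_iff] at h₁ h₂
  simp only [Affine.addX, Affine.negY, divC_S, WeierstrassCurve.b₂, WeierstrassCurve.b₄,
    WeierstrassCurve.b₆]
  field_simp
  linear_combination (2 : F) * h₁ + 2 * h₂

/-- product formula -/
lemma divC_addX_prod {x₁ y₁ x₂ y₂ : F} (h₁ : W.toAffine.Equation x₁ y₁)
    (h₂ : W.toAffine.Equation x₂ y₂) (hx : x₁ ≠ x₂) :
    (x₁ - x₂) ^ 2 * (W.toAffine.addX x₁ x₂ ((y₁ - y₂) / (x₁ - x₂)) *
      W.toAffine.addX x₁ x₂ ((y₁ - W.toAffine.negY x₂ y₂) / (x₁ - x₂))) = divC_T W x₁ x₂ := by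
  have hD : x₁ - x₂ ≠ 0 := sub_ne_zero.mpr hx
  rw [Affine.equation_iff] at h₁ h₂
  simp only [Affine.addX, Affine.negY, divC_T, WeierstrassCurve.b₄,
    WeierstrassCurve.b₆, WeierstrassCurve.b₈]
  field_simp
  grind

/-- on the curve, `ψ₂² = Ψ₂Sq` -/
lemma divC_psi2_sq {x y : F} (h : W.toAffine.Equation x y) :
    (2 * y + W.a₁ * x + W.a₃) ^ 2 = 4 * x ^ 3 + W.b₂ * x ^ 2 + 2 * W.b₄ * x + W.b₆ := by
  rw [Affine.equation_iff] at h
  simp only [WeierstrassCurve.b₂, WeierstrassCurve.b₄, WeierstrassCurve.b₆]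
  linear_combination (4 : F) * h

/-- duplication formula -/
lemma divC_addX_dbl [DecidableEq F] {x y : F} (h : W.toAffine.Equation x y)
    (hb : 2 * y + W.a₁ * x + W.a₃ ≠ 0) :
    (2 * y + W.a₁ * x + W.a₃) ^ 2 * W.toAffine.addX x x (W.toAffine.slope x x y y) =
      x ^ 4 - W.b₄ * x ^ 2 - 2 * W.b₆ * x - W.b₈ := by
  have hy : y ≠ W.toAffine.negY x y := by
    intro hy
    apply hb
    simp only [Affine.negY] at hy
    linear_combination hy
  rw [Affine.slope_of_Y_ne rfl hy]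
  have hd : y - W.toAffine.negY x y ≠ 0 := sub_ne_zero.mpr hy
  have hd' : y - W.toAffine.negY x y = 2 * y + W.a₁ * x + W.a₃ := by
    simp only [Affine.negY]; ring
  rw [hd'] at hd ⊢
  rw [Affine.equation_iff] at h
  simp only [Affine.addX, WeierstrassCurve.b₄, WeierstrassCurve.b₆, WeierstrassCurve.b₈]
  field_simp
  grind

/-! ### Points with a given `x`-coordinate -/

/-- `Q` is an affine point with `x`-coordinate `u`. -/
def divC_HasX (Q : W.toAffine.Point) (u : F) : Prop :=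
  ∃ (y : F) (h : W.toAffine.Nonsingular u y), Q = Point.some u y h

variable {W}

lemma divC_HasX_some {x y : F} (h : W.toAffine.Nonsingular x y) :
    divC_HasX W (Point.some x y h) x := ⟨y, h, rfl⟩

lemma divC_HasX_ne_zero {Q : W.toAffine.Point} {u : F} (h : divC_HasX W Q u) : Q ≠ 0 := by
  obtain ⟨y, hy, rfl⟩ := h
  exact Point.some_ne_zero hy

lemma divC_HasX_unique {Q : W.toAffine.Point} {u u' : F} (h : divC_HasX W Q u)
    (h' : divC_HasX W Q u') : u = u' := by
  obtain ⟨y, hy, rfl⟩ := h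
  obtain ⟨y', hy', h2⟩ := h'
  rw [Point.some.injEq] at h2
  exact h2.1

lemma divC_HasX_neg {Q : W.toAffine.Point} {u : F} (h : divC_HasX W Q u) :
    divC_HasX W (-Q) u := by
  obtain ⟨y, hy, rfl⟩ := h
  exact ⟨_, _, Point.neg_some hy⟩

lemma divC_HasX_eq_or_eq_neg {Q R : W.toAffine.Point} {u : F} (h : divC_HasX W Q u)
    (h' : divC_HasX W R u) : Q = R ∨ Q = -R := by
  obtain ⟨y, hy, rfl⟩ := h
  obtain ⟨y', hy', rfl⟩ := h'
  exact Point.X_eq_iff.mp rfl

variable [DecidableEq F]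

/-- **Addition and subtraction on `x`-coordinates.** -/
lemma divC_add_sub {Q R : W.toAffine.Point} {v w : F} (hQ : divC_HasX W Q v)
    (hR : divC_HasX W R w) (hvw : v ≠ w) :
    ∃ up um : F, divC_HasX W (Q + R) up ∧ divC_HasX W (Q - R) um ∧
      (v - w) ^ 2 * (up + um) = divC_S W v w ∧ (v - w) ^ 2 * (up * um) = divC_T W v w := by
  obtain ⟨y₁, h₁, rfl⟩ := hQ
  obtain ⟨y₂, h₂, rfl⟩ := hR
  refine ⟨W.toAffine.addX v w (W.toAffine.slope v w y₁ y₂),
    W.toAffine.addX v w (W.toAffine.slope v w y₁ (W.toAffine.negY w y₂)), ?_, ?_, ?_, ?_⟩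
  · rw [Point.add_of_X_ne hvw]
    exact ⟨_, _, rfl⟩
  · rw [sub_eq_add_neg, Point.neg_some, Point.add_of_X_ne hvw]
    exact ⟨_, _, rfl⟩
  · rw [Affine.slope_of_X_ne hvw, Affine.slope_of_X_ne hvw]
    exact divC_addX_sum W h₁.1 h₂.1 hvw
  · rw [Affine.slope_of_X_ne hvw, Affine.slope_of_X_ne hvw]
    exact divC_addX_prod W h₁.1 h₂.1 hvw

/-- The biquadratic form factors through the `x`-coordinates of `Q ± R`. -/
lemma divC_N_factor {Q R : W.toAffine.Point} {v w up um : F} (hQ : divC_HasX W Q v)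
    (hR : divC_HasX W R w) (hvw : v ≠ w) (hp : divC_HasX W (Q + R) up)
    (hm : divC_HasX W (Q - R) um) (t : F) :
    divC_N W t v w = (v - w) ^ 2 * ((t - up) * (t - um)) := by
  obtain ⟨u₁, u₂, h₁, h₂, hS, hT⟩ := divC_add_sub hQ hR hvw
  obtain rfl := divC_HasX_unique hp h₁
  obtain rfl := divC_HasX_unique hm h₂
  simp only [divC_N]
  linear_combination t * hS - hT

/-- **Duplication on `x`-coordinates.** -/
lemma divC_dbl {x y : F} (h : W.toAffine.Nonsingular x y)
    (hb : 2 * y + W.a₁ * x + W.a₃ ≠ 0) :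
    ∃ u : F, divC_HasX W (Point.some x y h + Point.some x y h) u ∧
      (2 * y + W.a₁ * x + W.a₃) ^ 2 * u = x ^ 4 - W.b₄ * x ^ 2 - 2 * W.b₆ * x - W.b₈ := by
  have hy : y ≠ W.toAffine.negY x y := by
    intro hy
    apply hb
    simp only [Affine.negY] at hy
    linear_combination hy
  refine ⟨W.toAffine.addX x x (W.toAffine.slope x x y y), ?_, divC_addX_dbl W h.1 hb⟩
  rw [Point.add_self_of_Y_ne hy]
  exact ⟨_, _, rfl⟩

/-- If `ψ₂` vanishes at a point, the point is killed by `2`. -/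
lemma divC_dbl_zero {x y : F} (h : W.toAffine.Nonsingular x y)
    (hb : 2 * y + W.a₁ * x + W.a₃ = 0) :
    Point.some x y h + Point.some x y h = 0 := by
  apply Point.add_self_of_Y_eq
  simp only [Affine.negY]
  linear_combination hb

end Fermat.Agent.S13
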