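import Mathlib
import Fermat.Agent.S13.DivCGeom

/-!
# S13 / DIVC, part 2: the sequence of values of the division polynomials at a point

For a nonsingular affine point `P = (x, y)` we put `w n = normEDS ψ₂(P) Ψ₃(x) preΨ₄(x) n`
(`= ψ_n(P)`), and `ξ n = x - w (n+1) w (n-1) / w n ^ 2` (the expected `x`-coordinate of `n • P`).
This file contains the purely algebraic facts on `w` and `ξ`.
-/

set_option autoImplicit false

open WeierstrassCurve WeierstrassCurve.Affine WeierstrassCurve.Affine.Point Polynomial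

namespace Fermat.Agent.S13

section alg

variable {F : Type*} [Field F]

/-- algebra of the propagation step -/
lemma divC_prop_alg {xa xb x1 xap xam xbp xbm A Ap Am B Bp Bm s1 sm d1 dm o : F}
    (hsym : (xa - x1) ^ 2 * ((xb - xap) * (xb - xam)) =
      (xb - x1) ^ 2 * ((xa - xbp) * (xa - xbm)))
    (ho : o = 1)
    (hA : (xa - x1) * (A ^ 2 * o ^ 2) = -(Ap * Am))
    (hB : (xb - x1) * (B ^ 2 * o ^ 2) = -(Bp * Bm))
    (h1 : (xam - xb) * (Am ^ 2 * B ^ 2) = -(sm * dm))
    (h2 : (xa - xbp) * (A ^ 2 * Bp ^ 2) = -(s1 * dm))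
    (h3 : (xa - xbm) * (A ^ 2 * Bm ^ 2) = -(sm * d1))
    (nA : A ≠ 0) (nB : B ≠ 0) (nAm : Am ≠ 0) (nBm : Bm ≠ 0) (nBp : Bp ≠ 0)
    (nsm : sm ≠ 0) (ndm : dm ≠ 0) :
    (xap - xb) * (Ap ^ 2 * B ^ 2) = -(s1 * d1) := by
  subst ho
  have e1 : xa - x1 = -(Ap * Am) / A ^ 2 := by
    field_simp; linear_combination hA
  have e2 : xb - x1 = -(Bp * Bm) / B ^ 2 := by
    field_simp; linear_combination hB
  have e3 : xb - xam = (sm * dm) / (Am ^ 2 * B ^ 2) := by
    field_simp; linear_combination -h1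
  have e4 : xa - xbp = -(s1 * dm) / (A ^ 2 * Bp ^ 2) := by
    field_simp; linear_combination h2
  have e5 : xa - xbm = -(sm * d1) / (A ^ 2 * Bm ^ 2) := by
    field_simp; linear_combination h3
  rw [e1, e2, e3, e4, e5] at hsym
  field_simp at hsym
  linear_combination -hsym

/-- algebra of the step `H(n+1)` -/
lemma divC_step_alg {x xn xnm x2 u W2 Wn Wnp Wnm Wnmm Wnpp o : F}
    (hN : (xn - x) ^ 2 * ((x - u) * (x - xnm)) = W2 ^ 2 * (x2 - xn))
    (ho : o = 1)
    (hn : (xn - x) * (Wn ^ 2 * o ^ 2) = -(Wnp * Wnm))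
    (hnm : (xnm - x) * (Wnm ^ 2 * o ^ 2) = -(Wn * Wnmm))
    (h2 : (xn - x2) * (Wn ^ 2 * W2 ^ 2) = -(Wnpp * Wnmm))
    (n0 : Wn ≠ 0) (n1 : Wnm ≠ 0) (n2 : Wnmm ≠ 0) (n3 : Wnp ≠ 0) (n4 : W2 ≠ 0) :
    u = x - Wnpp * Wn / Wnp ^ 2 := by
  subst ho
  have e1 : xn - x = -(Wnp * Wnm) / Wn ^ 2 := by
    field_simp; linear_combination hn
  have e2 : x - xnm = (Wn * Wnmm) / Wnm ^ 2 := by
    field_simp; linear_combination -hnm
  have e3 : x2 - xn = (Wnpp * Wnmm) / (Wn ^ 2 * W2 ^ 2) := by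
    field_simp; linear_combination -h2
  rw [e1, e2, e3] at hN
  field_simp at hN
  field_simp
  linear_combination -hN

end alg

variable {F : Type*} [Field F] (W : WeierstrassCurve F) (x y : F)

/-- the values `ψ_n(P)` of the division polynomials at `P = (x, y)` -/
noncomputable def divC_w (n : ℤ) : F :=
  normEDS (2 * y + W.a₁ * x + W.a₃) ((W.Ψ₃).eval x) ((W.preΨ₄).eval x) n

/-- the expected `x`-coordinate of `n • P` -/
noncomputable def divC_xi (n : ℤ) : F :=
  x - divC_w W x y (n + 1) * divC_w W x y (n - 1) / divC_w W x y n ^ 2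

/-- the relation `(ξ_a - ξ_b) w_a² w_b² = - w_s w_d` (to be used with `s = a + b`, `d = a - b`) -/
def divC_FrelG (a b s d : ℤ) : Prop :=
  (divC_xi W x y a - divC_xi W x y b) * (divC_w W x y a ^ 2 * divC_w W x y b ^ 2) =
    -(divC_w W x y s * divC_w W x y d)

@[simp] lemma divC_w_zero : divC_w W x y 0 = 0 := normEDS_zero ..
@[simp] lemma divC_w_one : divC_w W x y 1 = 1 := normEDS_one ..
lemma divC_w_two : divC_w W x y 2 = 2 * y + W.a₁ * x + W.a₃ := normEDS_two ..
lemma divC_w_three : divC_w W x y 3 = (W.Ψ₃).eval x := normEDS_three ..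
lemma divC_w_four :
    divC_w W x y 4 = (W.preΨ₄).eval x * (2 * y + W.a₁ * x + W.a₃) := normEDS_four ..

lemma divC_w_odd (m mp mpp mm s : ℤ) (hs : s = 2 * m + 1) (hmp : mp = m + 1) (hmpp : mpp = m + 2)
    (hmm : mm = m - 1) :
    divC_w W x y s =
      divC_w W x y mpp * divC_w W x y m ^ 3 - divC_w W x y mm * divC_w W x y mp ^ 3 := by
  subst hs hmp hmpp hmm
  exact normEDS_odd ..

lemma divC_w_even (m mp mpp mm mmm s : ℤ) (hs : s = 2 * m) (hmp : mp = m + 1)
    (hmpp : mpp = m + 2) (hmm : mm = m - 1) (hmmm : mmm = m - 2) :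
    divC_w W x y s * divC_w W x y 2 =
      divC_w W x y mm ^ 2 * divC_w W x y m * divC_w W x y mpp -
        divC_w W x y mmm * divC_w W x y m * divC_w W x y mp ^ 2 := by
  subst hs hmp hmpp hmm hmmm
  rw [divC_w_two]
  exact normEDS_even ..

lemma divC_xi_eq {k kp km : ℤ} (hp : kp = k + 1) (hm : km = k - 1) :
    divC_xi W x y k = x - divC_w W x y kp * divC_w W x y km / divC_w W x y k ^ 2 := by
  subst hp hm; rfl

@[simp] lemma divC_xi_one : divC_xi W x y 1 = x := by
  rw [divC_xi_eq W x y (k := 1) (kp := 2) (km := 0) (by norm_num) (by norm_num)]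
  simp

lemma divC_FrelG_of_E {a b s d ap am bp bm : ℤ} (hap : ap = a + 1) (ham : am = a - 1)
    (hbp : bp = b + 1) (hbm : bm = b - 1) (wa : divC_w W x y a ≠ 0) (wb : divC_w W x y b ≠ 0)
    (E : divC_w W x y s * divC_w W x y d =
      divC_w W x y ap * divC_w W x y am * divC_w W x y b ^ 2 -
        divC_w W x y bp * divC_w W x y bm * divC_w W x y a ^ 2) :
    divC_FrelG W x y a b s d := by
  rw [divC_FrelG, divC_xi_eq W x y hap ham, divC_xi_eq W x y hbp hbm]
  field_simp
  linear_combination E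

lemma divC_FrelG_one {a ap am : ℤ} (hap : ap = a + 1) (ham : am = a - 1)
    (wa : divC_w W x y a ≠ 0) : divC_FrelG W x y a 1 ap am := by
  refine divC_FrelG_of_E W x y (bp := 2) (bm := 0) hap ham (by norm_num) (by norm_num) wa
    (by simp) ?_
  simp

lemma divC_FrelG_odd {a b s : ℤ} (hab : a = b + 1) (hs : s = a + b)
    (wa : divC_w W x y a ≠ 0) (wb : divC_w W x y b ≠ 0) : divC_FrelG W x y a b s 1 := by
  refine divC_FrelG_of_E W x y (ap := b + 2) (am := b) (bp := a) (bm := b - 1)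
    (by omega) (by omega) (by omega) (by omega) wa wb ?_
  rw [divC_w_odd W x y b a (b + 2) (b - 1) s (by omega) hab rfl rfl]
  simp only [divC_w_one]
  ring

lemma divC_FrelG_even {a b s : ℤ} (hab : a = b + 2) (hs : s = a + b)
    (wa : divC_w W x y a ≠ 0) (wb : divC_w W x y b ≠ 0) : divC_FrelG W x y a b s 2 := by
  refine divC_FrelG_of_E W x y (ap := b + 3) (am := b + 1) (bp := b + 1) (bm := b - 1)
    (by omega) (by omega) (by omega) (by omega) wa wb ?_
  rw [divC_w_even W x y (b + 1) a (b + 3) b (b - 1) s (by omega) (by omega) (by omega)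
    (by omega) (by omega)]
  ring

end Fermat.Agent.S13
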