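import Mathlib
import Fermat.Agent.S13.DivCSeq

/-!
# S13 / DIVC, part 3: the `x`-coordinate of `n • P`

With `w n = ψ_n(P)` and `ξ n = x - w (n+1) w (n-1) / w n ^ 2` as in `DivCSeq`, we prove: if
`w k ≠ 0` for `1 ≤ k ≤ n`, then `k • P` is an affine point with `x`-coordinate `ξ k` for all
`1 ≤ k ≤ n`.  The proof is an induction on `n`, carrying along the relations
`(ξ_a - ξ_b) w_a² w_b² = - w_{a+b} w_{a-b}` for `a + b ≤ n + 1`; these are obtained from the
defining recursion of `normEDS` on the diagonal `a - b ∈ {1, 2}` and propagated outwards by means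
of the symmetry of the biquadratic form `N`.
-/

set_option autoImplicit false

open WeierstrassCurve WeierstrassCurve.Affine WeierstrassCurve.Affine.Point Polynomial

namespace Fermat.Agent.S13

section alg3

variable {F : Type*} [Field F]

lemma divC_H3_alg {x u b c d b₂ b₄ b₆ : F} (hb : b ≠ 0) (hc : c ≠ 0)
    (hβ : b ^ 2 = 4 * x ^ 3 + b₂ * x ^ 2 + 2 * b₄ * x + b₆)
    (hd : d = c * (6 * x ^ 2 + b₂ * x + b₄) - (b ^ 2) ^ 2)
    (hsum : ((x - c / b ^ 2) - x) ^ 2 * (u + x) =
      ((x - c / b ^ 2) + x) * (2 * (x - c / b ^ 2) * x + b₄) + b₂ * (x - c / b ^ 2) * x + b₆) :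
    u = x - (d * b) * b / c ^ 2 := by
  field_simp at hsum
  field_simp
  grind

end alg3

variable {F : Type*} [Field F] {W : WeierstrassCurve F} {x y : F}

lemma divC_preΨ₄_eval (W : WeierstrassCurve F) (x : F) :
    (W.preΨ₄).eval x = (W.Ψ₃).eval x * (6 * x ^ 2 + W.b₂ * x + W.b₄) -
      (4 * x ^ 3 + W.b₂ * x ^ 2 + 2 * W.b₄ * x + W.b₆) ^ 2 := by
  simp only [preΨ₄, Ψ₃, eval_add, eval_mul, eval_pow, eval_X, eval_C, eval_ofNat]
  linear_combination x ^ 2 * W.b_relation

lemma divC_N_base (h : W.toAffine.Equation x y) (t : F) :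
    divC_N W t x x = divC_w W x y 2 ^ 2 * (x - t) - divC_w W x y 3 := by
  rw [divC_N_diag, divC_w_two, divC_w_three, divC_psi2_sq W h]
  simp only [Ψ₃, eval_add, eval_mul, eval_pow, eval_X, eval_C, eval_ofNat]
  ring

lemma divC_xi_ne {a ap am : ℤ} (FA : divC_FrelG W x y a 1 ap am)
    (wap : divC_w W x y ap ≠ 0) (wam : divC_w W x y am ≠ 0) : divC_xi W x y a ≠ x := by
  intro e
  rw [divC_FrelG, divC_xi_one, e, sub_self, zero_mul] at FA
  exact (mul_ne_zero wap wam) (neg_eq_zero.mp FA.symm)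

lemma divC_FrelG_congr {a b s d s' d' : ℤ} (hs : s = s') (hd : d = d')
    (hF : divC_FrelG W x y a b s d) : divC_FrelG W x y a b s' d' := by
  subst hs hd; exact hF

variable [DecidableEq F] (h : W.toAffine.Nonsingular x y)

lemma divC_H1 : divC_HasX W ((1 : ℤ) • Point.some x y h) (divC_xi W x y 1) := by
  rw [one_zsmul, divC_xi_one]
  exact divC_HasX_some h

lemma divC_H2 (w2 : divC_w W x y 2 ≠ 0) :
    divC_HasX W ((2 : ℤ) • Point.some x y h) (divC_xi W x y 2) := by
  have hb : 2 * y + W.a₁ * x + W.a₃ ≠ 0 := by rwa [divC_w_two] at w2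
  obtain ⟨u, hu, hux⟩ := divC_dbl h hb
  have hxi : divC_xi W x y 2 = u := by
    rw [divC_xi_eq W x y (k := 2) (kp := 3) (km := 1) (by norm_num) (by norm_num), divC_w_one,
      mul_one, divC_w_two, divC_w_three]
    have h2 := divC_psi2_sq W h.1
    have h3 : (W.Ψ₃).eval x =
        3 * x ^ 4 + W.b₂ * x ^ 3 + 3 * W.b₄ * x ^ 2 + 3 * W.b₆ * x + W.b₈ := by
      simp only [Ψ₃, eval_add, eval_mul, eval_pow, eval_X, eval_C, eval_ofNat]
    apply mul_left_cancel₀ (pow_ne_zero 2 hb)
    rw [mul_sub, mul_div_cancel₀ _ (pow_ne_zero 2 hb), hux, h3]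
    linear_combination x * h2
  rw [two_zsmul, hxi]
  exact hu

lemma divC_H3 (w2 : divC_w W x y 2 ≠ 0) (w3 : divC_w W x y 3 ≠ 0) :
    divC_HasX W ((3 : ℤ) • Point.some x y h) (divC_xi W x y 3) := by
  have H2 := divC_H2 h w2
  have F2 := divC_FrelG_one W x y (a := 2) (ap := 3) (am := 1) (by norm_num) (by norm_num) w2
  have ne2 := divC_xi_ne F2 w3 (by simp)
  obtain ⟨up, um, hup, hum, hS, -⟩ := divC_add_sub H2 (divC_HasX_some h) ne2
  have e1 : (2 : ℤ) • Point.some x y h - Point.some x y h = Point.some x y h := by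
    rw [two_zsmul, add_sub_cancel_right]
  have e2 : (2 : ℤ) • Point.some x y h + Point.some x y h = (3 : ℤ) • Point.some x y h := by
    rw [show (3 : ℤ) = 2 + 1 by norm_num, add_zsmul, one_zsmul]
  rw [e1] at hum
  rw [e2] at hup
  obtain rfl : x = um := divC_HasX_unique (divC_HasX_some h) hum
  have hb : 2 * y + W.a₁ * x + W.a₃ ≠ 0 := by rwa [divC_w_two] at w2
  have hxi2 : divC_xi W x y 2 = x - (W.Ψ₃).eval x / (2 * y + W.a₁ * x + W.a₃) ^ 2 := by
    rw [divC_xi_eq W x y (k := 2) (kp := 3) (km := 1) (by norm_num) (by norm_num), divC_w_one,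
      mul_one, divC_w_two, divC_w_three]
  have hxi3 : divC_xi W x y 3 = up := by
    rw [divC_xi_eq W x y (k := 3) (kp := 4) (km := 2) (by norm_num) (by norm_num), divC_w_two,
      divC_w_three, divC_w_four]
    symm
    rw [hxi2, divC_S] at hS
    exact divC_H3_alg hb (by rwa [divC_w_three] at w3) (divC_psi2_sq W h.1)
      (by rw [divC_psi2_sq W h.1]; exact divC_preΨ₄_eval W x) hS
  rw [hxi3]
  exact hup

/-- factorisation of `N(t; ξ_a, x)` -/
lemma divC_N_factor_seq {a ap am : ℤ} (hap : ap = a + 1) (ham : am = a - 1)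
    (Ha : divC_HasX W (a • Point.some x y h) (divC_xi W x y a))
    (Hap : divC_HasX W (ap • Point.some x y h) (divC_xi W x y ap))
    (Ham : divC_HasX W (am • Point.some x y h) (divC_xi W x y am))
    (hne : divC_xi W x y a ≠ x) (t : F) :
    divC_N W t (divC_xi W x y a) x =
      (divC_xi W x y a - x) ^ 2 * ((t - divC_xi W x y ap) * (t - divC_xi W x y am)) := by
  subst hap ham
  refine divC_N_factor Ha (divC_HasX_some h) hne ?_ ?_ t
  · rwa [add_zsmul, one_zsmul] at Hap
  · rwa [sub_zsmul, one_zsmul, ← sub_eq_add_neg] at Ham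

/-- **Propagation.** -/
lemma divC_prop {a am ap b bm bp s1 sm d1 dm : ℤ}
    (ham : am = a - 1) (hap : ap = a + 1) (hbm : bm = b - 1) (hbp : bp = b + 1)
    (Ha : divC_HasX W (a • Point.some x y h) (divC_xi W x y a))
    (Hap : divC_HasX W (ap • Point.some x y h) (divC_xi W x y ap))
    (Ham : divC_HasX W (am • Point.some x y h) (divC_xi W x y am))
    (Hb : divC_HasX W (b • Point.some x y h) (divC_xi W x y b))
    (Hbp : divC_HasX W (bp • Point.some x y h) (divC_xi W x y bp))
    (Hbm : divC_HasX W (bm • Point.some x y h) (divC_xi W x y bm))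
    (wa : divC_w W x y a ≠ 0) (wb : divC_w W x y b ≠ 0) (wam : divC_w W x y am ≠ 0)
    (wbm : divC_w W x y bm ≠ 0) (wbp : divC_w W x y bp ≠ 0) (wap : divC_w W x y ap ≠ 0)
    (wsm : divC_w W x y sm ≠ 0) (wdm : divC_w W x y dm ≠ 0)
    (F1 : divC_FrelG W x y am b sm dm) (F2 : divC_FrelG W x y a bp s1 dm)
    (F3 : divC_FrelG W x y a bm sm d1) :
    divC_FrelG W x y ap b s1 d1 := by
  have FA := divC_FrelG_one W x y hap ham wa
  have FB := divC_FrelG_one W x y hbp hbm wb
  have nea := divC_xi_ne FA wap wam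
  have neb := divC_xi_ne FB wbp wbm
  have hsym : (divC_xi W x y a - x) ^ 2 *
      ((divC_xi W x y b - divC_xi W x y ap) * (divC_xi W x y b - divC_xi W x y am)) =
      (divC_xi W x y b - x) ^ 2 *
      ((divC_xi W x y a - divC_xi W x y bp) * (divC_xi W x y a - divC_xi W x y bm)) := by
    rw [← divC_N_factor_seq h hap ham Ha Hap Ham nea, ← divC_N_factor_seq h hbp hbm Hb Hbp Hbm neb,
      divC_N_symm12]
  rw [divC_FrelG, divC_xi_one] at FA FB
  exact divC_prop_alg hsym (divC_w_one W x y) FA FB F1 F2 F3 wa wb wam wbm wbp wsm wdm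

/-- **The step `H(n+1)`.** -/
lemma divC_step {n nm nmm np npp : ℤ} (hnm : nm = n - 1) (hnmm : nmm = n - 2)
    (hnp : np = n + 1) (hnpp : npp = n + 2)
    (Hn : divC_HasX W (n • Point.some x y h) (divC_xi W x y n))
    (Hnm : divC_HasX W (nm • Point.some x y h) (divC_xi W x y nm))
    (wn : divC_w W x y n ≠ 0) (wnm : divC_w W x y nm ≠ 0) (wnmm : divC_w W x y nmm ≠ 0)
    (wnp : divC_w W x y np ≠ 0) (w2 : divC_w W x y 2 ≠ 0)
    (F2 : divC_FrelG W x y n 2 npp nmm) :
    divC_HasX W (np • Point.some x y h) (divC_xi W x y np) := by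
  have Fn := divC_FrelG_one W x y hnp hnm wn
  have Fnm := divC_FrelG_one W x y (a := nm) (ap := n) (am := nmm) (by omega) (by omega) wnm
  have nen := divC_xi_ne Fn wnp wnm
  obtain ⟨up, um, hup, hum, -, -⟩ := divC_add_sub Hn (divC_HasX_some h) nen
  have hfac := divC_N_factor Hn (divC_HasX_some h) nen hup hum x
  obtain rfl : um = divC_xi W x y nm :=
    divC_HasX_unique hum (by
      have e : nm • Point.some x y h = n • Point.some x y h - Point.some x y h := by
        rw [hnm, sub_zsmul, one_zsmul, ← sub_eq_add_neg]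
      rwa [e] at Hnm)
  have hbase : divC_N W x (divC_xi W x y n) x =
      divC_w W x y 2 ^ 2 * (divC_xi W x y 2 - divC_xi W x y n) := by
    rw [divC_N_symm12, divC_N_base h.1,
      divC_xi_eq W x y (k := 2) (kp := 3) (km := 1) (by norm_num) (by norm_num), divC_w_one]
    field_simp
    ring
  rw [divC_FrelG, divC_xi_one] at Fn Fnm
  have hu : up = x - divC_w W x y npp * divC_w W x y n / divC_w W x y np ^ 2 :=
    divC_step_alg (hfac.symm.trans hbase) (divC_w_one W x y) Fn Fnm F2 wn wnm wnmm wnp w2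
  have hxi : divC_xi W x y np = up := by
    rw [hu, divC_xi_eq W x y (k := np) (kp := npp) (km := n) (by omega) (by omega)]
  rw [hxi, hnp, add_zsmul, one_zsmul]
  exact hup

end Fermat.Agent.S13
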