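import Mathlib
import Fermat.Agent.S13.DivCInd

/-!
# S13 / DIVC: a point of odd prime order `p` is a root of the `p`-th division polynomial

`theorem divC : DivCStatement`.

Let `P = (x, y)` with `p • P = 0`, and `w n = ψ_n(P)`.  If `w p ≠ 0`, let `n₀ ≤ p` be the first
index `≥ 1` with `w n₀ = 0` (if there is one).  By `DivCInd`, `k • P` is affine with
`x`-coordinate `x - w (k+1) w (k-1) / w k ^ 2` for all `k < n₀` (all `k ≤ p` if there is no `n₀`).
If there is no `n₀` then `p • P ≠ 0`; otherwise `x((n₀ - 1) • P) = x(P)`, so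
`(n₀ - 1) • P = ± P` and `n₀ • P = 0` with `2 ≤ n₀ < p`, whence `P = 0`.  Contradiction.
-/

set_option autoImplicit false

open WeierstrassCurve WeierstrassCurve.Affine WeierstrassCurve.Affine.Point Polynomial

namespace Fermat.Agent.S13

variable {F : Type*} [Field F] [DecidableEq F] {W : WeierstrassCurve F} {x y : F}
  (h : W.toAffine.Nonsingular x y)

/-- the inductive invariant -/
def divC_Inv (n : ℕ) : Prop :=
  (∀ k : ℤ, 1 ≤ k → k ≤ n → divC_HasX W (k • Point.some x y h) (divC_xi W x y k)) ∧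
  (∀ a b : ℤ, 1 ≤ b → b < a → a + b ≤ n + 1 → divC_FrelG W x y a b (a + b) (a - b))

lemma divC_inv (n : ℕ) (hn : 3 ≤ n) (hw : ∀ k : ℤ, 1 ≤ k → k ≤ n → divC_w W x y k ≠ 0) :
    divC_Inv h n := by
  induction n, hn using Nat.le_induction with
  | base =>
    refine ⟨fun k h1 h3 => ?_, fun a b h1 h2 h3 => ?_⟩
    · have hk : k = 1 ∨ k = 2 ∨ k = 3 := by push_cast at h3; omega
      rcases hk with rfl | rfl | rfl
      · exact divC_H1 h
      · exact divC_H2 h (hw 2 (by norm_num) (by norm_num))
      · exact divC_H3 h (hw 2 (by norm_num) (by norm_num)) (hw 3 (by norm_num) (by norm_num))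
    · obtain rfl : b = 1 := by push_cast at h3; omega
      exact divC_FrelG_one W x y rfl rfl (hw a (by omega) (by push_cast at h3 ⊢; omega))
  | succ n hn ih =>
    have hw' : ∀ k : ℤ, 1 ≤ k → k ≤ n → divC_w W x y k ≠ 0 :=
      fun k h1 h2 => hw k h1 (by push_cast; omega)
    obtain ⟨H, Fr⟩ := ih hw'
    have hwn1 : ∀ k : ℤ, 1 ≤ k → k ≤ n + 1 → divC_w W x y k ≠ 0 :=
      fun k h1 h2 => hw k h1 (by push_cast; omega)
    have key : ∀ j : ℕ, ∀ a b : ℤ, 1 ≤ b → b < a → a + b = n + 2 → a - b ≤ j →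
        divC_FrelG W x y a b (a + b) (a - b) := by
      intro j
      induction j with
      | zero => intro a b h1 h2 h3 h4; push_cast at h4; omega
      | succ j ihj =>
        intro a b h1 h2 h3 h4
        push_cast at h4
        by_cases hb1 : b = 1
        · subst hb1
          exact divC_FrelG_one W x y rfl rfl (hwn1 a (by omega) (by omega))
        by_cases hd1 : a - b = 1
        · rw [hd1]
          exact divC_FrelG_odd W x y (by omega) rfl (hwn1 a (by omega) (by omega))
            (hwn1 b (by omega) (by omega))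
        by_cases hd2 : a - b = 2
        · rw [hd2]
          exact divC_FrelG_even W x y (by omega) rfl (hwn1 a (by omega) (by omega))
            (hwn1 b (by omega) (by omega))
        have F1 := divC_FrelG_congr (s' := a + b - 2) (d' := a - b - 2) (by ring) (by ring)
          (Fr (a - 2) b (by omega) (by omega) (by omega))
        have F2 := divC_FrelG_congr (s' := a + b) (d' := a - b - 2) (by ring) (by ring)
          (ihj (a - 1) (b + 1) (by omega) (by omega) (by omega) (by omega))
        have F3 := divC_FrelG_congr (s' := a + b - 2) (d' := a - b) (by ring) (by ring)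
          (Fr (a - 1) (b - 1) (by omega) (by omega) (by omega))
        exact divC_prop h (a := a - 1) (am := a - 2) (ap := a) (b := b) (bm := b - 1)
          (bp := b + 1) (by omega) (by omega) rfl rfl
          (H (a - 1) (by omega) (by omega)) (H a (by omega) (by omega))
          (H (a - 2) (by omega) (by omega)) (H b (by omega) (by omega))
          (H (b + 1) (by omega) (by omega)) (H (b - 1) (by omega) (by omega))
          (hw' (a - 1) (by omega) (by omega)) (hw' b (by omega) (by omega))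
          (hw' (a - 2) (by omega) (by omega)) (hw' (b - 1) (by omega) (by omega))
          (hw' (b + 1) (by omega) (by omega)) (hw' a (by omega) (by omega))
          (hw' (a + b - 2) (by omega) (by omega)) (hw' (a - b - 2) (by omega) (by omega))
          F1 F2 F3
    have Hn1 : divC_HasX W (((n : ℤ) + 1) • Point.some x y h) (divC_xi W x y ((n : ℤ) + 1)) := by
      refine divC_step h (n := n) (nm := n - 1) (nmm := n - 2) (np := n + 1) (npp := n + 2)
        rfl rfl rfl rfl (H n (by omega) (by omega)) (H (n - 1) (by omega) (by omega))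
        (hw' n (by omega) (by omega)) (hw' (n - 1) (by omega) (by omega))
        (hw' (n - 2) (by omega) (by omega)) (hwn1 (n + 1) (by omega) (by omega))
        (hw' 2 (by omega) (by omega)) ?_
      exact key n n 2 (by norm_num) (by omega) (by ring) (by omega)
    refine ⟨fun k h1 h2 => ?_, fun a b h1 h2 h3 => ?_⟩
    · by_cases hk : k ≤ n
      · exact H k h1 hk
      · obtain rfl : k = n + 1 := by push_cast at h2; omega
        exact Hn1
    · by_cases hab : a + b ≤ n + 1
      · exact Fr a b h1 h2 hab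
      · exact key (n + 2) a b h1 h2 (by push_cast at h3; omega) (by push_cast; omega)

/-- **The `x`-coordinate of `k • P`**: if `ψ_1(P), …, ψ_n(P)` do not vanish, then for
`1 ≤ k ≤ n` the point `k • P` is affine with `x`-coordinate `x - ψ_{k+1} ψ_{k-1} / ψ_k²`. -/
theorem divC_hasX (n : ℕ) (hw : ∀ k : ℤ, 1 ≤ k → k ≤ n → divC_w W x y k ≠ 0) (k : ℤ)
    (h1 : 1 ≤ k) (hk : k ≤ n) :
    divC_HasX W (k • Point.some x y h) (divC_xi W x y k) := by
  by_cases hn : 3 ≤ n
  · exact (divC_inv h n hn hw).1 k h1 hk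
  · have : k = 1 ∨ k = 2 := by omega
    rcases this with rfl | rfl
    · exact divC_H1 h
    · exact divC_H2 h (hw 2 (by norm_num) hk)

omit [DecidableEq F] in
/-- the value of Mathlib's `preΨ'` at `x` is `ψ_n(P)` for odd `n` -/
lemma divC_eval_preΨ' (hx : W.toAffine.Equation x y) (n : ℕ) (hn : Odd n) :
    (W.preΨ' n).eval x = divC_w W x y n := by
  rw [divC_w, normEDS_ofNat, if_neg (by rwa [Nat.not_even_iff_odd]), mul_one, preΨ']
  have h1 := map_preNormEDS' (Polynomial.evalRingHom x) (W.Ψ₂Sq ^ 2) W.Ψ₃ W.preΨ₄ n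
  simp only [coe_evalRingHom, eval_pow] at h1
  rw [h1]
  congr 1
  have h2 : eval x W.Ψ₂Sq = (2 * y + W.a₁ * x + W.a₃) ^ 2 := by
    rw [divC_psi2_sq W hx]
    simp only [Ψ₂Sq, eval_add, eval_mul, eval_pow, eval_X, eval_C]
  rw [h2]
  ring

/-- **DIVC.** -/
theorem divC : DivCStatement := by
  intro F _ _ W p hp hp2 x y h hP
  have hodd : Odd p := hp.odd_of_ne_two hp2
  rw [divC_eval_preΨ' h.1 p hodd]
  by_contra hwp
  have hex : ∃ n₀ : ℕ, 2 ≤ n₀ ∧ n₀ < p ∧ n₀ • Point.some x y h = 0 := by
    by_cases hall : ∀ k : ℤ, 1 ≤ k → k ≤ p → divC_w W x y k ≠ 0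
    · exfalso
      have hp1 := hp.one_lt
      have := divC_hasX h p hall p (by omega) le_rfl
      exact divC_HasX_ne_zero this (by rw [natCast_zsmul]; exact hP)
    · push Not at hall
      obtain ⟨k, hk1, hk2, hk3⟩ := hall
      have hex' : ∃ m : ℕ, 1 ≤ m ∧ divC_w W x y m = 0 :=
        ⟨k.toNat, by omega, by rwa [Int.toNat_of_nonneg (by omega)]⟩
      classical
      have hn₀ : 1 ≤ Nat.find hex' ∧ divC_w W x y (Nat.find hex') = 0 := Nat.find_spec hex'
      have hmin : ∀ m : ℕ, m < Nat.find hex' → ¬ (1 ≤ m ∧ divC_w W x y m = 0) :=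
        fun m hm => Nat.find_min hex' hm
      have hn₀p : Nat.find hex' ≤ k.toNat :=
        Nat.find_le ⟨by omega, by rwa [Int.toNat_of_nonneg (by omega)]⟩
      generalize Nat.find hex' = n₀ at hn₀ hmin hn₀p
      have hn1 : n₀ ≠ 1 := by
        rintro rfl
        have := hn₀.2
        simp at this
      have hnp : n₀ ≠ p := fun e => hwp (by rw [← e]; exact hn₀.2)
      refine ⟨n₀, by omega, by omega, ?_⟩
      have hw : ∀ k : ℤ, 1 ≤ k → k ≤ (n₀ - 1 : ℕ) → divC_w W x y k ≠ 0 := by
        intro k h1 h2 h0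
        exact hmin k.toNat (by omega) ⟨by omega, by rwa [Int.toNat_of_nonneg (by omega)]⟩
      by_cases h2 : n₀ = 2
      · subst h2
        rw [two_nsmul]
        apply divC_dbl_zero h
        have := hn₀.2
        rwa [Nat.cast_ofNat, divC_w_two] at this
      · have hc : ((n₀ - 1 : ℕ) : ℤ) = (n₀ : ℤ) - 1 := by omega
        have Hm := divC_hasX h (n₀ - 1) hw ((n₀ : ℤ) - 1) (by omega) (by omega)
        have Hmm := divC_hasX h (n₀ - 1) hw ((n₀ : ℤ) - 2) (by omega) (by omega)
        have hxi : divC_xi W x y ((n₀ : ℤ) - 1) = x := by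
          rw [divC_xi_eq W x y (k := (n₀ : ℤ) - 1) (kp := n₀) (km := (n₀ : ℤ) - 2) (by ring)
            (by ring), hn₀.2, zero_mul, zero_div, sub_zero]
        rw [hxi] at Hm
        rcases divC_HasX_eq_or_eq_neg Hm (divC_HasX_some h) with e | e
        · exfalso
          apply divC_HasX_ne_zero Hmm
          rw [show ((n₀ : ℤ) - 2) = ((n₀ : ℤ) - 1) - 1 by ring, sub_zsmul _ ((n₀ : ℤ) - 1) 1,
            one_zsmul, e, add_neg_cancel]
        · rw [← natCast_zsmul, show (n₀ : ℤ) = ((n₀ : ℤ) - 1) + 1 by ring, add_zsmul, one_zsmul, e,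
            neg_add_cancel]
  obtain ⟨n₀, h2, hlt, hn₀⟩ := hex
  have hcop : Nat.Coprime n₀ p :=
    Nat.Coprime.symm ((Nat.Prime.coprime_iff_not_dvd hp).mpr
      (Nat.not_dvd_of_pos_of_lt (by omega) hlt))
  have hord : addOrderOf (Point.some x y h) ∣ Nat.gcd n₀ p :=
    Nat.dvd_gcd (addOrderOf_dvd_of_nsmul_eq_zero hn₀) (addOrderOf_dvd_of_nsmul_eq_zero hP)
  rw [hcop.gcd_eq_one, Nat.dvd_one, AddMonoid.addOrderOf_eq_one_iff] at hord
  exact Point.some_ne_zero h hord

end Fermat.Agent.S13
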