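import Mathlib
import Fermat.Agent.S13.Defs
import Fermat.Agent.S13.CardOf
import Fermat.Agent.S13.DivC

/-!
# S13 / CARD: the `p`-torsion of the Frey curve has at most `p²` elements

`theorem card : CardStatement`, from DIVC (`divC`, this seat) and the root count
`cardOf_divC : DivCStatement → CardStatement` (helper25, `S13/CardOf.lean`).
-/

set_option autoImplicit false

namespace Fermat.Agent.S13

/-- **CARD.** -/
theorem card : CardStatement := cardOf_divC divC

end Fermat.Agent.S13
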