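/-
S13, package (CONJ): inertia subgroups at two places over the same rational prime are
conjugate.
Owner: helper13.  Prefix `conj13_`.
-/
import Mathlib
import Fermat.Agent.S13.Defs
import Fermat.Agent.S14.UnramVal
import Fermat.Agent.S05.Inertia

set_option autoImplicit false

open scoped Pointwise

namespace Fermat.Agent.S13

open Fermat.Agent.S14 (redC_exists_conj redC_eq_of_prime_eq redC_smul_liesOver
  redC_smul_nonunits redC_mem_inertia redC_int_mem)

local notation "Qbar" => AlgebraicClosure ℚ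
local notation "GQ" => (AlgebraicClosure ℚ ≃ₐ[ℚ] AlgebraicClosure ℚ)
local notation "Bint" => integralClosure ℤ (AlgebraicClosure ℚ)

/-- At a place over `q`, an integer is a nonunit iff it is divisible by `q`. -/
theorem conj13_intCast_mem_nonunits (A : ValuationSubring Qbar) {q : ℕ} (hq : q.Prime)
    (hA : A.LiesOverPrime q) (m : ℤ) : ((m : ℤ) : Qbar) ∈ A.nonunits ↔ (q : ℤ) ∣ m := by
  constructor
  · intro hm
    by_contra hdiv
    have h1 := Fermat.Agent.S05.valuation_intCast_eq_one A hq hA m hdiv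
    rw [Rat.cast_intCast] at h1
    rw [ValuationSubring.mem_nonunits_iff, h1] at hm
    exact lt_irrefl _ hm
  · rintro ⟨k, rfl⟩
    rw [ValuationSubring.mem_nonunits_iff]
    push_cast
    rw [map_mul]
    have hqv : A.valuation (q : Qbar) < 1 := (ValuationSubring.mem_nonunits_iff A).1 hA
    have hk : A.valuation (k : Qbar) ≤ 1 :=
      (A.valuation_le_one_iff _).2 (redC_int_mem A _ (isIntegral_algebraMap (R := ℤ) (x := k)))
    calc A.valuation (q : Qbar) * A.valuation (k : Qbar)
        ≤ A.valuation (q : Qbar) * 1 := mul_le_mul_right hk _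
      _ < 1 := by rw [mul_one]; exact hqv

/-- Two places over the same prime agree on the rational algebraic integers. -/
theorem conj13_nonunits_iff_of_bot (A A' : ValuationSubring Qbar) {q : ℕ} (hq : q.Prime)
    (hA : A.LiesOverPrime q) (hA' : A'.LiesOverPrime q) (b : Bint)
    (hb : (b : Qbar) ∈ (⊥ : IntermediateField ℚ Qbar)) :
    ((b : Qbar) ∈ A'.nonunits ↔ (b : Qbar) ∈ A.nonunits) := by
  obtain ⟨r, hr⟩ := IntermediateField.mem_bot.mp hb
  have hint : IsIntegral ℤ r := by
    have h1 : IsIntegral ℤ (algebraMap ℚ Qbar r) := hr ▸ b.2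
    exact (isIntegral_algebraMap_iff (algebraMap ℚ Qbar).injective).mp h1
  obtain ⟨n, hn⟩ := IsIntegrallyClosed.isIntegral_iff.mp hint
  have hbn : (b : Qbar) = ((n : ℤ) : Qbar) := by
    rw [← hr, ← hn]
    simp
  rw [hbn, conj13_intCast_mem_nonunits A' hq hA', conj13_intCast_mem_nonunits A hq hA]

/-- Any two places of `Qbar` over the same rational prime are conjugate. -/
theorem conj13_exists_smul_eq {q : ℕ} (hq : q.Prime) (A A' : ValuationSubring Qbar)
    (hA : A.LiesOverPrime q) (hA' : A'.LiesOverPrime q) : ∃ g : GQ, A = g • A' := by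
  obtain ⟨g, -, hg⟩ := redC_exists_conj ⊥ A A'
    (fun b hb => conj13_nonunits_iff_of_bot A A' hq hA hA' b hb)
  exact ⟨g, redC_eq_of_prime_eq hq hq hA (redC_smul_liesOver g A' hA') hg⟩

/-- **(CONJ)** -/
theorem conj : ConjStatement := by
  intro q hq A A' hA hA'
  obtain ⟨g, hAg⟩ := conj13_exists_smul_eq hq A A' hA hA'
  refine ⟨g⁻¹, fun σ hσ => ?_⟩
  apply redC_mem_inertia A' hq hA'
  intro b
  have hgb : g (b : Qbar) ∈ A := redC_int_mem A _ (b.2.map g)
  have h1 : A.valuation (σ (g (b : Qbar)) - g (b : Qbar)) < 1 :=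
    Fermat.Agent.S05.inertia_sub_lt_one A σ hσ _ ((A.valuation_le_one_iff _).2 hgb)
  have h2 : σ (g (b : Qbar)) - g (b : Qbar) ∈ (g • A').nonunits := by
    rw [← hAg]
    exact (ValuationSubring.mem_nonunits_iff A).2 h1
  rw [redC_smul_nonunits] at h2
  have h3 : (g⁻¹ * σ * g⁻¹⁻¹) (b : Qbar) - (b : Qbar) =
      g⁻¹ (σ (g (b : Qbar)) - g (b : Qbar)) := by
    rw [inv_inv, map_sub]
    simp only [AlgEquiv.mul_apply]
    congr 1
    show (b : Qbar) = g⁻¹ (g (b : Qbar))
    exact (AlgEquiv.symm_apply_apply g _).symm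
  rw [h3]
  exact h2

end Fermat.Agent.S13
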