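import Fermat.Agent.S13.Defs
import Fermat.Agent.S13.GenericTorsion.Torsion

/-!
# S13 package (DIVX): the `p`-torsion of the Frey curve over `Qbar` is nontrivial

Verbatim wrapper around `gt_frey_nontrivial` (generic point route, see
`Fermat/Agent/S13/GenericTorsion/`).
-/

set_option autoImplicit false

namespace Fermat.Agent.S13

/-- (DIVX) The `p`-torsion of the Frey curve over `Qbar` is not trivial. -/
theorem divX : DivXStatement := fun P => gt_frey_nontrivial P

end Fermat.Agent.S13
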