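import Mathlib

/-!
# S13, MINK (part 1): nontrivial inertia at finite level and lifting inertia

* `mink_exists_inertia_ne_one`: in a Galois number field `K ≠ ℚ` there is a rational prime `q`
  such that every prime of `K` above `q` has a nontrivial inertia group (Hermite–Minkowski).
* `mink_exists_inertia_lift`: for a profinite group `G` acting continuously on a ring `B`, a closed
  normal subgroup `H`, a prime `𝔓` of `B` and `σ₀ : G` acting trivially on `B^H` modulo `𝔓`,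
  the coset `H σ₀` meets the inertia group of `𝔓`.
-/

set_option autoImplicit false

open scoped Pointwise NumberField

namespace Fermat.Agent.S13

section Finite

variable {K : Type*} [Field K] [NumberField K]

/-- Finite level: in a nontrivial Galois number field, some rational prime `q` has nontrivial
inertia at every prime above it. -/
theorem mink_exists_inertia_ne_one [IsGalois ℚ K] (H : 1 < Module.finrank ℚ K) :
    ∃ q : ℕ, q.Prime ∧ ∀ (P : Ideal (𝓞 K)), P.IsPrime → (q : 𝓞 K) ∈ P →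
      ∃ τ : Gal(K/ℚ), τ ≠ 1 ∧ ∀ x : 𝓞 K, τ • x - x ∈ P := by
  obtain ⟨q, hq, hram⟩ := NumberField.exists_not_isUnramifiedAt_int_of_isGalois (𝒪 := 𝓞 K) H
  refine ⟨q, hq, fun P hP hqP => ?_⟩
  have hnr := hram P hP hqP
  have hlies : P.LiesOver (P.under ℤ) := ⟨rfl⟩
  have hcard := Ideal.card_inertia_eq_ramificationIdxIn (G := Gal(K/ℚ)) (P.under ℤ) P
  rw [Ideal.ramificationIdxIn_eq_ramificationIdx (P.under ℤ) P Gal(K/ℚ)] at hcard
  have hne : Nat.card (Ideal.inertia Gal(K/ℚ) P) ≠ 1 := by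
    rw [hcard]
    intro h1
    exact hnr (Ideal.ramificationIdx_eq_one_iff.mp h1)
  by_contra hcon
  push Not at hcon
  apply hne
  rw [Nat.card_eq_one_iff_unique]
  refine ⟨⟨fun a b => ?_⟩, ⟨1⟩⟩
  have ha : (a : Gal(K/ℚ)) = 1 := by
    by_contra h
    obtain ⟨x, hx⟩ := hcon a h
    exact hx (a.2 x)
  have hb : (b : Gal(K/ℚ)) = 1 := by
    by_contra h
    obtain ⟨x, hx⟩ := hcon b h
    exact hx (b.2 x)
  exact Subtype.ext (ha.trans hb.symm)

end Finite

section Lift

variable {G : Type*} [Group G]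
variable {B : Type*} [CommRing B] [MulSemiringAction G B]

/-- The fixed points of a subgroup, as a `ℤ`-subalgebra. -/
abbrev mink_fixed (H : Subgroup G) : Subalgebra ℤ B := FixedPoints.subalgebra ℤ B H

theorem mink_mem_fixed (H : Subgroup G) (b : B) :
    b ∈ mink_fixed (B := B) H ↔ ∀ h ∈ H, h • b = b := by
  constructor
  · intro hb h hh
    exact hb ⟨h, hh⟩
  · intro hb h
    exact hb h.1 h.2

theorem mink_smulCommClass (H : Subgroup G) : SMulCommClass H (mink_fixed (B := B) H) B where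
  smul_comm h a b := by
    show h • ((a : B) * b) = (a : B) * (h • b)
    rw [smul_mul', a.2 h]

theorem mink_isInvariant (H : Subgroup G) : Algebra.IsInvariant (mink_fixed (B := B) H) B H :=
  ⟨fun b hb => ⟨⟨b, hb⟩, rfl⟩⟩

/-- A normal subgroup: the fixed ring is stable under the whole group. -/
theorem mink_smul_mem_fixed (H : Subgroup G) [H.Normal] (σ : G) {b : B}
    (hb : b ∈ mink_fixed (B := B) H) : σ • b ∈ mink_fixed (B := B) H := by
  rw [mink_mem_fixed] at hb ⊢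
  intro h hh
  have h1 : σ⁻¹ * h * σ ∈ H := by
    have := ‹H.Normal›.conj_mem h hh σ⁻¹
    simpa using this
  have h2 := hb _ h1
  calc h • σ • b = σ • ((σ⁻¹ * h * σ) • b) := by
        rw [← mul_smul, ← mul_smul]
        congr 1
        group
    _ = σ • b := by rw [h2]

variable [TopologicalSpace G] [IsTopologicalGroup G] [CompactSpace G]
  [TotallyDisconnectedSpace G] [TopologicalSpace B] [DiscreteTopology B] [ContinuousSMul G B]

/-- **Lifting inertia.** Let `G` be a profinite group acting continuously on a (discrete) ring `B`,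
`H` a closed normal subgroup, `𝔓` a prime of `B` and `σ₀ ∈ G` acting trivially on `B^H` modulo `𝔓`.
Then some element of the coset `H σ₀` lies in the inertia group of `𝔓`. -/
theorem mink_exists_inertia_lift (H : Subgroup G) [H.Normal] (hH : IsClosed (H : Set G))
    (𝔓 : Ideal B) [𝔓.IsPrime] (σ₀ : G)
    (h0 : ∀ b : B, (∀ h ∈ H, h • b = b) → σ₀ • b - b ∈ 𝔓) :
    ∃ h ∈ H, (h * σ₀) • 𝔓 = 𝔓 ∧ ∀ b : B, (h * σ₀) • b - b ∈ 𝔓 := by
  classical
  have hcomm : SMulCommClass H (mink_fixed (B := B) H) B := mink_smulCommClass H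
  have hinv : Algebra.IsInvariant (mink_fixed (B := B) H) B H := mink_isInvariant H
  have hcpt : CompactSpace H := isCompact_iff_compactSpace.mp hH.isCompact
  have hcont : ContinuousSMul H B := by
    rw [continuousSMul_iff_stabilizer_isOpen]
    intro b
    have h1 : IsOpen ((MulAction.stabilizer G b : Subgroup G) : Set G) :=
      (continuousSMul_iff_stabilizer_isOpen.mp ‹ContinuousSMul G B›) b
    have h2 : ((MulAction.stabilizer H b : Subgroup H) : Set H) =
        (Subtype.val : H → G) ⁻¹' ((MulAction.stabilizer G b : Subgroup G) : Set G) := by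
      ext g
      simp only [SetLike.mem_coe, MulAction.mem_stabilizer_iff, Set.mem_preimage]
      rfl
    rw [h2]
    exact h1.preimage continuous_subtype_val
  -- Step 1: `σ₀ • 𝔓` and `𝔓` have the same restriction to `B^H`.
  have hunder : (σ₀ • 𝔓).under (mink_fixed (B := B) H) = 𝔓.under (mink_fixed (B := B) H) := by
    ext x
    rw [Ideal.mem_comap, Ideal.mem_comap]
    show (x : B) ∈ σ₀ • 𝔓 ↔ (x : B) ∈ 𝔓
    rw [Ideal.mem_pointwise_smul_iff_inv_smul_mem]
    have hy : σ₀⁻¹ • (x : B) ∈ mink_fixed (B := B) H := mink_smul_mem_fixed H σ₀⁻¹ x.2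
    have h1 := h0 (σ₀⁻¹ • (x : B)) ((mink_mem_fixed H _).mp hy)
    rw [smul_inv_smul] at h1
    constructor
    · intro h
      have := 𝔓.add_mem h1 h
      simpa using this
    · intro h
      have := 𝔓.sub_mem h h1
      simpa using this
  -- Step 2: move `σ₀ • 𝔓` back to `𝔓` by an element of `H`.
  have hprime : (σ₀ • 𝔓).IsPrime := inferInstance
  obtain ⟨g, hg⟩ := Algebra.IsInvariant.exists_smul_of_under_eq_of_profinite
    (A := mink_fixed (B := B) H) (G := H) (σ₀ • 𝔓) 𝔓 hunder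
  set σ₁ : G := (g : G) * σ₀ with hσ₁def
  have hσ₁ : σ₁ • 𝔓 = 𝔓 := by
    rw [hσ₁def, mul_smul]
    exact hg.symm
  have hσ₁fix : ∀ a : B, a ∈ mink_fixed (B := B) H → σ₁ • a - a ∈ 𝔓 := by
    intro a ha
    have h1 : σ₀ • a ∈ mink_fixed (B := B) H := mink_smul_mem_fixed H σ₀ ha
    have h2 : σ₁ • a = σ₀ • a := by
      rw [hσ₁def, mul_smul]
      exact (mink_mem_fixed H _).mp h1 g.1 g.2
    rw [h2]
    exact h0 a ((mink_mem_fixed H _).mp ha)
  -- Step 3: the automorphism of `B ⧸ 𝔓` induced by `σ₁`, as an automorphism over `B^H`.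
  let ψ : (B ⧸ 𝔓) ≃ₐ[ℤ ⧸ 𝔓.under ℤ] (B ⧸ 𝔓) :=
    Ideal.Quotient.stabilizerHom 𝔓 (𝔓.under ℤ) G ⟨σ₁, hσ₁⟩
  have hψ : ∀ b : B, ψ (Ideal.Quotient.mk 𝔓 b) = Ideal.Quotient.mk 𝔓 (σ₁ • b) := fun b =>
    Ideal.Quotient.stabilizerHom_apply 𝔓 (𝔓.under ℤ) G ⟨σ₁, hσ₁⟩ b
  let φ : (B ⧸ 𝔓) ≃ₐ[mink_fixed (B := B) H ⧸ 𝔓.under (mink_fixed (B := B) H)] (B ⧸ 𝔓) :=
    AlgEquiv.ofRingEquiv (f := ψ.toRingEquiv) (by
      intro r
      obtain ⟨a, rfl⟩ := Ideal.Quotient.mk_surjective r
      rw [Ideal.Quotient.algebraMap_mk_of_liesOver]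
      show ψ (Ideal.Quotient.mk 𝔓 (a : B)) = Ideal.Quotient.mk 𝔓 (a : B)
      rw [hψ, Ideal.Quotient.eq]
      exact hσ₁fix a a.2)
  have hφ : ∀ b : B, φ (Ideal.Quotient.mk 𝔓 b) = Ideal.Quotient.mk 𝔓 (σ₁ • b) := hψ
  obtain ⟨g', hg'⟩ := Ideal.Quotient.stabilizerHom_surjective_of_profinite
    (G := H) (𝔓.under (mink_fixed (B := B) H)) 𝔓 φ
  have hg'b : ∀ b : B, ((g' : H) : G) • b - σ₁ • b ∈ 𝔓 := by
    intro b
    have h1 := DFunLike.congr_fun hg' (Ideal.Quotient.mk 𝔓 b)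
    rw [Ideal.Quotient.stabilizerHom_apply, hφ, Ideal.Quotient.eq] at h1
    exact h1
  have hg'P : ((g' : H) : G) • 𝔓 = 𝔓 := by
    have := g'.2
    rw [MulAction.mem_stabilizer_iff] at this
    exact this
  have hg'Pinv : (((g' : H) : G)⁻¹) • 𝔓 = 𝔓 := by
    rw [inv_smul_eq_iff, hg'P]
  refine ⟨((g' : H) : G)⁻¹ * (g : G), H.mul_mem (H.inv_mem (g' : H).2) g.2, ?_, ?_⟩
  · rw [mul_assoc, mul_smul, hσ₁, hg'Pinv]
  · intro b
    rw [mul_assoc]
    have h1 : (((g' : H) : G)⁻¹ * σ₁) • b - b =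
        ((g' : H) : G)⁻¹ • (-(((g' : H) : G) • b - σ₁ • b)) := by
      rw [smul_neg, smul_sub, inv_smul_smul, mul_smul]
      ring
    rw [h1]
    have h2 : ((g' : H) : G)⁻¹ • (-(((g' : H) : G) • b - σ₁ • b)) ∈ (((g' : H) : G)⁻¹) • 𝔓 :=
      Ideal.smul_mem_pointwise_smul_iff.mpr (𝔓.neg_mem (hg'b b))
    rwa [hg'Pinv] at h2

end Lift

end Fermat.Agent.S13
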