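import Mathlib
import Fermat.Prelude.Def_FLTPrelim_Ramification
import Fermat.Agent.S54.ValRing

/-!
# S13, MINK (part 2): from primes of the ring of all algebraic integers to valuation subrings

For a prime `𝔓` of `integralClosure ℤ Qbar` containing the rational prime `q` we consider the
valuation subring `mink_valSub q 𝔓` of `Qbar` (the localisation at `𝔓`) and show that an
automorphism acting trivially on `integralClosure ℤ Qbar` modulo `𝔓` lies in the inertia subgroup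
`ValuationSubring.inertiaSubgroupIn` of `mink_valSub q 𝔓`.
-/

set_option autoImplicit false

open scoped Pointwise

namespace Fermat.Agent.S13

local notation "Qbar" => AlgebraicClosure ℚ
local notation "Bint" => integralClosure ℤ (AlgebraicClosure ℚ)

theorem mink_isAlgebraic_int (x : Qbar) : IsAlgebraic ℤ x :=
  (IsFractionRing.isAlgebraic_iff ℤ ℚ Qbar).mpr ((AlgebraicClosure.isAlgebraic ℚ).isAlgebraic x)

theorem mink_smul_coe (σ : Qbar ≃ₐ[ℚ] Qbar) (b : Bint) : ((σ • b : Bint) : Qbar) = σ (b : Qbar) :=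
  rfl

/-- The valuation subring of `Qbar` attached to a prime of the ring of all algebraic integers
containing the rational prime `q`. -/
noncomputable def mink_valSub (q : ℕ) (hq : q.Prime) (𝔓 : Ideal Bint) [𝔓.IsPrime]
    (hq𝔓 : ((q : ℤ) : Bint) ∈ 𝔓) : ValuationSubring Qbar :=
  Fermat.Agent.S54.locValuationSubring mink_isAlgebraic_int 𝔓 q hq hq𝔓

section

variable (q : ℕ) (hq : q.Prime) (𝔓 : Ideal Bint) [𝔓.IsPrime] (hq𝔓 : ((q : ℤ) : Bint) ∈ 𝔓)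

theorem mink_mem_valSub_iff (x : Qbar) :
    x ∈ mink_valSub q hq 𝔓 hq𝔓 ↔ ∃ s : Bint, s ∉ 𝔓 ∧ (s : Qbar) * x ∈ Bint := Iff.rfl

theorem mink_coe_mem_valSub (b : Bint) : (b : Qbar) ∈ mink_valSub q hq 𝔓 hq𝔓 := by
  rw [mink_mem_valSub_iff]
  refine ⟨1, fun h => (Ideal.IsPrime.ne_top ‹𝔓.IsPrime›) ((Ideal.eq_top_iff_one _).mpr h), ?_⟩
  simp

theorem mink_valuation_le_one (b : Bint) : (mink_valSub q hq 𝔓 hq𝔓).valuation (b : Qbar) ≤ 1 :=
  ((mink_valSub q hq 𝔓 hq𝔓).valuation_le_one_iff _).mpr (mink_coe_mem_valSub q hq 𝔓 hq𝔓 b)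

theorem mink_valuation_eq_one {s : Bint} (hs : s ∉ 𝔓) :
    (mink_valSub q hq 𝔓 hq𝔓).valuation (s : Qbar) = 1 := by
  have hs0 : (s : Qbar) ≠ 0 := by
    intro h
    apply hs
    have : s = 0 := Subtype.ext h
    rw [this]
    exact 𝔓.zero_mem
  have h1 : (s : Qbar)⁻¹ ∈ mink_valSub q hq 𝔓 hq𝔓 := by
    rw [mink_mem_valSub_iff]
    refine ⟨s, hs, ?_⟩
    rw [mul_inv_cancel₀ hs0]
    exact one_mem _
  have h2 := ((mink_valSub q hq 𝔓 hq𝔓).valuation_le_one_iff _).mpr h1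
  have h3 := mink_valuation_le_one q hq 𝔓 hq𝔓 s
  rw [map_inv₀] at h2
  have h4 : (mink_valSub q hq 𝔓 hq𝔓).valuation (s : Qbar) ≠ 0 :=
    (Valuation.ne_zero_iff _).mpr hs0
  have h5 : 1 ≤ (mink_valSub q hq 𝔓 hq𝔓).valuation (s : Qbar) := by
    rwa [inv_le_one₀ (zero_lt_iff.mpr h4)] at h2
  exact le_antisymm h3 h5

theorem mink_valuation_lt_one {b : Bint} (hb : b ∈ 𝔓) :
    (mink_valSub q hq 𝔓 hq𝔓).valuation (b : Qbar) < 1 := by
  by_contra hcon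
  have h1 : (mink_valSub q hq 𝔓 hq𝔓).valuation (b : Qbar) = 1 :=
    le_antisymm (mink_valuation_le_one q hq 𝔓 hq𝔓 b) (not_lt.mp hcon)
  have hb0 : (b : Qbar) ≠ 0 := by
    intro h
    rw [h, map_zero] at h1
    exact zero_ne_one h1
  have h2 : (b : Qbar)⁻¹ ∈ mink_valSub q hq 𝔓 hq𝔓 := by
    rw [← (mink_valSub q hq 𝔓 hq𝔓).valuation_le_one_iff, map_inv₀, h1, inv_one]
  rw [mink_mem_valSub_iff] at h2
  obtain ⟨s, hs, hsb⟩ := h2
  apply hs
  have : s = ⟨(s : Qbar) * (b : Qbar)⁻¹, hsb⟩ * b := by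
    apply Subtype.ext
    simp [mul_assoc, inv_mul_cancel₀ hb0]
  rw [this]
  exact 𝔓.mul_mem_left _ hb

/-- The Galois group preserves integrality. -/
theorem mink_map_mem (σ : Qbar ≃ₐ[ℚ] Qbar) {x : Qbar} (hx : x ∈ Bint) : σ x ∈ Bint :=
  (σ • (⟨x, hx⟩ : Bint)).2

omit [𝔓.IsPrime] in
theorem mink_smul_mem_iff (σ : Qbar ≃ₐ[ℚ] Qbar) (hσ : ∀ b : Bint, σ • b - b ∈ 𝔓) (b : Bint) :
    σ • b ∈ 𝔓 ↔ b ∈ 𝔓 := by
  constructor
  · intro h
    have := 𝔓.sub_mem h (hσ b)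
    simpa using this
  · intro h
    have := 𝔓.add_mem (hσ b) h
    simpa using this

omit [𝔓.IsPrime] in
theorem mink_inv_smul_sub_mem (σ : Qbar ≃ₐ[ℚ] Qbar) (hσ : ∀ b : Bint, σ • b - b ∈ 𝔓) (b : Bint) :
    σ⁻¹ • b - b ∈ 𝔓 := by
  have h1 := hσ (σ⁻¹ • b)
  rw [smul_inv_smul] at h1
  have := 𝔓.neg_mem h1
  simpa using this

include hq hq𝔓 in
theorem mink_map_mem_valSub (σ : Qbar ≃ₐ[ℚ] Qbar) (hσ : ∀ b : Bint, σ • b - b ∈ 𝔓) {x : Qbar}
    (hx : x ∈ mink_valSub q hq 𝔓 hq𝔓) : σ x ∈ mink_valSub q hq 𝔓 hq𝔓 := by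
  rw [mink_mem_valSub_iff] at hx ⊢
  obtain ⟨s, hs, hsx⟩ := hx
  refine ⟨σ • s, fun h => hs ((mink_smul_mem_iff 𝔓 σ hσ s).mp h), ?_⟩
  rw [mink_smul_coe, ← map_mul]
  exact mink_map_mem σ hsx

theorem mink_mem_decompositionSubgroup (σ : Qbar ≃ₐ[ℚ] Qbar) (hσ : ∀ b : Bint, σ • b - b ∈ 𝔓) :
    σ ∈ (mink_valSub q hq 𝔓 hq𝔓).decompositionSubgroup ℚ := by
  rw [MulAction.mem_stabilizer_iff]
  apply SetLike.ext
  intro x
  rw [ValuationSubring.mem_pointwise_smul_iff_inv_smul_mem]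
  constructor
  · intro h
    have h1 := mink_map_mem_valSub q hq 𝔓 hq𝔓 σ hσ h
    have h2 : σ (σ⁻¹ • x) = x := by
      show σ (σ⁻¹ x) = x
      rw [← AlgEquiv.mul_apply, mul_inv_cancel, AlgEquiv.one_apply]
    rwa [h2] at h1
  · intro h
    exact mink_map_mem_valSub q hq 𝔓 hq𝔓 σ⁻¹ (mink_inv_smul_sub_mem 𝔓 σ hσ) h

/-- An element of the inertia group of `𝔓` moves every element of the valuation ring by an
element of its maximal ideal. -/
theorem mink_valuation_sub_lt_one (σ : Qbar ≃ₐ[ℚ] Qbar) (hσ : ∀ b : Bint, σ • b - b ∈ 𝔓)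
    {x : Qbar} (hx : x ∈ mink_valSub q hq 𝔓 hq𝔓) :
    (mink_valSub q hq 𝔓 hq𝔓).valuation (σ x - x) < 1 := by
  have hx' := hx
  rw [mink_mem_valSub_iff] at hx'
  obtain ⟨s, hs, hsx⟩ := hx'
  set b : Bint := ⟨(s : Qbar) * x, hsx⟩ with hb
  have hσs : σ • s ∉ 𝔓 := fun h => hs ((mink_smul_mem_iff 𝔓 σ hσ s).mp h)
  have hs0 : (s : Qbar) ≠ 0 := by
    intro h
    apply hs
    have : s = 0 := Subtype.ext h
    rw [this]
    exact 𝔓.zero_mem
  have hσs0 : σ (s : Qbar) ≠ 0 := by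
    rw [Ne, map_eq_zero_iff σ σ.injective]
    exact hs0
  -- the numerator
  have hnum : s * (σ • b - b) - b * (σ • s - s) ∈ 𝔓 :=
    𝔓.sub_mem (𝔓.mul_mem_left _ (hσ b)) (𝔓.mul_mem_left _ (hσ s))
  have hnumv := mink_valuation_lt_one q hq 𝔓 hq𝔓 hnum
  have hden : (mink_valSub q hq 𝔓 hq𝔓).valuation ((s : Qbar) * σ (s : Qbar)) = 1 := by
    rw [map_mul, mink_valuation_eq_one q hq 𝔓 hq𝔓 hs, one_mul]
    exact mink_valuation_eq_one q hq 𝔓 hq𝔓 hσs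
  have hxs : x = (b : Qbar) / (s : Qbar) := by
    rw [hb]
    show x = (s : Qbar) * x / (s : Qbar)
    field_simp
  have key : σ x - x = ((s * (σ • b - b) - b * (σ • s - s) : Bint) : Qbar) /
      ((s : Qbar) * σ (s : Qbar)) := by
    have e1 : ((s * (σ • b - b) - b * (σ • s - s) : Bint) : Qbar) =
        (s : Qbar) * (σ (b : Qbar) - (b : Qbar)) - (b : Qbar) * (σ (s : Qbar) - (s : Qbar)) := by
      push_cast
      rfl
    rw [e1]
    conv_lhs => rw [hxs]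
    rw [map_div₀]
    field_simp
    ring
  rw [key, map_div₀, hden, div_one]
  exact hnumv

theorem mink_mem_inertiaSubgroupIn (σ : Qbar ≃ₐ[ℚ] Qbar) (hσ : ∀ b : Bint, σ • b - b ∈ 𝔓) :
    σ ∈ (mink_valSub q hq 𝔓 hq𝔓).inertiaSubgroupIn ℚ := by
  have hdec := mink_mem_decompositionSubgroup q hq 𝔓 hq𝔓 σ hσ
  refine ⟨⟨σ, hdec⟩, ?_, rfl⟩
  rw [SetLike.mem_coe, ValuationSubring.inertiaSubgroup, MonoidHom.mem_ker]
  ext xbar
  obtain ⟨a, rfl⟩ := IsLocalRing.residue_surjective xbar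
  show (⟨σ, hdec⟩ : (mink_valSub q hq 𝔓 hq𝔓).decompositionSubgroup ℚ) •
    IsLocalRing.residue _ a = IsLocalRing.residue _ a
  rw [← IsLocalRing.ResidueField.residue_smul, ← sub_eq_zero, ← map_sub,
    IsLocalRing.residue_eq_zero_iff, ValuationSubring.valuation_lt_one_iff]
  exact mink_valuation_sub_lt_one q hq 𝔓 hq𝔓 σ hσ a.2

theorem mink_liesOverPrime : (mink_valSub q hq 𝔓 hq𝔓).LiesOverPrime q := by
  have h := mink_valuation_lt_one q hq 𝔓 hq𝔓 hq𝔓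
  rw [ValuationSubring.LiesOverPrime, ValuationSubring.mem_nonunits_iff]
  simpa using h

end

end Fermat.Agent.S13
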