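import Mathlib
import Fermat.Prelude.Def_FLTPrelim_Ramification
import Fermat.Agent.S54.FrobInt
import Fermat.Agent.S13.MinkLift
import Fermat.Agent.S13.MinkVal

/-!
# S13, MINK: an open normal subgroup of `G_ℚ` containing all inertia subgroups is everything

`mink_subgroup_eq_top`, `mink_character`: "everywhere unramified implies trivial"
(Hermite–Minkowski).
-/

set_option autoImplicit false

open scoped Pointwise NumberField

namespace Fermat.Agent.S13

local notation "Qbar" => AlgebraicClosure ℚ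
local notation "Bint" => integralClosure ℤ (AlgebraicClosure ℚ)
local notation "GQ" => (AlgebraicClosure ℚ ≃ₐ[ℚ] AlgebraicClosure ℚ)

theorem mink_isGalois : IsGalois ℚ Qbar := by
  have halg : Algebra.IsAlgebraic ℚ (AlgebraicClosure ℚ) := AlgebraicClosure.isAlgebraic ℚ
  have hclos : IsAlgClosure ℚ (AlgebraicClosure ℚ) := AlgebraicClosure.instIsAlgClosure ℚ
  exact inferInstance

/-- The action of `G_ℚ` on the ring of all algebraic integers has open stabilisers. -/
theorem mink_stabilizer_isOpen (x : Bint) :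
    IsOpen ((MulAction.stabilizer GQ x : Subgroup GQ) : Set GQ) := by
  have halg : Algebra.IsAlgebraic ℚ (AlgebraicClosure ℚ) := AlgebraicClosure.isAlgebraic ℚ
  have := stabilizer_isOpen_of_isIntegral (K := ℚ) (L := AlgebraicClosure ℚ) (x : AlgebraicClosure ℚ)
  convert this using 1
  ext g
  simp only [SetLike.mem_coe, MulAction.mem_stabilizer_iff]
  constructor
  · intro h
    exact congrArg (fun z : Bint => (z : AlgebraicClosure ℚ)) h
  · intro h
    exact Subtype.ext h

/-- **MINK.** An open normal subgroup of `G_ℚ` containing the inertia subgroups of all valuation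
subrings of `Qbar` lying over rational primes is the whole group. -/
theorem mink_subgroup_eq_top (H : Subgroup GQ) [H.Normal] (hopen : IsOpen (H : Set GQ))
    (hunr : ∀ q : ℕ, q.Prime → ∀ A : ValuationSubring Qbar, A.LiesOverPrime q →
      A.inertiaSubgroupIn ℚ ≤ H) : H = ⊤ := by
  classical
  have halg : Algebra.IsAlgebraic ℚ Qbar := AlgebraicClosure.isAlgebraic ℚ
  have hgal : IsGalois ℚ Qbar := mink_isGalois
  have hclosed : IsClosed (H : Set GQ) := H.isClosed_of_isOpen hopen
  set F : IntermediateField ℚ Qbar := IntermediateField.fixedField H with hF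
  have hfix : F.fixingSubgroup = H := InfiniteGalois.fixingSubgroup_fixedField ⟨H, hclosed⟩
  have hfd : FiniteDimensional ℚ F := by
    rw [← InfiniteGalois.isOpen_iff_finite, hfix]
    exact hopen
  have hFgal' : @IsGalois ℚ _ F _ F.algebra' := by
    rw [← InfiniteGalois.normal_iff_isGalois, hfix]
    infer_instance
  have halgeq : (F.algebra' : Algebra ℚ F) = DivisionRing.toRatAlgebra := Subsingleton.elim _ _
  have hFgal : IsGalois ℚ F := halgeq ▸ hFgal'
  by_contra hne
  have hFbot : F ≠ ⊥ := by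
    intro h
    apply hne
    rw [← hfix, h, IntermediateField.fixingSubgroup_bot]
  have hrank : 1 < Module.finrank ℚ F := by
    have h1 : Module.finrank ℚ F ≠ 1 := fun h => hFbot (IntermediateField.finrank_eq_one_iff.mp h)
    have h2 : 0 < Module.finrank ℚ F := Module.finrank_pos
    omega
  have hnf : NumberField F := { to_charZero := inferInstance, to_finiteDimensional := inferInstance }
  obtain ⟨q, hq, hin⟩ := mink_exists_inertia_ne_one (K := F) hrank
  obtain ⟨𝔓, h𝔓max, hq𝔓⟩ := Fermat.Agent.S54.exists_maximal_mem q hq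
  have h𝔓 : 𝔓.IsPrime := h𝔓max.isPrime
  -- the inclusion of the integers of `F` into the ring of all algebraic integers
  let ι : 𝓞 F →+* Bint := RingHom.codRestrict ((algebraMap F Qbar).comp (algebraMap (𝓞 F) F))
    (integralClosure ℤ Qbar) (fun x => by
      have h1 : IsIntegral ℤ (algebraMap (𝓞 F) F x) := NumberField.RingOfIntegers.isIntegral_coe x
      exact h1.map (IsScalarTower.toAlgHom ℤ F Qbar))
  have hι : ∀ x : 𝓞 F, ((ι x : Bint) : Qbar) = algebraMap F Qbar (algebraMap (𝓞 F) F x) :=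
    fun x => rfl
  have hP : (Ideal.comap ι 𝔓).IsPrime := Ideal.comap_isPrime ι 𝔓
  have hqP : (q : 𝓞 F) ∈ Ideal.comap ι 𝔓 := by
    rw [Ideal.mem_comap, map_natCast]
    simpa using hq𝔓
  obtain ⟨τ, hτ1, hτ⟩ := hin (Ideal.comap ι 𝔓) hP hqP
  have hnormF : Normal ℚ F := hFgal.to_normal
  have hnormQ : Normal ℚ Qbar := hgal.to_normal
  obtain ⟨σ₀, hσ₀⟩ := AlgEquiv.restrictNormalHom_surjective (F := ℚ) (K₁ := F) Qbar τ
  have hσ₀x : ∀ x : F, σ₀ (algebraMap F Qbar x) = algebraMap F Qbar (τ x) := by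
    intro x
    rw [← hσ₀]
    exact (AlgEquiv.restrictNormal_commutes σ₀ F x).symm
  -- `σ₀` acts trivially modulo `𝔓` on the `H`-invariant integers
  have h0 : ∀ b : Bint, (∀ h ∈ H, h • b = b) → σ₀ • b - b ∈ 𝔓 := by
    intro b hb
    have hbF : (b : Qbar) ∈ F := by
      rw [hF, IntermediateField.mem_fixedField_iff]
      intro f hf
      exact congrArg (fun z : Bint => (z : Qbar)) (hb f hf)
    have hint : IsIntegral ℤ (⟨(b : Qbar), hbF⟩ : F) := by
      have h1 : IsIntegral ℤ (algebraMap F Qbar ⟨(b : Qbar), hbF⟩) := b.2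
      exact (isIntegral_algebraMap_iff (algebraMap F Qbar).injective).mp h1
    obtain ⟨x, hx⟩ : ∃ x : 𝓞 F, algebraMap (𝓞 F) F x = ⟨(b : Qbar), hbF⟩ :=
      ⟨⟨_, hint⟩, rfl⟩
    have h1 := hτ x
    rw [Ideal.mem_comap] at h1
    have h2 : ι (τ • x - x) = σ₀ • b - b := by
      apply Subtype.ext
      rw [hι]
      show algebraMap F Qbar (algebraMap (𝓞 F) F (τ • x - x)) = σ₀ (b : Qbar) - (b : Qbar)
      rw [map_sub, map_sub]
      have h3 : algebraMap (𝓞 F) F (τ • x) = τ (algebraMap (𝓞 F) F x) := rfl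
      rw [h3, hx, ← hσ₀x]
      rfl
    rw [← h2]
    exact h1
  -- lift to the inertia group of `𝔓`
  let _ : TopologicalSpace Bint := ⊥
  have hdisc : DiscreteTopology Bint := ⟨rfl⟩
  have hcont : ContinuousSMul GQ Bint := by
    rw [continuousSMul_iff_stabilizer_isOpen]
    exact mink_stabilizer_isOpen
  obtain ⟨h, hhH, -, hσ⟩ := mink_exists_inertia_lift H hclosed 𝔓 σ₀ h0
  have hσin := mink_mem_inertiaSubgroupIn q hq 𝔓 hq𝔓 (h * σ₀) hσ
  have hσH : h * σ₀ ∈ H := hunr q hq _ (mink_liesOverPrime q hq 𝔓 hq𝔓) hσin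
  have hσ₀H : σ₀ ∈ H := by
    have := H.mul_mem (H.inv_mem hhH) hσH
    simpa using this
  -- hence `τ = 1`
  apply hτ1
  apply AlgEquiv.ext
  intro x
  have h1 : σ₀ (algebraMap F Qbar x) = algebraMap F Qbar x := by
    rw [← hfix] at hσ₀H
    exact (IntermediateField.mem_fixingSubgroup_iff F σ₀).mp hσ₀H _ x.2
  rw [hσ₀x] at h1
  show τ x = x
  exact (algebraMap F Qbar).injective h1

/-- **MINK**, character form: a homomorphism from `G_ℚ` with open kernel which is trivial on all
inertia subgroups is trivial. -/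
theorem mink_character {M : Type*} [Group M] (χ : GQ →* M) (hopen : IsOpen (χ.ker : Set GQ))
    (hunr : ∀ q : ℕ, q.Prime → ∀ A : ValuationSubring Qbar, A.LiesOverPrime q →
      ∀ σ ∈ A.inertiaSubgroupIn ℚ, χ σ = 1) (σ : GQ) : χ σ = 1 := by
  have h := mink_subgroup_eq_top χ.ker hopen
    (fun q hq A hA σ hσ => MonoidHom.mem_ker.mpr (hunr q hq A hA σ hσ))
  have : σ ∈ χ.ker := h ▸ Subgroup.mem_top σ
  exact MonoidHom.mem_ker.mp this

end Fermat.Agent.S13
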