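import Mathlib
import Fermat.Prelude.Def_FLTPrelim_Ramification
import Fermat.Prelude.Def_FLTPrelim_CofixedLine
import Fermat.Agent.S13.Mink

/-!
# S13, MINK (part 4): consequences for Galois-stable subspaces of torsion points

* `mink_point_stabilizer_isOpen`: the stabiliser in `G_ℚ` of a point of `E(Qbar)` is open.
* `mink_fixes_of_unramified`: if `G_ℚ` acts on a finite Galois-stable submodule `N` of `E[n]`
  through a quotient unramified at every prime, then it acts trivially on `N`.
* `mink_quotient_fixes_of_unramified`: the same for the action on `E[n] / N`.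
-/

set_option autoImplicit false

open scoped Pointwise
open WeierstrassCurve WeierstrassCurve.Affine WeierstrassCurve.Affine.Point

namespace Fermat.Agent.S13

local notation "Qbar" => AlgebraicClosure ℚ
local notation "GQ" => (AlgebraicClosure ℚ ≃ₐ[ℚ] AlgebraicClosure ℚ)

/-- **MINK** for a normal subgroup containing an open subgroup. -/
theorem mink_subgroup_eq_top_of_le (H U : Subgroup GQ) [H.Normal] (hU : IsOpen (U : Set GQ))
    (hUH : U ≤ H)
    (hunr : ∀ q : ℕ, q.Prime → ∀ A : ValuationSubring Qbar, A.LiesOverPrime q →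
      A.inertiaSubgroupIn ℚ ≤ H) : H = ⊤ :=
  mink_subgroup_eq_top H (Subgroup.isOpen_mono hUH hU) hunr

/-- The stabiliser of an element of `Qbar` is open. -/
theorem mink_stabilizer_isOpen_Qbar (x : Qbar) :
    IsOpen ((MulAction.stabilizer GQ x : Subgroup GQ) : Set GQ) := by
  have halg : Algebra.IsAlgebraic ℚ (AlgebraicClosure ℚ) := AlgebraicClosure.isAlgebraic ℚ
  exact stabilizer_isOpen_of_isIntegral (K := ℚ) (L := AlgebraicClosure ℚ) x

variable (W : Affine ℚ)

/-- The stabiliser in `G_ℚ` of a point of `E(Qbar)` is open. -/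
theorem mink_point_stabilizer_isOpen (P : (W⁄Qbar).Point) :
    IsOpen ((MulAction.stabilizer GQ P : Subgroup GQ) : Set GQ) := by
  rcases P with _ | ⟨x, y, h⟩
  · have : (MulAction.stabilizer GQ (Point.zero : (W⁄Qbar).Point) : Subgroup GQ) = ⊤ := by
      ext σ
      simp only [MulAction.mem_stabilizer_iff, Subgroup.mem_top, iff_true]
      rfl
    rw [this]
    exact isOpen_univ
  · have hle : MulAction.stabilizer GQ x ⊓ MulAction.stabilizer GQ y ≤
        MulAction.stabilizer GQ (Point.some x y h : (W⁄Qbar).Point) := by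
      intro σ hσ
      rw [Subgroup.mem_inf, MulAction.mem_stabilizer_iff, MulAction.mem_stabilizer_iff] at hσ
      rw [MulAction.mem_stabilizer_iff, algEquiv_smul_def, Point.map_some]
      have hx : σ x = x := hσ.1
      have hy : σ y = y := hσ.2
      have hx' : σ.toAlgHom x = x := hx
      have hy' : σ.toAlgHom y = y := hy
      simp only [hx', hy']
    refine Subgroup.isOpen_mono hle ?_
    exact (mink_stabilizer_isOpen_Qbar x).inter (mink_stabilizer_isOpen_Qbar y)

variable {W} {n : ℕ}

/-- The pointwise stabiliser of a finite set of torsion points is open. -/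
theorem mink_pointwise_stabilizer_isOpen
    (S : Set (Submodule.torsionBy ℤ (W⁄Qbar).Point n)) (hS : S.Finite) :
    ∃ U : Subgroup GQ, IsOpen (U : Set GQ) ∧ ∀ σ ∈ U, ∀ x ∈ S, σ • x = x := by
  refine ⟨⨅ x ∈ S, MulAction.stabilizer GQ ((x : Submodule.torsionBy ℤ (W⁄Qbar).Point n) :
    (W⁄Qbar).Point), ?_, ?_⟩
  · have : ((⨅ x ∈ S, MulAction.stabilizer GQ
        ((x : Submodule.torsionBy ℤ (W⁄Qbar).Point n) : (W⁄Qbar).Point) : Subgroup GQ) : Set GQ) =
        ⋂ x ∈ S, ((MulAction.stabilizer GQ
          ((x : Submodule.torsionBy ℤ (W⁄Qbar).Point n) : (W⁄Qbar).Point) : Subgroup GQ) :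
            Set GQ) := by
      simp only [Subgroup.coe_iInf]
    rw [this]
    exact hS.isOpen_biInter fun x _ => mink_point_stabilizer_isOpen W _
  · intro σ hσ x hx
    rw [Subgroup.mem_iInf] at hσ
    have := hσ x
    rw [Subgroup.mem_iInf] at this
    have := this hx
    rw [MulAction.mem_stabilizer_iff] at this
    exact Subtype.ext this

/-- **MINK for a stable submodule.** If the inertia subgroups at all primes act trivially on a
finite Galois-stable submodule `N` of the `n`-torsion, then `G_ℚ` acts trivially on `N`. -/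
theorem mink_fixes_of_unramified
    (N : Submodule (ZMod n) (Submodule.torsionBy ℤ (W⁄Qbar).Point n))
    (hN : IsGaloisStable ℚ N) (hfin : (N : Set (Submodule.torsionBy ℤ (W⁄Qbar).Point n)).Finite)
    (hunr : ∀ q : ℕ, q.Prime → ∀ A : ValuationSubring Qbar, A.LiesOverPrime q →
      ∀ σ ∈ A.inertiaSubgroupIn ℚ, ∀ x ∈ N, σ • x = x) :
    ∀ σ : GQ, ∀ x ∈ N, σ • x = x := by
  let H : Subgroup GQ :=
    { carrier := {σ | ∀ x ∈ N, σ • x = x}
      one_mem' := fun x _ => one_smul _ x
      mul_mem' := by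
        intro a b ha hb x hx
        rw [mul_smul, hb x hx, ha x hx]
      inv_mem' := by
        intro a ha x hx
        rw [inv_smul_eq_iff, ha x hx] }
  have hmem : ∀ σ : GQ, σ ∈ H ↔ ∀ x ∈ N, σ • x = x := fun σ => Iff.rfl
  have hnorm : H.Normal := by
    refine ⟨fun σ hσ g => ?_⟩
    rw [hmem] at hσ ⊢
    intro x hx
    have h1 : g⁻¹ • x ∈ N := hN g⁻¹ x hx
    rw [mul_smul, mul_smul, hσ _ h1, smul_inv_smul]
  obtain ⟨U, hU, hUfix⟩ := mink_pointwise_stabilizer_isOpen
    (N : Set (Submodule.torsionBy ℤ (W⁄Qbar).Point n)) hfin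
  have hUH : U ≤ H := fun σ hσ => (hmem σ).mpr (fun x hx => hUfix σ hσ x hx)
  have htop := mink_subgroup_eq_top_of_le H U hU hUH
    (fun q hq A hA σ hσ => (hmem σ).mpr (hunr q hq A hA σ hσ))
  intro σ
  exact (hmem σ).mp (htop ▸ Subgroup.mem_top σ)

/-- **MINK for the quotient by a stable submodule.** If the inertia subgroups at all primes act
trivially on `E[n] / N` for a Galois-stable submodule `N` (and `E[n]` is finite), then `G_ℚ` acts
trivially on `E[n] / N`. -/
theorem mink_quotient_fixes_of_unramified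
    (N : Submodule (ZMod n) (Submodule.torsionBy ℤ (W⁄Qbar).Point n))
    (hN : IsGaloisStable ℚ N) [Finite (Submodule.torsionBy ℤ (W⁄Qbar).Point n)]
    (hunr : ∀ q : ℕ, q.Prime → ∀ A : ValuationSubring Qbar, A.LiesOverPrime q →
      ∀ σ ∈ A.inertiaSubgroupIn ℚ, ∀ x : Submodule.torsionBy ℤ (W⁄Qbar).Point n,
        σ • x - x ∈ N) :
    ∀ σ : GQ, ∀ x : Submodule.torsionBy ℤ (W⁄Qbar).Point n, σ • x - x ∈ N := by
  let H : Subgroup GQ :=
    { carrier := {σ | ∀ x : Submodule.torsionBy ℤ (W⁄Qbar).Point n, σ • x - x ∈ N}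
      one_mem' := fun x => by
        show (1 : GQ) • x - x ∈ N
        rw [one_smul, sub_self]
        exact N.zero_mem
      mul_mem' := by
        intro a b ha hb x
        show (a * b) • x - x ∈ N
        have h1 : (a * b) • x - x = a • (b • x - x) + (a • x - x) := by
          rw [mul_smul, smul_sub]
          abel
        rw [h1]
        exact N.add_mem (hN a _ (hb x)) (ha x)
      inv_mem' := by
        intro a ha x
        show a⁻¹ • x - x ∈ N
        have h1 : a⁻¹ • x - x = -(a⁻¹ • (a • x - x)) := by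
          rw [smul_sub, inv_smul_smul]
          abel
        rw [h1]
        exact N.neg_mem (hN a⁻¹ _ (ha x)) }
  have hmem : ∀ σ : GQ, σ ∈ H ↔ ∀ x : Submodule.torsionBy ℤ (W⁄Qbar).Point n, σ • x - x ∈ N :=
    fun σ => Iff.rfl
  have hnorm : H.Normal := by
    refine ⟨fun σ hσ g => ?_⟩
    rw [hmem] at hσ ⊢
    intro x
    have h1 : (g * σ * g⁻¹) • x - x = g • (σ • (g⁻¹ • x) - g⁻¹ • x) := by
      rw [mul_smul, mul_smul, smul_sub, smul_inv_smul]
    rw [h1]
    exact hN g _ (hσ _)
  obtain ⟨U, hU, hUfix⟩ := mink_pointwise_stabilizer_isOpen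
    (Set.univ : Set (Submodule.torsionBy ℤ (W⁄Qbar).Point n)) Set.finite_univ
  have hUH : U ≤ H := by
    intro σ hσ
    rw [hmem]
    intro x
    rw [hUfix σ hσ x (Set.mem_univ x), sub_self]
    exact N.zero_mem
  have htop := mink_subgroup_eq_top_of_le H U hU hUH
    (fun q hq A hA σ hσ => (hmem σ).mpr (hunr q hq A hA σ hσ))
  intro σ
  exact (hmem σ).mp (htop ▸ Subgroup.mem_top σ)

end Fermat.Agent.S13
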