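/-
S13, package (GLUE): the final assembly.
Owner: helper13.  Prefix `glue_`.

From DIVX, CARD, LOC2, LOCP, CONJ, S05 and MINK (helper8): a reducible Frey representation has a
Galois-stable cofixed line.
-/
import Mathlib
import Fermat.Agent.S13.Defs
import Fermat.Agent.S13.MinkAction

set_option autoImplicit false

open WeierstrassCurve WeierstrassCurve.Affine WeierstrassCurve.Affine.Point

namespace Fermat.Agent.S13

local notation "Qbar" => AlgebraicClosure ℚ
local notation "GQ" => (AlgebraicClosure ℚ ≃ₐ[ℚ] AlgebraicClosure ℚ)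

/-- A finite `𝔽_p`-vector space with at most `p²` elements which has a proper nonzero subspace
has exactly `p²` elements. -/
theorem glue_card_eq {p : ℕ} [Fact p.Prime] {V : Type*} [AddCommGroup V] [Module (ZMod p) V]
    [Finite V] (hcard : Nat.card V ≤ p ^ 2) (N : Submodule (ZMod p) V) (h0 : N ≠ ⊥)
    (h1 : N ≠ ⊤) : Nat.card V = p ^ 2 := by
  have hp : 1 < p := (Fact.out : p.Prime).one_lt
  have hlt : Module.finrank (ZMod p) N < Module.finrank (ZMod p) V :=
    Submodule.finrank_lt h1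
  have hpos : 0 < Module.finrank (ZMod p) N := by
    rw [Module.finrank_pos_iff]
    exact Submodule.nontrivial_iff_ne_bot.mpr h0
  have h2 : 2 ≤ Module.finrank (ZMod p) V := by omega
  have hc : Nat.card V = p ^ Module.finrank (ZMod p) V := by
    rw [Module.natCard_eq_pow_finrank (K := ZMod p) (V := V), Nat.card_zmod]
  refine le_antisymm hcard ?_
  rw [hc]
  exact Nat.pow_le_pow_right (by omega) h2

/-- **(GLUE)** -/
theorem glue : GlueStatement := by
  intro hDivX hCard hLoc2 hLocP hConj hOdd P hred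
  have : Fact P.p.Prime := ⟨P.pp⟩
  have hnt := hDivX P
  obtain ⟨hfin, hcard⟩ := hCard P
  -- a stable proper nonzero subspace
  have hN : ∃ N : Submodule (ZMod P.p) (Submodule.torsionBy ℤ (P.freyCurve⁄Qbar).Point P.p),
      IsGaloisStable ℚ N ∧ N ≠ ⊥ ∧ N ≠ ⊤ := by
    by_contra hcon
    apply hred
    refine ⟨hnt, fun N hN => ?_⟩
    by_contra h
    rw [not_or] at h
    exact hcon ⟨N, hN, h.1, h.2⟩
  obtain ⟨N, hNst, hN0, hN1⟩ := hN
  have hp2 : Nat.card (Submodule.torsionBy ℤ (P.freyCurve⁄Qbar).Point P.p) = P.p ^ 2 :=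
    glue_card_eq hcard N hN0 hN1
  obtain ⟨h2a, h2b, σ₁, x₁, hx₁, hσx₁⟩ := hLoc2 P N hNst hN0 hN1 hp2
  -- some inertia group moves `N`
  have hmove : ∃ q : ℕ, q.Prime ∧ ∃ A : ValuationSubring Qbar, A.LiesOverPrime q ∧
      ∃ σ ∈ A.inertiaSubgroupIn ℚ, ∃ x ∈ N, σ • x ≠ x := by
    by_contra hcon
    apply hσx₁
    refine mink_fixes_of_unramified N hNst (Set.toFinite _) ?_ σ₁ x₁ hx₁
    intro q hq A hA σ hσ x hx
    by_contra hne
    exact hcon ⟨q, hq, A, hA, σ, hσ, x, hx, hne⟩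
  obtain ⟨q, hq, A₀, hA₀, σ₀, hσ₀, x₀, hx₀, hne⟩ := hmove
  -- it sits at `p`
  have hqp : q = P.p := by
    by_contra hqp
    by_cases hq2 : q = 2
    · subst hq2
      exact hne (h2b A₀ hA₀ σ₀ hσ₀ x₀ hx₀)
    · exact hne (hOdd P q hq hq2 hqp A₀ hA₀ σ₀ hσ₀ x₀)
  rw [hqp] at hA₀
  -- LOCP at `A₀`
  have hA₀quot : ∀ σ ∈ A₀.inertiaSubgroupIn ℚ,
      ∀ x : Submodule.torsionBy ℤ (P.freyCurve⁄Qbar).Point P.p, σ • x - x ∈ N := by
    rcases hLocP P N hNst hN0 hN1 hp2 A₀ hA₀ with h | h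
    · exact absurd (h σ₀ hσ₀ x₀ hx₀) hne
    · exact h
  -- all places over `p`, by conjugation
  have hpquot : ∀ A : ValuationSubring Qbar, A.LiesOverPrime P.p →
      ∀ σ ∈ A.inertiaSubgroupIn ℚ,
        ∀ x : Submodule.torsionBy ℤ (P.freyCurve⁄Qbar).Point P.p, σ • x - x ∈ N := by
    intro A hA σ hσ x
    obtain ⟨g, hg⟩ := hConj P.p P.pp A A₀ hA hA₀
    have h1 := hA₀quot (g * σ * g⁻¹) (hg σ hσ) (g • x)
    have h2 : (g * σ * g⁻¹) • (g • x) - g • x = g • (σ • x - x) := by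
      rw [mul_smul, mul_smul, inv_smul_smul, smul_sub]
    rw [h2] at h1
    have h3 := hNst g⁻¹ _ h1
    rwa [inv_smul_smul] at h3
  -- conclusion
  have := hfin
  refine ⟨N, hNst, hN0, hN1, mink_quotient_fixes_of_unramified N hNst ?_⟩
  intro q' hq' A hA σ hσ x
  by_cases hq2 : q' = 2
  · subst hq2
    exact h2a A hA σ hσ x
  by_cases hqp' : q' = P.p
  · rw [hqp'] at hA
    exact hpquot A hA σ hσ x
  · have h : σ • x = x := hOdd P q' hq' hq2 hqp' A hA σ hσ x
    rw [h, sub_self]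
    exact N.zero_mem

end Fermat.Agent.S13
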