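import Mathlib
import Fermat.Agent.S13.Defs

/-!
# S13, LOC2: interface of the delegated slices

Owner of LOC2: helper29.  Each slice is ONE `def XxxStatement : Prop`; its owner proves
`theorem xxx : XxxStatement` in his own file (namespace `Fermat.Agent.S13`).
Conventions: `v = A.valuation` is multiplicative (`v x ≤ 1` iff `x ∈ A`, `v x < 1` iff `x` is in
the maximal ideal).  A `p`-torsion point `Q = (x, y)` of the Frey curve is *node* at `A` if
`v x < 1` and *off* if `Q = 0` or `1 ≤ v x`.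
-/

set_option autoImplicit false

open WeierstrassCurve WeierstrassCurve.Affine WeierstrassCurve.Affine.Point

namespace Fermat.Agent.S13

local notation "Qbar" => AlgebraicClosure ℚ
local notation "GQ" => (AlgebraicClosure ℚ ≃ₐ[ℚ] AlgebraicClosure ℚ)

/-- (LOC2-FREY) arithmetic of the Frey curve `y² + xy = x³ + a₂x² + a₄x` at a place over `2`. -/
def Loc2FreyStatement : Prop :=
  ∀ (P : FreyPackage) (A : ValuationSubring Qbar), A.LiesOverPrime 2 →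
    A.valuation (2 : Qbar) < 1 ∧
    A.valuation ((P.p : ℕ) : Qbar) = 1 ∧
    A.valuation ((3 : ℕ) : Qbar) = 1 ∧
    A.valuation ((P.freyCurve⁄Qbar).a₁ ^ 2 + 4 * (P.freyCurve⁄Qbar).a₂) = 1 ∧
    A.valuation (P.freyCurve⁄Qbar).a₂ ≤ 1 ∧
    (P.freyCurve⁄Qbar).a₄ ≠ 0 ∧
    (∃ M : ℕ, 0 < M ∧ ¬ P.p ∣ M ∧
      A.valuation (P.freyCurve⁄Qbar).a₄ = A.valuation (2 : Qbar) ^ M) ∧
    (∃ α α' : Qbar, α + α' = -(P.freyCurve⁄Qbar).a₁ ∧ α * α' = -(P.freyCurve⁄Qbar).a₂ ∧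
      A.valuation (α - α') = 1 ∧ A.valuation α ≤ 1 ∧ A.valuation α' ≤ 1 ∧
      ∀ σ ∈ A.inertiaSubgroupIn ℚ, σ α = α ∧ σ α' = α') ∧
    (∀ r : ℚ, A.valuation (algebraMap ℚ Qbar r) ≤ 1 →
      A.valuation (algebraMap ℚ Qbar r) < 1 ∨ A.valuation (algebraMap ℚ Qbar r - 1) < 1)

/-- (LOC2-RAM) an element whose valuation at a place over `2` has exact denominator `p` is moved by
the inertia group of that place. -/
def Loc2RamStatement : Prop :=
  ∀ (p : ℕ), p.Prime → p ≠ 2 → ∀ (A : ValuationSubring Qbar), A.LiesOverPrime 2 →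
    ∀ (x : Qbar) (J : ℕ), ¬ p ∣ J → A.valuation x ^ p = A.valuation (2 : Qbar) ^ J →
    ∃ σ ∈ A.inertiaSubgroupIn ℚ, σ x ≠ x

/-- (LOC2-ASM) the linear algebra: the local facts `E1`-`E5` at the places over `2`, for an
abstract predicate `off`, give the conclusion of `Loc2Statement`. -/
def Loc2AsmStatement : Prop :=
  ∀ (P : FreyPackage)
    (N : Submodule (ZMod P.p) (Submodule.torsionBy ℤ (P.freyCurve⁄Qbar).Point P.p)),
    IsGaloisStable ℚ N → N ≠ ⊥ → N ≠ ⊤ →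
    Nat.card (Submodule.torsionBy ℤ (P.freyCurve⁄Qbar).Point P.p) = P.p ^ 2 →
    ∀ (off : ValuationSubring Qbar →
        Submodule.torsionBy ℤ (P.freyCurve⁄Qbar).Point P.p → Prop),
    (∃ A : ValuationSubring Qbar, A.LiesOverPrime 2) →
    (∀ A : ValuationSubring Qbar, A.LiesOverPrime 2 → ∀ σ ∈ A.inertiaSubgroupIn ℚ,
      ∀ x : Submodule.torsionBy ℤ (P.freyCurve⁄Qbar).Point P.p, off A (σ • x - x)) →
    (∀ A : ValuationSubring Qbar, A.LiesOverPrime 2 → ∀ σ ∈ A.inertiaSubgroupIn ℚ,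
      ∀ x : Submodule.torsionBy ℤ (P.freyCurve⁄Qbar).Point P.p, off A x → σ • x = x) →
    (∀ A : ValuationSubring Qbar, A.LiesOverPrime 2 →
      ∀ x : Submodule.torsionBy ℤ (P.freyCurve⁄Qbar).Point P.p, ¬ off A x →
        ∃ σ ∈ A.inertiaSubgroupIn ℚ, σ • x ≠ x) →
    (∀ A : ValuationSubring Qbar, A.LiesOverPrime 2 →
      ∀ x : Submodule.torsionBy ℤ (P.freyCurve⁄Qbar).Point P.p, ¬ off A x →
        ∀ k : ℕ, ¬ P.p ∣ k → ¬ off A (k • x)) →
    (∀ A : ValuationSubring Qbar, A.LiesOverPrime 2 →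
      ∀ x : Submodule.torsionBy ℤ (P.freyCurve⁄Qbar).Point P.p, off A x →
        (∀ σ : GQ, σ • x = x) → x = 0) →
    (∀ A : ValuationSubring Qbar, A.LiesOverPrime 2 → ∀ σ ∈ A.inertiaSubgroupIn ℚ,
        ∀ x : Submodule.torsionBy ℤ (P.freyCurve⁄Qbar).Point P.p, σ • x - x ∈ N) ∧
    (∀ A : ValuationSubring Qbar, A.LiesOverPrime 2 → ∀ σ ∈ A.inertiaSubgroupIn ℚ,
        ∀ x ∈ N, σ • x = x) ∧
    (∃ σ : GQ, ∃ x ∈ N, σ • x ≠ x)

end Fermat.Agent.S13
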