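import Mathlib

/-!
# S13, LOC2 (part 3): the group law on `y² + a₁xy = x³ + a₂x² + a₄x` in `x`-coordinates
-/

set_option autoImplicit false
set_option linter.unusedSectionVars false

namespace Fermat.Agent.S13

open WeierstrassCurve WeierstrassCurve.Affine

variable {K : Type*} [Field K] [DecidableEq K]

/-- The Weierstrass curve has the form `y² + a₁xy = x³ + a₂x² + a₄x`. -/
structure Loc2Form (W : WeierstrassCurve.Affine K) : Prop where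
  a₃ : W.a₃ = 0
  a₆ : W.a₆ = 0

variable {W : WeierstrassCurve.Affine K}

lemma Loc2Form.negY (hW : Loc2Form W) (x y : K) : W.negY x y = -y - W.a₁ * x := by
  simp [Affine.negY, hW.a₃]

lemma Loc2Form.equation (hW : Loc2Form W) {x y : K} (h : W.Equation x y) :
    y ^ 2 + W.a₁ * x * y = x ^ 3 + W.a₂ * x ^ 2 + W.a₄ * x := by
  have := (W.equation_iff x y).1 h
  rw [hW.a₃, hW.a₆] at this
  linear_combination this

lemma Loc2Form.eqn (hW : Loc2Form W) {x y : K} (h : W.Nonsingular x y) :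
    y ^ 2 + W.a₁ * x * y = x ^ 3 + W.a₂ * x ^ 2 + W.a₄ * x :=
  hW.equation h.1

lemma Loc2Form.nonsingular_neg (hW : Loc2Form W) {x y : K} (h : W.Nonsingular x y) :
    W.Nonsingular x (-y - W.a₁ * x) := by
  have := (W.nonsingular_neg x y).2 h
  rwa [hW.negY] at this

lemma Loc2Form.neg_some (hW : Loc2Form W) {x y : K} (h : W.Nonsingular x y) :
    -Point.some x y h = Point.some x (-y - W.a₁ * x) (hW.nonsingular_neg h) := by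
  rw [Point.neg_some]
  congr 1
  exact hW.negY x y

/-- Chord addition, `x`-coordinate. -/
lemma Loc2Form.add_of_X_ne (hW : Loc2Form W) {x₁ y₁ x₂ y₂ : K} (h₁ : W.Nonsingular x₁ y₁)
    (h₂ : W.Nonsingular x₂ y₂) (hx : x₁ ≠ x₂) :
    ∃ (y₃ : K) (h₃ : W.Nonsingular
        (((y₁ - y₂) / (x₁ - x₂)) ^ 2 + W.a₁ * ((y₁ - y₂) / (x₁ - x₂)) - W.a₂ - x₁ - x₂) y₃),
      Point.some x₁ y₁ h₁ + Point.some x₂ y₂ h₂ =
        Point.some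
          (((y₁ - y₂) / (x₁ - x₂)) ^ 2 + W.a₁ * ((y₁ - y₂) / (x₁ - x₂)) - W.a₂ - x₁ - x₂)
          y₃ h₃ := by
  have key := Point.add_of_X_ne (h₁ := h₁) (h₂ := h₂) hx
  have hX : W.addX x₁ x₂ (W.slope x₁ x₂ y₁ y₂) =
      ((y₁ - y₂) / (x₁ - x₂)) ^ 2 + W.a₁ * ((y₁ - y₂) / (x₁ - x₂)) - W.a₂ - x₁ - x₂ := by
    rw [Affine.slope_of_X_ne hx, Affine.addX]
  have hns := Affine.nonsingular_add h₁ h₂ (fun hxy => hx hxy.left)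
  rw [hX] at hns
  refine ⟨_, hns, ?_⟩
  rw [key]
  congr 1

/-- Sum and difference of two points with different `x`-coordinates: the symmetric functions
of the two `x`-coordinates. -/
theorem Loc2Form.add_sub_of_X_ne (hW : Loc2Form W) {x₁ y₁ x₂ y₂ : K}
    (h₁ : W.Nonsingular x₁ y₁) (h₂ : W.Nonsingular x₂ y₂) (hx : x₁ ≠ x₂) :
    ∃ (ξ₁ η₁ : K) (k₁ : W.Nonsingular ξ₁ η₁) (ξ₂ η₂ : K) (k₂ : W.Nonsingular ξ₂ η₂),
      Point.some x₁ y₁ h₁ + Point.some x₂ y₂ h₂ = Point.some ξ₁ η₁ k₁ ∧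
      Point.some x₁ y₁ h₁ - Point.some x₂ y₂ h₂ = Point.some ξ₂ η₂ k₂ ∧
      (ξ₁ + ξ₂) * (x₁ - x₂) ^ 2 =
        2 * ((x₁ * x₂ + W.a₄) * (x₁ + x₂)) + (W.a₁ ^ 2 + 4 * W.a₂) * (x₁ * x₂) ∧
      ξ₁ * ξ₂ * (x₁ - x₂) ^ 2 = (x₁ * x₂ - W.a₄) ^ 2 := by
  obtain ⟨η₁, k₁, e₁⟩ := hW.add_of_X_ne h₁ h₂ hx
  have e : Point.some x₁ y₁ h₁ - Point.some x₂ y₂ h₂ =
      Point.some x₁ y₁ h₁ + Point.some x₂ (-y₂ - W.a₁ * x₂) (hW.nonsingular_neg h₂) := by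
    rw [sub_eq_add_neg (Point.some x₁ y₁ h₁), hW.neg_some h₂]
  obtain ⟨η₂, k₂, e₂⟩ := hW.add_of_X_ne h₁ (hW.nonsingular_neg h₂) hx
  refine ⟨_, η₁, k₁, _, η₂, k₂, e₁, e.trans e₂, ?_, ?_⟩
  · have q1 := hW.eqn h₁
    have q2 := hW.eqn h₂
    have hne0 : x₁ - x₂ ≠ 0 := sub_ne_zero.2 hx
    field_simp
    linear_combination 2 * q1 + 2 * q2
  · have q1 := hW.eqn h₁
    have q2 := hW.eqn h₂
    have hne0 : x₁ - x₂ ≠ 0 := sub_ne_zero.2 hx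
    field_simp
    linear_combination
      ((2 * ((x₁ * x₂ + W.a₄) * (x₁ + x₂)) + (W.a₁ ^ 2 + 4 * W.a₂) * (x₁ * x₂))
        - (4 * (x₂ ^ 3 + W.a₂ * x₂ ^ 2 + W.a₄ * x₂) + W.a₁ ^ 2 * x₂ ^ 2)
        + (y₁ ^ 2 + W.a₁ * x₁ * y₁ - (x₁ ^ 3 + W.a₂ * x₁ ^ 2 + W.a₄ * x₁))
        - (y₂ ^ 2 + W.a₁ * x₂ * y₂ - (x₂ ^ 3 + W.a₂ * x₂ ^ 2 + W.a₄ * x₂))) * q1
      + ((2 * ((x₁ * x₂ + W.a₄) * (x₁ + x₂)) + (W.a₁ ^ 2 + 4 * W.a₂) * (x₁ * x₂))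
        - (4 * (x₁ ^ 3 + W.a₂ * x₁ ^ 2 + W.a₄ * x₁) + W.a₁ ^ 2 * x₁ ^ 2)
        + (y₂ ^ 2 + W.a₁ * x₂ * y₂ - (x₂ ^ 3 + W.a₂ * x₂ ^ 2 + W.a₄ * x₂))
        - (y₁ ^ 2 + W.a₁ * x₁ * y₁ - (x₁ ^ 3 + W.a₂ * x₁ ^ 2 + W.a₄ * x₁))) * q2

/-- The square of `ψ₂ = 2y + a₁x` in terms of `x`. -/
lemma Loc2Form.psi_sq (hW : Loc2Form W) {x y : K} (h : W.Nonsingular x y) :
    (y - W.negY x y) ^ 2 = x * (4 * x ^ 2 + (W.a₁ ^ 2 + 4 * W.a₂) * x + 4 * W.a₄) := by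
  rw [hW.negY]
  linear_combination 4 * hW.eqn h

/-- A point with `y = negY` is `2`-torsion, and the denominator of the duplication formula
vanishes. -/
lemma Loc2Form.add_self_of_Y_eq (hW : Loc2Form W) {x y : K} (h : W.Nonsingular x y)
    (hy : y = W.negY x y) :
    Point.some x y h + Point.some x y h = 0 ∧
      x * (4 * x ^ 2 + (W.a₁ ^ 2 + 4 * W.a₂) * x + 4 * W.a₄) = 0 := by
  refine ⟨Point.add_self_of_Y_eq hy, ?_⟩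
  rw [← hW.psi_sq h, ← hy, sub_self]
  ring

/-- Doubling, `x`-coordinate. -/
theorem Loc2Form.add_self_of_Y_ne (hW : Loc2Form W) {x y : K} (h : W.Nonsingular x y)
    (hy : y ≠ W.negY x y) :
    ∃ (ξ η : K) (k : W.Nonsingular ξ η),
      Point.some x y h + Point.some x y h = Point.some ξ η k ∧
      ξ * (x * (4 * x ^ 2 + (W.a₁ ^ 2 + 4 * W.a₂) * x + 4 * W.a₄)) = (x ^ 2 - W.a₄) ^ 2 ∧
      x * (4 * x ^ 2 + (W.a₁ ^ 2 + 4 * W.a₂) * x + 4 * W.a₄) ≠ 0 := by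
  have key := Point.add_self_of_Y_ne (h₁ := h) hy
  have hns := Affine.nonsingular_add h h (fun hxy => hy hxy.right)
  have hψ := hW.psi_sq h
  have hne : y - W.negY x y ≠ 0 := sub_ne_zero.2 hy
  refine ⟨_, _, hns, key, ?_, ?_⟩
  · rw [← hψ, Affine.slope_of_Y_ne rfl hy, Affine.addX]
    have q := hW.eqn h
    obtain ⟨d, hd⟩ : ∃ d : K, d = y - W.negY x y := ⟨_, rfl⟩
    rw [← hd] at hne ⊢
    have hd' : d = 2 * y + W.a₁ * x := by rw [hd, hW.negY]; ring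
    have e : ((3 * x ^ 2 + 2 * W.a₂ * x + W.a₄ - W.a₁ * y) / d) ^ 2 * d ^ 2 =
        (3 * x ^ 2 + 2 * W.a₂ * x + W.a₄ - W.a₁ * y) ^ 2 := by
      field_simp
    have e' : ((3 * x ^ 2 + 2 * W.a₂ * x + W.a₄ - W.a₁ * y) / d) * d ^ 2 =
        (3 * x ^ 2 + 2 * W.a₂ * x + W.a₄ - W.a₁ * y) * d := by
      field_simp
    calc (((3 * x ^ 2 + 2 * W.a₂ * x + W.a₄ - W.a₁ * y) / d) ^ 2 +
            W.a₁ * ((3 * x ^ 2 + 2 * W.a₂ * x + W.a₄ - W.a₁ * y) / d) - W.a₂ - x - x) * d ^ 2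
        = ((3 * x ^ 2 + 2 * W.a₂ * x + W.a₄ - W.a₁ * y) / d) ^ 2 * d ^ 2 +
            W.a₁ * (((3 * x ^ 2 + 2 * W.a₂ * x + W.a₄ - W.a₁ * y) / d) * d ^ 2)
            - (W.a₂ + 2 * x) * d ^ 2 := by ring
      _ = (3 * x ^ 2 + 2 * W.a₂ * x + W.a₄ - W.a₁ * y) ^ 2 +
            W.a₁ * ((3 * x ^ 2 + 2 * W.a₂ * x + W.a₄ - W.a₁ * y) * d)
            - (W.a₂ + 2 * x) * d ^ 2 := by rw [e, e']
      _ = (x ^ 2 - W.a₄) ^ 2 := by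
          rw [hd']
          linear_combination (-(W.a₁ ^ 2 + 4 * W.a₂ + 8 * x)) * q
  · rw [← hψ]
    exact pow_ne_zero 2 hne

end Fermat.Agent.S13
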