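import Mathlib
import Fermat.Agent.S13.Loc2Form

/-!
# S13, LOC2 (part 5): branches at the node and congruent points

Field-level valuation lemmas for `W : y² + a₁xy = x³ + a₂x² + a₄x` with a node at `(0,0)`
whose tangent directions `α, α'` (the roots of `T² + a₁T - a₂`) are distinct modulo the maximal
ideal.

* `loc2_branch_dichotomy`: a point near the node lies on exactly one branch.
* `loc2_branch_sub`: two points near the node on the same branch with the same `v x` differ by a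
  point which is not near the node.
* `loc2_congr_sub`: two congruent integral points with `x` a unit differ by a point of the kernel
  of reduction (residue characteristic `2`, `a₁` a unit).
-/

set_option autoImplicit false
set_option linter.unusedSectionVars false
set_option linter.unusedVariables false

namespace Fermat.Agent.S13

open WeierstrassCurve WeierstrassCurve.Affine

variable {K : Type*} [Field K] [DecidableEq K] {Γ₀ : Type*} [LinearOrderedCommGroupWithZero Γ₀]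
  (v : Valuation K Γ₀) {W : WeierstrassCurve.Affine K}

/-- Chord subtraction, `x`-coordinate. -/
lemma Loc2Form.sub_of_X_ne (hW : Loc2Form W) {x₁ y₁ x₂ y₂ : K} (h₁ : W.Nonsingular x₁ y₁)
    (h₂ : W.Nonsingular x₂ y₂) (hx : x₁ ≠ x₂) :
    ∃ (y₃ : K) (h₃ : W.Nonsingular
        (((y₁ + y₂ + W.a₁ * x₂) / (x₁ - x₂)) ^ 2 + W.a₁ * ((y₁ + y₂ + W.a₁ * x₂) / (x₁ - x₂))
          - W.a₂ - x₁ - x₂) y₃),
      Point.some x₁ y₁ h₁ - Point.some x₂ y₂ h₂ =
        Point.some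
          (((y₁ + y₂ + W.a₁ * x₂) / (x₁ - x₂)) ^ 2 + W.a₁ * ((y₁ + y₂ + W.a₁ * x₂) / (x₁ - x₂))
            - W.a₂ - x₁ - x₂) y₃ h₃ := by
  have e : Point.some x₁ y₁ h₁ - Point.some x₂ y₂ h₂ =
      Point.some x₁ y₁ h₁ + Point.some x₂ (-y₂ - W.a₁ * x₂) (hW.nonsingular_neg h₂) := by
    rw [sub_eq_add_neg (Point.some x₁ y₁ h₁), hW.neg_some h₂]
  obtain ⟨y₃, h₃, h⟩ := hW.add_of_X_ne h₁ (hW.nonsingular_neg h₂) hx
  have e2 : y₁ - (-y₂ - W.a₁ * x₂) = y₁ + y₂ + W.a₁ * x₂ := by ring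
  simp only [e2] at h₃ h
  exact ⟨y₃, h₃, e.trans h⟩

/-- Two points with the same `x`-coordinate are equal or opposite. -/
lemma Loc2Form.eq_or_eq_neg (hW : Loc2Form W) {x y₁ y₂ : K} (h₁ : W.Nonsingular x y₁)
    (h₂ : W.Nonsingular x y₂) : y₁ = y₂ ∨ y₁ = -y₂ - W.a₁ * x := by
  have e1 := hW.eqn h₁
  have e2 := hW.eqn h₂
  have : (y₁ - y₂) * (y₁ + y₂ + W.a₁ * x) = 0 := by linear_combination e1 - e2
  rcases mul_eq_zero.1 this with h0 | h0
  · left; linear_combination h0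
  · right; linear_combination h0

section branch

variable {α α' : K}

/-- Factorisation of the equation along the tangent directions. -/
lemma loc2_factor (hW : Loc2Form W) (hsum : α + α' = -W.a₁) (hprod : α * α' = -W.a₂)
    {x y : K} (h : W.Nonsingular x y) :
    (y - α * x) * (y - α' * x) = x * (x ^ 2 + W.a₄) := by
  have q := hW.eqn h
  linear_combination q - x * y * hsum + x ^ 2 * hprod

/-- A point near the node lies on exactly one of the two branches. -/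
theorem loc2_branch_dichotomy (hW : Loc2Form W) (hsum : α + α' = -W.a₁)
    (hprod : α * α' = -W.a₂) (hαα' : v (α - α') = 1)
    {x y : K} (h : W.Nonsingular x y) (hx : v x < 1) (hax : v W.a₄ < v x) :
    (v (y - α * x) < v x ∧ v (y - α' * x) = v x) ∨
      (v (y - α' * x) < v x ∧ v (y - α * x) = v x) := by
  have hx0 : v x ≠ 0 := fun h0 => by rw [h0] at hax; exact not_lt_zero hax
  have hxpos : 0 < v x := zero_lt_iff.2 hx0
  have hfac := loc2_factor hW hsum hprod h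
  have hxx : v (x ^ 2) < v x := by
    rw [map_pow, pow_two]
    calc v x * v x < 1 * v x := mul_lt_mul_of_pos_right hx hxpos
      _ = v x := one_mul _
  have h1 : v (x ^ 2 + W.a₄) < v x := lt_of_le_of_lt (v.map_add _ _) (max_lt hxx hax)
  have hprodv : v (y - α * x) * v (y - α' * x) < v x * v x := by
    rw [← map_mul, hfac, map_mul]
    exact mul_lt_mul_of_pos_left h1 hxpos
  have hdiff : v ((y - α' * x) - (y - α * x)) = v x := by
    have : (y - α' * x) - (y - α * x) = (α - α') * x := by ring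
    rw [this, map_mul, hαα', one_mul]
  have hdiff' : v ((y - α * x) - (y - α' * x)) = v x := by
    rw [← Valuation.map_neg, neg_sub]; exact hdiff
  rcases lt_or_ge (v (y - α * x)) (v x) with hlt | hge
  · left
    refine ⟨hlt, ?_⟩
    have : y - α' * x = (y - α * x) + ((y - α' * x) - (y - α * x)) := by ring
    rw [this, Valuation.map_add_eq_of_lt_right v (by rw [hdiff]; exact hlt), hdiff]
  · right
    have hlt : v (y - α' * x) < v x := by
      by_contra hcon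
      rw [not_lt] at hcon
      exact absurd (mul_le_mul' hge hcon) (not_le.2 hprodv)
    refine ⟨hlt, ?_⟩
    have : y - α * x = (y - α' * x) + ((y - α * x) - (y - α' * x)) := by ring
    rw [this, Valuation.map_add_eq_of_lt_right v (by rw [hdiff']; exact hlt), hdiff']

/-- Two points near the node, on the same branch and with the same `v x`, differ by a point
which is not near the node. -/
theorem loc2_branch_sub (hW : Loc2Form W) (hsum : α + α' = -W.a₁)
    (hprod : α * α' = -W.a₂)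
    {x₁ y₁ x₂ y₂ : K} (h₁ : W.Nonsingular x₁ y₁) (h₂ : W.Nonsingular x₂ y₂)
    (hx₁ : v x₁ < 1) (hx₁0 : x₁ ≠ 0) (hxx : v x₂ = v x₁)
    (hb₁ : v (y₁ - α * x₁) < v x₁) (hb₁' : v (y₁ - α' * x₁) = v x₁)
    (hb₂ : v (y₂ - α * x₂) < v x₂) (hb₂' : v (y₂ - α' * x₂) = v x₂) :
    Point.some x₁ y₁ h₁ - Point.some x₂ y₂ h₂ = 0 ∨
      ∃ (ξ η : K) (k : W.Nonsingular ξ η),
        Point.some x₁ y₁ h₁ - Point.some x₂ y₂ h₂ = Point.some ξ η k ∧ 1 ≤ v ξ := by
  have hr0 : v x₁ ≠ 0 := (Valuation.ne_zero_iff v).2 hx₁0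
  have hrpos : 0 < v x₁ := zero_lt_iff.2 hr0
  by_cases hx : x₁ = x₂
  · subst hx
    left
    rcases hW.eq_or_eq_neg h₁ h₂ with rfl | hy
    · exact sub_self _
    · exfalso
      -- then `y₁ - α x₁ = -(y₂ - α' x₁)`
      have e : y₁ - α * x₁ = -(y₂ - α' * x₁) := by
        rw [hy]; linear_combination (-x₁) * hsum
      rw [e, Valuation.map_neg, hb₂'] at hb₁
      exact lt_irrefl _ hb₁
  · right
    obtain ⟨y₃, h₃, e⟩ := hW.sub_of_X_ne h₁ h₂ hx
    refine ⟨_, y₃, h₃, e, ?_⟩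
    have hd0 : x₁ - x₂ ≠ 0 := sub_ne_zero.2 hx
    have hdv0 : v (x₁ - x₂) ≠ 0 := (Valuation.ne_zero_iff v).2 hd0
    have hdpos : 0 < v (x₁ - x₂) := zero_lt_iff.2 hdv0
    have hdle : v (x₁ - x₂) ≤ v x₁ := v.map_sub_le le_rfl hxx.le
    set ℓ : K := (y₁ + y₂ + W.a₁ * x₂) / (x₁ - x₂) with hℓ
    -- the two factors
    have f1 : ℓ - α = ((y₁ - α * x₁) + (y₂ - α' * x₂)) / (x₁ - x₂) := by
      rw [hℓ]
      field_simp
      linear_combination x₂ * hsum
    have f2 : ℓ - α' = ((y₁ - α' * x₁) + (y₂ - α * x₂)) / (x₁ - x₂) := by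
      rw [hℓ]
      field_simp
      linear_combination x₂ * hsum
    have v1 : v ((y₁ - α * x₁) + (y₂ - α' * x₂)) = v x₁ := by
      rw [Valuation.map_add_eq_of_lt_right v (by rw [hb₂', hxx]; exact hb₁), hb₂', hxx]
    have v2 : v ((y₁ - α' * x₁) + (y₂ - α * x₂)) = v x₁ := by
      rw [Valuation.map_add_eq_of_lt_left v (by rw [hb₁', ← hxx]; exact hb₂), hb₁']
    have g1 : 1 ≤ v (ℓ - α) := by
      rw [f1, map_div₀, v1, one_le_div₀ hdpos]
      exact hdle
    have g2 : 1 ≤ v (ℓ - α') := by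
      rw [f2, map_div₀, v2, one_le_div₀ hdpos]
      exact hdle
    have hmain : ℓ ^ 2 + W.a₁ * ℓ - W.a₂ - x₁ - x₂ = (ℓ - α) * (ℓ - α') - (x₁ + x₂) := by
      linear_combination ℓ * hsum - hprod
    rw [hmain]
    have g3 : 1 ≤ v ((ℓ - α) * (ℓ - α')) := by
      rw [map_mul]
      calc (1 : Γ₀) = 1 * 1 := (one_mul 1).symm
        _ ≤ v (ℓ - α) * v (ℓ - α') := mul_le_mul' g1 g2
    have g4 : v (x₁ + x₂) < 1 := lt_of_le_of_lt (v.map_add_le le_rfl hxx.le) hx₁
    rw [Valuation.map_sub_eq_of_lt_left v (lt_of_lt_of_le g4 g3)]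
    exact g3

end branch

/-- Two congruent integral points whose `x`-coordinate is a unit differ by an element of the
kernel of reduction, if `2` is a non-unit and `a₁` is a unit. -/
theorem loc2_congr_sub (hW : Loc2Form W) (h2 : v (2 : K) < 1) (ha₁ : v W.a₁ = 1)
    (ha₂ : v W.a₂ ≤ 1)
    {x₁ y₁ x₂ y₂ : K} (h₁ : W.Nonsingular x₁ y₁) (h₂ : W.Nonsingular x₂ y₂)
    (hx₂ : v x₂ = 1) (hy₂ : v y₂ ≤ 1) (hx : v (x₁ - x₂) < 1) (hy : v (y₁ - y₂) < 1) :
    Point.some x₁ y₁ h₁ - Point.some x₂ y₂ h₂ = 0 ∨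
      ∃ (ξ η : K) (k : W.Nonsingular ξ η),
        Point.some x₁ y₁ h₁ - Point.some x₂ y₂ h₂ = Point.some ξ η k ∧ 1 < v ξ := by
  have h2y : v (2 * y₂) < 1 := by
    rw [map_mul]
    calc v 2 * v y₂ ≤ v 2 * 1 := mul_le_mul' le_rfl hy₂
      _ = v 2 := mul_one _
      _ < 1 := h2
  have ha₁x : v (W.a₁ * x₂) = 1 := by rw [map_mul, ha₁, hx₂, one_mul]
  have hnum : v (2 * y₂ + W.a₁ * x₂) = 1 := by
    rw [Valuation.map_add_eq_of_lt_right v (by rw [ha₁x]; exact h2y), ha₁x]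
  by_cases hxx : x₁ = x₂
  · subst hxx
    left
    rcases hW.eq_or_eq_neg h₁ h₂ with rfl | hyy
    · exact sub_self _
    · exfalso
      have e : y₁ - y₂ = -(2 * y₂ + W.a₁ * x₁) := by rw [hyy]; ring
      rw [e, Valuation.map_neg, hnum] at hy
      exact lt_irrefl _ hy
  · right
    obtain ⟨y₃, h₃, e⟩ := hW.sub_of_X_ne h₁ h₂ hxx
    refine ⟨_, y₃, h₃, e, ?_⟩
    have hd0 : x₁ - x₂ ≠ 0 := sub_ne_zero.2 hxx
    have hdv0 : v (x₁ - x₂) ≠ 0 := (Valuation.ne_zero_iff v).2 hd0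
    have hdpos : 0 < v (x₁ - x₂) := zero_lt_iff.2 hdv0
    set ℓ : K := (y₁ + y₂ + W.a₁ * x₂) / (x₁ - x₂) with hℓ
    have hnum' : v (y₁ + y₂ + W.a₁ * x₂) = 1 := by
      have : y₁ + y₂ + W.a₁ * x₂ = (y₁ - y₂) + (2 * y₂ + W.a₁ * x₂) := by ring
      rw [this, Valuation.map_add_eq_of_lt_right v (by rw [hnum]; exact hy), hnum]
    have hℓv : 1 < v ℓ := by
      rw [hℓ, map_div₀, hnum', one_lt_div₀ hdpos]
      exact hx
    have hℓ0 : v ℓ ≠ 0 := (zero_lt_one.trans hℓv).ne'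
    have hℓpos : 0 < v ℓ := zero_lt_iff.2 hℓ0
    have hsq : v ℓ < v (ℓ ^ 2) := by
      rw [map_pow, pow_two]
      calc v ℓ = 1 * v ℓ := (one_mul _).symm
        _ < v ℓ * v ℓ := mul_lt_mul_of_pos_right hℓv hℓpos
    have hsq1 : 1 < v (ℓ ^ 2) := hℓv.trans hsq
    have t1 : v (W.a₁ * ℓ) < v (ℓ ^ 2) := by
      rw [map_mul, ha₁, one_mul]; exact hsq
    have hx₁ : v x₁ ≤ 1 := by
      have : x₁ = (x₁ - x₂) + x₂ := by ring
      rw [this]
      exact v.map_add_le hx.le hx₂.le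
    have s1 : v (ℓ ^ 2 + W.a₁ * ℓ) = v (ℓ ^ 2) := Valuation.map_add_eq_of_lt_left v t1
    have s2 : v (ℓ ^ 2 + W.a₁ * ℓ - W.a₂) = v (ℓ ^ 2) := by
      rw [Valuation.map_sub_eq_of_lt_left v (by rw [s1]; exact lt_of_le_of_lt ha₂ hsq1), s1]
    have s3 : v (ℓ ^ 2 + W.a₁ * ℓ - W.a₂ - x₁) = v (ℓ ^ 2) := by
      rw [Valuation.map_sub_eq_of_lt_left v (by rw [s2]; exact lt_of_le_of_lt hx₁ hsq1), s2]
    rw [Valuation.map_sub_eq_of_lt_left v (by rw [s3]; exact lt_of_le_of_lt hx₂.le hsq1), s3]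
    exact hsq1

end Fermat.Agent.S13
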