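import Mathlib
import Fermat.Agent.S05.ValLemmas
import Fermat.Agent.S05.Rel

/-!
# S13, LOC2 (part 2): the field-level doubling lemma for `y² + a₁xy = x³ + a₂x² + a₄x`

Generalisation of `Fermat.Agent.S05.double_val`: the duplication formula is
`ξ · x (c₄ x² + b₂ x + c₄ a₄) = (x² - a₄)²` with `v b₂ = 1`, `v c₄ ≤ 1` (for the curve `c₄ = 4`).
-/

set_option autoImplicit false
set_option linter.unusedSectionVars false
set_option linter.unusedVariables false

namespace Fermat.Agent.S13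

open Fermat.Agent.S05

variable {K : Type*} [Field K] {Γ₀ : Type*} [LinearOrderedCommGroupWithZero Γ₀]
  (v : Valuation K Γ₀)

variable {b₂ c₄ a₄ x ξ : K}

/-- If the denominator of the duplication formula vanishes and `v x < 1` then `v x ≤ t`. -/
lemma loc2_val_le_of_den_eq_zero (h₂ : v b₂ = 1) (h4 : v c₄ ≤ 1) (ht1 : v a₄ < 1)
    (heq : x * (c₄ * x ^ 2 + b₂ * x + c₄ * a₄) = 0) (hx : v x < 1) : v x ≤ v a₄ := by
  by_cases hx0 : x = 0
  · rw [hx0, map_zero]; exact zero_le
  · have h1 : c₄ * x ^ 2 + b₂ * x + c₄ * a₄ = 0 := by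
      rcases mul_eq_zero.1 heq with h | h
      · exact absurd h hx0
      · exact h
    have hxpos : 0 < v x := zero_lt_iff.2 ((Valuation.ne_zero_iff v).2 hx0)
    have hxx_lt : v x * v x < v x := by
      calc v x * v x < 1 * v x := mul_lt_mul_of_pos_right hx hxpos
        _ = v x := one_mul _
    have h3 : v (c₄ * x ^ 2) < v (b₂ * x) := by
      rw [map_mul, map_pow, map_mul, h₂, one_mul, pow_two]
      calc v c₄ * (v x * v x) ≤ 1 * (v x * v x) := mul_le_mul' h4 le_rfl
        _ = v x * v x := one_mul _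
        _ < v x := hxx_lt
    have h4' : v (c₄ * x ^ 2 + b₂ * x) = v x := by
      rw [Valuation.map_add_eq_of_lt_right v h3, map_mul, h₂, one_mul]
    have h5 : c₄ * a₄ = -(c₄ * x ^ 2 + b₂ * x) := by linear_combination h1
    have h6 : v (c₄ * a₄) = v x := by rw [h5, Valuation.map_neg, h4']
    rw [← h6, map_mul]
    calc v c₄ * v a₄ ≤ 1 * v a₄ := mul_le_mul' h4 le_rfl
      _ = v a₄ := one_mul _

/-- Field-level doubling lemma. -/
theorem loc2_double_val (h₂ : v b₂ = 1) (h4 : v c₄ ≤ 1) (ht1 : v a₄ < 1) (ht0 : a₄ ≠ 0)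
    (hden : x * (c₄ * x ^ 2 + b₂ * x + c₄ * a₄) ≠ 0)
    (hξ : ξ * (x * (c₄ * x ^ 2 + b₂ * x + c₄ * a₄)) = (x ^ 2 - a₄) ^ 2) (hx : v x < 1) :
    Rel (v a₄) (clamp (v a₄) (v ξ)) (clamp (v a₄) (v x) * clamp (v a₄) (v x)) := by
  have hvt0 : v a₄ ≠ 0 := (Valuation.ne_zero_iff v).2 ht0
  have htpos : 0 < v a₄ := zero_lt_iff.2 hvt0
  have hx0 : x ≠ 0 := left_ne_zero_of_mul hden
  have hxpos : 0 < v x := zero_lt_iff.2 ((Valuation.ne_zero_iff v).2 hx0)
  set f : K := c₄ * x ^ 2 + b₂ * x + c₄ * a₄ with hf_def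
  have hξv : v ξ * (v x * v f) = v (x ^ 2 - a₄) * v (x ^ 2 - a₄) := by
    have := congrArg v hξ
    rw [map_mul, map_mul, map_pow (v) (x ^ 2 - a₄), pow_two (v (x ^ 2 - a₄))] at this
    exact this
  have hxx : v (x ^ 2) = v x * v x := by rw [map_pow, pow_two]
  have hxx_lt : v x * v x < v x := by
    calc v x * v x < 1 * v x := mul_lt_mul_of_pos_right hx hxpos
      _ = v x := one_mul _
  have hc4xx : v (c₄ * x ^ 2) ≤ v x * v x := by
    rw [map_mul, hxx]
    calc v c₄ * (v x * v x) ≤ 1 * (v x * v x) := mul_le_mul' h4 le_rfl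
      _ = v x * v x := one_mul _
  have hc4a : v (c₄ * a₄) ≤ v a₄ := by
    rw [map_mul]
    calc v c₄ * v a₄ ≤ 1 * v a₄ := mul_le_mul' h4 le_rfl
      _ = v a₄ := one_mul _
  rcases lt_or_ge (v a₄) (v x) with htx | hxt
  · -- t < v x < 1
    rw [clamp_of_mem htx.le hx.le]
    have hf : v f = v x := by
      have h3 : v (c₄ * x ^ 2) < v (b₂ * x) := by
        have e2 : v (b₂ * x) = v x := by rw [map_mul, h₂, one_mul]
        rw [e2]; exact lt_of_le_of_lt hc4xx hxx_lt
      have h5 : v (c₄ * x ^ 2 + b₂ * x) = v x := by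
        rw [Valuation.map_add_eq_of_lt_right v h3, map_mul, h₂, one_mul]
      rw [hf_def, Valuation.map_add_eq_of_lt_left v (by rw [h5]; exact lt_of_le_of_lt hc4a htx), h5]
    rw [hf] at hξv
    have hcc0 : v x * v x ≠ 0 := mul_ne_zero hxpos.ne' hxpos.ne'
    have hccpos : 0 < v x * v x := zero_lt_iff.2 hcc0
    have hcc1 : v x * v x ≤ 1 := hxx_lt.le.trans hx.le
    rcases lt_trichotomy (v a₄) (v x * v x) with h | h | h
    · have hω : v (x ^ 2 - a₄) = v x * v x := by
        rw [Valuation.map_sub_eq_of_lt_left v (by rw [hxx]; exact h), hxx]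
      rw [hω] at hξv
      have e : v ξ = v x * v x := mul_right_cancel₀ hcc0 hξv
      rw [e, clamp_of_mem h.le hcc1]
      exact Rel.refl _ _
    · have hω : v (x ^ 2 - a₄) ≤ v a₄ := Valuation.map_sub_le v (by rw [hxx, h]) le_rfl
      have : v ξ ≤ v a₄ := by
        have : v ξ * v a₄ ≤ v a₄ * v a₄ := by
          rw [h, hξv]
          exact mul_le_mul' (h ▸ hω) (h ▸ hω)
        exact le_of_mul_le_mul_right this htpos
      rw [clamp_of_le ht1.le this]
      exact Rel.of_eq h
    · have hω : v (x ^ 2 - a₄) = v a₄ := by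
        rw [Valuation.map_sub_eq_of_lt_right v (by rw [hxx]; exact h)]
      rw [hω] at hξv
      have e : v ξ = v a₄ * v a₄ / (v x * v x) := by
        rw [eq_div_iff hcc0]; exact hξv
      have h1 : v a₄ * v a₄ / (v x * v x) ≤ 1 := by
        rw [div_le_one₀ hccpos]
        exact mul_le_mul' htx.le htx.le
      have h2' : v a₄ ≤ v a₄ * v a₄ / (v x * v x) := by
        rw [le_div_iff₀ hccpos]
        exact mul_le_mul' le_rfl h.le
      rw [e, clamp_of_mem h2' h1]
      exact Rel.of_mul_eq_sq (by rw [div_mul_cancel₀ _ hcc0])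
  · -- v x ≤ t
    rw [clamp_of_le ht1.le hxt]
    have htt_lt : v a₄ * v a₄ < v a₄ := by
      calc v a₄ * v a₄ < 1 * v a₄ := mul_lt_mul_of_pos_right ht1 htpos
        _ = v a₄ := one_mul _
    have hω : v (x ^ 2 - a₄) = v a₄ := by
      rw [Valuation.map_sub_eq_of_lt_right v]
      rw [hxx]
      exact lt_of_le_of_lt (mul_le_mul' hxt hxt) htt_lt
    have hf : v f ≤ v a₄ := by
      refine v.map_add_le (v.map_add_le ?_ ?_) hc4a
      · exact hc4xx.trans ((mul_le_mul' hxt hxt).trans htt_lt.le)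
      · rw [map_mul, h₂, one_mul]; exact hxt
    have hy2le : v x * v f ≤ v a₄ * v a₄ := mul_le_mul' hxt hf
    rw [hω] at hξv
    have hy20 : v x * v f ≠ 0 := by
      rw [← map_mul]
      exact (Valuation.ne_zero_iff v).2 hden
    have : 1 ≤ v ξ := by
      by_contra hcon
      rw [not_le] at hcon
      have : v ξ * (v x * v f) < v a₄ * v a₄ := by
        calc v ξ * (v x * v f) < 1 * (v x * v f) :=
              mul_lt_mul_of_pos_right hcon (zero_lt_iff.2 hy20)
          _ = v x * v f := one_mul _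
          _ ≤ v a₄ * v a₄ := hy2le
      exact this.ne hξv
    rw [clamp_of_one_le ht1.le this]
    exact Rel.of_mul_eq_sq (one_mul _)

end Fermat.Agent.S13
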