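import Mathlib
import Fermat.Agent.S05.Component
import Fermat.Agent.S05.NodeTorsion
import Fermat.Agent.S13.Loc2Form
import Fermat.Agent.S13.Loc2PairVal
import Fermat.Agent.S13.Loc2DoubleVal

/-!
# S13, LOC2 (part 4): components of `y² + a₁xy = x³ + a₂x² + a₄x` at a node, up to sign

The analogue of `Fermat.Agent.S05.node_torsion_val` for a curve with `a₃ = a₆ = 0`,
`v (a₁² + 4a₂) = 1`, `v a₄ < 1`, in ANY residue characteristic.
-/

set_option autoImplicit false
set_option linter.unusedSectionVars false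
set_option linter.unusedVariables false

namespace Fermat.Agent.S13

open WeierstrassCurve WeierstrassCurve.Affine
open Fermat.Agent.S05

variable {K : Type*} [Field K] [DecidableEq K] {Γ₀ : Type*} [LinearOrderedCommGroupWithZero Γ₀]
  (v : Valuation K Γ₀) {W : WeierstrassCurve.Affine K}

lemma loc2_val_natCast_le_one (n : ℕ) : v (n : K) ≤ 1 := by
  induction n with
  | zero => simp
  | succ k ih =>
    rw [Nat.cast_succ]
    exact v.map_add_le ih (le_of_eq v.map_one)

lemma loc2_val_two_le_one : v (2 : K) ≤ 1 := by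
  simpa using loc2_val_natCast_le_one v 2

lemma loc2_val_four_le_one : v (4 : K) ≤ 1 := by
  simpa using loc2_val_natCast_le_one v 4

lemma loc2_comp_neg (hW : Loc2Form W) (P : W.Point) : comp v W (-P) = comp v W P := by
  rcases P with _ | ⟨x, y, h⟩
  · rfl
  · rw [hW.neg_some h]; rfl

/-- Doubling at the level of points. -/
theorem loc2_comp_double (hW : Loc2Form W) (h₂ : v (W.a₁ ^ 2 + 4 * W.a₂) = 1)
    (ht1 : v W.a₄ < 1) (ht0 : W.a₄ ≠ 0) {x y : K} (h : W.Nonsingular x y) (hx : v x < 1) :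
    Rel (v W.a₄) (comp v W (Point.some x y h + Point.some x y h))
      (clamp (v W.a₄) (v x) * clamp (v W.a₄) (v x)) := by
  by_cases hy : y = W.negY x y
  · obtain ⟨e0, hden⟩ := hW.add_self_of_Y_eq h hy
    rw [e0, comp_zero]
    have hle := loc2_val_le_of_den_eq_zero v h₂ (loc2_val_four_le_one v) ht1 hden hx
    rw [clamp_of_le ht1.le hle]
    exact Rel.of_mul_eq_sq (one_mul _)
  · obtain ⟨ξ, η, k, e, hξ, hden⟩ := hW.add_self_of_Y_ne h hy
    rw [e, comp_some]
    exact loc2_double_val v h₂ (loc2_val_four_le_one v) ht1 ht0 hden hξ hx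

/-- The pair lemma at the level of points. -/
theorem loc2_comp_pair (hW : Loc2Form W) (h₂ : v (W.a₁ ^ 2 + 4 * W.a₂) = 1)
    (ht1 : v W.a₄ < 1) (ht0 : W.a₄ ≠ 0) {x₁ y₁ x₂ y₂ : K} (h₁ : W.Nonsingular x₁ y₁)
    (h₂' : W.Nonsingular x₂ y₂) (hx : v x₂ < 1) :
    PairRel (v W.a₄) (comp v W (Point.some x₁ y₁ h₁ + Point.some x₂ y₂ h₂'))
      (comp v W (Point.some x₁ y₁ h₁ - Point.some x₂ y₂ h₂'))
      (comp v W (Point.some x₁ y₁ h₁)) (comp v W (Point.some x₂ y₂ h₂')) := by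
  have hvt0 : v W.a₄ ≠ 0 := (Valuation.ne_zero_iff v).2 ht0
  by_cases hxx : x₁ = x₂
  · subst hxx
    have hc0 : clamp (v W.a₄) (v x₁) ≠ 0 := clamp_ne_zero hvt0
    have hy : y₁ = y₂ ∨ y₁ = -y₂ - W.a₁ * x₁ := by
      have e1 := hW.eqn h₁
      have e2 := hW.eqn h₂'
      have : (y₁ - y₂) * (y₁ + y₂ + W.a₁ * x₁) = 0 := by linear_combination e1 - e2
      rcases mul_eq_zero.1 this with h0 | h0
      · left; linear_combination h0
      · right; linear_combination h0
    rcases hy with rfl | rfl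
    · rw [sub_self, comp_zero, comp_some]
      exact Or.inl ⟨loc2_comp_double v hW h₂ ht1 ht0 h₁ hx, Rel.of_eq (div_self hc0).symm⟩
    · have e : Point.some x₁ (-y₂ - W.a₁ * x₁) h₁ = -Point.some x₁ y₂ h₂' := by
        rw [hW.neg_some h₂']
      rw [e, neg_add_cancel, comp_zero, loc2_comp_neg v hW, comp_some]
      have e2 : -Point.some x₁ y₂ h₂' - Point.some x₁ y₂ h₂' =
          -(Point.some x₁ y₂ h₂' + Point.some x₁ y₂ h₂') := by abel
      rw [e2, loc2_comp_neg v hW]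
      exact Or.inr ⟨Rel.of_eq (div_self hc0).symm, loc2_comp_double v hW h₂ ht1 ht0 h₂' hx⟩
  · obtain ⟨ξ₁, η₁, k₁, ξ₂, η₂, k₂, hadd, hsub, hS, hP⟩ := hW.add_sub_of_X_ne h₁ h₂' hxx
    rw [hadd, hsub]
    simp only [comp_some]
    exact loc2_pair_val v h₂ ht1 ht0 (loc2_val_two_le_one v) hxx hS hP (Or.inr hx)

/-- The component of `j • P` is related to the `j`-th power of the component of `P`. -/
theorem loc2_comp_nsmul (hW : Loc2Form W) (h₂ : v (W.a₁ ^ 2 + 4 * W.a₂) = 1)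
    (ht1 : v W.a₄ < 1) (ht0 : W.a₄ ≠ 0) {x y : K} (h : W.Nonsingular x y) (hx : v x < 1)
    (j : ℕ) :
    Rel (v W.a₄) (comp v W (j • Point.some x y h)) (clamp (v W.a₄) (v x) ^ j) := by
  have hvt0 : v W.a₄ ≠ 0 := (Valuation.ne_zero_iff v).2 ht0
  have hc0 : clamp (v W.a₄) (v x) ≠ 0 := clamp_ne_zero hvt0
  suffices H : ∀ j : ℕ,
      Rel (v W.a₄) (comp v W (j • Point.some x y h)) (clamp (v W.a₄) (v x) ^ j) ∧
      Rel (v W.a₄) (comp v W ((j + 1) • Point.some x y h)) (clamp (v W.a₄) (v x) ^ (j + 1)) from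
    (H j).1
  intro j
  induction j with
  | zero =>
    refine ⟨?_, ?_⟩
    · rw [zero_smul, comp_zero, pow_zero]; exact Rel.refl _ _
    · rw [zero_add, one_smul, comp_some, pow_one]; exact Rel.refl _ _
  | succ j ih =>
    refine ⟨ih.2, ?_⟩
    obtain ⟨ih0, ih1⟩ := ih
    have e1 : (j + 1 + 1) • Point.some x y h = (j + 1) • Point.some x y h + Point.some x y h :=
      succ_nsmul _ _
    have e0 : (j + 1) • Point.some x y h - Point.some x y h = j • Point.some x y h := by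
      rw [succ_nsmul, add_sub_cancel_right]
    rw [e1]
    rcases hQ : (j + 1) • Point.some x y h with _ | ⟨x₁, y₁, h₁⟩
    · rw [hQ] at ih1
      rw [show (Point.zero : W.Point) = 0 from rfl] at ih1 ⊢
      rw [zero_add, comp_some]
      rw [comp_zero] at ih1
      exact rel_of_one j ih1
    · rw [hQ] at ih1 e0
      have hpair := loc2_comp_pair v hW h₂ ht1 ht0 h₁ h hx
      rw [e0] at hpair
      exact rel_step hc0 j ih1 hpair ih0

/-- Torsion points of odd order reducing to the node have `x`-valuation a rational multiple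
of `v a₄`. -/
theorem loc2_node_torsion_val (hW : Loc2Form W) (h₂ : v (W.a₁ ^ 2 + 4 * W.a₂) = 1)
    (ht1 : v W.a₄ < 1) (ht0 : W.a₄ ≠ 0) (n : ℕ) (hn : Odd n)
    {x y : K} (h : W.Nonsingular x y) (hx : v x < 1) (hP : n • Point.some x y h = 0) :
    v W.a₄ < v x ∧ ∃ k : ℕ, v x ^ n = v W.a₄ ^ (2 * k) := by
  have hvt0 : v W.a₄ ≠ 0 := (Valuation.ne_zero_iff v).2 ht0
  have htpos : 0 < v W.a₄ := zero_lt_iff.2 hvt0
  have hrel := loc2_comp_nsmul v hW h₂ ht1 ht0 h hx n
  rw [hP, comp_zero] at hrel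
  obtain ⟨m, hm⟩ := rel_one_pow hvt0 ht1 (clamp_le_one ht1.le) n hrel
  have hlt : v W.a₄ < v x := by
    by_contra hcon
    rw [not_lt] at hcon
    rw [clamp_of_le ht1.le hcon] at hm
    have := (pow_right_injective₀ htpos ht1.ne) hm
    obtain ⟨r, hr⟩ := hn
    omega
  refine ⟨hlt, m, ?_⟩
  rw [clamp_of_mem hlt.le hx.le] at hm
  exact hm

end Fermat.Agent.S13
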