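import Mathlib
import Fermat.Agent.S05.KernelReduction
import Fermat.Agent.S13.Loc2Comp
import Fermat.Agent.S13.Loc2Branch

/-!
# S13, LOC2 (part 6): the local lemmas `E1`, `E2`, `E4`, `E5` in coordinates

`W : y² + xy = x³ + a₂x² + a₄x` over a valued field of residue characteristic `2` with
`v a₂ ≤ 1`, `0 < v a₄ < 1`.  A point `Q` is *off* if `comp v W Q = 1`, i.e. `Q = 0` or `1 ≤ v x`.
-/

set_option autoImplicit false
set_option linter.unusedSectionVars false
set_option linter.unusedVariables false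

namespace Fermat.Agent.S13

open WeierstrassCurve WeierstrassCurve.Affine
open Fermat.Agent.S05

variable {K : Type*} [Field K] [DecidableEq K] {Γ₀ : Type*} [LinearOrderedCommGroupWithZero Γ₀]
  (v : Valuation K Γ₀) {W : WeierstrassCurve.Affine K}

/-- The standing hypotheses of the local analysis at `2`. -/
structure Loc2Hyp (v : Valuation K Γ₀) (W : WeierstrassCurve.Affine K) : Prop where
  form : Loc2Form W
  v2 : v (2 : K) < 1
  a₁ : W.a₁ = 1
  b₂ : v (W.a₁ ^ 2 + 4 * W.a₂) = 1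
  a₂ : v W.a₂ ≤ 1
  a₄ : v W.a₄ < 1
  a₄0 : W.a₄ ≠ 0

variable {v}

lemma Loc2Hyp.va₁ (hH : Loc2Hyp v W) : v W.a₁ = 1 := by rw [hH.a₁, map_one]

lemma Loc2Hyp.integral (hH : Loc2Hyp v W) : KR.IntegralCoeffs v W where
  a₁ := hH.va₁.le
  a₂ := hH.a₂
  a₃ := by rw [hH.form.a₃, map_zero]; exact zero_le_one
  a₄ := hH.a₄.le
  a₆ := by rw [hH.form.a₆, map_zero]; exact zero_le_one

lemma loc2_comp_some_eq_one (ht1 : v W.a₄ < 1) {x y : K} (h : W.Nonsingular x y) :
    comp v W (Point.some x y h) = 1 ↔ 1 ≤ v x := by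
  rw [comp_some]
  constructor
  · intro h1
    by_contra hcon
    rw [not_le] at hcon
    have : clamp (v W.a₄) (v x) < 1 := by
      rw [clamp, min_eq_right hcon.le]
      exact max_lt ht1 hcon
    exact this.ne h1
  · intro h1
    exact clamp_of_one_le ht1.le h1

/-- A torsion point of order prime to the residue characteristic has integral coordinates. -/
lemma loc2_integral_of_torsion (hH : Loc2Hyp v W) {n : ℕ} (hn : v (n : K) = 1)
    {x y : K} (h : W.Nonsingular x y) (hP : n • Point.some x y h = 0) :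
    v x ≤ 1 ∧ v y ≤ 1 := by
  have hx : v x ≤ 1 := by
    by_contra hcon
    rw [not_le] at hcon
    exact KR.nsmul_ne_zero_of_one_lt_val hH.integral hn h hcon hP
  refine ⟨hx, ?_⟩
  by_contra hcon
  rw [not_le] at hcon
  exact absurd (KR.one_lt_val_x_of_one_lt_val_y hH.integral h.1 hcon) (not_lt.2 hx)

/-- (E4) multiples prime to `p` of a node point of order `p` are node points. -/
theorem loc2_node_nsmul (hH : Loc2Hyp v W) {p : ℕ} (hp : p.Prime) (hp2 : p ≠ 2)
    {x y : K} (h : W.Nonsingular x y) (hx : v x < 1) (hP : p • Point.some x y h = 0)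
    (k : ℕ) (hk : ¬ p ∣ k) : comp v W (k • Point.some x y h) ≠ 1 := by
  have hvt0 : v W.a₄ ≠ 0 := (Valuation.ne_zero_iff v).2 hH.a₄0
  have htpos : 0 < v W.a₄ := zero_lt_iff.2 hvt0
  obtain ⟨hlt, m, hm⟩ := loc2_node_torsion_val v hH.form hH.b₂ hH.a₄ hH.a₄0 p
    (hp.odd_of_ne_two hp2) h hx hP
  have hc : clamp (v W.a₄) (v x) = v x := clamp_of_mem hlt.le hx.le
  have hrel := loc2_comp_nsmul v hH.form hH.b₂ hH.a₄ hH.a₄0 h hx k
  intro h1
  rw [h1, hc] at hrel
  obtain ⟨m', hm'⟩ := rel_one_pow hvt0 hH.a₄ hx.le k hrel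
  have e : v W.a₄ ^ (2 * m' * p) = v W.a₄ ^ (2 * m * k) := by
    calc v W.a₄ ^ (2 * m' * p) = (v W.a₄ ^ (2 * m')) ^ p := by rw [pow_mul]
      _ = (v x ^ k) ^ p := by rw [hm']
      _ = (v x ^ p) ^ k := by rw [← pow_mul, ← pow_mul, mul_comm]
      _ = v W.a₄ ^ (2 * m * k) := by rw [hm, ← pow_mul]
  have e' : 2 * m' * p = 2 * m * k := (pow_right_injective₀ htpos hH.a₄.ne) e
  have hdvd : p ∣ m * k := by
    have : p ∣ 2 * (m * k) := ⟨2 * m', by rw [← mul_assoc, ← e']; ring⟩
    rcases (Nat.Prime.dvd_mul hp).1 this with h2 | h2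
    · exfalso
      have := (Nat.prime_dvd_prime_iff_eq hp Nat.prime_two).1 h2
      exact hp2 this
    · exact h2
  have hdm : p ∣ m := by
    rcases (Nat.Prime.dvd_mul hp).1 hdvd with h2 | h2
    · exact h2
    · exact absurd h2 hk
  obtain ⟨m₀, rfl⟩ := hdm
  have e2 : v x ^ p = (v W.a₄ ^ (2 * m₀)) ^ p := by
    rw [hm, ← pow_mul]; congr 1; ring
  have hp0 : p ≠ 0 := hp.ne_zero
  have e3 : v x = v W.a₄ ^ (2 * m₀) := by
    apply le_antisymm
    · exact (pow_le_pow_iff_left₀ zero_le zero_le hp0).1 e2.le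
    · exact (pow_le_pow_iff_left₀ zero_le zero_le hp0).1 e2.ge
  rcases Nat.eq_zero_or_pos m₀ with rfl | hpos
  · rw [e3] at hx
    simp at hx
  · have : v W.a₄ ^ (2 * m₀) ≤ v W.a₄ ^ 1 :=
      pow_le_pow_right_of_le_one' hH.a₄.le (by omega)
    rw [pow_one, ← e3] at this
    exact absurd hlt (not_lt.2 this)

/-- (E2) an off torsion point is fixed by an automorphism which is trivial on the residue
field. -/
theorem loc2_off_fixed (hH : Loc2Hyp v W) {n : ℕ} (hn : v (n : K) = 1) (σ : K →+* K)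
    (hσ : ∀ a : K, v a ≤ 1 → v (σ a - a) < 1)
    {x y : K} (h : W.Nonsingular x y) (h' : W.Nonsingular (σ x) (σ y)) (hx : 1 ≤ v x)
    (hP : n • Point.some x y h = 0) (hQ : n • Point.some (σ x) (σ y) h' = 0) :
    σ x = x ∧ σ y = y := by
  obtain ⟨hx1, hy1⟩ := loc2_integral_of_torsion hH hn h hP
  have hxe : v x = 1 := le_antisymm hx1 hx
  rcases loc2_congr_sub v hH.form hH.v2 hH.va₁ hH.a₂ h' h hxe hy1 (hσ x hx1) (hσ y hy1) with
    h0 | ⟨ξ, η, k, e, hξ⟩
  · have := sub_eq_zero.1 h0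
    rw [Point.some.injEq] at this
    exact this
  · exfalso
    have h1 : n • Point.some ξ η k = 0 := by
      rw [← e, smul_sub, hP, hQ, sub_zero]
    exact KR.nsmul_ne_zero_of_one_lt_val hH.integral hn k hξ h1

/-- (E1) an automorphism which is trivial on the residue field, preserves the valuation and
fixes the tangent directions moves a torsion point by an off point. -/
theorem loc2_inertia_sub_off (hH : Loc2Hyp v W) {n : ℕ} (hn : v (n : K) = 1) (hodd : Odd n)
    {α α' : K} (hsum : α + α' = -W.a₁) (hprod : α * α' = -W.a₂) (hαα' : v (α - α') = 1)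
    (σ : K →+* K) (hσ : ∀ a : K, v a ≤ 1 → v (σ a - a) < 1) (hσv : ∀ a : K, v (σ a) = v a)
    (hσα : σ α = α) (hσα' : σ α' = α')
    {x y : K} (h : W.Nonsingular x y) (h' : W.Nonsingular (σ x) (σ y))
    (hP : n • Point.some x y h = 0) (hQ : n • Point.some (σ x) (σ y) h' = 0) :
    comp v W (Point.some (σ x) (σ y) h' - Point.some x y h) = 1 := by
  by_cases hx : 1 ≤ v x
  · obtain ⟨e1, e2⟩ := loc2_off_fixed hH hn σ hσ h h' hx hP hQ
    have : Point.some (σ x) (σ y) h' = Point.some x y h := by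
      rw [Point.some.injEq]; exact ⟨e1, e2⟩
    rw [this, sub_self, comp_zero]
  · rw [not_le] at hx
    obtain ⟨hlt, -⟩ := loc2_node_torsion_val v hH.form hH.b₂ hH.a₄ hH.a₄0 n hodd h hx hP
    have hx0 : x ≠ 0 := by
      rintro rfl
      rw [map_zero] at hlt
      exact not_lt_zero hlt
    have hσx0 : σ x ≠ 0 := by
      intro h0
      have := hσv x
      rw [h0, map_zero] at this
      exact hx0 ((map_eq_zero v).1 this.symm)
    have hσx : v (σ x) < 1 := by rw [hσv]; exact hx
    have eα : σ y - α * σ x = σ (y - α * x) := by rw [map_sub, map_mul, hσα]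
    have eα' : σ y - α' * σ x = σ (y - α' * x) := by rw [map_sub, map_mul, hσα']
    have key : Point.some (σ x) (σ y) h' - Point.some x y h = 0 ∨
        ∃ (ξ η : K) (k : W.Nonsingular ξ η),
          Point.some (σ x) (σ y) h' - Point.some x y h = Point.some ξ η k ∧ 1 ≤ v ξ := by
      rcases loc2_branch_dichotomy v hH.form hsum hprod hαα' h hx hlt with ⟨hb, hb'⟩ | ⟨hb, hb'⟩
      · refine loc2_branch_sub v hH.form hsum hprod h' h hσx hσx0 (hσv x).symm ?_ ?_ hb hb'
        · rw [eα, hσv, hσv]; exact hb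
        · rw [eα', hσv, hσv]; exact hb'
      · have hsum' : α' + α = -W.a₁ := by rw [add_comm]; exact hsum
        have hprod' : α' * α = -W.a₂ := by rw [mul_comm]; exact hprod
        refine loc2_branch_sub v hH.form hsum' hprod' h' h hσx hσx0 (hσv x).symm ?_ ?_ hb hb'
        · rw [eα', hσv, hσv]; exact hb
        · rw [eα, hσv, hσv]; exact hb'
    rcases key with h0 | ⟨ξ, η, k, e, hξ⟩
    · rw [h0, comp_zero]
    · rw [e]
      exact (loc2_comp_some_eq_one hH.a₄ k).2 hξ

/-- (E5) there is no off point of prime order `p ≠ 2, 3` whose coordinates, and those of its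
double, are congruent to `0` or `1`. -/
theorem loc2_rational_off (hH : Loc2Hyp v W) {p : ℕ} (hp : p.Prime) (hp2 : p ≠ 2) (hp3 : p ≠ 3)
    (hvp : v (p : K) = 1)
    {x y : K} (h : W.Nonsingular x y) (hx : 1 ≤ v x) (hP : p • Point.some x y h = 0)
    (hxR : v x ≤ 1 → v x < 1 ∨ v (x - 1) < 1) (hyR : v y ≤ 1 → v y < 1 ∨ v (y - 1) < 1)
    (h2R : ∀ (ξ η : K) (k : W.Nonsingular ξ η),
      Point.some x y h + Point.some x y h = Point.some ξ η k →
      (v ξ ≤ 1 → v ξ < 1 ∨ v (ξ - 1) < 1) ∧ (v η ≤ 1 → v η < 1 ∨ v (η - 1) < 1)) : False := by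
  obtain ⟨hx1, hy1⟩ := loc2_integral_of_torsion hH hvp h hP
  have hxe : v x = 1 := le_antisymm hx1 hx
  have sub_lt : ∀ a b : K, v a < 1 → v b < 1 → v (a - b) < 1 := fun a b ha hb =>
    lt_of_le_of_lt (v.map_sub a b) (max_lt ha hb)
  have add_lt : ∀ a b : K, v a < 1 → v b < 1 → v (a + b) < 1 := fun a b ha hb =>
    lt_of_le_of_lt (v.map_add a b) (max_lt ha hb)
  have hQ0 : Point.some x y h ≠ 0 := Point.some_ne_zero h
  obtain ⟨j, hj⟩ := hp.odd_of_ne_two hp2
  have hj1 : 1 ≤ j := by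
    have := hp.two_le
    omega
  have h2Q : Point.some x y h + Point.some x y h ≠ 0 := by
    intro h0
    apply hQ0
    have e1 : (2 * j + 1) • Point.some x y h =
        j • (Point.some x y h + Point.some x y h) + Point.some x y h := by
      rw [add_nsmul, one_nsmul, mul_comm, mul_nsmul', two_nsmul]
    rw [← hj, hP, h0, smul_zero, zero_add] at e1
    exact e1.symm
  obtain ⟨ξ, η, k, e⟩ : ∃ (ξ η : K) (k : W.Nonsingular ξ η),
      Point.some x y h + Point.some x y h = Point.some ξ η k := by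
    rcases hq : Point.some x y h + Point.some x y h with _ | ⟨ξ, η, k⟩
    · exact absurd hq h2Q
    · exact ⟨ξ, η, k, rfl⟩
  have hP2 : p • Point.some ξ η k = 0 := by
    rw [← e, smul_add, hP, add_zero]
  obtain ⟨hξ1, hη1⟩ := loc2_integral_of_torsion hH hvp k hP2
  have hξ : 1 ≤ v ξ := by
    by_contra hcon
    rw [not_le] at hcon
    have hnd : ¬ p ∣ j + 1 := by
      intro hd
      have := Nat.le_of_dvd (by omega) hd
      omega
    apply loc2_node_nsmul hH hp hp2 k hcon hP2 (j + 1) hnd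
    have e1 : (j + 1) • Point.some ξ η k = Point.some x y h := by
      rw [← e, ← two_nsmul, ← mul_nsmul']
      have : (j + 1) * 2 = p + 1 := by omega
      rw [this, add_nsmul, hP, one_nsmul, zero_add]
    rw [e1]
    exact (loc2_comp_some_eq_one hH.a₄ h).2 hx
  have hξe : v ξ = 1 := le_antisymm hξ1 hξ
  obtain ⟨hξR, hηR⟩ := h2R ξ η k e
  have hx' : v (x - 1) < 1 := (hxR hx1).resolve_left (by rw [hxe]; exact lt_irrefl _)
  have hξ' : v (ξ - 1) < 1 := (hξR hξ1).resolve_left (by rw [hξe]; exact lt_irrefl _)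
  have hξx : v (ξ - x) < 1 := by
    have : ξ - x = (ξ - 1) - (x - 1) := by ring
    rw [this]
    exact sub_lt _ _ hξ' hx'
  -- the two cases
  have same : v (η - y) < 1 → False := by
    intro hηy
    rcases loc2_congr_sub v hH.form hH.v2 hH.va₁ hH.a₂ k h hxe hy1 hξx hηy with
      h0 | ⟨ξ', η', k', e', hξ''⟩
    · rw [← e, add_sub_cancel_right] at h0
      exact hQ0 h0
    · rw [← e, add_sub_cancel_right, Point.some.injEq] at e'
      rw [e'.1] at hx1
      exact absurd hξ'' (not_lt.2 hx1)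
  have diff : v (η + y + x) < 1 → False := by
    intro hηy
    have hneg := hH.form.neg_some h
    have hy₂ : v (-y - W.a₁ * x) ≤ 1 := by
      rw [hH.a₁, one_mul]
      calc v (-y - x) ≤ max (v (-y)) (v x) := v.map_sub _ _
        _ ≤ 1 := max_le (by rw [Valuation.map_neg]; exact hy1) hx1
    have hy' : v (η - (-y - W.a₁ * x)) < 1 := by
      have : η - (-y - W.a₁ * x) = η + y + x := by rw [hH.a₁]; ring
      rw [this]
      exact hηy
    have e3 : Point.some ξ η k - Point.some x (-y - W.a₁ * x) (hH.form.nonsingular_neg h) =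
        3 • Point.some x y h := by
      rw [← hneg, sub_neg_eq_add, ← e]
      rw [show (3 : ℕ) = 2 + 1 from rfl, add_nsmul, two_nsmul, one_nsmul]
    rcases loc2_congr_sub v hH.form hH.v2 hH.va₁ hH.a₂ k (hH.form.nonsingular_neg h) hxe hy₂
      hξx hy' with h0 | ⟨ξ', η', k', e', hξ''⟩
    · rw [e3] at h0
      apply hQ0
      have h3 : addOrderOf (Point.some x y h) ∣ 3 := addOrderOf_dvd_of_nsmul_eq_zero h0
      have hpd : addOrderOf (Point.some x y h) ∣ p := addOrderOf_dvd_of_nsmul_eq_zero hP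
      have hcop : Nat.Coprime 3 p := (Nat.coprime_primes Nat.prime_three hp).2 (Ne.symm hp3)
      have h1 : addOrderOf (Point.some x y h) = 1 :=
        Nat.eq_one_of_dvd_coprimes hcop h3 hpd
      exact AddMonoid.addOrderOf_eq_one_iff.1 h1
    · rw [e3] at e'
      have h1 : p • Point.some ξ' η' k' = 0 := by
        rw [← e', smul_comm, hP, smul_zero]
      exact KR.nsmul_ne_zero_of_one_lt_val hH.integral hvp k' hξ'' h1
  rcases hyR hy1 with hy0 | hy0 <;> rcases hηR hη1 with hη0 | hη0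
  · exact same (sub_lt _ _ hη0 hy0)
  · apply diff
    have : η + y + x = (η - 1) + y + (x - 1) + 2 := by ring
    rw [this]
    exact add_lt _ _ (add_lt _ _ (add_lt _ _ hη0 hy0) hx') hH.v2
  · apply diff
    have : η + y + x = η + (y - 1) + (x - 1) + 2 := by ring
    rw [this]
    exact add_lt _ _ (add_lt _ _ (add_lt _ _ hη0 hy0) hx') hH.v2
  · apply same
    have : η - y = (η - 1) - (y - 1) := by ring
    rw [this]
    exact sub_lt _ _ hη0 hy0

end Fermat.Agent.S13
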