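import Mathlib
import Fermat.Agent.S13.Defs
import Fermat.Agent.S13.Loc2Defs
import Fermat.Agent.S13.Loc2Local
import Fermat.Agent.S05.Inertia
import Fermat.Agent.S05.Final

/-!
# S13, LOC2 (part 7): the local analysis at `2` of the Frey curve

`loc2_of`: `Loc2Statement` from the delegated slices (`Loc2FreyStatement`, `Loc2RamStatement`,
`Loc2AsmStatement`) and the `Qbar` bridge (`Loc2ValStatement`, `Loc2RatStatement`,
`Loc2PlaceStatement`).
-/

set_option autoImplicit false
set_option linter.unusedSectionVars false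
set_option linter.unusedVariables false

open WeierstrassCurve WeierstrassCurve.Affine WeierstrassCurve.Affine.Point

namespace Fermat.Agent.S13

open Fermat.Agent.S05

local notation "Qbar" => AlgebraicClosure ℚ
local notation "GQ" => (AlgebraicClosure ℚ ≃ₐ[ℚ] AlgebraicClosure ℚ)

/-- (bridge) the inertia group preserves the valuation. -/
def Loc2ValStatement : Prop :=
  ∀ (A : ValuationSubring Qbar) (σ : GQ), σ ∈ A.inertiaSubgroupIn ℚ →
    ∀ a : Qbar, A.valuation (σ a) = A.valuation a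

/-- (bridge) elements fixed by the absolute Galois group are rational. -/
def Loc2RatStatement : Prop :=
  ∀ x : Qbar, (∀ σ : GQ, σ x = x) → ∃ r : ℚ, algebraMap ℚ Qbar r = x

/-- (bridge) there is a place over `2`. -/
def Loc2PlaceStatement : Prop :=
  ∃ A : ValuationSubring Qbar, A.LiesOverPrime 2

/-- The exponent in `loc2_node_torsion_val` is prime to `p`. -/
theorem loc2_node_torsion_val' {K : Type*} [Field K] [DecidableEq K] {Γ₀ : Type*}
    [LinearOrderedCommGroupWithZero Γ₀] {v : Valuation K Γ₀} {W : WeierstrassCurve.Affine K}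
    (hH : Loc2Hyp v W) {p : ℕ} (hp : p.Prime) (hp2 : p ≠ 2)
    {x y : K} (h : W.Nonsingular x y) (hx : v x < 1) (hP : p • Point.some x y h = 0) :
    ∃ k : ℕ, ¬ p ∣ k ∧ v x ^ p = v W.a₄ ^ (2 * k) := by
  obtain ⟨hlt, m, hm⟩ := loc2_node_torsion_val v hH.form hH.b₂ hH.a₄ hH.a₄0 p
    (hp.odd_of_ne_two hp2) h hx hP
  refine ⟨m, ?_, hm⟩
  rintro ⟨m₀, rfl⟩
  have e2 : v x ^ p = (v W.a₄ ^ (2 * m₀)) ^ p := by
    rw [hm, ← pow_mul]; congr 1; ring
  have hp0 : p ≠ 0 := hp.ne_zero
  have e3 : v x = v W.a₄ ^ (2 * m₀) := by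
    apply le_antisymm
    · exact (pow_le_pow_iff_left₀ zero_le zero_le hp0).1 e2.le
    · exact (pow_le_pow_iff_left₀ zero_le zero_le hp0).1 e2.ge
  rcases Nat.eq_zero_or_pos m₀ with rfl | hpos
  · rw [e3] at hx
    simp at hx
  · have : v W.a₄ ^ (2 * m₀) ≤ v W.a₄ ^ 1 :=
      pow_le_pow_right_of_le_one' hH.a₄.le (by omega)
    rw [pow_one, ← e3] at this
    exact absurd hlt (not_lt.2 this)

section frey

variable (P : FreyPackage) (A : ValuationSubring Qbar)

/-- The standing hypotheses hold for the Frey curve at a place over `2`. -/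
lemma loc2_hyp (hF : Loc2FreyStatement) (hA : A.LiesOverPrime 2) :
    Loc2Hyp A.valuation (P.freyCurve⁄Qbar).toAffine := by
  obtain ⟨hv2, -, -, hb₂, ha₂, ha₄0, ⟨M, hM0, -, hM⟩, -, -⟩ := hF P A hA
  refine ⟨⟨frey_a₃ P, frey_a₆ P⟩, hv2, frey_a₁ P, hb₂, ha₂, ?_, ha₄0⟩
  have e : A.valuation (P.freyCurve⁄Qbar).toAffine.a₄ = A.valuation (2 : Qbar) ^ M := hM
  rw [e]
  exact pow_lt_one₀ zero_le hv2 hM0.ne'

end frey

/-- `Loc2Statement` from the slices. -/
theorem loc2_of (hF : Loc2FreyStatement) (hR : Loc2RamStatement) (hAsm : Loc2AsmStatement)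
    (hV : Loc2ValStatement) (hRat : Loc2RatStatement) (hPl : Loc2PlaceStatement) :
    Loc2Statement := by
  intro P N hN h0 h1 hcard
  have hp2 : P.p ≠ 2 := by have := P.hp5; omega
  have hp3 : P.p ≠ 3 := by have := P.hp5; omega
  refine hAsm P N hN h0 h1 hcard
    (fun A x => comp A.valuation (P.freyCurve⁄Qbar).toAffine x.1 = 1) hPl ?_ ?_ ?_ ?_ ?_
  · -- E1
    intro A hA σ hσ x
    have hH := loc2_hyp P A hF hA
    obtain ⟨-, hvp, -, -, -, -, -, ⟨α, α', hsum, hprod, hαα', -, -, hσα⟩, -⟩ := hF P A hA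
    obtain ⟨x, hx⟩ := x
    rw [Submodule.mem_torsionBy_iff] at hx
    show comp A.valuation (P.freyCurve⁄Qbar).toAffine (σ • x - x) = 1
    rcases x with _ | ⟨x0, y0, h0⟩
    · have e : σ • (Point.zero : (P.freyCurve⁄Qbar).toAffine.Point) - Point.zero = 0 := by
        show σ • (0 : (P.freyCurve⁄Qbar).toAffine.Point) - 0 = 0
        have e0 : σ • (0 : (P.freyCurve⁄Qbar).toAffine.Point) = 0 := rfl
        rw [e0, sub_zero]
      rw [e, comp_zero]
    have hxn : P.p • Point.some x0 y0 h0 = 0 := by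
      rw [← natCast_zsmul]; exact hx
    have hQz : (P.p : ℤ) • (σ • Point.some x0 y0 h0) = 0 := by
      rw [← algEquiv_smul_zsmul, hx, smul_zero]
    have hQ0 : P.p • (σ • Point.some x0 y0 h0) = 0 := by
      rw [← natCast_zsmul]; exact hQz
    rw [algEquiv_smul_def, Point.map_some] at hQ0 ⊢
    exact loc2_inertia_sub_off hH hvp P.hp_odd hsum hprod hαα' σ.toAlgHom.toRingHom
      (fun a ha => inertia_sub_lt_one A σ hσ a ha) (hV A σ hσ) (hσα σ hσ).1 (hσα σ hσ).2
      h0 _ hxn hQ0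
  · -- E2
    intro A hA σ hσ x hoff
    have hH := loc2_hyp P A hF hA
    obtain ⟨-, hvp, -, -, -, -, -, -, -⟩ := hF P A hA
    obtain ⟨x, hx⟩ := x
    rw [Submodule.mem_torsionBy_iff] at hx
    apply Subtype.ext
    show σ • x = x
    rcases x with _ | ⟨x0, y0, h0⟩
    · rfl
    have hoff' : comp A.valuation (P.freyCurve⁄Qbar).toAffine (Point.some x0 y0 h0) = 1 := hoff
    have hx1 : 1 ≤ A.valuation x0 := (loc2_comp_some_eq_one hH.a₄ h0).1 hoff'
    have hxn : P.p • Point.some x0 y0 h0 = 0 := by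
      rw [← natCast_zsmul]; exact hx
    have hQz : (P.p : ℤ) • (σ • Point.some x0 y0 h0) = 0 := by
      rw [← algEquiv_smul_zsmul, hx, smul_zero]
    have hQ0 : P.p • (σ • Point.some x0 y0 h0) = 0 := by
      rw [← natCast_zsmul]; exact hQz
    rw [algEquiv_smul_def, Point.map_some] at hQ0 ⊢
    rw [Point.some.injEq]
    exact loc2_off_fixed hH hvp σ.toAlgHom.toRingHom
      (fun a ha => inertia_sub_lt_one A σ hσ a ha) h0 _ hx1 hxn hQ0
  · -- E3
    intro A hA x hoff
    have hH := loc2_hyp P A hF hA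
    obtain ⟨-, -, -, -, -, -, ⟨M, hM0, hMp, hM⟩, -, -⟩ := hF P A hA
    obtain ⟨x, hx⟩ := x
    rw [Submodule.mem_torsionBy_iff] at hx
    rcases x with _ | ⟨x0, y0, h0⟩
    · exact absurd (comp_zero (v := A.valuation) (W := (P.freyCurve⁄Qbar).toAffine)) hoff
    have hoff' : ¬ comp A.valuation (P.freyCurve⁄Qbar).toAffine (Point.some x0 y0 h0) = 1 := hoff
    have hx1 : A.valuation x0 < 1 := by
      by_contra hcon
      rw [not_lt] at hcon
      exact hoff' ((loc2_comp_some_eq_one hH.a₄ h0).2 hcon)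
    have hxn : P.p • Point.some x0 y0 h0 = 0 := by
      rw [← natCast_zsmul]; exact hx
    obtain ⟨k, hk, hval⟩ := loc2_node_torsion_val' hH P.pp hp2 h0 hx1 hxn
    have e : A.valuation (P.freyCurve⁄Qbar).toAffine.a₄ = A.valuation (2 : Qbar) ^ M := hM
    rw [e, ← pow_mul] at hval
    have hJ : ¬ P.p ∣ M * (2 * k) := by
      intro hd
      rcases (Nat.Prime.dvd_mul P.pp).1 hd with h2 | h2
      · exact hMp h2
      · rcases (Nat.Prime.dvd_mul P.pp).1 h2 with h3 | h3
        · exact hp2 ((Nat.prime_dvd_prime_iff_eq P.pp Nat.prime_two).1 h3)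
        · exact hk h3
    obtain ⟨σ, hσ, hne⟩ := hR P.p P.pp hp2 A hA x0 _ hJ hval
    refine ⟨σ, hσ, ?_⟩
    intro heq
    have h1 : σ • (Point.some x0 y0 h0 : (P.freyCurve⁄Qbar).toAffine.Point) =
        Point.some x0 y0 h0 := congrArg Subtype.val heq
    rw [algEquiv_smul_def, Point.map_some, Point.some.injEq] at h1
    exact hne h1.1
  · -- E4
    intro A hA x hoff k hk
    have hH := loc2_hyp P A hF hA
    obtain ⟨x, hx⟩ := x
    rw [Submodule.mem_torsionBy_iff] at hx
    rcases x with _ | ⟨x0, y0, h0⟩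
    · exact absurd (comp_zero (v := A.valuation) (W := (P.freyCurve⁄Qbar).toAffine)) hoff
    have hoff' : ¬ comp A.valuation (P.freyCurve⁄Qbar).toAffine (Point.some x0 y0 h0) = 1 := hoff
    have hx1 : A.valuation x0 < 1 := by
      by_contra hcon
      rw [not_lt] at hcon
      exact hoff' ((loc2_comp_some_eq_one hH.a₄ h0).2 hcon)
    have hxn : P.p • Point.some x0 y0 h0 = 0 := by
      rw [← natCast_zsmul]; exact hx
    show ¬ comp A.valuation (P.freyCurve⁄Qbar).toAffine (k • Point.some x0 y0 h0) = 1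
    exact loc2_node_nsmul hH P.pp hp2 h0 hx1 hxn k hk
  · -- E5
    intro A hA x hoff hfix
    have hH := loc2_hyp P A hF hA
    obtain ⟨-, hvp, -, -, -, -, -, -, hres⟩ := hF P A hA
    obtain ⟨x, hx⟩ := x
    rw [Submodule.mem_torsionBy_iff] at hx
    apply Subtype.ext
    show x = 0
    rcases x with _ | ⟨x0, y0, h0⟩
    · rfl
    exfalso
    have hoff' : comp A.valuation (P.freyCurve⁄Qbar).toAffine (Point.some x0 y0 h0) = 1 := hoff
    have hx1 : 1 ≤ A.valuation x0 := (loc2_comp_some_eq_one hH.a₄ h0).1 hoff'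
    have hxn : P.p • Point.some x0 y0 h0 = 0 := by
      rw [← natCast_zsmul]; exact hx
    have hfix' : ∀ σ : GQ, σ • (Point.some x0 y0 h0 : (P.freyCurve⁄Qbar).toAffine.Point) =
        Point.some x0 y0 h0 := fun σ => congrArg Subtype.val (hfix σ)
    have hrat : ∀ z : Qbar, (∀ σ : GQ, σ z = z) →
        (A.valuation z ≤ 1 → A.valuation z < 1 ∨ A.valuation (z - 1) < 1) := by
      intro z hz
      obtain ⟨r, rfl⟩ := hRat z hz
      exact hres r
    have hxfix : ∀ σ : GQ, σ x0 = x0 ∧ σ y0 = y0 := by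
      intro σ
      have h1 := hfix' σ
      rw [algEquiv_smul_def, Point.map_some, Point.some.injEq] at h1
      exact h1
    refine loc2_rational_off hH P.pp hp2 hp3 hvp h0 hx1 hxn (hrat x0 fun σ => (hxfix σ).1)
      (hrat y0 fun σ => (hxfix σ).2) ?_
    intro ξ η k e
    have h2fix : ∀ σ : GQ, σ ξ = ξ ∧ σ η = η := by
      intro σ
      have h1 : σ • (Point.some ξ η k : (P.freyCurve⁄Qbar).toAffine.Point) =
          Point.some ξ η k := by
        rw [← e, algEquiv_smul_def, map_add]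
        exact congrArg₂ (· + ·) (hfix' σ) (hfix' σ)
      rw [algEquiv_smul_def, Point.map_some, Point.some.injEq] at h1
      exact h1
    exact ⟨hrat ξ fun σ => (h2fix σ).1, hrat η fun σ => (h2fix σ).2⟩

end Fermat.Agent.S13
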