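/-
S13, slice (LOC2-ASM): the linear algebra of the local analysis at `2`.
Owner: helper24.  Prefix `loc2A_`.

From the local facts `E1`-`E5` about an abstract predicate `off` at the places over `2` we get the
three conclusions of `Loc2Statement` for a Galois-stable line `N` of the two-dimensional `V`.
-/
import Mathlib
import Fermat.Agent.S13.Defs
import Fermat.Agent.S13.Loc2Defs

set_option autoImplicit false

open WeierstrassCurve WeierstrassCurve.Affine WeierstrassCurve.Affine.Point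

namespace Fermat.Agent.S13

local notation "Qbar" => AlgebraicClosure ℚ
local notation "GQ" => (AlgebraicClosure ℚ ≃ₐ[ℚ] AlgebraicClosure ℚ)

section Abstract

variable {p : ℕ} [Fact p.Prime] {V : Type*} [AddCommGroup V] [Module (ZMod p) V]

/-- a space with `p²` elements has dimension `2`. -/
theorem loc2A_finrank_eq_two (hcard : Nat.card V = p ^ 2) :
    Finite V ∧ Module.finrank (ZMod p) V = 2 := by
  have hp : 1 < p := (Fact.out : p.Prime).one_lt
  have hfin : Finite V := by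
    apply Nat.finite_of_card_ne_zero
    rw [hcard]
    positivity
  refine ⟨hfin, ?_⟩
  have hc : Nat.card V = p ^ Module.finrank (ZMod p) V := by
    rw [Module.natCard_eq_pow_finrank (K := ZMod p) (V := V), Nat.card_zmod]
  rw [hcard] at hc
  exact (Nat.pow_right_injective hp hc).symm

/-- a proper nonzero subspace of a space with `p²` elements is a line. -/
theorem loc2A_finrank_eq_one (hcard : Nat.card V = p ^ 2) (N : Submodule (ZMod p) V)
    (hN0 : N ≠ ⊥) (hN1 : N ≠ ⊤) : Module.finrank (ZMod p) N = 1 := by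
  obtain ⟨hfin, h2⟩ := loc2A_finrank_eq_two (p := p) (V := V) hcard
  have hlt : Module.finrank (ZMod p) N < Module.finrank (ZMod p) V :=
    Submodule.finrank_lt hN1
  have hpos : 0 < Module.finrank (ZMod p) N := by
    rw [Module.finrank_pos_iff]
    exact Submodule.nontrivial_iff_ne_bot.mpr hN0
  omega

/-- in a line, every element is a natural multiple of a given nonzero element, and the
multiplier of a nonzero element is prime to `p`. -/
theorem loc2A_exists_nsmul (hcard : Nat.card V = p ^ 2) (N : Submodule (ZMod p) V)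
    (hN0 : N ≠ ⊥) (hN1 : N ≠ ⊤) {x R : V} (hx : x ∈ N) (hx0 : x ≠ 0) (hR : R ∈ N) :
    ∃ k : ℕ, R = k • x ∧ (R ≠ 0 → ¬ p ∣ k) := by
  have h1 := loc2A_finrank_eq_one hcard N hN0 hN1
  have hx0' : (⟨x, hx⟩ : N) ≠ 0 := fun h => hx0 (congrArg Subtype.val h)
  obtain ⟨c, hc⟩ := (finrank_eq_one_iff_of_nonzero' (⟨x, hx⟩ : N) hx0').mp h1 ⟨R, hR⟩
  have hc' : c • x = R := congrArg Subtype.val hc
  refine ⟨c.val, ?_, ?_⟩
  · rw [← hc', ← Nat.cast_smul_eq_nsmul (ZMod p) c.val x, ZMod.natCast_zmod_val]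
  · intro hR0 hdvd
    apply hR0
    rw [← hc']
    have : c = 0 := by
      rw [← ZMod.natCast_zmod_val c]
      exact (ZMod.natCast_eq_zero_iff _ _).mpr hdvd
    rw [this, zero_smul]

/-- a line and a vector outside it span the plane. -/
theorem loc2A_exists_add_nsmul (hcard : Nat.card V = p ^ 2) (N : Submodule (ZMod p) V)
    (hN0 : N ≠ ⊥) {R : V} (hR : R ∉ N) (v : V) :
    ∃ n ∈ N, ∃ k : ℕ, v = n + k • R := by
  obtain ⟨hfin, h2⟩ := loc2A_finrank_eq_two (p := p) (V := V) hcard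
  have hlt : N < N ⊔ Submodule.span (ZMod p) {R} := by
    refine lt_of_le_of_ne le_sup_left ?_
    intro h
    apply hR
    rw [h]
    exact Submodule.mem_sup_right (Submodule.mem_span_singleton_self R)
  have h1 : Module.finrank (ZMod p) N < Module.finrank (ZMod p)
      (N ⊔ Submodule.span (ZMod p) {R} : Submodule (ZMod p) V) :=
    Submodule.finrank_lt_finrank_of_lt hlt
  have hpos : 0 < Module.finrank (ZMod p) N := by
    rw [Module.finrank_pos_iff]
    exact Submodule.nontrivial_iff_ne_bot.mpr hN0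
  have hle : Module.finrank (ZMod p)
      (N ⊔ Submodule.span (ZMod p) {R} : Submodule (ZMod p) V) ≤ Module.finrank (ZMod p) V :=
    Submodule.finrank_le _
  have htop : N ⊔ Submodule.span (ZMod p) {R} = ⊤ := by
    apply Submodule.eq_top_of_finrank_eq
    omega
  have hv : v ∈ N ⊔ Submodule.span (ZMod p) {R} := by
    rw [htop]
    exact Submodule.mem_top
  obtain ⟨n, hn, w, hw, rfl⟩ := Submodule.mem_sup.mp hv
  obtain ⟨c, rfl⟩ := Submodule.mem_span_singleton.mp hw
  refine ⟨n, hn, c.val, ?_⟩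
  rw [← Nat.cast_smul_eq_nsmul (ZMod p) c.val R, ZMod.natCast_zmod_val]

variable {G : Type*} [Group G] [DistribMulAction G V]

/-- the abstract form of (LOC2-ASM): `ι` indexes the places over `2`, `I i` is the inertia
group of the place `i`. -/
theorem loc2A_core {ι : Type*} (I : ι → Subgroup G) (hcard : Nat.card V = p ^ 2)
    (N : Submodule (ZMod p) V) (hst : ∀ σ : G, ∀ x ∈ N, σ • x ∈ N) (hN0 : N ≠ ⊥)
    (hN1 : N ≠ ⊤) (off : ι → V → Prop) (hne : Nonempty ι)
    (E1 : ∀ i, ∀ σ ∈ I i, ∀ x : V, off i (σ • x - x))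
    (E2 : ∀ i, ∀ σ ∈ I i, ∀ x : V, off i x → σ • x = x)
    (E3 : ∀ i, ∀ x : V, ¬ off i x → ∃ σ ∈ I i, σ • x ≠ x)
    (E4 : ∀ i, ∀ x : V, ¬ off i x → ∀ k : ℕ, ¬ p ∣ k → ¬ off i (k • x))
    (E5 : ∀ i, ∀ x : V, off i x → (∀ σ : G, σ • x = x) → x = 0) :
    (∀ i, ∀ σ ∈ I i, ∀ x : V, σ • x - x ∈ N) ∧
    (∀ i, ∀ σ ∈ I i, ∀ x ∈ N, σ • x = x) ∧
    (∃ σ : G, ∃ x ∈ N, σ • x ≠ x) := by
  -- (a) every element of `N` is off at every place
  have ha : ∀ i, ∀ x ∈ N, off i x := by
    intro i x hx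
    by_contra hoff
    obtain ⟨σ, hσ, hσx⟩ := E3 i x hoff
    have hx0 : x ≠ 0 := by
      rintro rfl
      exact hσx (smul_zero σ)
    have hR : σ • x - x ∈ N := N.sub_mem (hst σ x hx) hx
    have hR0 : σ • x - x ≠ 0 := sub_ne_zero.mpr hσx
    obtain ⟨k, hk, hkp⟩ := loc2A_exists_nsmul hcard N hN0 hN1 hx hx0 hR
    have h4 := E4 i x hoff k (hkp hR0)
    rw [← hk] at h4
    exact h4 (E1 i σ hσ x)
  -- (b) inertia fixes `N` pointwise
  have hb : ∀ i, ∀ σ ∈ I i, ∀ x ∈ N, σ • x = x :=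
    fun i σ hσ x hx => E2 i σ hσ x (ha i x hx)
  refine ⟨?_, hb, ?_⟩
  · -- (c)
    intro i σ hσ x
    by_contra hR
    have hRoff : off i (σ • x - x) := E1 i σ hσ x
    have hRfix : σ • (σ • x - x) = σ • x - x := E2 i σ hσ _ hRoff
    obtain ⟨n, hn, k, hk⟩ := loc2A_exists_add_nsmul hcard N hN0 hR x
    have hfix : σ • x = x := by
      have h1 : σ • (k • (σ • x - x)) = k • (σ • x - x) := by
        have := map_nsmul (DistribSMul.toAddMonoidHom V σ) k (σ • x - x)
        simp only [DistribSMul.toAddMonoidHom_apply] at this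
        rw [this, hRfix]
      calc σ • x = σ • (n + k • (σ • x - x)) := by rw [← hk]
        _ = σ • n + σ • (k • (σ • x - x)) := smul_add _ _ _
        _ = n + k • (σ • x - x) := by rw [hb i σ hσ n hn, h1]
        _ = x := hk.symm
    apply hR
    rw [hfix, sub_self]
    exact N.zero_mem
  · -- (d)
    obtain ⟨i⟩ := hne
    obtain ⟨x, hx, hx0⟩ := (Submodule.ne_bot_iff N).mp hN0
    by_contra hcon
    apply hx0
    refine E5 i x (ha i x hx) (fun σ => ?_)
    by_contra hσ
    exact hcon ⟨σ, x, hx, hσ⟩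

end Abstract

/-- **(LOC2-ASM)** -/
theorem loc2Asm : Loc2AsmStatement := by
  intro P N hNst hN0 hN1 hcard off hA E1 E2 E3 E4 E5
  have : Fact P.p.Prime := ⟨P.pp⟩
  obtain ⟨A₀, hA₀⟩ := hA
  have key := loc2A_core (p := P.p)
    (V := Submodule.torsionBy ℤ (P.freyCurve⁄Qbar).Point P.p) (G := GQ)
    (ι := {A : ValuationSubring Qbar // A.LiesOverPrime 2})
    (fun i => i.1.inertiaSubgroupIn ℚ) hcard N hNst hN0 hN1 (fun i => off i.1) ⟨⟨A₀, hA₀⟩⟩
    (fun i => E1 i.1 i.2) (fun i => E2 i.1 i.2) (fun i => E3 i.1 i.2) (fun i => E4 i.1 i.2)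
    (fun i => E5 i.1 i.2)
  exact ⟨fun A hA => key.1 ⟨A, hA⟩, fun A hA => key.2.1 ⟨A, hA⟩, key.2.2⟩

end Fermat.Agent.S13
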