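import Mathlib
import Fermat.Agent.S13.Loc2Defs
import Fermat.Agent.S05.Final
import Fermat.Agent.S05.Inertia
import Fermat.Agent.S05.ValLemmas

/-!
# S13, LOC2-FREY: arithmetic of the Frey curve at a place over `2`

`loc2Frey : Loc2FreyStatement`.
-/

set_option autoImplicit false

open WeierstrassCurve WeierstrassCurve.Affine WeierstrassCurve.Affine.Point

namespace Fermat.Agent.S13

local notation "Qbar" => AlgebraicClosure ℚ

/-! ### Integer arithmetic of a Frey package -/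

lemma loc2F_two_dvd_b (P : FreyPackage) : (2 : ℤ) ∣ P.b :=
  (ZMod.intCast_zmod_eq_zero_iff_dvd P.b 2).1 P.hb2

lemma loc2F_not_two_dvd_a (P : FreyPackage) : ¬ (2 : ℤ) ∣ P.a := by
  intro h
  obtain ⟨c, hc⟩ := h
  have h4 := P.ha4
  rw [hc] at h4
  push_cast at h4
  have : ∀ x : ZMod 4, (2 : ZMod 4) * x ≠ 3 := by decide
  exact this _ h4

lemma loc2F_not_two_dvd_p (P : FreyPackage) : ¬ (2 : ℤ) ∣ (P.p : ℤ) := by
  intro h
  have h2 : (2 : ℕ) ∣ P.p := by exact_mod_cast h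
  have h3 := (Nat.prime_dvd_prime_iff_eq Nat.prime_two P.pp).1 h2
  have := P.hp5
  omega

lemma loc2F_four_dvd (P : FreyPackage) : (4 : ℤ) ∣ P.b ^ P.p - 1 - P.a ^ P.p := by
  apply (ZMod.intCast_zmod_eq_zero_iff_dvd _ 4).1
  push_cast
  have hb : (P.b : ZMod 4) ^ P.p = 0 := by
    obtain ⟨c, hc⟩ := loc2F_two_dvd_b P
    obtain ⟨k, hk⟩ : ∃ k, P.p = 2 + k := ⟨P.p - 2, by have := P.hp5; omega⟩
    rw [hc, hk]
    push_cast
    rw [mul_pow, pow_add]
    have : (2 : ZMod 4) ^ 2 = 0 := by decide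
    rw [this, zero_mul, zero_mul]
  have ha : (P.a : ZMod 4) ^ P.p = -1 := by
    rw [P.ha4]
    have : (3 : ZMod 4) = -1 := by decide
    rw [this, P.hp_odd.neg_one_pow]
  rw [hb, ha]
  decide

lemma loc2F_odd_sub (P : FreyPackage) : ¬ (2 : ℤ) ∣ P.b ^ P.p - P.a ^ P.p := by
  intro h
  have hb : (2 : ℤ) ∣ P.b ^ P.p := dvd_pow (loc2F_two_dvd_b P) P.hp0
  have ha : (2 : ℤ) ∣ P.a ^ P.p := by
    have := dvd_sub hb h
    simpa using this
  exact loc2F_not_two_dvd_a P (Int.prime_two.dvd_of_dvd_pow ha)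

/-! ### Valuations of integers at a place over `2` -/

section val

variable (A : ValuationSubring Qbar)

lemma loc2F_val_two_lt (hA : A.LiesOverPrime 2) : A.valuation (2 : Qbar) < 1 := by
  have h := (ValuationSubring.mem_nonunits_iff A).1 hA
  simpa using h

lemma loc2F_val_int_le (n : ℤ) : A.valuation (n : Qbar) ≤ 1 :=
  (A.valuation_le_one_iff _).2 (intCast_mem A n)

lemma loc2F_val_odd (hA : A.LiesOverPrime 2) (n : ℤ) (hn : ¬ (2 : ℤ) ∣ n) :
    A.valuation (n : Qbar) = 1 := by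
  have h := Fermat.Agent.S05.valuation_intCast_eq_one A Nat.prime_two hA n (by simpa using hn)
  rwa [Rat.cast_intCast] at h

lemma loc2F_val_even (hA : A.LiesOverPrime 2) (n : ℤ) (hn : (2 : ℤ) ∣ n) :
    A.valuation (n : Qbar) < 1 := by
  obtain ⟨c, rfl⟩ := hn
  push_cast
  rw [map_mul]
  calc A.valuation (2 : Qbar) * A.valuation (c : Qbar)
      ≤ A.valuation (2 : Qbar) * 1 := by gcongr; exact loc2F_val_int_le A c
    _ < 1 := by rw [mul_one]; exact loc2F_val_two_lt A hA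

lemma loc2F_val_two_ne_zero : A.valuation (2 : Qbar) ≠ 0 := by
  rw [Ne, map_eq_zero]
  exact two_ne_zero

/-- The residue field of `ℚ` at `2` is `𝔽₂`. -/
lemma loc2F_residue (hA : A.LiesOverPrime 2) (r : ℚ)
    (hr : A.valuation (algebraMap ℚ Qbar r) ≤ 1) :
    A.valuation (algebraMap ℚ Qbar r) < 1 ∨ A.valuation (algebraMap ℚ Qbar r - 1) < 1 := by
  have hden0 : ((r.den : ℤ) : Qbar) ≠ 0 := by
    exact_mod_cast r.den_nz
  have hr_eq : algebraMap ℚ Qbar r = ((r.num : ℤ) : Qbar) / ((r.den : ℤ) : Qbar) := by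
    rw [eq_ratCast, Rat.cast_def]
    push_cast
    rfl
  have hcop : IsCoprime r.num (r.den : ℤ) := by
    rw [Int.isCoprime_iff_gcd_eq_one]
    have := r.reduced
    simpa [Int.gcd, Nat.Coprime] using this
  -- the denominator is odd
  have hdodd : ¬ (2 : ℤ) ∣ (r.den : ℤ) := by
    intro hd
    have hnodd : ¬ (2 : ℤ) ∣ r.num := by
      intro hn
      have := hcop.isUnit_of_dvd' hn hd
      exact Int.prime_two.not_isUnit this
    have h1 := loc2F_val_odd A hA r.num hnodd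
    have h2 := loc2F_val_even A hA (r.den : ℤ) hd
    rw [hr_eq, map_div₀, h1, one_div] at hr
    have h3 : A.valuation ((r.den : ℤ) : Qbar) ≠ 0 := by
      rw [Ne, map_eq_zero]; exact hden0
    have h4 : 1 < (A.valuation ((r.den : ℤ) : Qbar))⁻¹ :=
      (one_lt_inv₀ (zero_lt_iff.2 h3)).2 h2
    exact absurd hr (not_le.2 h4)
  have hd1 := loc2F_val_odd A hA (r.den : ℤ) hdodd
  by_cases hn : (2 : ℤ) ∣ r.num
  · left
    rw [hr_eq, map_div₀, hd1, div_one]
    exact loc2F_val_even A hA r.num hn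
  · right
    have hsub : algebraMap ℚ Qbar r - 1 =
        ((r.num - (r.den : ℤ) : ℤ) : Qbar) / ((r.den : ℤ) : Qbar) := by
      rw [hr_eq]
      push_cast
      field_simp
    rw [hsub, map_div₀, hd1, div_one]
    apply loc2F_val_even A hA
    have h1 : r.num % 2 = 1 := by
      rcases Int.emod_two_eq_zero_or_one r.num with h | h
      · exact absurd (Int.dvd_of_emod_eq_zero h) hn
      · exact h
    have h2 : (r.den : ℤ) % 2 = 1 := by
      rcases Int.emod_two_eq_zero_or_one (r.den : ℤ) with h | h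
      · exact absurd (Int.dvd_of_emod_eq_zero h) hdodd
      · exact h
    omega

end val

/-! ### The coefficients of the Frey curve -/

section frey

variable (P : FreyPackage) (A : ValuationSubring Qbar)

/-- `a₂` of the Frey curve is (the image of) an integer. -/
lemma loc2F_a₂_int : ∃ m : ℤ, (P.freyCurve⁄Qbar).a₂ = (m : Qbar) := by
  obtain ⟨m, hm⟩ := loc2F_four_dvd P
  refine ⟨m, ?_⟩
  have h := Fermat.Agent.S05.frey_a₂ P
  have h1 : ((P.b ^ P.p - P.a ^ P.p : ℤ) : Qbar) = 4 * (m : Qbar) + 1 := by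
    have : P.b ^ P.p - P.a ^ P.p = 4 * m + 1 := by linarith
    rw [this]
    push_cast
    rfl
  rw [h1] at h
  have h4 : (4 : Qbar) ≠ 0 := by norm_num
  have h2 : 4 * (P.freyCurve⁄Qbar).a₂ = 4 * (m : Qbar) := by linear_combination h
  exact mul_left_cancel₀ h4 h2

/-- `a₂` of the Frey curve is fixed by every automorphism. -/
lemma loc2F_a₂_fixed (σ : Qbar ≃ₐ[ℚ] Qbar) :
    σ (P.freyCurve⁄Qbar).a₂ = (P.freyCurve⁄Qbar).a₂ := by
  obtain ⟨m, hm⟩ := loc2F_a₂_int P
  rw [hm, map_intCast]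

lemma loc2F_val_disc (hA : A.LiesOverPrime 2) :
    A.valuation ((P.freyCurve⁄Qbar).a₁ ^ 2 + 4 * (P.freyCurve⁄Qbar).a₂) = 1 := by
  have h : (P.freyCurve⁄Qbar).a₁ ^ 2 + 4 * (P.freyCurve⁄Qbar).a₂ =
      ((P.b ^ P.p - P.a ^ P.p : ℤ) : Qbar) := by
    rw [Fermat.Agent.S05.frey_a₁ P, ← Fermat.Agent.S05.frey_a₂ P]
    ring
  rw [h]
  exact loc2F_val_odd A hA _ (loc2F_odd_sub P)

lemma loc2F_val_a₂ : A.valuation (P.freyCurve⁄Qbar).a₂ ≤ 1 := by
  obtain ⟨m, hm⟩ := loc2F_a₂_int P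
  rw [hm]
  exact loc2F_val_int_le A m

lemma loc2F_a₄_ne_zero : (P.freyCurve⁄Qbar).a₄ ≠ 0 := by
  intro h
  have h1 := Fermat.Agent.S05.frey_a₄ P
  rw [h, mul_zero] at h1
  have h2 : (-(P.a ^ P.p * P.b ^ P.p) : ℤ) = 0 := by
    exact_mod_cast h1.symm
  rw [neg_eq_zero] at h2
  rcases mul_eq_zero.1 h2 with h3 | h3
  · exact P.ha0 (pow_eq_zero_iff P.hp0 |>.1 h3)
  · exact P.hb0 (pow_eq_zero_iff P.hp0 |>.1 h3)

lemma loc2F_val_a₄ (hA : A.LiesOverPrime 2) :
    ∃ M : ℕ, 0 < M ∧ ¬ P.p ∣ M ∧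
      A.valuation (P.freyCurve⁄Qbar).a₄ = A.valuation (2 : Qbar) ^ M := by
  obtain ⟨m, hm⟩ := Fermat.Agent.S05.valuation_intCast_pow A Nat.prime_two hA P.b P.hb0
  rw [Rat.cast_intCast, Rat.cast_natCast, Nat.cast_ofNat] at hm
  have h2lt := loc2F_val_two_lt A hA
  have h20 := loc2F_val_two_ne_zero A
  have hm1 : 1 ≤ m := by
    rcases Nat.eq_zero_or_pos m with h0 | h0
    · exfalso
      rw [h0, pow_zero] at hm
      exact (loc2F_val_even A hA P.b (loc2F_two_dvd_b P)).ne hm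
    · exact h0
  have hp5 := P.hp5
  have hmp : 5 ≤ m * P.p := by nlinarith
  refine ⟨m * P.p - 4, by omega, ?_, ?_⟩
  · intro hdvd
    have h1 : P.p ∣ m * P.p := dvd_mul_left _ _
    have h2 : P.p ∣ m * P.p - (m * P.p - 4) := Nat.dvd_sub h1 hdvd
    have h3 : m * P.p - (m * P.p - 4) = 4 := by omega
    rw [h3] at h2
    have := Nat.le_of_dvd (by norm_num) h2
    omega
  · have h1 := Fermat.Agent.S05.frey_a₄ P
    have h3 : A.valuation ((-(P.a ^ P.p * P.b ^ P.p) : ℤ) : Qbar) =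
        A.valuation (2 : Qbar) ^ (m * P.p) := by
      push_cast
      rw [Valuation.map_neg, map_mul, map_pow, map_pow,
        loc2F_val_odd A hA P.a (loc2F_not_two_dvd_a P), one_pow, one_mul, hm, ← pow_mul]
    have h4 : A.valuation (16 * (P.freyCurve⁄Qbar).a₄) =
        A.valuation (2 : Qbar) ^ 4 * A.valuation (P.freyCurve⁄Qbar).a₄ := by
      rw [map_mul, ← map_pow]
      norm_num
    rw [h1, h3] at h4
    have h5 : A.valuation (2 : Qbar) ^ (m * P.p) =
        A.valuation (2 : Qbar) ^ 4 * A.valuation (2 : Qbar) ^ (m * P.p - 4) := by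
      rw [← pow_add]
      congr 1
      omega
    rw [h5] at h4
    exact (mul_left_cancel₀ (pow_ne_zero 4 h20) h4).symm

lemma loc2F_roots (hA : A.LiesOverPrime 2) :
    ∃ α α' : Qbar, α + α' = -(P.freyCurve⁄Qbar).a₁ ∧ α * α' = -(P.freyCurve⁄Qbar).a₂ ∧
      A.valuation (α - α') = 1 ∧ A.valuation α ≤ 1 ∧ A.valuation α' ≤ 1 ∧
      ∀ σ ∈ A.inertiaSubgroupIn ℚ, σ α = α ∧ σ α' = α' := by
  have ha₁ := Fermat.Agent.S05.frey_a₁ P
  set a₂ := (P.freyCurve⁄Qbar).a₂ with ha₂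
  obtain ⟨δ, hδ⟩ := IsAlgClosed.exists_pow_nat_eq (1 + 4 * a₂) (n := 2) (by norm_num)
  have h2 : (2 : Qbar) ≠ 0 := two_ne_zero
  have hdisc := loc2F_val_disc P A hA
  rw [ha₁, one_pow, ← ha₂, ← hδ, map_pow] at hdisc
  have hvδ : A.valuation δ = 1 := by
    rcases lt_trichotomy (A.valuation δ) 1 with h | h | h
    · exfalso
      have : A.valuation δ ^ 2 < 1 := pow_lt_one₀ zero_le h (by norm_num)
      exact this.ne hdisc
    · exact h
    · exfalso
      have : 1 < A.valuation δ ^ 2 := one_lt_pow₀ h (by norm_num)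
      exact this.ne' hdisc
  have hsum : (-1 + δ) / 2 + (-1 - δ) / 2 = -(P.freyCurve⁄Qbar).a₁ := by
    rw [ha₁]; field_simp; ring
  have hprod : (-1 + δ) / 2 * ((-1 - δ) / 2) = -a₂ := by
    field_simp
    linear_combination (-1 : Qbar) * hδ
  have hdiff : (-1 + δ) / 2 - (-1 - δ) / 2 = δ := by
    field_simp; ring
  have hle := Fermat.Agent.S05.val_roots_le A.valuation
    (ξ₁ := (-1 + δ) / 2) (ξ₂ := (-1 - δ) / 2) (m := 1)
    (by rw [hprod, Valuation.map_neg, mul_one]; exact loc2F_val_a₂ P A)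
    (by rw [hsum, ha₁, Valuation.map_neg, map_one])
  refine ⟨(-1 + δ) / 2, (-1 - δ) / 2, hsum, hprod, by rw [hdiff]; exact hvδ, hle.1, hle.2, ?_⟩
  intro σ hσ
  have hσδ2 : (σ δ) ^ 2 = δ ^ 2 := by
    rw [← map_pow, hδ, map_add, map_one, map_mul, loc2F_a₂_fixed P σ]
    congr 2
    exact map_ofNat σ 4
  have hσδ : σ δ = δ := by
    rcases sq_eq_sq_iff_eq_or_eq_neg.1 hσδ2 with h | h
    · exact h
    · exfalso
      have h1 := Fermat.Agent.S05.inertia_sub_lt_one A σ hσ ((-1 + δ) / 2) hle.1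
      have h3 : σ ((-1 + δ) / 2) - (-1 + δ) / 2 = -δ := by
        rw [map_div₀, map_add, map_neg, map_one, h, map_ofNat]
        field_simp
        ring
      rw [h3, Valuation.map_neg, hvδ] at h1
      exact lt_irrefl _ h1
  constructor
  · rw [map_div₀, map_add, map_neg, map_one, hσδ, map_ofNat]
  · rw [map_div₀, map_sub, map_neg, map_one, hσδ, map_ofNat]

end frey

/-- **(LOC2-FREY)** arithmetic of the Frey curve at a place over `2`. -/
theorem loc2Frey : Loc2FreyStatement := by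
  intro P A hA
  refine ⟨loc2F_val_two_lt A hA, ?_, ?_, loc2F_val_disc P A hA, loc2F_val_a₂ P A,
    loc2F_a₄_ne_zero P, loc2F_val_a₄ P A hA, loc2F_roots P A hA, loc2F_residue A hA⟩
  · have := loc2F_val_odd A hA (P.p : ℤ) (loc2F_not_two_dvd_p P)
    simpa using this
  · have := loc2F_val_odd A hA (3 : ℤ) (by norm_num)
    simpa using this

end Fermat.Agent.S13
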