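import Mathlib
import Fermat.Agent.S13.Loc2Defs
import Fermat.Agent.S14.UnramVal
import Fermat.Agent.S05.Inertia

/-!
# S13, LOC2-RAM

An element of `Qbar` whose valuation at a place over `2` has exact denominator `p` (an odd prime)
is moved by the inertia group of that place.
-/

set_option autoImplicit false

namespace Fermat.Agent.S13

local notation "Qbar" => AlgebraicClosure ℚ

section valuation

variable {F Γ₀ : Type*} [Field F] [LinearOrderedCommGroupWithZero Γ₀] (v : Valuation F Γ₀)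

/-- In a linearly ordered group with zero, `g ^ n = 1` forces `g = 1`. -/
theorem loc2R_eq_one_of_pow_eq_one {g : Γ₀} {n : ℕ} (hn : n ≠ 0) (h : g ^ n = 1) : g = 1 := by
  rcases lt_trichotomy g 1 with hlt | heq | hgt
  · exact absurd h (ne_of_lt (pow_lt_one₀ zero_le hlt hn))
  · exact heq
  · exact absurd h (ne_of_gt (one_lt_pow₀ hgt hn))

/-- For `0 < g < 1`, `n ↦ g ^ n` is injective. -/
theorem loc2R_pow_injective {g : Γ₀} (h0 : g ≠ 0) (h1 : g < 1) {m n : ℕ} (h : g ^ m = g ^ n) :
    m = n := by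
  have hpos : 0 < g := zero_lt_iff.mpr h0
  rcases lt_trichotomy m n with hlt | heq | hgt
  · exact absurd h (ne_of_gt (pow_lt_pow_right_of_lt_one₀ hpos h1 hlt))
  · exact heq
  · exact absurd h (ne_of_lt (pow_lt_pow_right_of_lt_one₀ hpos h1 hgt))

/-- A root of unity has valuation one. -/
theorem loc2R_val_root_of_unity {n : ℕ} (hn : n ≠ 0) {η : F} (hη : η ^ n = 1) : v η = 1 := by
  apply loc2R_eq_one_of_pow_eq_one hn
  rw [← map_pow, hη, map_one]

/-- If `η ≠ 1` is a `p`-th root of unity (`p` prime) and `v (η - 1) < 1`, then `v p < 1`. -/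
theorem loc2R_val_prime_lt_one {p : ℕ} (hp : p.Prime) {η : F} (hη : η ^ p = 1) (hη1 : η ≠ 1)
    (h : v (η - 1) < 1) : v (p : F) < 1 := by
  have hvη : v η = 1 := loc2R_val_root_of_unity v hp.ne_zero hη
  -- the geometric sum vanishes
  have hsum : ∑ i ∈ Finset.range p, η ^ i = 0 := by
    have h1 : (η - 1) * ∑ i ∈ Finset.range p, η ^ i = 0 := by
      rw [mul_geom_sum, hη, sub_self]
    rcases mul_eq_zero.mp h1 with h2 | h2
    · exact absurd (sub_eq_zero.mp h2) hη1
    · exact h2
  have hp_eq : (p : F) = ∑ k ∈ Finset.range p, (1 - η ^ k) := by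
    rw [Finset.sum_sub_distrib, hsum, sub_zero]
    simp
  rw [hp_eq]
  refine Valuation.map_sum_lt v one_ne_zero (fun k _ => ?_)
  have h3 : (1 : F) - η ^ k = -((η - 1) * ∑ i ∈ Finset.range k, η ^ i) := by
    rw [mul_geom_sum]; ring
  rw [h3, Valuation.map_neg, map_mul]
  have h4 : v (∑ i ∈ Finset.range k, η ^ i) ≤ 1 := by
    refine Valuation.map_sum_le v (fun i _ => ?_)
    rw [map_pow, hvη, one_pow]
  calc v (η - 1) * v (∑ i ∈ Finset.range k, η ^ i) ≤ v (η - 1) * 1 :=
        mul_le_mul_right h4 _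
    _ < 1 := by rw [mul_one]; exact h

end valuation

/-- The valuation of a nonzero rational number at a place over `q` is an integral power of the
valuation of `q`. -/
theorem loc2R_val_rat (A : ValuationSubring Qbar) {q : ℕ} (hq : q.Prime) (hA : A.LiesOverPrime q)
    (r : ℚ) (hr : r ≠ 0) :
    ∃ m n : ℕ, A.valuation (algebraMap ℚ Qbar r) * A.valuation (q : Qbar) ^ n
      = A.valuation (q : Qbar) ^ m := by
  obtain ⟨m, hm⟩ := Fermat.Agent.S05.valuation_intCast_pow A hq hA r.num (Rat.num_ne_zero.mpr hr)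
  obtain ⟨n, hn⟩ := Fermat.Agent.S05.valuation_intCast_pow A hq hA (r.den : ℤ)
    (by exact_mod_cast r.den_ne_zero)
  refine ⟨m, n, ?_⟩
  have hq' : (((q : ℕ) : ℚ) : Qbar) = (q : Qbar) := by push_cast; rfl
  rw [hq'] at hm hn
  rw [← hm, ← hn, ← map_mul]
  congr 1
  rw [eq_ratCast]
  have h2 : r * ((r.den : ℤ) : ℚ) = (r.num : ℚ) := by
    rw [Int.cast_natCast]
    exact Rat.mul_den_eq_num r
  have := congrArg (fun z : ℚ => (z : Qbar)) h2
  simp only [Rat.cast_mul] at this
  exact this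

/-- **(LOC2-RAM)** -/
theorem loc2Ram : Loc2RamStatement := by
  intro p hp hp2 A hA x J hJ hx
  -- basics at `2`
  have h2lt : A.valuation (2 : Qbar) < 1 := by
    have h := (ValuationSubring.mem_nonunits_iff A).1 hA
    simpa using h
  have h20 : A.valuation (2 : Qbar) ≠ 0 := by
    rw [Ne, map_eq_zero]
    norm_num
  have hvp : A.valuation (p : Qbar) = 1 := by
    have h := Fermat.Agent.S05.valuation_intCast_eq_one A Nat.prime_two hA (p : ℤ) (by
      intro hdvd
      have h2p : (2 : ℕ) ∣ p := by exact_mod_cast hdvd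
      exact hp2 ((Nat.prime_dvd_prime_iff_eq Nat.prime_two hp).mp h2p).symm)
    simpa using h
  -- a `p`-th root `β` of `2`, and `a = β ^ J`
  obtain ⟨β, hβ⟩ := IsAlgClosed.exists_pow_nat_eq (2 : Qbar) hp.pos
  have hap : (β ^ J) ^ p = (2 : Qbar) ^ J := by
    rw [← pow_mul, mul_comm, pow_mul, hβ]
  have ha0 : β ^ J ≠ 0 := by
    intro h0
    rw [h0, zero_pow hp.ne_zero] at hap
    exact (pow_ne_zero J (two_ne_zero : (2 : Qbar) ≠ 0)) hap.symm
  have hva : A.valuation (β ^ J) ^ p = A.valuation (2 : Qbar) ^ J := by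
    rw [← map_pow, hap, map_pow]
  -- some inertia element moves `a`
  have hmove : ∃ σ ∈ A.inertiaSubgroupIn ℚ, σ (β ^ J) ≠ β ^ J := by
    by_contra hcon
    push Not at hcon
    have hmem : (β ^ J) ^ p ∈ (⊥ : IntermediateField ℚ Qbar) := by
      rw [hap]
      exact pow_mem (ofNat_mem _ 2) J
    obtain ⟨y, hy, hy0, hval⟩ := Fermat.Agent.S14.unramifiedValuation p hp ⊥ (β ^ J) ha0 hmem A 2
      Nat.prime_two (Ne.symm hp2) hA hcon
    obtain ⟨r, rfl⟩ := IntermediateField.mem_bot.mp hy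
    have hr : r ≠ 0 := by
      rintro rfl
      exact hy0 (map_zero _)
    obtain ⟨m, n, hmn⟩ := loc2R_val_rat A Nat.prime_two hA r hr
    have hq2 : (((2 : ℕ) : Qbar)) = 2 := by norm_num
    rw [hq2] at hmn
    have hvy0 : A.valuation (algebraMap ℚ Qbar r) ≠ 0 := by
      rw [Ne, map_eq_zero]; exact hy0
    have hvy : A.valuation (β ^ J) ^ p = A.valuation (algebraMap ℚ Qbar r) ^ p := by
      have e1 : A.valuation ((β ^ J) ^ p) = A.valuation (β ^ J) ^ p := map_pow _ _ _
      have e2 : A.valuation ((algebraMap ℚ Qbar r) ^ p) = A.valuation (algebraMap ℚ Qbar r) ^ p :=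
        map_pow _ _ _
      rw [map_div₀, e1, e2, div_eq_one_iff_eq (pow_ne_zero p hvy0)] at hval
      exact hval
    have hkey : A.valuation (2 : Qbar) ^ (J + n * p) = A.valuation (2 : Qbar) ^ (m * p) := by
      rw [pow_add, ← hva, hvy, pow_mul, ← mul_pow, hmn, pow_mul]
    have hJ' := loc2R_pow_injective h20 h2lt hkey
    apply hJ
    have : J = (m - n) * p := by
      have hle : n * p ≤ m * p := by omega
      rw [Nat.sub_mul]
      omega
    rw [this]
    exact dvd_mul_left _ _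
  obtain ⟨σ, hσ, hσa⟩ := hmove
  refine ⟨σ, hσ, fun hσx => ?_⟩
  -- the root of unity `η = a / σ a`
  have hσa0 : σ (β ^ J) ≠ 0 := by
    rw [Ne, map_eq_zero_iff _ σ.injective]; exact ha0
  have hσap : (σ (β ^ J)) ^ p = (β ^ J) ^ p := by
    rw [← map_pow, hap, map_pow, map_ofNat]
  set η : Qbar := β ^ J / σ (β ^ J) with hη_def
  have hη : η ^ p = 1 := by
    rw [hη_def, div_pow, hσap, div_self (pow_ne_zero p ha0)]
  have hη1 : η ≠ 1 := by
    rw [hη_def, Ne, div_eq_one_iff_eq hσa0]
    exact fun h => hσa h.symm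
  -- `u = x / a` is a unit, and `σ u = η * u`
  have hu : A.valuation (x / β ^ J) = 1 := by
    apply loc2R_eq_one_of_pow_eq_one hp.ne_zero
    rw [← map_pow, div_pow, map_div₀, map_pow, map_pow, hx, hva,
      div_self (pow_ne_zero J h20)]
  have hσu : σ (x / β ^ J) - x / β ^ J = (η - 1) * (x / β ^ J) := by
    rw [map_div₀, hσx, hη_def]
    field_simp
  have hlt := Fermat.Agent.S05.inertia_sub_lt_one A σ hσ (x / β ^ J) hu.le
  rw [hσu, map_mul, hu, mul_one] at hlt
  have := loc2R_val_prime_lt_one A.valuation hp hη hη1 hlt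
  rw [hvp] at this
  exact lt_irrefl _ this

end Fermat.Agent.S13
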