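import Mathlib
import Fermat.Agent.S13.Loc2
import Fermat.Agent.S14.UnramVal
import Fermat.Agent.S54.Frobenius

/-!
# S13, LOC2 (part 8): two bridge facts for `Qbar`
-/

set_option autoImplicit false

namespace Fermat.Agent.S13

local notation "Qbar" => AlgebraicClosure ℚ
local notation "GQ" => (AlgebraicClosure ℚ ≃ₐ[ℚ] AlgebraicClosure ℚ)

/-- Elements fixed by the absolute Galois group are rational. -/
theorem loc2Rat : Loc2RatStatement := by
  intro x hx
  have h1 : x ∈ (⊥ : IntermediateField ℚ Qbar) :=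
    Fermat.Agent.S14.redC_mem_of_fixed ⊥ x (fun g _ => hx g)
  rw [IntermediateField.mem_bot] at h1
  obtain ⟨r, hr⟩ := h1
  exact ⟨r, hr⟩

/-- There is a place of `Qbar` over `2`. -/
theorem loc2Place : Loc2PlaceStatement := by
  obtain ⟨A, σ, h, -⟩ := Fermat.Agent.S54.exists_isFrobeniusAt 2 Nat.prime_two
  exact ⟨A, h⟩

end Fermat.Agent.S13
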