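import Mathlib
import Fermat.Agent.S13.Loc2
import Fermat.Agent.S05.Inertia

/-!
# S13, LOC2 (part 9): the inertia group preserves the valuation
-/

set_option autoImplicit false

namespace Fermat.Agent.S13

open Fermat.Agent.S05

local notation "Qbar" => AlgebraicClosure ℚ
local notation "GQ" => (AlgebraicClosure ℚ ≃ₐ[ℚ] AlgebraicClosure ℚ)

/-- Elements of the inertia group are monotone for the valuation. -/
lemma loc2V_mono (A : ValuationSubring Qbar) (τ : GQ) (hτ : τ ∈ A.inertiaSubgroupIn ℚ)
    (a b : Qbar) (h : A.valuation a ≤ A.valuation b) : A.valuation (τ a) ≤ A.valuation (τ b) := by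
  by_cases hb : b = 0
  · subst hb
    rw [map_zero] at h
    have ha : a = 0 := (map_eq_zero A.valuation).1 (le_antisymm h zero_le)
    rw [ha, map_zero]
  · have hvb : 0 < A.valuation b := zero_lt_iff.2 ((Valuation.ne_zero_iff _).2 hb)
    have hτb : τ b ≠ 0 := fun h0 => hb ((map_eq_zero τ).1 h0)
    have hvτb : 0 < A.valuation (τ b) := zero_lt_iff.2 ((Valuation.ne_zero_iff _).2 hτb)
    have h1 : A.valuation (a / b) ≤ 1 := by
      rw [map_div₀]
      exact (div_le_one₀ hvb).2 h
    have h2 : a / b ∈ A := (A.valuation_le_one_iff _).1 h1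
    have h3 : τ (a / b) ∈ A := (inertia_mem_iff A τ hτ (a / b)).2 h2
    have h4 : A.valuation (τ a / τ b) ≤ 1 := by
      rw [← map_div₀ τ]
      exact (A.valuation_le_one_iff _).2 h3
    rw [map_div₀] at h4
    exact (div_le_one₀ hvτb).1 h4

/-- Elements of the inertia group are strictly monotone for the valuation. -/
lemma loc2V_strictMono (A : ValuationSubring Qbar) (τ : GQ) (hτ : τ ∈ A.inertiaSubgroupIn ℚ)
    (a b : Qbar) (h : A.valuation a < A.valuation b) : A.valuation (τ a) < A.valuation (τ b) := by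
  by_contra hcon
  rw [not_lt] at hcon
  have h1 := loc2V_mono A τ⁻¹ (inv_mem hτ) _ _ hcon
  have e : ∀ z : Qbar, τ⁻¹ (τ z) = z := fun z => by
    show τ.symm (τ z) = z
    exact τ.symm_apply_apply z
  rw [e, e] at h1
  exact absurd h (not_lt.2 h1)

/-- The orbit of an element under powers of an automorphism is finite. -/
lemma loc2V_exists_pow_fixed (σ : GQ) (a : Qbar) : ∃ d : ℕ, 1 ≤ d ∧ (σ ^ d) a = a := by
  have halg : Algebra.IsAlgebraic ℚ (AlgebraicClosure ℚ) := AlgebraicClosure.isAlgebraic ℚ
  have hint : IsIntegral ℚ a := (halg.isAlgebraic a).isIntegral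
  have hmem : ∀ n : ℕ, (σ ^ n) a ∈ (minpoly ℚ a).rootSet Qbar := by
    intro n
    rw [Polynomial.mem_rootSet]
    refine ⟨minpoly.ne_zero hint, ?_⟩
    have h1 : Polynomial.aeval ((σ ^ n) a) (minpoly ℚ a) =
        (σ ^ n) (Polynomial.aeval a (minpoly ℚ a)) := by
      have := Polynomial.aeval_algHom_apply ((σ ^ n : GQ) : Qbar →ₐ[ℚ] Qbar) a (minpoly ℚ a)
      exact this
    rw [h1, minpoly.aeval, map_zero]
  obtain ⟨m, n, hmn, hf⟩ := Set.Finite.exists_lt_map_eq_of_forall_mem hmem
    (Polynomial.rootSet_finite (minpoly ℚ a) Qbar)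
  obtain ⟨d, rfl⟩ := Nat.exists_eq_add_of_lt hmn
  refine ⟨d + 1, by omega, ?_⟩
  have e : (σ ^ (m + d + 1)) a = (σ ^ m) ((σ ^ (d + 1)) a) := by
    rw [show m + d + 1 = m + (d + 1) by ring, pow_add]
    rfl
  rw [e] at hf
  exact ((σ ^ m).injective hf).symm

/-- The inertia group preserves the valuation. -/
theorem loc2V_val : Loc2ValStatement := by
  intro A σ hσ a
  obtain ⟨d, hd1, hd⟩ := loc2V_exists_pow_fixed σ a
  have step : ∀ n : ℕ, (σ ^ (n + 1)) a = σ ((σ ^ n) a) := by
    intro n
    rw [pow_succ']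
    rfl
  rcases lt_trichotomy (A.valuation (σ a)) (A.valuation a) with h | h | h
  · exfalso
    have key : ∀ n : ℕ, A.valuation ((σ ^ (n + 1)) a) < A.valuation a := by
      intro n
      induction n with
      | zero => simpa using h
      | succ n ih =>
        rw [step (n + 1)]
        exact (loc2V_strictMono A σ hσ _ _ ih).trans h
    obtain ⟨e, rfl⟩ := Nat.exists_eq_add_of_le' hd1
    have := key e
    rw [hd] at this
    exact lt_irrefl _ this
  · exact h
  · exfalso
    have key : ∀ n : ℕ, A.valuation a < A.valuation ((σ ^ (n + 1)) a) := by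
      intro n
      induction n with
      | zero => simpa using h
      | succ n ih =>
        rw [step (n + 1)]
        exact h.trans (loc2V_strictMono A σ hσ _ _ ih)
    obtain ⟨e, rfl⟩ := Nat.exists_eq_add_of_le' hd1
    have := key e
    rw [hd] at this
    exact lt_irrefl _ this

end Fermat.Agent.S13
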