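import Mathlib
import Fermat.Agent.S13.Loc2
import Fermat.Agent.S13.Loc2Frey
import Fermat.Agent.S13.Loc2Ram
import Fermat.Agent.S13.Loc2Asm
import Fermat.Agent.S13.Loc2ValEq
import Fermat.Agent.S13.Loc2RatPlace

/-!
# S13, LOC2: the local analysis at `2` (final statement)
-/

set_option autoImplicit false

namespace Fermat.Agent.S13

/-- (LOC2) at places over `2` inertia acts trivially on a Galois-stable line `N` and on `V/N`,
and `N` is not fixed pointwise by the Galois group. -/
theorem loc2 : Loc2Statement :=
  loc2_of loc2Frey loc2Ram loc2Asm loc2V_val loc2Rat loc2Place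

end Fermat.Agent.S13
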