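import Mathlib
import Fermat.Agent.S13.Defs

/-!
# S13 / LOCP, step 2 (part A): the product formula for the division polynomial

For an odd prime `p` (nonzero in `F`) and a set `T` of `p² - 1` nonzero points of a Weierstrass
curve `W` over a field `F`, all killed by `p`, the `x`-coordinates of the points of `T` are exactly
the roots of the division polynomial `ψ_p = W.preΨ' p`, which therefore factors as
`p ∏ (X - ξ)`; in particular `ψ_p(0) = p ∏ (-ξ)`.
-/

set_option autoImplicit false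

open WeierstrassCurve WeierstrassCurve.Affine WeierstrassCurve.Affine.Point Polynomial

namespace Fermat.Agent.S13

section General

variable {F : Type*} [Field F] [DecidableEq F] {W : Affine F}

/-- The `x`-coordinate of a point (`0` at infinity). -/
noncomputable def locP_xc : W.Point → F
  | .zero => 0
  | .some x _ _ => x

@[simp] theorem locP_xc_zero : locP_xc (0 : W.Point) = 0 := rfl

@[simp] theorem locP_xc_some {x y : F} (h : W.Nonsingular x y) :
    locP_xc (Point.some x y h) = x := rfl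

/-- Two nonzero points with the same `x`-coordinate are equal or opposite. -/
theorem locP_eq_or_eq_neg {P Q : W.Point} (hP : P ≠ 0) (hQ : Q ≠ 0)
    (h : locP_xc P = locP_xc Q) : P = Q ∨ P = -Q := by
  rcases P with _ | ⟨x₁, y₁, h₁⟩
  · exact absurd rfl hP
  rcases Q with _ | ⟨x₂, y₂, h₂⟩
  · exact absurd rfl hQ
  simp only [locP_xc_some] at h
  subst h
  rcases Y_eq_of_X_eq h₁.1 h₂.1 rfl with hy | hy
  · left
    subst hy
    rfl
  · right
    rw [Point.neg_some]
    subst hy
    rfl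

end General

section Prod

variable {F : Type} [Field F] [DecidableEq F]

/-- The `x`-coordinates of `p² - 1` nonzero `p`-torsion points are the roots of `ψ_p`, and
`ψ_p = p ∏ (X - ξ)`. -/
theorem locP_prod_formula (hdivc : DivCStatement) (W : WeierstrassCurve F) (p : ℕ)
    (hp : p.Prime) (hp2 : p ≠ 2) (hpF : (p : F) ≠ 0)
    (T : Finset W.toAffine.Point) (hT : ∀ Q ∈ T, Q ≠ 0 ∧ p • Q = 0)
    (hcard : T.card = p ^ 2 - 1) :
    (T.image locP_xc).card = (p ^ 2 - 1) / 2 ∧
      W.preΨ' p = C (p : F) * ∏ ξ ∈ T.image locP_xc, (X - C ξ) := by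
  classical
  have hodd : Odd p := hp.odd_of_ne_two hp2
  have hnotEven : ¬ Even p := Nat.not_even_iff_odd.mpr hodd
  set ψ := W.preΨ' p with hψ
  have hdeg : ψ.natDegree = (p ^ 2 - 1) / 2 := by
    rw [hψ, W.natDegree_preΨ' hpF, if_neg hnotEven]
  have hlc : ψ.leadingCoeff = (p : F) := by
    rw [hψ, W.leadingCoeff_preΨ' hpF, if_neg hnotEven]
  have hψ0 : ψ ≠ 0 := W.preΨ'_ne_zero hpF
  -- all `x`-coordinates are roots
  have hroot : ∀ ξ ∈ T.image locP_xc, ξ ∈ ψ.roots := by
    intro ξ hξ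
    rw [Finset.mem_image] at hξ
    obtain ⟨Q, hQ, rfl⟩ := hξ
    obtain ⟨hQ0, hQp⟩ := hT Q hQ
    rcases Q with _ | ⟨x, y, h⟩
    · exact absurd rfl hQ0
    rw [mem_roots hψ0, IsRoot.def]
    exact hdivc F W p hp hp2 x y h hQp
  -- the fibres have at most two elements
  have hfib : ∀ ξ ∈ T.image locP_xc, (T.filter (fun Q => locP_xc Q = ξ)).card ≤ 2 := by
    intro ξ hξ
    rw [Finset.mem_image] at hξ
    obtain ⟨Q, hQ, rfl⟩ := hξ
    have hsub : T.filter (fun Q' => locP_xc Q' = locP_xc Q) ⊆ {Q, -Q} := by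
      intro Q' hQ'
      rw [Finset.mem_filter] at hQ'
      rw [Finset.mem_insert, Finset.mem_singleton]
      exact locP_eq_or_eq_neg (hT Q' hQ'.1).1 (hT Q hQ).1 hQ'.2
    exact (Finset.card_le_card hsub).trans Finset.card_le_two
  have h1 : T.card ≤ 2 * (T.image locP_xc).card := Finset.card_le_mul_card_image T 2 hfib
  -- the number of `x`-coordinates is at most the degree
  have hsubset : (T.image locP_xc).val ≤ ψ.roots := by
    rw [Multiset.le_iff_subset (T.image locP_xc).nodup]
    intro ξ hξ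
    exact hroot ξ (Finset.mem_val.mp hξ)
  have h2 : (T.image locP_xc).card ≤ (p ^ 2 - 1) / 2 := by
    calc (T.image locP_xc).card = Multiset.card (T.image locP_xc).val := rfl
      _ ≤ Multiset.card ψ.roots := Multiset.card_le_card hsubset
      _ ≤ ψ.natDegree := card_roots' ψ
      _ = (p ^ 2 - 1) / 2 := hdeg
  have hpsq : p ^ 2 % 2 = 1 := by
    rcases hodd with ⟨k, rfl⟩
    ring_nf
    omega
  have h3 : (T.image locP_xc).card = (p ^ 2 - 1) / 2 := by
    rw [hcard] at h1
    omega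
  refine ⟨h3, ?_⟩
  have hroots : ψ.roots = (T.image locP_xc).val := by
    symm
    apply Multiset.eq_of_le_of_card_le hsubset
    calc Multiset.card ψ.roots ≤ ψ.natDegree := card_roots' ψ
      _ = (p ^ 2 - 1) / 2 := hdeg
      _ = Multiset.card (T.image locP_xc).val := h3.symm
  have hrc : Multiset.card ψ.roots = ψ.natDegree := by
    rw [hroots, hdeg]
    exact h3
  have h4 := C_leadingCoeff_mul_prod_multiset_X_sub_C hrc
  rw [hlc, hroots] at h4
  rw [← h4]
  rfl

/-- The value at `0` of `ψ_p`. -/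
theorem locP_eval_zero (hdivc : DivCStatement) (W : WeierstrassCurve F) (p : ℕ)
    (hp : p.Prime) (hp2 : p ≠ 2) (hpF : (p : F) ≠ 0)
    (T : Finset W.toAffine.Point) (hT : ∀ Q ∈ T, Q ≠ 0 ∧ p • Q = 0)
    (hcard : T.card = p ^ 2 - 1) :
    (W.preΨ' p).eval 0 = (p : F) * ∏ ξ ∈ T.image locP_xc, (-ξ) := by
  rw [(locP_prod_formula hdivc W p hp hp2 hpF T hT hcard).2, eval_mul, eval_C, eval_prod]
  congr 1
  refine Finset.prod_congr rfl fun ξ _ => ?_
  rw [eval_sub, eval_X, eval_C, zero_sub]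

/-- For a Weierstrass curve with coefficients in a valuation subring `A`, the values of the
division polynomials at `0` lie in `A`. -/
theorem locP_eval_zero_mem {K : Type*} [Field K] (A : ValuationSubring K) (W : WeierstrassCurve K)
    (h₁ : W.a₁ ∈ A) (h₂ : W.a₂ ∈ A) (h₃ : W.a₃ ∈ A) (h₄ : W.a₄ ∈ A) (h₆ : W.a₆ ∈ A) (n : ℕ) :
    (W.preΨ' n).eval 0 ∈ A := by
  set WA : WeierstrassCurve A := ⟨⟨W.a₁, h₁⟩, ⟨W.a₂, h₂⟩, ⟨W.a₃, h₃⟩, ⟨W.a₄, h₄⟩, ⟨W.a₆, h₆⟩⟩
    with hWA
  have hmap : WA.map A.subtype = W := by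
    ext <;> rfl
  rw [← hmap, WeierstrassCurve.map_preΨ', eval_zero_map]
  exact Subtype.property _

end Prod

end Fermat.Agent.S13
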