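import Mathlib
import Fermat.Agent.S13.Defs
import Fermat.Agent.S13.LocPProd
import Fermat.Agent.S05.Inertia
import Fermat.Agent.S05.Final

/-!
# S13 / LOCP, step 2 (part B): not all of `V` lies in the kernel of reduction at `p`

If the `p`-torsion `V` of the Frey curve has `p²` elements and contains a Galois-stable proper
nonzero submodule `N`, then at every place `A` over `p` some nonzero point of `V` has an integral
`x`-coordinate.
-/

set_option autoImplicit false

open WeierstrassCurve WeierstrassCurve.Affine WeierstrassCurve.Affine.Point Polynomial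

namespace Fermat.Agent.S13

local notation "Qbar" => AlgebraicClosure ℚ
local notation "GQ" => (AlgebraicClosure ℚ ≃ₐ[ℚ] AlgebraicClosure ℚ)

section Val

variable {Γ : Type*} [LinearOrderedCommGroupWithZero Γ]

/-- A product of elements `> 1` over a nonempty finite set is `> 1`. -/
theorem locP_one_lt_prod {ι : Type*} (s : Finset ι) (f : ι → Γ) (hf : ∀ i ∈ s, 1 < f i)
    (hs : s.Nonempty) : 1 < ∏ i ∈ s, f i := by
  classical
  induction s using Finset.induction_on with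
  | empty => exact absurd hs (by simp)
  | insert a s ha ih =>
    rw [Finset.prod_insert ha]
    have h1 : 1 < f a := hf a (Finset.mem_insert_self a s)
    by_cases hs' : s.Nonempty
    · have h2 := ih (fun i hi => hf i (Finset.mem_insert_of_mem hi)) hs'
      calc (1 : Γ) = 1 * 1 := (one_mul 1).symm
        _ < f a * 1 := by rw [one_mul, mul_one]; exact h1
        _ ≤ f a * ∏ i ∈ s, f i := by gcongr
    · rw [Finset.not_nonempty_iff_eq_empty] at hs'
      rw [hs', Finset.prod_empty, mul_one]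
      exact h1

end Val

/-- The valuation at a place over `p` of a rational number of valuation `> 1` is at least
`v(p)⁻¹`. -/
theorem locP_val_rat (A : ValuationSubring Qbar) {p : ℕ} (hp : p.Prime)
    (hA : A.LiesOverPrime p) (r : ℚ) (hr : 1 < A.valuation (algebraMap ℚ Qbar r)) :
    (A.valuation ((p : ℕ) : Qbar))⁻¹ ≤ A.valuation (algebraMap ℚ Qbar r) := by
  have hpv : A.valuation ((p : ℕ) : Qbar) < 1 := (ValuationSubring.mem_nonunits_iff A).1 hA
  have hp0 : A.valuation ((p : ℕ) : Qbar) ≠ 0 := by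
    rw [Valuation.ne_zero_iff]
    exact_mod_cast hp.ne_zero
  have hppos : 0 < A.valuation ((p : ℕ) : Qbar) := zero_lt_iff.mpr hp0
  have hr0 : r ≠ 0 := by
    rintro rfl
    rw [_root_.map_zero, _root_.map_zero] at hr
    exact absurd hr (not_lt.mpr zero_le_one)
  have hnum0 : r.num ≠ 0 := Rat.num_ne_zero.mpr hr0
  have hden0 : (r.den : ℤ) ≠ 0 := by exact_mod_cast r.den_ne_zero
  obtain ⟨a, ha⟩ := Fermat.Agent.S05.valuation_intCast_pow A hp hA r.num hnum0
  obtain ⟨b, hb⟩ := Fermat.Agent.S05.valuation_intCast_pow A hp hA (r.den : ℤ) hden0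
  rw [Rat.cast_intCast, Rat.cast_natCast] at ha hb
  have hreq : algebraMap ℚ Qbar r = ((r.num : ℤ) : Qbar) / (((r.den : ℤ) : ℤ) : Qbar) := by
    rw [eq_ratCast, Rat.cast_def]
    push_cast
    rfl
  rw [hreq, map_div₀, ha, hb] at hr ⊢
  -- `v(p)^a / v(p)^b > 1` forces `a < b`
  have hab : a < b := by
    by_contra hcon
    rw [not_lt] at hcon
    have h1 : A.valuation ((p : ℕ) : Qbar) ^ a ≤ A.valuation ((p : ℕ) : Qbar) ^ b :=
      pow_le_pow_of_le_one zero_le hpv.le hcon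
    have h2 : A.valuation ((p : ℕ) : Qbar) ^ a / A.valuation ((p : ℕ) : Qbar) ^ b ≤ 1 :=
      (div_le_one₀ (pow_pos hppos b)).mpr h1
    exact absurd hr (not_lt.mpr h2)
  obtain ⟨c, rfl⟩ : ∃ c, b = a + (c + 1) := ⟨b - a - 1, by omega⟩
  rw [pow_add, div_mul_cancel_left₀ (pow_ne_zero a hp0), inv_le_inv₀ hppos (pow_pos hppos _)]
  calc A.valuation ((p : ℕ) : Qbar) ^ (c + 1)
      ≤ A.valuation ((p : ℕ) : Qbar) ^ 1 := pow_le_pow_of_le_one zero_le hpv.le (by omega)
    _ = A.valuation ((p : ℕ) : Qbar) := pow_one _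

section Frey

open Fermat.Agent.S05

/-- The Galois action on points is compatible with the `x`-coordinate. -/
theorem locP_xc_smul (P : FreyPackage) (σ : GQ) (Q : (P.freyCurve⁄Qbar).Point) :
    locP_xc (σ • Q) = σ (locP_xc Q) := by
  rcases Q with _ | ⟨x, y, h⟩
  · show locP_xc (Point.map σ.toAlgHom (0 : (P.freyCurve⁄Qbar).Point)) = σ 0
    rw [Point.map_zero, locP_xc_zero, _root_.map_zero]
  · show locP_xc (Point.map σ.toAlgHom (Point.some x y h)) = σ x
    rw [Point.map_some, locP_xc_some]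
    rfl

/-- The coefficients of the Frey curve are integral at every place over `p`. -/
theorem locP_frey_integral (P : FreyPackage) (A : ValuationSubring Qbar)
    (hA : A.LiesOverPrime P.p) :
    (P.freyCurve⁄Qbar).a₁ ∈ A ∧ (P.freyCurve⁄Qbar).a₂ ∈ A ∧ (P.freyCurve⁄Qbar).a₃ ∈ A ∧
      (P.freyCurve⁄Qbar).a₄ ∈ A ∧ (P.freyCurve⁄Qbar).a₆ ∈ A := by
  have hp5 := P.hp5
  have h4 : ¬ ((P.p : ℕ) : ℤ) ∣ 4 := by
    intro h
    have := Int.le_of_dvd (by norm_num) h
    omega
  have h16 : ¬ ((P.p : ℕ) : ℤ) ∣ 16 := by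
    intro h
    have h' : ((P.p : ℕ) : ℤ) ∣ 2 ^ 4 := by norm_num; exact h
    have h2 := (Nat.prime_iff_prime_int.mp P.pp).dvd_of_dvd_pow h'
    have := Int.le_of_dvd (by norm_num) h2
    omega
  have hv4 : A.valuation (4 : Qbar) = 1 := by
    have := valuation_intCast_eq_one A P.pp hA 4 h4
    simpa using this
  have hv16 : A.valuation (16 : Qbar) = 1 := by
    have := valuation_intCast_eq_one A P.pp hA 16 h16
    simpa using this
  have hint : ∀ k : ℤ, A.valuation (k : Qbar) ≤ 1 := fun k =>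
    (A.valuation_le_one_iff _).2 (intCast_mem A k)
  refine ⟨?_, ?_, ?_, ?_, ?_⟩
  · rw [frey_a₁]; exact one_mem A
  · rw [← A.valuation_le_one_iff]
    have h := frey_a₂ P
    have h1 : (4 : Qbar) * (P.freyCurve⁄Qbar).a₂ = ((P.b ^ P.p - P.a ^ P.p - 1 : ℤ) : Qbar) := by
      push_cast at h ⊢
      linear_combination h
    have h2 : A.valuation ((4 : Qbar) * (P.freyCurve⁄Qbar).a₂) ≤ 1 := by
      rw [h1]; exact hint _
    rwa [map_mul, hv4, one_mul] at h2
  · rw [frey_a₃]; exact zero_mem A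
  · rw [← A.valuation_le_one_iff]
    have h := frey_a₄ P
    have h2 : A.valuation ((16 : Qbar) * (P.freyCurve⁄Qbar).a₄) ≤ 1 := by
      rw [h]; exact hint _
    rwa [map_mul, hv16, one_mul] at h2
  · rw [frey_a₆]; exact zero_mem A

/-- **LOCP, step 2**: not all of `V` lies in the kernel of reduction at a place over `p`. -/
theorem locP_exists_val_le_one (hdivc : DivCStatement) (P : FreyPackage)
    (N : Submodule (ZMod P.p) (Submodule.torsionBy ℤ (P.freyCurve⁄Qbar).Point P.p))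
    (hN : IsGaloisStable ℚ N) (hN0 : N ≠ ⊥) (hN1 : N ≠ ⊤)
    (hcard : Nat.card (Submodule.torsionBy ℤ (P.freyCurve⁄Qbar).Point P.p) = P.p ^ 2)
    (A : ValuationSubring Qbar) (hA : A.LiesOverPrime P.p) :
    ∃ Q : Submodule.torsionBy ℤ (P.freyCurve⁄Qbar).Point P.p,
      Q ≠ 0 ∧ A.valuation (locP_xc (Q : (P.freyCurve⁄Qbar).Point)) ≤ 1 := by
  classical
  by_contra hcon
  push_neg at hcon
  have hp : P.p.Prime := P.pp
  have hp5 := P.hp5
  have hppos : 0 < P.p := hp.pos
  have hfin : Finite (Submodule.torsionBy ℤ (P.freyCurve⁄Qbar).Point P.p) :=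
    Nat.finite_of_card_ne_zero (by rw [hcard]; positivity)
  letI : Fintype (Submodule.torsionBy ℤ (P.freyCurve⁄Qbar).Point P.p) := Fintype.ofFinite _
  -- valuation of `p`
  have hpv : A.valuation ((P.p : ℕ) : Qbar) < 1 := (ValuationSubring.mem_nonunits_iff A).1 hA
  have hpQ : ((P.p : ℕ) : Qbar) ≠ 0 := by exact_mod_cast hp.ne_zero
  have hpv0 : A.valuation ((P.p : ℕ) : Qbar) ≠ 0 := (Valuation.ne_zero_iff _).mpr hpQ
  -- the set `T` of nonzero points of `V`
  set U : Finset (P.freyCurve⁄Qbar).Point :=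
    (Finset.univ : Finset (Submodule.torsionBy ℤ (P.freyCurve⁄Qbar).Point P.p)).image
      Subtype.val with hU
  have hUcard : U.card = P.p ^ 2 := by
    rw [hU, Finset.card_image_of_injective _ Subtype.val_injective, Finset.card_univ,
      ← Nat.card_eq_fintype_card, hcard]
  have hU0 : (0 : (P.freyCurve⁄Qbar).Point) ∈ U := by
    rw [hU, Finset.mem_image]
    exact ⟨0, Finset.mem_univ _, rfl⟩
  set T : Finset (P.freyCurve⁄Qbar).Point := U.erase 0 with hTdef
  have hTcard : T.card = P.p ^ 2 - 1 := by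
    rw [hTdef, Finset.card_erase_of_mem hU0, hUcard]
  have hTmem : ∀ Q ∈ T, ∃ Q' : Submodule.torsionBy ℤ (P.freyCurve⁄Qbar).Point P.p,
      (Q' : (P.freyCurve⁄Qbar).Point) = Q ∧ Q' ≠ 0 := by
    intro Q hQ
    rw [hTdef, Finset.mem_erase, hU, Finset.mem_image] at hQ
    obtain ⟨hQ0, Q', -, hQ'⟩ := hQ
    refine ⟨Q', hQ', ?_⟩
    rintro rfl
    exact hQ0 hQ'.symm
  have hT : ∀ Q ∈ T, Q ≠ 0 ∧ P.p • Q = 0 := by
    intro Q hQ
    obtain ⟨Q', rfl, hQ'0⟩ := hTmem Q hQ
    refine ⟨fun h => hQ'0 (Subtype.ext h), ?_⟩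
    have := Q'.2
    rw [Submodule.mem_torsionBy_iff] at this
    rw [← natCast_zsmul]
    exact this
  have hTval : ∀ Q ∈ T, 1 < A.valuation (locP_xc Q) := by
    intro Q hQ
    obtain ⟨Q', rfl, hQ'0⟩ := hTmem Q hQ
    exact hcon Q' hQ'0
  have hmemT : ∀ Q' : Submodule.torsionBy ℤ (P.freyCurve⁄Qbar).Point P.p, Q' ≠ 0 →
      (Q' : (P.freyCurve⁄Qbar).Point) ∈ T := by
    intro Q' hQ'
    rw [hTdef, Finset.mem_erase, hU, Finset.mem_image]
    exact ⟨fun h => hQ' (Subtype.ext h), Q', Finset.mem_univ _, rfl⟩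
  -- the product formula
  have hev := locP_eval_zero hdivc (P.freyCurve⁄Qbar) P.p hp (by omega) hpQ T hT hTcard
  obtain ⟨i₁, i₂, i₃, i₄, i₆⟩ := locP_frey_integral P A hA
  have hmem := locP_eval_zero_mem A (P.freyCurve⁄Qbar) i₁ i₂ i₃ i₄ i₆ P.p
  rw [hev, ← A.valuation_le_one_iff, map_mul, map_prod] at hmem
  simp only [Valuation.map_neg] at hmem
  -- the points of `N`
  set TN : Finset (P.freyCurve⁄Qbar).Point :=
    T.filter (fun Q => ∃ Q' : Submodule.torsionBy ℤ (P.freyCurve⁄Qbar).Point P.p,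
      (Q' : (P.freyCurve⁄Qbar).Point) = Q ∧ Q' ∈ N) with hTN
  have hTNsub : TN ⊆ T := Finset.filter_subset _ _
  set X := T.image (locP_xc (W := (P.freyCurve⁄Qbar))) with hX
  set XN := TN.image (locP_xc (W := (P.freyCurve⁄Qbar))) with hXN
  have hXNsub : XN ⊆ X := Finset.image_subset_image hTNsub
  have hXval : ∀ ξ ∈ X, 1 < A.valuation ξ := by
    intro ξ hξ
    rw [hX, Finset.mem_image] at hξ
    obtain ⟨Q, hQ, rfl⟩ := hξ
    exact hTval Q hQ
  -- `XN` is nonempty
  have hXNne : XN.Nonempty := by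
    obtain ⟨Q', hQ'N, hQ'0⟩ := (Submodule.ne_bot_iff N).mp hN0
    refine ⟨locP_xc (Q' : (P.freyCurve⁄Qbar).Point), ?_⟩
    rw [hXN, Finset.mem_image]
    refine ⟨Q', ?_, rfl⟩
    rw [hTN, Finset.mem_filter]
    exact ⟨hmemT Q' hQ'0, Q', rfl, hQ'N⟩
  -- `X \ XN` is nonempty
  have hrest : (X \ XN).Nonempty := by
    obtain ⟨Q', hQ'⟩ : ∃ Q' : Submodule.torsionBy ℤ (P.freyCurve⁄Qbar).Point P.p, Q' ∉ N := by
      by_contra h
      push_neg at h
      exact hN1 (eq_top_iff.mpr fun x _ => h x)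
    have hQ'0 : Q' ≠ 0 := by
      rintro rfl
      exact hQ' N.zero_mem
    refine ⟨locP_xc (Q' : (P.freyCurve⁄Qbar).Point), ?_⟩
    rw [Finset.mem_sdiff]
    refine ⟨Finset.mem_image_of_mem _ (hmemT Q' hQ'0), ?_⟩
    intro hmem'
    rw [hXN, Finset.mem_image] at hmem'
    obtain ⟨R, hR, hRx⟩ := hmem'
    rw [hTN, Finset.mem_filter] at hR
    obtain ⟨hRT, R', rfl, hR'N⟩ := hR
    have hR'0 : (R' : (P.freyCurve⁄Qbar).Point) ≠ 0 := (hT _ hRT).1
    have hQ'0' : (Q' : (P.freyCurve⁄Qbar).Point) ≠ 0 := fun h => hQ'0 (Subtype.ext h)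
    rcases locP_eq_or_eq_neg hQ'0' hR'0 hRx.symm with h | h
    · exact hQ' ((Subtype.ext h : Q' = R') ▸ hR'N)
    · have : Q' = -R' := Subtype.ext h
      exact hQ' (this ▸ N.neg_mem hR'N)
  -- the product over `XN` is rational
  set y : Qbar := ∏ ξ ∈ XN, ξ with hy
  have hσXN : ∀ σ : GQ, XN.image σ = XN := by
    intro σ
    apply Finset.eq_of_subset_of_card_le
    · intro η hη
      rw [Finset.mem_image] at hη
      obtain ⟨ξ, hξ, rfl⟩ := hη
      rw [hXN, Finset.mem_image] at hξ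
      obtain ⟨R, hR, rfl⟩ := hξ
      rw [hTN, Finset.mem_filter] at hR
      obtain ⟨hRT, R', rfl, hR'N⟩ := hR
      have hR'0 : R' ≠ 0 := fun h => (hT _ hRT).1 (by rw [h]; rfl)
      have hσ0 : σ • R' ≠ 0 := by
        intro h
        apply hR'0
        have := congrArg (fun z => σ⁻¹ • z) h
        simpa using this
      rw [hXN, Finset.mem_image]
      refine ⟨((σ • R' : Submodule.torsionBy ℤ (P.freyCurve⁄Qbar).Point P.p) :
        (P.freyCurve⁄Qbar).Point), ?_, ?_⟩
      · rw [hTN, Finset.mem_filter]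
        exact ⟨hmemT _ hσ0, σ • R', rfl, hN σ R' hR'N⟩
      · exact locP_xc_smul P σ (R' : (P.freyCurve⁄Qbar).Point)
    · rw [Finset.card_image_of_injective _ σ.injective]
  have hσy : ∀ σ : GQ, σ y = y := by
    intro σ
    rw [hy, map_prod]
    conv_rhs => rw [← hσXN σ]
    rw [Finset.prod_image (fun a _ b _ h => σ.injective h)]
  have halgQ : Algebra.IsAlgebraic ℚ (AlgebraicClosure ℚ) := AlgebraicClosure.isAlgebraic ℚ
  have hclosQ : IsAlgClosure ℚ (AlgebraicClosure ℚ) := AlgebraicClosure.instIsAlgClosure ℚ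
  have hgalQ : IsGalois ℚ Qbar := inferInstance
  obtain ⟨r, hr⟩ := (InfiniteGalois.mem_range_algebraMap_iff_fixed (k := ℚ) (K := Qbar) y).mpr hσy
  have hyval : 1 < A.valuation y := by
    rw [hy, map_prod]
    exact locP_one_lt_prod XN _ (fun ξ hξ => hXval ξ (hXNsub hξ)) hXNne
  have hyge : (A.valuation ((P.p : ℕ) : Qbar))⁻¹ ≤ A.valuation y := by
    rw [← hr] at hyval ⊢
    exact locP_val_rat A hp hA r hyval
  -- the final estimate
  have hsplit : ∏ ξ ∈ X, A.valuation ξ =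
      (∏ ξ ∈ X \ XN, A.valuation ξ) * A.valuation y := by
    rw [hy, map_prod, Finset.prod_sdiff hXNsub]
  have hrestval : 1 < ∏ ξ ∈ X \ XN, A.valuation ξ :=
    locP_one_lt_prod _ _ (fun ξ hξ => hXval ξ (Finset.mem_sdiff.mp hξ).1) hrest
  rw [hsplit] at hmem
  have hppos' : 0 < A.valuation ((P.p : ℕ) : Qbar) := zero_lt_iff.mpr hpv0
  have h1 : 1 ≤ A.valuation ((P.p : ℕ) : Qbar) * A.valuation y := by
    calc (1 : A.ValueGroup) = A.valuation ((P.p : ℕ) : Qbar) * (A.valuation ((P.p : ℕ) : Qbar))⁻¹ :=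
          (mul_inv_cancel₀ hpv0).symm
      _ ≤ A.valuation ((P.p : ℕ) : Qbar) * A.valuation y := by gcongr
  have h2 : 1 < A.valuation ((P.p : ℕ) : Qbar) *
      ((∏ ξ ∈ X \ XN, A.valuation ξ) * A.valuation y) := by
    calc (1 : A.ValueGroup) < ∏ ξ ∈ X \ XN, A.valuation ξ := hrestval
      _ = (∏ ξ ∈ X \ XN, A.valuation ξ) * 1 := (mul_one _).symm
      _ ≤ (∏ ξ ∈ X \ XN, A.valuation ξ) *
          (A.valuation ((P.p : ℕ) : Qbar) * A.valuation y) := by gcongr
      _ = A.valuation ((P.p : ℕ) : Qbar) *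
          ((∏ ξ ∈ X \ XN, A.valuation ξ) * A.valuation y) := mul_left_comm _ _ _
  exact absurd hmem (not_le.mpr h2)

end Frey

end Fermat.Agent.S13
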