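import Mathlib
import Fermat.Agent.S13.Defs
import Fermat.Agent.S13.LocPProd
import Fermat.Agent.S13.LocPNe

/-!
# S13, package LOCP: linear algebra (STEP 3) and assembly

Owner: helper21.

* `LocPKerStatement` is the consumer shape of STEP 1 (the kernel of reduction at a place over
  `p` receives `(σ - 1) V` for every `σ` in the inertia group).
* `locP_linalg` : in a plane over `𝔽_p`, a line `N` and a proper subspace `C` satisfy
  `N = C` or `N ⊓ C = ⊥`.
* `locP_of_ker` : STEP 1 + DIVC imply `LocPStatement`.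
-/

set_option autoImplicit false

open WeierstrassCurve WeierstrassCurve.Affine WeierstrassCurve.Affine.Point

namespace Fermat.Agent.S13

local notation "Qbar" => AlgebraicClosure ℚ
local notation "GQ" => (AlgebraicClosure ℚ ≃ₐ[ℚ] AlgebraicClosure ℚ)

/-- (LOCP, STEP 1, consumer shape) For a place `A` over `p` there is a subgroup `C` of the points
of the Frey curve (the kernel of reduction) all of whose nonzero `p`-torsion points have an
`x`-coordinate of valuation `> 1`, and which contains `σ Q - Q` for every `p`-torsion point `Q`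
and every `σ` in the inertia group of `A`. -/
def LocPKerStatement : Prop :=
  ∀ (P : FreyPackage) (A : ValuationSubring Qbar), A.LiesOverPrime P.p →
    ∃ C : AddSubgroup (P.freyCurve⁄Qbar).Point,
      (∀ (x y : Qbar) (h : (P.freyCurve⁄Qbar).Nonsingular x y),
          (Point.some x y h : (P.freyCurve⁄Qbar).Point) ∈ C →
          (P.p : ℤ) • (Point.some x y h : (P.freyCurve⁄Qbar).Point) = 0 →
          1 < A.valuation x) ∧
      (∀ σ ∈ A.inertiaSubgroupIn ℚ, ∀ Q : (P.freyCurve⁄Qbar).Point,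
          (P.p : ℤ) • Q = 0 → σ • Q - Q ∈ C)

/-- In a plane over `𝔽_p`, a line `N` and a proper subspace `C` are equal or meet trivially. -/
theorem locP_linalg {p : ℕ} [Fact p.Prime] {V : Type*} [AddCommGroup V] [Module (ZMod p) V]
    (hcard : Nat.card V = p ^ 2) (N C : Submodule (ZMod p) V) (hN0 : N ≠ ⊥) (hN1 : N ≠ ⊤)
    (hC : C ≠ ⊤) : N = C ∨ N ⊓ C = ⊥ := by
  have hp : 1 < p := (Fact.out : p.Prime).one_lt
  have hfin : Finite V := by
    apply Nat.finite_of_card_ne_zero
    rw [hcard]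
    positivity
  have hV : Module.finrank (ZMod p) V = 2 := by
    have h := Module.natCard_eq_pow_finrank (K := ZMod p) (V := V)
    rw [hcard, Nat.card_zmod] at h
    exact (Nat.pow_right_injective hp h).symm
  have hNlt : Module.finrank (ZMod p) N < 2 := hV ▸ Submodule.finrank_lt hN1
  have hClt : Module.finrank (ZMod p) C < 2 := hV ▸ Submodule.finrank_lt hC
  have hNpos : 0 < Module.finrank (ZMod p) N := by
    rw [Module.finrank_pos_iff, Submodule.nontrivial_iff_ne_bot]
    exact hN0
  by_cases hle : N ≤ C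
  · left
    exact Submodule.eq_of_le_of_finrank_le hle (by omega)
  · right
    have hlt : N ⊓ C < N := lt_of_le_of_ne inf_le_left (fun h => hle (h ▸ inf_le_right))
    have h1 : Module.finrank (ZMod p) (N ⊓ C : Submodule (ZMod p) V) <
        Module.finrank (ZMod p) N := Submodule.finrank_lt_finrank_of_lt hlt
    have h0 : Module.finrank (ZMod p) (N ⊓ C : Submodule (ZMod p) V) = 0 := by omega
    exact Submodule.finrank_eq_zero.mp h0

/-- **LOCP from STEP 1 and DIVC.** -/
theorem locP_of_ker (hker : LocPKerStatement) (hdivc : DivCStatement) : LocPStatement := by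
  intro P N hN hN0 hN1 hcard A hA
  haveI : Fact P.p.Prime := ⟨P.pp⟩
  obtain ⟨C, hC1, hC2⟩ := hker P A hA
  obtain ⟨Q₀, hQ₀, hQ₀v⟩ := locP_exists_val_le_one hdivc P N hN hN0 hN1 hcard A hA
  -- the trace of `C` on `V`, as a subspace
  let CV₀ : AddSubgroup (Submodule.torsionBy ℤ (P.freyCurve⁄Qbar).Point P.p) :=
    C.comap (Submodule.torsionBy ℤ (P.freyCurve⁄Qbar).Point P.p).subtype.toAddMonoidHom
  let CV : Submodule (ZMod P.p) (Submodule.torsionBy ℤ (P.freyCurve⁄Qbar).Point P.p) :=
    AddSubgroup.toZModSubmodule P.p CV₀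
  have hmemCV : ∀ x : Submodule.torsionBy ℤ (P.freyCurve⁄Qbar).Point P.p,
      x ∈ CV ↔ (x : (P.freyCurve⁄Qbar).Point) ∈ C := fun x => Iff.rfl
  have htors : ∀ x : Submodule.torsionBy ℤ (P.freyCurve⁄Qbar).Point P.p,
      (P.p : ℤ) • (x : (P.freyCurve⁄Qbar).Point) = 0 := fun x =>
    (Submodule.mem_torsionBy_iff _ _).mp x.2
  -- `CV` is proper
  have hCV : CV ≠ ⊤ := by
    intro htop
    have hmem : Q₀ ∈ CV := htop ▸ Submodule.mem_top
    rw [hmemCV] at hmem
    have hQ₀' : (Q₀ : (P.freyCurve⁄Qbar).Point) ≠ 0 := fun h => hQ₀ (Subtype.ext h)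
    rcases hQ : (Q₀ : (P.freyCurve⁄Qbar).Point) with _ | ⟨x, y, h⟩
    · exact hQ₀' hQ
    · rw [hQ] at hmem hQ₀v
      have hlt := hC1 x y h hmem (hQ ▸ htors Q₀)
      rw [locP_xc_some] at hQ₀v
      exact absurd hlt (not_lt.mpr hQ₀v)
  -- inertia moves points only inside `CV`
  have hmove : ∀ σ ∈ A.inertiaSubgroupIn ℚ,
      ∀ x : Submodule.torsionBy ℤ (P.freyCurve⁄Qbar).Point P.p, σ • x - x ∈ CV := by
    intro σ hσ x
    rw [hmemCV]
    exact hC2 σ hσ (x : (P.freyCurve⁄Qbar).Point) (htors x)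
  rcases locP_linalg hcard N CV hN0 hN1 hCV with h | h
  · right
    intro σ hσ x
    rw [h]
    exact hmove σ hσ x
  · left
    intro σ hσ x hx
    have h1 : σ • x - x ∈ N ⊓ CV := ⟨N.sub_mem (hN σ x hx) hx, hmove σ hσ x⟩
    rw [h, Submodule.mem_bot] at h1
    exact sub_eq_zero.mp h1

end Fermat.Agent.S13
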