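import Mathlib
import Fermat.Agent.S13.Defs
import Fermat.Agent.S13.LocP
import Fermat.Agent.S05.Short
import Fermat.Agent.S05.KernelReduction
import Fermat.Agent.S05.Transport
import Fermat.Agent.S05.Inertia
import Fermat.Agent.S05.Final

/-!
# S13, package LOCP, STEP 1: inertia at `p` moves `p`-torsion inside the kernel of reduction

Owner: helper27.  We prove `locPKer : LocPKerStatement` (consumer shape of helper21's
`S13/LocP.lean`).  The subgroup `C` is the kernel of reduction `{Q | Q = 0 ∨ 1 < v (x Q)}` of the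
original Frey model at the place `A` over `p`; the key step is the first half of the proof of
`S05.short_main_of`, which never uses that the residue characteristic is prime to `p`.
-/

set_option autoImplicit false
set_option linter.unusedSectionVars false
set_option linter.unusedVariables false

open WeierstrassCurve WeierstrassCurve.Affine WeierstrassCurve.Affine.Point

namespace Fermat.Agent.S13

open Fermat.Agent.S05 Fermat.Agent.S05.KR

section general

variable {K : Type*} [Field K] [DecidableEq K] {Γ₀ : Type*} [LinearOrderedCommGroupWithZero Γ₀]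
  (v : Valuation K Γ₀)

/-- The key step of `S05.short_main_of`: a torsion point of odd order `n` with integral
`x`-coordinate on `y² = x (x - r₂) (x - r₃)` and its image under a ring endomorphism `σ` which is
trivial on the residue field differ by an element of the kernel of reduction.  No assumption on
`v n`. -/
theorem locpK_hkey (σ : K →+* K)
    (hσ : ∀ a : K, v a ≤ 1 → v (σ a - a) < 1)
    (h2 : v (2 : K) = 1)
    (W : WeierstrassCurve.Affine K) (h₁ : W.a₁ = 0) (h₃ : W.a₃ = 0) (h₆ : W.a₆ = 0)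
    (r₂ r₃ : K) (ha₂ : W.a₂ = -(r₂ + r₃)) (ha₄ : W.a₄ = r₂ * r₃)
    (hr₂ : v r₂ ≤ 1) (hr₂0 : r₂ ≠ 0) (hr₃ : v r₃ = 1) (hr₂₃ : v (r₂ - r₃) = 1)
    (π : K) (hπσ : σ π = π) (hπ0 : π ≠ 0)
    (n m : ℕ) (hn : Odd n) (hr₂π : v r₂ = v π ^ (n * m))
    {x y : K} (h : W.Nonsingular x y) (h' : W.Nonsingular (σ x) (σ y))
    (hx : v x ≤ 1) (hP : n • Point.some x y h = 0)
    (hne : Point.some (σ x) (σ y) h' ≠ Point.some x y h) :
    ∃ (x₃ y₃ : K) (h₃ : W.Nonsingular x₃ y₃),
      Point.some (σ x) (σ y) h' - Point.some x y h = Point.some x₃ y₃ h₃ ∧ 1 < v x₃ := by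
  have hW : IsShort W := ⟨h₁, h₃, h₆⟩
  have hva₂ : v W.a₂ ≤ 1 := by
    rw [ha₂, Valuation.map_neg]
    exact v.map_add_le hr₂ hr₃.le
  have hva₄ : v W.a₄ ≤ 1 := by
    rw [ha₄, map_mul, hr₃, mul_one]
    exact hr₂
  have hn0 : n ≠ 0 := by
    rintro rfl
    exact absurd hn (by decide)
  have heq := hW.eqn h
  have heq' : y ^ 2 = x * (x - r₂) * (x - r₃) := by
    rw [heq, ha₂, ha₄]; ring
  have hy1 : v y ≤ 1 := by
    have : v y ^ 2 ≤ 1 := by
      rw [← map_pow, heq', map_mul, map_mul]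
      have hB1 : v (x - r₂) ≤ 1 := v.map_sub_le hx hr₂
      have hC1 : v (x - r₃) ≤ 1 := v.map_sub_le hx hr₃.le
      calc v x * v (x - r₂) * v (x - r₃) ≤ 1 * 1 * 1 := by gcongr
        _ = 1 := by simp
    by_contra hcon
    rw [not_le] at hcon
    exact absurd this (not_le.2 (one_lt_pow₀ hcon (by norm_num)))
  by_cases hnode : v x < 1 ∧ v r₂ < 1
  · -- node case
    obtain ⟨hxl, hr₂l⟩ := hnode
    have hva₂' : v W.a₂ = 1 := by
      rw [ha₂, Valuation.map_neg, Valuation.map_add_eq_of_lt_right v (by rw [hr₃]; exact hr₂l),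
        hr₃]
    have hva₄' : v W.a₄ = v r₂ := by rw [ha₄, map_mul, hr₃, mul_one]
    have ha₄0 : W.a₄ ≠ 0 := by
      rw [ha₄]
      refine mul_ne_zero hr₂0 ?_
      intro h0
      rw [h0, _root_.map_zero] at hr₃
      exact zero_ne_one hr₃
    obtain ⟨hlt, k, hk⟩ := node_torsion_val v hW hva₂' (by rw [hva₄']; exact hr₂l) ha₄0 h2 n hn
      h hxl hP
    rw [hva₄'] at hlt hk
    set c : K := π ^ (2 * k * m) with hc
    have hvc : v x = v c := by
      have : v x ^ n = v c ^ n := by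
        rw [hk, hr₂π, hc, map_pow, ← pow_mul, ← pow_mul]
        congr 1
        ring
      exact (pow_left_inj hn0).mp this
    have hc0 : c ≠ 0 := pow_ne_zero _ hπ0
    have hσc : σ c = c := by rw [hc, map_pow, hπσ]
    have hvc0 : v c ≠ 0 := (Valuation.ne_zero_iff v).2 hc0
    have hvcpos : 0 < v c := zero_lt_iff.2 hvc0
    have hvy : v y = v c := by
      have : v y ^ 2 = v c ^ 2 := by
        rw [← map_pow, heq', map_mul, map_mul]
        rw [Valuation.map_sub_eq_of_lt_left v hlt,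
          Valuation.map_sub_eq_of_lt_right v (by rw [hr₃]; exact hxl), hr₃, mul_one, hvc,
          pow_two]
      exact (pow_left_inj (by norm_num)).mp this
    have hscale : ∀ z : K, v z = v c → v (σ z - z) < v c := by
      intro z hz
      have hu : v (z / c) ≤ 1 := by
        rw [map_div₀, hz, div_self hvc0]
      have := hσ (z / c) hu
      have e : σ z - z = c * (σ (z / c) - z / c) := by
        rw [map_div₀, hσc]
        field_simp
      rw [e, map_mul]
      calc v c * v (σ (z / c) - z / c) < v c * 1 := mul_lt_mul_of_pos_left this hvcpos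
        _ = v c := mul_one _
    exact sub_mem_kernel v hW hva₂ hva₄ h2 h h' c (hvc ▸ hxl.le) hc0 hvc.le (hscale x hvc)
      (hscale y hvy) (Or.inl hvy) hne
  · -- nonsingular reduction
    have hns := val_nonsing v hx hr₂ hr₃ hr₂₃ hnode heq'
    rw [← ha₂, ← ha₄] at hns
    refine sub_mem_kernel v hW hva₂ hva₄ h2 h h' 1 (by simp) one_ne_zero (by simpa using hx)
      (by simpa using hσ x hx) (by simpa using hσ y hy1) (by simpa using hns) hne

/-- Membership in the kernel of reduction (any Weierstrass model). -/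
def locpK_In {W : WeierstrassCurve.Affine K} (v : Valuation K Γ₀) : W.Point → Prop
  | .zero => True
  | .some x _ _ => 1 < v x

/-- The kernel of reduction of an integral Weierstrass model, as a subgroup. -/
def locpK_ker (W : WeierstrassCurve.Affine K) (hW : IntegralCoeffs v W) : AddSubgroup W.Point where
  carrier := {P | locpK_In v P}
  zero_mem' := trivial
  add_mem' := by
    intro P Q hP hQ
    have key : ∀ R : W.Point, locpK_In v R → ∃ γ : Γ₀, γ < 1 ∧ InKer v γ R := by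
      intro R hR
      rcases R with _ | ⟨x, y, h⟩
      · exact ⟨0, zero_lt_one, trivial⟩
      · exact ⟨v (x / y), val_t_lt_one hW h.1 hR, hR, le_rfl⟩
    have mono : ∀ (R : W.Point) (γ γ' : Γ₀), γ ≤ γ' → InKer v γ R → InKer v γ' R := by
      intro R γ γ' hle hR
      rcases R with _ | ⟨x, y, h⟩
      · trivial
      · exact ⟨hR.1, hR.2.trans hle⟩
    obtain ⟨γ₁, hγ₁, hP'⟩ := key P hP
    obtain ⟨γ₂, hγ₂, hQ'⟩ := key Q hQ
    have hγ : max γ₁ γ₂ < 1 := max_lt hγ₁ hγ₂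
    have := (inKer_add hW hγ (mono P _ _ (le_max_left _ _) hP')
      (mono Q _ _ (le_max_right _ _) hQ')).1
    show locpK_In v (P + Q)
    rcases hPQ : P + Q with _ | ⟨x, y, h⟩
    · trivial
    · rw [hPQ] at this
      exact this.1
  neg_mem' := by
    intro P hP
    rcases P with _ | ⟨x, y, h⟩
    · exact hP
    · show locpK_In v (-Point.some x y h)
      rw [Point.neg_some]
      exact hP

theorem locpK_mem_ker_some {W : WeierstrassCurve.Affine K} (hW : IntegralCoeffs v W) {x y : K}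
    (h : W.Nonsingular x y) : Point.some x y h ∈ locpK_ker v W hW ↔ 1 < v x := Iff.rfl

end general

section frey

local notation "Qbar" => AlgebraicClosure ℚ

/-- Abstract core of STEP 1, for a curve `y² + xy = x³ + a₂x² + a₄x` over `Qbar` with integral
data, at a place over an odd prime `q` (which may be equal to `p`). -/
theorem locpK_core {q : ℕ} (hq : q.Prime) (hq2 : q ≠ 2) (p : ℕ) (hpodd : Odd p)
    (A : ValuationSubring Qbar) (hA : A.LiesOverPrime q)
    (σ : Qbar ≃ₐ[ℚ] Qbar) (hσ : σ ∈ A.inertiaSubgroupIn ℚ)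
    (W : WeierstrassCurve.Affine Qbar) (h₁ : W.a₁ = 1) (h₃ : W.a₃ = 0) (h₆ : W.a₆ = 0)
    (hW : IntegralCoeffs A.valuation W)
    (β α : ℤ) (hβ : 4 * W.a₂ + 1 = (β : Qbar)) (hα : 16 * W.a₄ = (α : Qbar))
    (e₀ ρ₂ ρ₃ t : ℤ)
    (hi : 3 * e₀ + β = -(ρ₂ + ρ₃))
    (hii : 3 * e₀ ^ 2 + 2 * β * e₀ + α = ρ₂ * ρ₃)
    (hiii : e₀ ^ 3 + β * e₀ ^ 2 + α * e₀ = 0)
    (ht : t ≠ 0) (hρ₂ : ρ₂ = t ^ p ∨ ρ₂ = -t ^ p)
    (hρ₃ : ¬ (q : ℤ) ∣ ρ₃) (hρ₂₃ : ¬ (q : ℤ) ∣ ρ₂ - ρ₃)
    {x0 y0 : Qbar} (h0 : W.Nonsingular x0 y0) (h0σ : W.Nonsingular (σ x0) (σ y0))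
    (hx0 : A.valuation x0 ≤ 1)
    (hxn : p • Point.some x0 y0 h0 = 0) :
    Point.some (σ x0) (σ y0) h0σ - Point.some x0 y0 h0 ∈ locpK_ker A.valuation W hW := by
  by_cases hne : Point.some (σ x0) (σ y0) h0σ = Point.some x0 y0 h0
  · rw [hne, sub_self]
    exact AddSubgroup.zero_mem _
  have h2ne : (2 : Qbar) ≠ 0 := two_ne_zero
  have h4ne : (4 : Qbar) ≠ 0 := by norm_num
  have h8ne : (8 : Qbar) ≠ 0 := by norm_num
  -- the transported curve
  have h₆' : (shiftCurve W (e₀ : Qbar)).a₆ = 0 := by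
    rw [shiftCurve_a₆, hβ, hα]
    have := congrArg (fun z : ℤ => (z : Qbar)) hiii
    push_cast at this ⊢
    linear_combination this
  have ha₂ : (shiftCurve W (e₀ : Qbar)).a₂ = -((ρ₂ : Qbar) + (ρ₃ : Qbar)) := by
    rw [shiftCurve_a₂, hβ]
    have := congrArg (fun z : ℤ => (z : Qbar)) hi
    push_cast at this ⊢
    linear_combination this
  have ha₄ : (shiftCurve W (e₀ : Qbar)).a₄ = (ρ₂ : Qbar) * (ρ₃ : Qbar) := by
    rw [shiftCurve_a₄, hβ, hα]
    have := congrArg (fun z : ℤ => (z : Qbar)) hii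
    push_cast at this ⊢
    linear_combination this
  -- valuations
  have hq2' : ¬ (q : ℤ) ∣ 2 := by
    intro h
    have h' : q ∣ 2 := by exact_mod_cast h
    exact hq2 ((Nat.prime_dvd_prime_iff_eq hq Nat.prime_two).1 h')
  have hq4' : ¬ (q : ℤ) ∣ 4 := by
    intro h
    have h' : (q : ℤ) ∣ 2 ^ 2 := by norm_num; exact h
    exact hq2' ((Nat.prime_iff_prime_int.1 hq).dvd_of_dvd_pow h')
  have hv2 : A.valuation (2 : Qbar) = 1 := by
    have := valuation_intCast_eq_one A hq hA 2 hq2'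
    simpa using this
  have hv4 : A.valuation (4 : Qbar) = 1 := by
    have := valuation_intCast_eq_one A hq hA 4 hq4'
    simpa using this
  have hvr₃ : A.valuation (ρ₃ : Qbar) = 1 := by
    have := valuation_intCast_eq_one A hq hA ρ₃ hρ₃
    simpa using this
  have hvr₂₃ : A.valuation ((ρ₂ : Qbar) - (ρ₃ : Qbar)) = 1 := by
    have := valuation_intCast_eq_one A hq hA (ρ₂ - ρ₃) hρ₂₃
    simpa using this
  have hρ₂0 : ρ₂ ≠ 0 := by
    rcases hρ₂ with h | h <;> rw [h]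
    · exact pow_ne_zero _ ht
    · exact neg_ne_zero.2 (pow_ne_zero _ ht)
  have hr₂0 : (ρ₂ : Qbar) ≠ 0 := by exact_mod_cast hρ₂0
  have hint : ∀ k : ℤ, A.valuation (k : Qbar) ≤ 1 := fun k =>
    (A.valuation_le_one_iff _).2 (intCast_mem A k)
  have hvr₂ : A.valuation (ρ₂ : Qbar) ≤ 1 := hint ρ₂
  obtain ⟨m, hm⟩ := valuation_intCast_pow A hq hA t ht
  have hvr₂π : A.valuation (ρ₂ : Qbar) = A.valuation ((q : ℕ) : Qbar) ^ (p * m) := by
    have hm' : A.valuation (t : Qbar) = A.valuation ((q : ℕ) : Qbar) ^ m := by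
      simpa using hm
    have : A.valuation (ρ₂ : Qbar) = A.valuation (t : Qbar) ^ p := by
      rcases hρ₂ with h | h <;> rw [h] <;> push_cast
      · rw [map_pow]
      · rw [Valuation.map_neg, map_pow]
    rw [this, hm', ← pow_mul, mul_comm]
  have hq0 : ((q : ℕ) : Qbar) ≠ 0 := by exact_mod_cast hq.ne_zero
  -- the points
  have hφP := congrArg (transport W h₁ h₃ h₆ (e₀ : Qbar) h2ne) hxn
  rw [map_nsmul, _root_.map_zero, transport_some] at hφP
  have hσe : σ (e₀ : Qbar) = (e₀ : Qbar) := map_intCast σ e₀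
  have hsx : (σ.toAlgHom.toRingHom) (4 * x0 - (e₀ : Qbar)) = 4 * σ x0 - (e₀ : Qbar) := by
    show σ (4 * x0 - (e₀ : Qbar)) = _
    rw [map_sub, map_mul, hσe]
    congr 2
    exact map_ofNat σ 4
  have hsy : (σ.toAlgHom.toRingHom) (8 * y0 + 4 * x0) = 8 * σ y0 + 4 * σ x0 := by
    show σ (8 * y0 + 4 * x0) = _
    rw [map_add, map_mul, map_mul]
    congr 2
    · exact map_ofNat σ 8
    · exact map_ofNat σ 4
  have hns' : (shiftCurve W (e₀ : Qbar)).Nonsingular
      ((σ.toAlgHom.toRingHom) (4 * x0 - (e₀ : Qbar)))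
      ((σ.toAlgHom.toRingHom) (8 * y0 + 4 * x0)) := by
    rw [hsx, hsy]
    exact shift_nonsingular W h₁ h₃ h₆ _ h2ne h0σ
  have hσP : Point.some _ _ hns' =
      transport W h₁ h₃ h₆ (e₀ : Qbar) h2ne (Point.some (σ x0) (σ y0) h0σ) := by
    rw [transport_some]
    congr 1
  have hXint : A.valuation (4 * x0 - (e₀ : Qbar)) ≤ 1 := by
    refine (A.valuation).map_sub_le ?_ (hint e₀)
    rw [map_mul, hv4, one_mul]
    exact hx0
  have hne' : Point.some _ _ hns' ≠
      Point.some _ _ (shift_nonsingular W h₁ h₃ h₆ (e₀ : Qbar) h2ne h0) := by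
    rw [hσP, ← transport_some W h₁ h₃ h₆ (e₀ : Qbar) h2ne h0]
    intro h
    exact hne (transport_injective W h₁ h₃ h₆ (e₀ : Qbar) h2ne h)
  obtain ⟨x₃, y₃, hns₃, hsub, hx₃⟩ := locpK_hkey A.valuation σ.toAlgHom.toRingHom
    (fun a ha => inertia_sub_lt_one A σ hσ a ha) hv2 (shiftCurve W (e₀ : Qbar))
    (shiftCurve_a₁ W _) (shiftCurve_a₃ W _) h₆'
    (ρ₂ : Qbar) (ρ₃ : Qbar) ha₂ ha₄ hvr₂ hr₂0 hvr₃ hvr₂₃ ((q : ℕ) : Qbar)
    (map_natCast σ q) hq0 p m hpodd hvr₂π
    (shift_nonsingular W h₁ h₃ h₆ _ h2ne h0) hns' hXint hφP hne'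
  -- transport back
  rw [hσP, ← transport_some W h₁ h₃ h₆ (e₀ : Qbar) h2ne h0, ← map_sub] at hsub
  rcases hR : Point.some (σ x0) (σ y0) h0σ - Point.some x0 y0 h0 with _ | ⟨xR, yR, hRns⟩
  · rw [hR] at hsub
    exact absurd hsub (by simp [transport])
  · rw [hR, transport_some, Point.some.injEq] at hsub
    rw [locpK_mem_ker_some]
    have hxR : xR = (x₃ + (e₀ : Qbar)) / 4 := by
      field_simp
      linear_combination hsub.1
    rw [hxR, map_div₀, hv4, div_one,
      Valuation.map_add_eq_of_lt_left _ (lt_of_le_of_lt (hint e₀) hx₃)]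
    exact hx₃

/-- **LOCP, STEP 1**: at a place `A` over `p`, the kernel of reduction of the Frey curve contains
`σ Q - Q` for every `p`-torsion point `Q` and every `σ` in the inertia group of `A`. -/
theorem locPKer : LocPKerStatement := by
  intro P A hA
  have hp5 := P.hp5
  have hq2 : P.p ≠ 2 := by omega
  obtain ⟨ha₁, ha₂, ha₃, ha₄, ha₆⟩ := locP_frey_integral P A hA
  have hW : IntegralCoeffs A.valuation (P.freyCurve⁄Qbar) :=
    ⟨(A.valuation_le_one_iff _).2 ha₁, (A.valuation_le_one_iff _).2 ha₂,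
      (A.valuation_le_one_iff _).2 ha₃, (A.valuation_le_one_iff _).2 ha₄,
      (A.valuation_le_one_iff _).2 ha₆⟩
  refine ⟨locpK_ker A.valuation _ hW, fun x y h hmem _ => hmem, ?_⟩
  intro σ hσ Q hQ
  rcases Q with _ | ⟨x0, y0, h0⟩
  · have e0 : σ • (Point.zero : (P.freyCurve⁄Qbar).Point) - Point.zero = 0 := by
      show Point.map σ.toAlgHom (0 : (P.freyCurve⁄Qbar).Point) - 0 = 0
      rw [Point.map_zero, sub_zero]
    rw [e0]
    exact AddSubgroup.zero_mem _
  have hxn : P.p • Point.some x0 y0 h0 = 0 := by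
    rw [← natCast_zsmul]; exact hQ
  obtain ⟨h0σ, hmap⟩ : ∃ h0σ : (P.freyCurve⁄Qbar).Nonsingular (σ x0) (σ y0),
      σ • Point.some x0 y0 h0 = Point.some (σ x0) (σ y0) h0σ :=
    ⟨_, Point.map_some (f := σ.toAlgHom) h0⟩
  rw [hmap]
  by_cases hx : 1 < A.valuation x0
  · -- both points lie in the kernel of reduction
    refine AddSubgroup.sub_mem _ ?_ hx
    show 1 < A.valuation (σ x0)
    rw [← not_le, A.valuation_le_one_iff] at hx ⊢
    exact fun h => hx ((inertia_mem_iff A σ hσ x0).1 h)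
  rw [not_lt] at hx
  have hcore := fun (e₀ ρ₂ ρ₃ t : ℤ) hi hii hiii ht hρ₂ hρ₃ hρ₂₃ =>
    locpK_core P.pp hq2 P.p P.hp_odd A hA σ hσ (P.freyCurve⁄Qbar)
      (frey_a₁ P) (frey_a₃ P) (frey_a₆ P) hW (P.b ^ P.p - P.a ^ P.p) (-(P.a ^ P.p * P.b ^ P.p))
      (frey_a₂ P) (frey_a₄ P) e₀ ρ₂ ρ₃ t hi hii hiii ht hρ₂ hρ₃ hρ₂₃ h0 h0σ hx hxn
  have hFLT := P.hFLT
  by_cases hb : ((P.p : ℕ) : ℤ) ∣ P.b
  · -- p ∣ b
    have ha : ¬ ((P.p : ℕ) : ℤ) ∣ P.a :=
      not_dvd_of_gcd_eq_one P.pp (by rw [gcd_comm]; exact P.hgcdab) hb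
    have hc : ¬ ((P.p : ℕ) : ℤ) ∣ P.c := not_dvd_of_gcd_eq_one P.pp P.hgcdbc hb
    refine hcore 0 (-P.b ^ P.p) (P.a ^ P.p) P.b (by ring) (by ring) (by ring) P.hb0
      (Or.inr rfl) (not_dvd_pow_of_not_dvd P.pp _ ha) ?_
    have : -P.b ^ P.p - P.a ^ P.p = -(P.c ^ P.p) := by rw [← hFLT]; ring
    rw [this, dvd_neg]
    exact not_dvd_pow_of_not_dvd P.pp _ hc
  by_cases hc : ((P.p : ℕ) : ℤ) ∣ P.c
  · -- p ∣ c
    have ha : ¬ ((P.p : ℕ) : ℤ) ∣ P.a :=
      not_dvd_of_gcd_eq_one P.pp (by rw [gcd_comm]; exact P.hgcdac) hc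
    refine hcore (P.a ^ P.p) (-P.c ^ P.p) (-P.a ^ P.p) P.c (by rw [← hFLT]; ring)
      (by rw [← hFLT]; ring) (by ring) P.hc0 (Or.inr rfl) ?_ ?_
    · rw [dvd_neg]; exact not_dvd_pow_of_not_dvd P.pp _ ha
    · have : -P.c ^ P.p - -P.a ^ P.p = -(P.b ^ P.p) := by rw [← hFLT]; ring
      rw [this, dvd_neg]
      exact not_dvd_pow_of_not_dvd P.pp _ hb
  · -- p ∤ b, p ∤ c
    refine hcore 0 (P.a ^ P.p) (-P.b ^ P.p) P.a (by ring) (by ring) (by ring) P.ha0
      (Or.inl rfl) ?_ ?_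
    · rw [dvd_neg]; exact not_dvd_pow_of_not_dvd P.pp _ hb
    · have : P.a ^ P.p - -P.b ^ P.p = P.c ^ P.p := by rw [← hFLT]; ring
      rw [this]
      exact not_dvd_pow_of_not_dvd P.pp _ hc

end frey

end Fermat.Agent.S13
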