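import Mathlib

/-!
# S13 / DIVC: the biquadratic relation between `x(P)`, `x(Q)`, `x(P+Q)`, `x(P-Q)`

Owner: helper16.  Prefix `divCq_`.  Mathlib only.

For a Weierstrass curve `W` over a field and affine points `P₁ = (x₁, y₁)`, `P₂ = (x₂, y₂)` with
`x₁ ≠ x₂`, the `x`-coordinates `x₃ = x(P₁ + P₂)` and `x₄ = x(P₁ - P₂)` are the two roots of the
quadratic `divCq_N W u x₁ x₂` in `u`; for `P₁ = P₂` (not of order two) the quadratic degenerates to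
`Ψ₂Sq(x₁) * (x(2 P₁) - u)`.
-/

set_option autoImplicit false

open WeierstrassCurve WeierstrassCurve.Affine WeierstrassCurve.Affine.Point

namespace Fermat.Agent.S13

variable {F : Type*} [Field F]

/-- The biquadratic form: `N(u; v, w) = u²(v-w)² - S(v,w) u + T(v,w)`. -/
def divCq_N (W : WeierstrassCurve F) (u v w : F) : F :=
  u ^ 2 * (v - w) ^ 2 - ((v + w) * (2 * v * w + W.b₄) + W.b₂ * v * w + W.b₆) * u +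
    (v ^ 2 * w ^ 2 - W.b₄ * v * w - W.b₆ * (v + w) - W.b₈)

theorem divCq_N_symm23 (W : WeierstrassCurve F) (u v w : F) :
    divCq_N W u v w = divCq_N W u w v := by
  unfold divCq_N; ring

theorem divCq_N_symm12 (W : WeierstrassCurve F) (u v w : F) :
    divCq_N W u v w = divCq_N W v u w := by
  unfold divCq_N; ring

theorem divCq_N_symm13 (W : WeierstrassCurve F) (u v w : F) :
    divCq_N W u v w = divCq_N W w v u := by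
  unfold divCq_N; ring

variable [DecidableEq F] (W : WeierstrassCurve.Affine F)

/-- Sum of the `x`-coordinates of `P₁ + P₂` and `P₁ - P₂`. -/
theorem divCq_addX_add {x₁ y₁ x₂ y₂ : F} (h₁ : W.Equation x₁ y₁) (h₂ : W.Equation x₂ y₂)
    (hx : x₁ ≠ x₂) :
    (x₁ - x₂) ^ 2 * (W.addX x₁ x₂ (W.slope x₁ x₂ y₁ y₂) +
        W.addX x₁ x₂ (W.slope x₁ x₂ y₁ (W.negY x₂ y₂))) =
      (x₁ + x₂) * (2 * x₁ * x₂ + W.b₄) + W.b₂ * x₁ * x₂ + W.b₆ := by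
  have hD : x₁ - x₂ ≠ 0 := sub_ne_zero.mpr hx
  rw [Affine.equation_iff] at h₁ h₂
  rw [slope_of_X_ne hx, slope_of_X_ne hx]
  simp only [addX, negY, WeierstrassCurve.b₂, WeierstrassCurve.b₄, WeierstrassCurve.b₆]
  field_simp
  linear_combination 2 * h₁ + 2 * h₂

/-- Product of the `x`-coordinates of `P₁ + P₂` and `P₁ - P₂`. -/
theorem divCq_addX_mul {x₁ y₁ x₂ y₂ : F} (h₁ : W.Equation x₁ y₁) (h₂ : W.Equation x₂ y₂)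
    (hx : x₁ ≠ x₂) :
    (x₁ - x₂) ^ 2 * (W.addX x₁ x₂ (W.slope x₁ x₂ y₁ y₂) *
        W.addX x₁ x₂ (W.slope x₁ x₂ y₁ (W.negY x₂ y₂))) =
      x₁ ^ 2 * x₂ ^ 2 - W.b₄ * x₁ * x₂ - W.b₆ * (x₁ + x₂) - W.b₈ := by
  have hD : x₁ - x₂ ≠ 0 := sub_ne_zero.mpr hx
  rw [Affine.equation_iff] at h₁ h₂
  rw [slope_of_X_ne hx, slope_of_X_ne hx]
  simp only [addX, negY, WeierstrassCurve.b₄, WeierstrassCurve.b₆,
    WeierstrassCurve.b₈]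
  field_simp
  linear_combination (W.a₁ ^ 2 * x₁ * x₂ - W.a₁ ^ 2 * x₂ ^ 2 + W.a₁ * W.a₃ * x₁ - W.a₁ * W.a₃ * x₂ + W.a₁ * x₁ * y₁ - 2 * W.a₁ * x₂ * y₂ + 4 * W.a₂ * x₁ * x₂ - W.a₂ * x₁ ^ 2 - 2 * W.a₂ * x₂ ^ 2 + 2 * x₁ * x₂ ^ 2 + 2 * x₁ ^ 2 * x₂ - x₁ ^ 3 - 2 * x₂ ^ 3 + W.a₃ * y₁ - 2 * W.a₃ * y₂ + W.a₄ * x₁ + y₁ ^ 2 - 2 * y₂ ^ 2 + W.a₆) * h₁ + (W.a₁ ^ 2 * x₁ * x₂ - W.a₁ ^ 2 * x₁ ^ 2 - W.a₁ * W.a₃ * x₁ + W.a₁ * W.a₃ * x₂ + W.a₁ * x₂ * y₂ + 4 * W.a₂ * x₁ * x₂ - 4 * W.a₂ * x₁ ^ 2 - W.a₂ * x₂ ^ 2 + 2 * x₁ * x₂ ^ 2 + 2 * x₁ ^ 2 * x₂ - 4 * x₁ ^ 3 - x₂ ^ 3 + W.a₃ * y₂ - 2 * W.a₄ * x₁ + W.a₄ * x₂ + y₂ ^ 2 - W.a₆) * h₂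

/-- **(X2)**, point-free form. -/
theorem divCq_N_eq_of_X_ne {x₁ y₁ x₂ y₂ : F} (h₁ : W.Equation x₁ y₁) (h₂ : W.Equation x₂ y₂)
    (hx : x₁ ≠ x₂) (u : F) :
    divCq_N W u x₁ x₂ =
      (x₁ - x₂) ^ 2 * (u - W.addX x₁ x₂ (W.slope x₁ x₂ y₁ y₂)) *
        (u - W.addX x₁ x₂ (W.slope x₁ x₂ y₁ (W.negY x₂ y₂))) := by
  have hs := divCq_addX_add W h₁ h₂ hx
  have hp := divCq_addX_mul W h₁ h₂ hx
  unfold divCq_N
  linear_combination u * hs - hp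

/-- **(X2)**: for affine points `P₁`, `P₂` with distinct `x`-coordinates, `P₁ + P₂` and
`P₁ - P₂` are affine and their `x`-coordinates are the roots of `divCq_N W · x₁ x₂`. -/
theorem divCq_X2 {x₁ y₁ x₂ y₂ : F} (h₁ : W.Nonsingular x₁ y₁) (h₂ : W.Nonsingular x₂ y₂)
    (hx : x₁ ≠ x₂) :
    ∃ x₃ y₃ x₄ y₄, ∃ (h₃ : W.Nonsingular x₃ y₃) (h₄ : W.Nonsingular x₄ y₄),
      Point.some x₁ y₁ h₁ + Point.some x₂ y₂ h₂ = Point.some x₃ y₃ h₃ ∧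
      Point.some x₁ y₁ h₁ - Point.some x₂ y₂ h₂ = Point.some x₄ y₄ h₄ ∧
      ∀ u : F, divCq_N W u x₁ x₂ = (x₁ - x₂) ^ 2 * (u - x₃) * (u - x₄) := by
  have h₂' : W.Nonsingular x₂ (W.negY x₂ y₂) := (nonsingular_neg ..).mpr h₂
  refine ⟨_, _, _, _, nonsingular_add h₁ h₂ fun hxy => hx hxy.left,
    nonsingular_add h₁ h₂' fun hxy => hx hxy.left, add_of_X_ne hx, ?_, ?_⟩
  · rw [sub_eq_add_neg, neg_some, add_of_X_ne hx]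
  · intro u
    exact divCq_N_eq_of_X_ne W h₁.1 h₂.1 hx u

omit [DecidableEq F] in
/-- `ψ₂² = Ψ₂Sq` on the curve. -/
theorem divCq_psi2_sq {x₁ y₁ : F} (h₁ : W.Equation x₁ y₁) :
    (2 * y₁ + W.a₁ * x₁ + W.a₃) ^ 2 = W.Ψ₂Sq.eval x₁ := by
  rw [Affine.equation_iff] at h₁
  simp only [WeierstrassCurve.Ψ₂Sq, WeierstrassCurve.b₂, WeierstrassCurve.b₄,
    WeierstrassCurve.b₆, Polynomial.eval_add, Polynomial.eval_mul, Polynomial.eval_C,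
    Polynomial.eval_pow, Polynomial.eval_X]
  linear_combination 4 * h₁

omit [DecidableEq F] in
theorem divCq_psi2_ne_zero {x₁ y₁ : F} (hy : y₁ ≠ W.negY x₁ y₁) :
    2 * y₁ + W.a₁ * x₁ + W.a₃ ≠ 0 := by
  intro h
  apply hy
  simp only [negY]
  linear_combination h

/-- Duplication formula, point-free form: `Ψ₂Sq(x₁) · x(2P₁) = Φ₂(x₁)`. -/
theorem divCq_addX_self {x₁ y₁ : F} (h₁ : W.Equation x₁ y₁) (hy : y₁ ≠ W.negY x₁ y₁) :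
    W.Ψ₂Sq.eval x₁ * W.addX x₁ x₁ (W.slope x₁ x₁ y₁ y₁) =
      x₁ ^ 4 - W.b₄ * x₁ ^ 2 - 2 * W.b₆ * x₁ - W.b₈ := by
  have hψ := divCq_psi2_ne_zero W hy
  rw [← divCq_psi2_sq W h₁]
  rw [Affine.equation_iff] at h₁
  rw [slope_of_Y_ne rfl hy]
  have hden : y₁ - W.negY x₁ y₁ = 2 * y₁ + W.a₁ * x₁ + W.a₃ := by simp only [negY]; ring
  rw [hden]
  simp only [addX, WeierstrassCurve.b₄, WeierstrassCurve.b₆, WeierstrassCurve.b₈]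
  field_simp
  linear_combination (-W.a₁ ^ 2 - 4 * W.a₂ - 8 * x₁) * h₁

/-- **(X3)**, point-free form. -/
theorem divCq_N_self {x₁ y₁ : F} (h₁ : W.Equation x₁ y₁) (hy : y₁ ≠ W.negY x₁ y₁) (u : F) :
    divCq_N W u x₁ x₁ = W.Ψ₂Sq.eval x₁ * (W.addX x₁ x₁ (W.slope x₁ x₁ y₁ y₁) - u) := by
  have hd := divCq_addX_self W h₁ hy
  rw [mul_sub, hd]
  unfold divCq_N
  simp only [WeierstrassCurve.Ψ₂Sq, Polynomial.eval_add, Polynomial.eval_mul, Polynomial.eval_C,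
    Polynomial.eval_pow, Polynomial.eval_X]
  ring

/-- **(X3)**: for an affine point `P₁` which is not of order two, `2 P₁` is affine and
`divCq_N W u x₁ x₁ = Ψ₂Sq(x₁) (x(2P₁) - u)`. -/
theorem divCq_X3 {x₁ y₁ : F} (h₁ : W.Nonsingular x₁ y₁) (hy : y₁ ≠ W.negY x₁ y₁) :
    ∃ x₃ y₃, ∃ (h₃ : W.Nonsingular x₃ y₃),
      Point.some x₁ y₁ h₁ + Point.some x₁ y₁ h₁ = Point.some x₃ y₃ h₃ ∧
      ∀ u : F, divCq_N W u x₁ x₁ = W.Ψ₂Sq.eval x₁ * (x₃ - u) :=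
  ⟨_, _, nonsingular_add h₁ h₁ fun hxy => hy hxy.right, add_self_of_Y_ne hy,
    fun u => divCq_N_self W h₁.1 hy u⟩

omit [DecidableEq F] in
/-- `x Ψ₂Sq - Φ₂ = Ψ₃` (polynomial identity, evaluated). -/
theorem divCq_Psi3_eq (x₁ : F) :
    W.Ψ₃.eval x₁ =
      x₁ * W.Ψ₂Sq.eval x₁ - (x₁ ^ 4 - W.b₄ * x₁ ^ 2 - 2 * W.b₆ * x₁ - W.b₈) := by
  simp only [WeierstrassCurve.Ψ₃, WeierstrassCurve.Ψ₂Sq, Polynomial.eval_add,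
    Polynomial.eval_mul, Polynomial.eval_C, Polynomial.eval_pow, Polynomial.eval_X,
    Polynomial.eval_ofNat]
  ring

/-- **H(2)**, point-free form: `(x₁ - x(2P₁)) ψ₂² = Ψ₃(x₁)`. -/
theorem divCq_H2' {x₁ y₁ : F} (h₁ : W.Equation x₁ y₁) (hy : y₁ ≠ W.negY x₁ y₁) :
    (x₁ - W.addX x₁ x₁ (W.slope x₁ x₁ y₁ y₁)) * (2 * y₁ + W.a₁ * x₁ + W.a₃) ^ 2 =
      W.Ψ₃.eval x₁ := by
  rw [divCq_psi2_sq W h₁, divCq_Psi3_eq, ← divCq_addX_self W h₁ hy]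
  ring

end Fermat.Agent.S13
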