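import Mathlib
import Fermat.Agent.S05.ShortForm
import Fermat.Agent.S05.Reduction
import Fermat.Agent.S05.KernelReduction
import Fermat.Agent.S13.GenericTorsion.Field
import Fermat.Agent.S13.GenericTorsion.Valuation
import Fermat.Agent.S13.GenericTorsion.Generic
import Fermat.Agent.S13.GenericTorsion.Main
import Fermat.Agent.S13.DivCBiquad

/-!
# S13 / CARD (hedge without division polynomials): the degree of multiplication by `n`

Owner: helper16.  Prefix `cardG_`.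

For a short Weierstrass elliptic curve `W : y² = x³ + a₂x² + a₄x` over an algebraically closed
field `K` of characteristic zero, with generic point `P = (x, y)` over the function field, the
`x`-coordinate of `n • P` is `Aₙ(x) / Bₙ(x)` with `Aₙ, Bₙ` coprime, `Bₙ` monic and
`deg Aₙ = deg Bₙ + 1`.  We show `deg Aₙ ≤ n²` by strong induction from

* `deg A₂ₙ ≤ 4 deg Aₙ` (duplication formula), and
* `deg A₂ₙ₊₁ + 1 ≤ 2 deg Aₙ₊₁ + 2 deg Aₙ` (the product formula for `x(Q + R) x(Q - R)`),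

and that the `x`-coordinate of every nonzero `n`-torsion point is a root of `Bₙ`.
-/

set_option autoImplicit false
set_option linter.unusedSectionVars false

open Polynomial WeierstrassCurve WeierstrassCurve.Affine Fermat.Agent.S05

namespace Fermat.Agent.S13

variable {K : Type*} [Field K] (W : WeierstrassCurve.Affine K) (hW : IsShort W) (hΔ : W.Δ ≠ 0)

/-- `cardG_IsRep W hW hΔ n A B`: the `x`-coordinate of `n • P` (`P` the generic point) is
`A(x) / B(x)`, in lowest terms with `B` monic, and `deg A = deg B + 1`. -/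
def cardG_IsRep (n : ℕ) (A B : K[X]) : Prop :=
  B.Monic ∧ IsCoprime A B ∧ A.natDegree = B.natDegree + 1 ∧
    ∃ (X Y : gt_F W) (h : (W⁄(gt_F W)).Nonsingular X Y),
      n • gt_gen W hW hΔ = Point.some X Y h ∧ X = aeval (gt_x W) A / aeval (gt_x W) B

lemma cardG_aeval_injective : Function.Injective (aeval (R := K) (gt_x W)) := by
  rw [injective_iff_map_eq_zero]
  intro q hq
  by_contra h0
  exact gt_aeval_x_ne_zero W h0 hq

section charzero

variable [CharZero K]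

/-- Existence of the representation. -/
lemma cardG_exists_rep {n : ℕ} (hn : n ≠ 0) : ∃ A B : K[X], cardG_IsRep W hW hΔ n A B := by
  obtain ⟨Binf, hvinf, hxinf⟩ := gt_exists_val_infty W
  set v := Binf.valuation with hvdef
  obtain ⟨X, Y, h, hQ, hvX⟩ := gt_nsmul_gen_val W hW hΔ v hvinf hxinf hn
  obtain ⟨A, B, hBm, hcop, hX⟩ := gt_X_mem_of_nsmul W hW hΔ h hQ
  refine ⟨A, B, hBm, hcop, ?_, X, Y, h, hQ, hX⟩
  have hx0 : v (gt_x W) ≠ 0 := ne_of_gt (zero_lt_one.trans hxinf)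
  have hA0 : A ≠ 0 := by
    rintro rfl
    rw [map_zero, zero_div] at hX
    rw [hX, map_zero] at hvX
    exact hx0 hvX.symm
  have hB0 : B ≠ 0 := hBm.ne_zero
  have h1 := gt_val_aeval_of_one_lt v hvinf hxinf hA0
  have h2 := gt_val_aeval_of_one_lt v hvinf hxinf hB0
  have h3 : v (gt_x W) ^ A.natDegree = v (gt_x W) ^ (B.natDegree + 1) := by
    rw [pow_succ, ← h1, ← h2, ← hvX, hX, map_div₀]
    have hb : v (aeval (gt_x W) B) ≠ 0 := by
      rw [h2]
      exact pow_ne_zero _ hx0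
    rw [mul_comm, div_mul_cancel₀ _ hb]
  exact (pow_right_injective₀ (zero_lt_one.trans hxinf) (ne_of_gt hxinf)) h3

lemma cardG_IsRep.A_ne_zero {n : ℕ} {A B : K[X]} (h : cardG_IsRep W hW hΔ n A B) : A ≠ 0 := by
  rintro rfl
  have := h.2.2.1
  rw [natDegree_zero] at this
  omega

lemma cardG_IsRep.B_ne_zero {n : ℕ} {A B : K[X]} (h : cardG_IsRep W hW hΔ n A B) : B ≠ 0 :=
  h.1.ne_zero

/-- The representation of `1 • P`. -/
lemma cardG_isRep_one : cardG_IsRep W hW hΔ 1 X 1 := by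
  refine ⟨monic_one, isCoprime_one_right, by simp, gt_x W, gt_y W,
    gt_generic_nonsingular W hW hΔ, ?_, ?_⟩
  · rw [one_smul]
    rfl
  · simp

end charzero

section roots

variable [IsAlgClosed K] [CharZero K] [DecidableEq K]

/-- At a place `x = x₀` where `n • P` lies in the kernel of reduction, `x₀` is a root of `B`. -/
lemma cardG_eval_eq_zero_of_E1 {n : ℕ} {A B : K[X]} (hrep : cardG_IsRep W hW hΔ n A B)
    {Γ : Type*} [LinearOrderedCommGroupWithZero Γ] (v : Valuation (gt_F W) Γ)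
    (hv : ∀ c : K, c ≠ 0 → v (algebraMap K (gt_F W) c) = 1) {x₀ : K}
    (hx : v (gt_x W - algebraMap K (gt_F W) x₀) < 1) (hE : gt_E1 v (n • gt_gen W hW hΔ)) :
    B.eval x₀ = 0 := by
  obtain ⟨hBm, hcop, hdeg, X, Y, h, hQ, hX⟩ := hrep
  by_contra hB
  rw [hQ] at hE
  have hXv : 1 < v X := hE
  have h1 : v (aeval (gt_x W) B) = 1 := gt_val_aeval_eq_one v hv hx hB
  have h2 : v (aeval (gt_x W) A) ≤ 1 :=
    gt_val_aeval_le_one v hv (gt_val_le_one_of_sub_lt v hv hx) A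
  rw [hX, map_div₀, h1, div_one] at hXv
  exact absurd h2 (not_le.2 hXv)

/-- **Torsion points give roots of the denominator.** -/
lemma cardG_eval_eq_zero_of_torsion {n : ℕ} {A B : K[X]} (hrep : cardG_IsRep W hW hΔ n A B)
    {x₀ y₀ : K} (h₀ : (W⁄K).Nonsingular x₀ y₀) (htors : n • Point.some x₀ y₀ h₀ = 0) :
    B.eval x₀ = 0 := by
  obtain ⟨Bv, hv, hx⟩ := gt_exists_val_at W x₀
  set v := Bv.valuation with hvdef
  have hV := gt_integralCoeffs W v hv
  have hKs := gt_isShort_baseChange W hW K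
  obtain ⟨y₁, h₁, hT⟩ := gt_exists_reduction W hW hΔ v hv (gt_generic_nonsingular W hW hΔ) x₀ hx
  -- the reduced point is `± (x₀, y₀)`
  have hy : y₁ = y₀ ∨ y₁ = -y₀ := by
    have e1 := gt_short_eqn_const W hW h₁
    have e0 := gt_short_eqn_const W hW h₀
    have : (y₁ - y₀) * (y₁ + y₀) = 0 := by linear_combination e1 - e0
    rcases mul_eq_zero.1 this with h0 | h0
    · left; linear_combination h0
    · right; linear_combination h0
  have htors₁ : n • Point.some x₀ y₁ h₁ = 0 := by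
    rcases hy with rfl | rfl
    · exact htors
    · have : Point.some x₀ (-y₀) h₁ = -Point.some x₀ y₀ h₀ := by
        rw [hKs.neg_some]
      rw [this, smul_neg, htors, neg_zero]
  apply cardG_eval_eq_zero_of_E1 W hW hΔ hrep v hv hx
  have h1 : gt_E1 v (n • (gt_gen W hW hΔ - gt_cst W (Point.some x₀ y₁ h₁))) :=
    gt_E1_nsmul hV hT n
  have e : n • (gt_gen W hW hΔ - gt_cst W (Point.some x₀ y₁ h₁)) = n • gt_gen W hW hΔ := by
    rw [nsmul_sub, ← map_nsmul, htors₁, map_zero, sub_zero]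
  rwa [e] at h1

/-- For odd `n`, the denominator does not vanish at `0` (the point `(0, 0)` has order two). -/
lemma cardG_eval_zero_ne_zero {n : ℕ} (hn : Odd n) {A B : K[X]}
    (hrep : cardG_IsRep W hW hΔ n A B) : B.eval 0 ≠ 0 := by
  intro hB0
  obtain ⟨hBm, hcop, hdeg, X, Y, h, hQ, hX⟩ := hrep
  have hA : A.eval 0 ≠ 0 := by
    obtain ⟨a, b, hab⟩ := hcop
    intro hA
    have := congrArg (Polynomial.eval 0) hab
    rw [eval_add, eval_mul, eval_mul, hA, hB0, mul_zero, mul_zero, add_zero, eval_one] at this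
    exact zero_ne_one this
  obtain ⟨Bv, hv, hx⟩ := gt_exists_val_at W (0 : K)
  set v := Bv.valuation with hvdef
  have hV := gt_integralCoeffs W v hv
  have hKs := gt_isShort_baseChange W hW K
  have hBx : v (aeval (gt_x W) B) < 1 := gt_val_aeval_lt_one v hv hx hB0
  have hAx : v (aeval (gt_x W) A) = 1 := gt_val_aeval_eq_one v hv hx hA
  have hBx0 : v (aeval (gt_x W) B) ≠ 0 :=
    (_root_.map_ne_zero _).2 (gt_aeval_x_ne_zero W hBm.ne_zero)
  have hXv : 1 < v X := by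
    rw [hX, map_div₀, hAx, one_div]
    exact (one_lt_inv₀ (zero_lt_iff.2 hBx0)).2 hBx
  obtain ⟨y₁, h₁, hT⟩ := gt_exists_reduction W hW hΔ v hv (gt_generic_nonsingular W hW hΔ) 0 hx
  have hy₁ : y₁ = 0 := by
    have := gt_short_eqn_const W hW h₁
    have hf0 : (gt_cubic W).eval 0 = 0 := by simp [gt_cubic]
    rw [hf0] at this
    exact pow_eq_zero_iff (two_ne_zero) |>.1 this
  have h2P : Point.some 0 y₁ h₁ + Point.some 0 y₁ h₁ = 0 := hKs.add_self_of_y_eq_zero h₁ hy₁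
  have hpP : n • Point.some 0 y₁ h₁ = Point.some 0 y₁ h₁ := by
    obtain ⟨k, rfl⟩ := hn
    rw [add_smul, one_smul, mul_comm, mul_smul, two_smul, h2P, smul_zero, zero_add]
  have h1 : gt_E1 v (n • (gt_gen W hW hΔ - gt_cst W (Point.some 0 y₁ h₁))) :=
    gt_E1_nsmul hV hT n
  have h2 : gt_E1 v (n • gt_gen W hW hΔ) := by
    rw [hQ]
    exact hXv
  have h3 := gt_E1_sub hV h2 h1
  have e : n • gt_gen W hW hΔ - n • (gt_gen W hW hΔ - gt_cst W (Point.some 0 y₁ h₁)) =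
      gt_cst W (n • Point.some 0 y₁ h₁) := by
    rw [map_nsmul, nsmul_sub]
    abel
  rw [e, hpP] at h3
  exact Point.some_ne_zero _ (gt_cst_eq_zero_of_E1 W v hv h3)

end roots

/-! ### The coefficients of the base change -/

section coeffs

variable (F : Type*) [Field F] [Algebra K F]

include hW in
lemma cardG_b₂ : (W⁄F).b₂ = 4 * algebraMap K F W.a₂ := by
  have hs := gt_isShort_baseChange W hW F
  rw [WeierstrassCurve.b₂, hs.a₁, gt_baseChange_a₂]
  ring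

include hW in
lemma cardG_b₄ : (W⁄F).b₄ = 2 * algebraMap K F W.a₄ := by
  have hs := gt_isShort_baseChange W hW F
  rw [WeierstrassCurve.b₄, hs.a₁, gt_baseChange_a₄]
  ring

include hW in
lemma cardG_b₆ : (W⁄F).b₆ = 0 := by
  have hs := gt_isShort_baseChange W hW F
  rw [WeierstrassCurve.b₆, hs.a₃, hs.a₆]
  ring

include hW in
lemma cardG_b₈ : (W⁄F).b₈ = -(algebraMap K F W.a₄) ^ 2 := by
  have hs := gt_isShort_baseChange W hW F
  rw [WeierstrassCurve.b₈, hs.a₁, hs.a₃, hs.a₆, gt_baseChange_a₄]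
  ring

include hW in
lemma cardG_N_zero (v w : F) :
    divCq_N (W⁄F) 0 v w = (v * w - algebraMap K F W.a₄) ^ 2 := by
  unfold divCq_N
  rw [cardG_b₄ W hW, cardG_b₆ W hW, cardG_b₈ W hW]
  ring

include hW in
lemma cardG_Ψ₂Sq_eval (v : F) :
    (W⁄F).Ψ₂Sq.eval v =
      4 * (v ^ 3 + algebraMap K F W.a₂ * v ^ 2 + algebraMap K F W.a₄ * v) := by
  simp only [WeierstrassCurve.Ψ₂Sq, Polynomial.eval_add, Polynomial.eval_mul, Polynomial.eval_C,
    Polynomial.eval_pow, Polynomial.eval_X]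
  rw [cardG_b₂ W hW, cardG_b₄ W hW, cardG_b₆ W hW]
  ring

end coeffs

/-! ### The two degree inequalities -/

section ineq

variable [CharZero K]

/-- The product formula for `((n+1) P, n P)`. -/
lemma cardG_prod_formula {n : ℕ} {X₁ Y₁ X₂ Y₂ X₃ Y₃ : gt_F W}
    (h₁ : (W⁄(gt_F W)).Nonsingular X₁ Y₁) (h₂ : (W⁄(gt_F W)).Nonsingular X₂ Y₂)
    (h₃ : (W⁄(gt_F W)).Nonsingular X₃ Y₃)
    (hQ₁ : (n + 1) • gt_gen W hW hΔ = Point.some X₁ Y₁ h₁)
    (hQ₂ : n • gt_gen W hW hΔ = Point.some X₂ Y₂ h₂)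
    (hQ₃ : (2 * n + 1) • gt_gen W hW hΔ = Point.some X₃ Y₃ h₃) :
    X₁ ≠ X₂ ∧
      (X₁ * X₂ - algebraMap K (gt_F W) W.a₄) ^ 2 = (X₁ - X₂) ^ 2 * X₃ * gt_x W := by
  obtain ⟨Binf, hvinf, hxinf⟩ := gt_exists_val_infty W
  have hne : X₁ ≠ X₂ := by
    intro hx
    rcases (Point.X_eq_iff (h₁ := h₁) (h₂ := h₂)).1 hx with h | h
    · rw [← hQ₁, ← hQ₂, add_smul, one_smul] at h
      have h0 : gt_gen W hW hΔ = 0 := add_eq_left.1 h
      have := gt_nsmul_gen_ne_zero W hW hΔ Binf.valuation hvinf hxinf (n := 1) one_ne_zero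
      rw [one_smul] at this
      exact this h0
    · rw [← hQ₁, ← hQ₂] at h
      have h0 : (2 * n + 1) • gt_gen W hW hΔ = 0 := by
        have : (2 * n + 1) • gt_gen W hW hΔ =
            (n + 1) • gt_gen W hW hΔ + n • gt_gen W hW hΔ := by
          rw [← add_smul]
          congr 1
          ring
        rw [this, h, neg_add_cancel]
      exact gt_nsmul_gen_ne_zero W hW hΔ Binf.valuation hvinf hxinf (n := 2 * n + 1)
        (by omega) h0
  refine ⟨hne, ?_⟩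
  obtain ⟨x₃, y₃, x₄, y₄, h₃', h₄', hadd, hsub, hN⟩ := divCq_X2 (W⁄(gt_F W)) h₁ h₂ hne
  have e3 : Point.some x₃ y₃ h₃' = Point.some X₃ Y₃ h₃ := by
    rw [← hadd, ← hQ₁, ← hQ₂, ← hQ₃, ← add_smul]
    congr 1
    ring
  have e4 : Point.some x₄ y₄ h₄' = gt_gen W hW hΔ := by
    rw [← hsub, ← hQ₁, ← hQ₂, add_smul, one_smul, add_sub_cancel_left]
  have hx₃ : x₃ = X₃ := (Point.some.inj e3).1
  have hx₄ : x₄ = gt_x W := (Point.some.inj e4).1
  have := hN 0
  rw [cardG_N_zero W hW, hx₃, hx₄] at this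
  rw [this]
  ring

/-- The duplication formula for `n P`. -/
lemma cardG_dup_formula {n : ℕ} {X₂ Y₂ X₃ Y₃ : gt_F W}
    (h₂ : (W⁄(gt_F W)).Nonsingular X₂ Y₂) (h₃ : (W⁄(gt_F W)).Nonsingular X₃ Y₃)
    (hQ₂ : n • gt_gen W hW hΔ = Point.some X₂ Y₂ h₂)
    (hQ₃ : (2 * n) • gt_gen W hW hΔ = Point.some X₃ Y₃ h₃) :
    (X₂ ^ 3 + algebraMap K (gt_F W) W.a₂ * X₂ ^ 2 + algebraMap K (gt_F W) W.a₄ * X₂) ≠ 0 ∧
      (X₂ ^ 2 - algebraMap K (gt_F W) W.a₄) ^ 2 =
        4 * (X₂ ^ 3 + algebraMap K (gt_F W) W.a₂ * X₂ ^ 2 + algebraMap K (gt_F W) W.a₄ * X₂) *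
          X₃ := by
  obtain ⟨Binf, hvinf, hxinf⟩ := gt_exists_val_infty W
  have hVs := gt_isShort_baseChange W hW (gt_F W)
  have h2n : Point.some X₂ Y₂ h₂ + Point.some X₂ Y₂ h₂ = Point.some X₃ Y₃ h₃ := by
    rw [← hQ₂, ← hQ₃, ← two_nsmul, ← mul_smul]
  have hy : Y₂ ≠ (W⁄(gt_F W)).negY X₂ Y₂ := by
    intro hy
    have := Point.add_self_of_Y_eq (h₁ := h₂) hy
    rw [h2n] at this
    exact Point.some_ne_zero _ this
  have hY0 : Y₂ ≠ 0 := by
    intro h0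
    apply hy
    rw [hVs.negY, h0, neg_zero]
  have hcub : X₂ ^ 3 + algebraMap K (gt_F W) W.a₂ * X₂ ^ 2 + algebraMap K (gt_F W) W.a₄ * X₂
      = Y₂ ^ 2 := by
    have := hVs.eqn h₂
    rw [gt_baseChange_a₂, gt_baseChange_a₄] at this
    exact this.symm
  refine ⟨by rw [hcub]; exact pow_ne_zero _ hY0, ?_⟩
  obtain ⟨x₃, y₃, h₃', hadd, hN⟩ := divCq_X3 (W⁄(gt_F W)) h₂ hy
  have e3 : Point.some x₃ y₃ h₃' = Point.some X₃ Y₃ h₃ := by rw [← hadd, h2n]
  have hx₃ : x₃ = X₃ := (Point.some.inj e3).1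
  have := hN 0
  rw [cardG_N_zero W hW, hx₃, cardG_Ψ₂Sq_eval W hW] at this
  linear_combination this

/-- Uniqueness of the representation. -/
lemma cardG_rep_unique {n : ℕ} {A B A' B' : K[X]} (h : cardG_IsRep W hW hΔ n A B)
    (h' : cardG_IsRep W hW hΔ n A' B') : A = A' ∧ B = B' := by
  obtain ⟨hBm, hcop, -, X, Y, hXY, hQ, hX⟩ := h
  obtain ⟨hBm', hcop', -, X', Y', hXY', hQ', hX'⟩ := h'
  have hXX : X = X' := by
    rw [hQ] at hQ'
    exact (Point.some.inj hQ').1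
  have hb : aeval (gt_x W) B ≠ 0 := gt_aeval_x_ne_zero W hBm.ne_zero
  have hb' : aeval (gt_x W) B' ≠ 0 := gt_aeval_x_ne_zero W hBm'.ne_zero
  have hpoly : A * B' = A' * B := by
    apply cardG_aeval_injective W
    rw [map_mul, map_mul]
    rw [hX, hX'] at hXX
    field_simp at hXX
    linear_combination hXX
  have hd1 : B ∣ B' := by
    have : B ∣ A * B' := by rw [hpoly]; exact dvd_mul_left _ _
    exact hcop.symm.dvd_of_dvd_mul_left this
  have hd2 : B' ∣ B := by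
    have : B' ∣ A' * B := by rw [← hpoly]; exact dvd_mul_left _ _
    exact hcop'.symm.dvd_of_dvd_mul_left this
  have hBB : B = B' := eq_of_monic_of_associated hBm hBm' (associated_of_dvd_dvd hd1 hd2)
  refine ⟨?_, hBB⟩
  rw [← hBB] at hpoly
  exact mul_right_cancel₀ hBm.ne_zero hpoly

variable [IsAlgClosed K] [DecidableEq K]

/-- **(E2)** `deg A₂ₙ₊₁ + 1 ≤ 2 deg Aₙ₊₁ + 2 deg Aₙ`. -/
lemma cardG_deg_odd {n : ℕ} {A₁ B₁ A₂ B₂ A B : K[X]}
    (hrep₁ : cardG_IsRep W hW hΔ (n + 1) A₁ B₁) (hrep₂ : cardG_IsRep W hW hΔ n A₂ B₂)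
    (hrep : cardG_IsRep W hW hΔ (2 * n + 1) A B) :
    A.natDegree + 1 ≤ 2 * A₁.natDegree + 2 * A₂.natDegree := by
  have hB0 := cardG_eval_zero_ne_zero W hW hΔ (n := 2 * n + 1) ⟨n, rfl⟩ hrep
  have hA0 := hrep.A_ne_zero
  obtain ⟨hBm₁, hcop₁, hdeg₁, X₁, Y₁, h₁, hQ₁, hX₁⟩ := hrep₁
  obtain ⟨hBm₂, hcop₂, hdeg₂, X₂, Y₂, h₂, hQ₂, hX₂⟩ := hrep₂
  obtain ⟨hBm, hcop, hdeg, X₃, Y₃, h₃, hQ₃, hX₃⟩ := hrep
  obtain ⟨hne, hF⟩ := cardG_prod_formula W hW hΔ h₁ h₂ h₃ hQ₁ hQ₂ hQ₃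
  have hb₁ : aeval (gt_x W) B₁ ≠ 0 := gt_aeval_x_ne_zero W hBm₁.ne_zero
  have hb₂ : aeval (gt_x W) B₂ ≠ 0 := gt_aeval_x_ne_zero W hBm₂.ne_zero
  have hb : aeval (gt_x W) B ≠ 0 := gt_aeval_x_ne_zero W hBm.ne_zero
  -- the polynomial identity
  have hpoly : (A₁ * A₂ - C W.a₄ * (B₁ * B₂)) ^ 2 * B = (A₁ * B₂ - A₂ * B₁) ^ 2 * A * X := by
    apply cardG_aeval_injective W
    simp only [map_mul, map_pow, map_sub, aeval_C, aeval_X]
    rw [hX₁, hX₂, hX₃] at hF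
    have e1 : (aeval (gt_x W) A₁ * aeval (gt_x W) A₂ -
        algebraMap K (gt_F W) W.a₄ * (aeval (gt_x W) B₁ * aeval (gt_x W) B₂)) ^ 2 *
        aeval (gt_x W) B =
        (aeval (gt_x W) B₁ * aeval (gt_x W) B₂) ^ 2 * aeval (gt_x W) B *
          (aeval (gt_x W) A₁ / aeval (gt_x W) B₁ * (aeval (gt_x W) A₂ / aeval (gt_x W) B₂) -
            algebraMap K (gt_F W) W.a₄) ^ 2 := by
      field_simp
    have e2 : (aeval (gt_x W) A₁ * aeval (gt_x W) B₂ -
        aeval (gt_x W) A₂ * aeval (gt_x W) B₁) ^ 2 * aeval (gt_x W) A * gt_x W =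
        (aeval (gt_x W) B₁ * aeval (gt_x W) B₂) ^ 2 * aeval (gt_x W) B *
          ((aeval (gt_x W) A₁ / aeval (gt_x W) B₁ - aeval (gt_x W) A₂ / aeval (gt_x W) B₂) ^ 2 *
            (aeval (gt_x W) A / aeval (gt_x W) B) * gt_x W) := by
      field_simp
    rw [e1, e2, hF]
  -- nonvanishing
  have hdiff : A₁ * B₂ - A₂ * B₁ ≠ 0 := by
    intro h0
    apply hne
    have := congrArg (aeval (gt_x W)) h0
    simp only [map_mul, map_sub, map_zero] at this
    rw [hX₁, hX₂, div_eq_div_iff hb₁ hb₂]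
    linear_combination this
  have hP0 : (A₁ * A₂ - C W.a₄ * (B₁ * B₂)) ^ 2 ≠ 0 := by
    intro h0
    rw [h0, zero_mul] at hpoly
    exact mul_ne_zero (mul_ne_zero (pow_ne_zero _ hdiff) hA0) X_ne_zero hpoly.symm
  -- coprimality
  have hXB : IsCoprime (X : K[X]) B := by
    refine ⟨-(C (B.coeff 0)⁻¹ * B.divX), C (B.coeff 0)⁻¹, ?_⟩
    have hc : B.coeff 0 ≠ 0 := by rwa [coeff_zero_eq_eval_zero]
    have hB := divX_mul_X_add B
    have hCC : (C (B.coeff 0)⁻¹ : K[X]) * C (B.coeff 0) = 1 := by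
      rw [← C_mul, inv_mul_cancel₀ hc, C_1]
    calc -(C (B.coeff 0)⁻¹ * B.divX) * X + C (B.coeff 0)⁻¹ * B
        = -(C (B.coeff 0)⁻¹ * B.divX) * X + C (B.coeff 0)⁻¹ * (B.divX * X + C (B.coeff 0)) := by
          rw [hB]
      _ = C (B.coeff 0)⁻¹ * C (B.coeff 0) := by ring
      _ = 1 := hCC
  have hAXB : IsCoprime (A * X) B := hcop.mul_left hXB
  have hdvd : A * X ∣ (A₁ * A₂ - C W.a₄ * (B₁ * B₂)) ^ 2 := by
    apply hAXB.dvd_of_dvd_mul_right
    rw [hpoly, mul_assoc]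
    exact dvd_mul_left _ _
  have h1 := natDegree_le_of_dvd hdvd hP0
  rw [natDegree_mul_X hA0] at h1
  have h2 : ((A₁ * A₂ - C W.a₄ * (B₁ * B₂)) ^ 2).natDegree ≤
      2 * (A₁.natDegree + A₂.natDegree) := by
    refine natDegree_pow_le.trans (Nat.mul_le_mul_left 2 ?_)
    refine (natDegree_sub_le _ _).trans (max_le natDegree_mul_le ?_)
    refine (natDegree_C_mul_le _ _).trans (natDegree_mul_le.trans ?_)
    omega
  omega

/-- **(E1)** `deg A₂ₙ ≤ 4 deg Aₙ`. -/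
lemma cardG_deg_even {n : ℕ} {A₂ B₂ A B : K[X]}
    (hrep₂ : cardG_IsRep W hW hΔ n A₂ B₂) (hrep : cardG_IsRep W hW hΔ (2 * n) A B) :
    A.natDegree ≤ 4 * A₂.natDegree := by
  have hA0 := hrep.A_ne_zero
  obtain ⟨hBm₂, hcop₂, hdeg₂, X₂, Y₂, h₂, hQ₂, hX₂⟩ := hrep₂
  obtain ⟨hBm, hcop, hdeg, X₃, Y₃, h₃, hQ₃, hX₃⟩ := hrep
  obtain ⟨hcub, hF⟩ := cardG_dup_formula W hW hΔ h₂ h₃ hQ₂ hQ₃
  have hb₂ : aeval (gt_x W) B₂ ≠ 0 := gt_aeval_x_ne_zero W hBm₂.ne_zero
  have hb : aeval (gt_x W) B ≠ 0 := gt_aeval_x_ne_zero W hBm.ne_zero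
  have ha : aeval (gt_x W) A ≠ 0 := gt_aeval_x_ne_zero W hA0
  have hpoly : (A₂ ^ 2 - C W.a₄ * B₂ ^ 2) ^ 2 * B =
      C 4 * (A₂ ^ 3 + C W.a₂ * A₂ ^ 2 * B₂ + C W.a₄ * A₂ * B₂ ^ 2) * B₂ * A := by
    apply cardG_aeval_injective W
    simp only [map_mul, map_pow, map_sub, map_add, aeval_C, map_ofNat]
    rw [hX₂, hX₃] at hF
    have e1 : (aeval (gt_x W) A₂ ^ 2 - algebraMap K (gt_F W) W.a₄ * aeval (gt_x W) B₂ ^ 2) ^ 2 *
        aeval (gt_x W) B =
        aeval (gt_x W) B₂ ^ 4 * aeval (gt_x W) B *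
          ((aeval (gt_x W) A₂ / aeval (gt_x W) B₂) ^ 2 - algebraMap K (gt_F W) W.a₄) ^ 2 := by
      field_simp
    have e2 : 4 * (aeval (gt_x W) A₂ ^ 3 +
          algebraMap K (gt_F W) W.a₂ * aeval (gt_x W) A₂ ^ 2 * aeval (gt_x W) B₂ +
          algebraMap K (gt_F W) W.a₄ * aeval (gt_x W) A₂ * aeval (gt_x W) B₂ ^ 2) *
        aeval (gt_x W) B₂ * aeval (gt_x W) A =
        aeval (gt_x W) B₂ ^ 4 * aeval (gt_x W) B *
          (4 * ((aeval (gt_x W) A₂ / aeval (gt_x W) B₂) ^ 3 +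
            algebraMap K (gt_F W) W.a₂ * (aeval (gt_x W) A₂ / aeval (gt_x W) B₂) ^ 2 +
            algebraMap K (gt_F W) W.a₄ * (aeval (gt_x W) A₂ / aeval (gt_x W) B₂)) *
            (aeval (gt_x W) A / aeval (gt_x W) B)) := by
      field_simp
    rw [e1, e2, hF]
  have hP0 : (A₂ ^ 2 - C W.a₄ * B₂ ^ 2) ^ 2 ≠ 0 := by
    intro h0
    have := congrArg (aeval (gt_x W)) h0
    simp only [map_mul, map_pow, map_sub, aeval_C, map_zero] at this
    have hX₃0 : X₃ ≠ 0 := by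
      rw [hX₃]
      exact div_ne_zero ha hb
    have hrhs : (X₂ ^ 2 - algebraMap K (gt_F W) W.a₄) ^ 2 ≠ 0 := by
      rw [hF]
      have h4 : (4 : gt_F W) ≠ 0 := by
        have e4 : (4 : gt_F W) = algebraMap K (gt_F W) 4 :=
          (map_ofNat (algebraMap K (gt_F W)) 4).symm
        rw [e4, Ne, map_eq_zero]
        norm_num
      exact mul_ne_zero (mul_ne_zero h4 hcub) hX₃0
    apply hrhs
    rw [hX₂]
    have e : ((aeval (gt_x W) A₂ / aeval (gt_x W) B₂) ^ 2 - algebraMap K (gt_F W) W.a₄) ^ 2 =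
        (aeval (gt_x W) A₂ ^ 2 - algebraMap K (gt_F W) W.a₄ * aeval (gt_x W) B₂ ^ 2) ^ 2 /
          aeval (gt_x W) B₂ ^ 4 := by
      field_simp
    rw [e, this, zero_div]
  have hdvd : A ∣ (A₂ ^ 2 - C W.a₄ * B₂ ^ 2) ^ 2 := by
    apply hcop.dvd_of_dvd_mul_right
    rw [hpoly]
    exact dvd_mul_left _ _
  have h1 := natDegree_le_of_dvd hdvd hP0
  have h2 : ((A₂ ^ 2 - C W.a₄ * B₂ ^ 2) ^ 2).natDegree ≤ 2 * (2 * A₂.natDegree) := by
    refine natDegree_pow_le.trans (Nat.mul_le_mul_left 2 ?_)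
    refine (natDegree_sub_le _ _).trans (max_le natDegree_pow_le ?_)
    refine (natDegree_C_mul_le _ _).trans (natDegree_pow_le.trans ?_)
    omega
  omega

/-- **The degree of multiplication by `n`** is at most `n²`. -/
theorem cardG_deg_le : ∀ (n : ℕ), n ≠ 0 → ∀ A B : K[X], cardG_IsRep W hW hΔ n A B →
    A.natDegree ≤ n ^ 2 := by
  intro n
  induction n using Nat.strong_induction_on with
  | _ n ih =>
    intro hn A B hrep
    rcases Nat.even_or_odd' n with ⟨k, rfl | rfl⟩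
    · -- `n = 2k`
      have hk : k ≠ 0 := by omega
      obtain ⟨A₂, B₂, hrep₂⟩ := cardG_exists_rep W hW hΔ hk
      have h1 := ih k (by omega) hk A₂ B₂ hrep₂
      have h2 := cardG_deg_even W hW hΔ hrep₂ hrep
      calc A.natDegree ≤ 4 * A₂.natDegree := h2
        _ ≤ 4 * k ^ 2 := Nat.mul_le_mul_left 4 h1
        _ = (2 * k) ^ 2 := by ring
    · -- `n = 2k + 1`
      rcases Nat.eq_zero_or_pos k with rfl | hkpos
      · -- `n = 1`
        have := (cardG_rep_unique W hW hΔ hrep (cardG_isRep_one W hW hΔ)).1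
        rw [this, natDegree_X]
        norm_num
      · have hk : k ≠ 0 := by omega
        obtain ⟨A₁, B₁, hrep₁⟩ := cardG_exists_rep W hW hΔ (n := k + 1) (by omega)
        obtain ⟨A₂, B₂, hrep₂⟩ := cardG_exists_rep W hW hΔ hk
        have h1 := ih (k + 1) (by omega) (by omega) A₁ B₁ hrep₁
        have h2 := ih k (by omega) hk A₂ B₂ hrep₂
        have h3 := cardG_deg_odd W hW hΔ hrep₁ hrep₂ hrep
        have h4 : 2 * (k + 1) ^ 2 + 2 * k ^ 2 = (2 * k + 1) ^ 2 + 1 := by ring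
        nlinarith

end ineq

end Fermat.Agent.S13
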