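import Mathlib
import Fermat.Prelude.Def_FLTPrelim_GaloisRep
import Fermat.Agent.S05.Transport
import Fermat.Agent.S05.Final
import Fermat.Agent.S13.Defs
import Fermat.Agent.S13.GenericTorsion.Torsion
import Fermat.Agent.S13.CardGenDeg

/-!
# S13 / CARD without division polynomials

Owner: helper16.  Prefix `cardG_`.

From the degree bound `deg Aₙ ≤ n²` (`CardGenDeg.lean`) and the fact that the `x`-coordinate of a
nonzero `n`-torsion point is a root of `Bₙ`: an elliptic curve `y² = x³ + a₂x² + a₄x` over an
algebraically closed field of characteristic zero has at most `2 n² - 1` points killed by `n`.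
For a prime `p ≥ 3` the number of such points is a power of `p`, hence at most `p²`.  The Frey
curve is transported to its short model by the frozen `S05.transport`.

Main result: `cardG_card : CardStatement`.
-/

set_option autoImplicit false
set_option linter.unusedSectionVars false

open Polynomial WeierstrassCurve WeierstrassCurve.Affine Fermat.Agent.S05

namespace Fermat.Agent.S13

/-- The coordinates of a point (`none` for the point at infinity). -/
def cardG_coord {F : Type*} [Field F] {V : WeierstrassCurve.Affine F} : V.Point → Option (F × F)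
  | .zero => none
  | .some x y _ => some (x, y)

lemma cardG_coord_injective {F : Type*} [Field F] {V : WeierstrassCurve.Affine F} :
    Function.Injective (cardG_coord (V := V)) := by
  rintro (_ | ⟨x, y, h⟩) (_ | ⟨x', y', h'⟩) hc
  · rfl
  · simp [cardG_coord] at hc
  · simp [cardG_coord] at hc
  · simp only [cardG_coord, Option.some.injEq, Prod.mk.injEq] at hc
    obtain ⟨rfl, rfl⟩ := hc
    rfl

section count

variable {K : Type*} [Field K] [DecidableEq K] (W : WeierstrassCurve.Affine K)

/-- The finite set of candidate coordinates of the points whose `x`-coordinate is a root of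
`B`. -/
noncomputable def cardG_cand (B : K[X]) : Finset (Option (K × K)) :=
  insert none ((B.roots.toFinset.biUnion fun x =>
    ((X ^ 2 - C ((gt_cubic W).eval x) : K[X]).roots.toFinset.image fun y => (x, y))).image some)

lemma cardG_cand_card_le (B : K[X]) : (cardG_cand W B).card ≤ 1 + 2 * B.natDegree := by
  unfold cardG_cand
  refine (Finset.card_insert_le _ _).trans ?_
  rw [add_comm]
  refine Nat.add_le_add_left (Finset.card_image_le.trans ?_) 1
  refine Finset.card_biUnion_le.trans ?_
  have h2 : ∀ x ∈ B.roots.toFinset,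
      (((X ^ 2 - C ((gt_cubic W).eval x) : K[X]).roots.toFinset.image fun y => (x, y))).card
        ≤ 2 := by
    intro x _
    refine Finset.card_image_le.trans ((Multiset.toFinset_card_le _).trans ?_)
    refine (card_roots' _).trans ?_
    rw [natDegree_X_pow_sub_C]
  refine (Finset.sum_le_card_nsmul _ _ 2 h2).trans ?_
  rw [smul_eq_mul, mul_comm]
  exact Nat.mul_le_mul_left 2 ((Multiset.toFinset_card_le _).trans (card_roots' _))

variable [IsAlgClosed K] [CharZero K] (hW : IsShort W) (hΔ : W.Δ ≠ 0)

include hW hΔ in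
/-- **Counting torsion** (base-change form): at most `2 n² - 1` points are killed by `n`. -/
theorem cardG_torsion_count_baseChange {n : ℕ} (hn : n ≠ 0) :
    {P : (W⁄K).Point | n • P = 0}.Finite ∧
      {P : (W⁄K).Point | n • P = 0}.ncard + 1 ≤ 2 * n ^ 2 := by
  obtain ⟨A, B, hrep⟩ := cardG_exists_rep W hW hΔ hn
  have hdeg := cardG_deg_le W hW hΔ n hn A B hrep
  have hAB : A.natDegree = B.natDegree + 1 := hrep.2.2.1
  have hB0 : B ≠ 0 := hrep.B_ne_zero
  have hsub : cardG_coord '' {P : (W⁄K).Point | n • P = 0} ⊆ (cardG_cand W B : Set _) := by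
    rintro _ ⟨P, hP, rfl⟩
    rcases P with _ | ⟨x, y, h⟩
    · simp [cardG_coord, cardG_cand]
    · have hroot : B.eval x = 0 := cardG_eval_eq_zero_of_torsion W hW hΔ hrep h hP
      have hy : y ^ 2 = (gt_cubic W).eval x := gt_short_eqn_const W hW h
      have hq : (X ^ 2 - C ((gt_cubic W).eval x) : K[X]) ≠ 0 :=
        (monic_X_pow_sub_C _ two_ne_zero).ne_zero
      simp only [cardG_coord, cardG_cand, Finset.coe_insert, Finset.coe_image,
        Finset.coe_biUnion, Set.mem_insert_iff, Set.mem_image, reduceCtorEq, false_or]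
      refine ⟨(x, y), ?_, rfl⟩
      simp only [Finset.mem_coe, Multiset.mem_toFinset, Set.mem_iUnion, Set.mem_image,
        Prod.mk.injEq, exists_prop]
      refine ⟨x, (mem_roots hB0).2 hroot, y, (mem_roots hq).2 ?_, rfl, rfl⟩
      simp [IsRoot, hy]
  have hfinimg : (cardG_coord '' {P : (W⁄K).Point | n • P = 0}).Finite :=
    (Finset.finite_toSet _).subset hsub
  have hfin : {P : (W⁄K).Point | n • P = 0}.Finite :=
    Set.Finite.of_finite_image hfinimg cardG_coord_injective.injOn
  refine ⟨hfin, ?_⟩
  have h1 : {P : (W⁄K).Point | n • P = 0}.ncard =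
      (cardG_coord '' {P : (W⁄K).Point | n • P = 0}).ncard :=
    (Set.ncard_image_of_injective _ cardG_coord_injective).symm
  have h2 : (cardG_coord '' {P : (W⁄K).Point | n • P = 0}).ncard ≤ (cardG_cand W B).card := by
    have := Set.ncard_le_ncard hsub (Finset.finite_toSet _)
    rwa [Set.ncard_coe_finset] at this
  have h3 := cardG_cand_card_le W B
  omega

include hW hΔ in
/-- **Counting torsion**: at most `2 n² - 1` points are killed by `n`. -/
theorem cardG_torsion_count {n : ℕ} (hn : n ≠ 0) :
    {P : W.Point | n • P = 0}.Finite ∧ {P : W.Point | n • P = 0}.ncard + 1 ≤ 2 * n ^ 2 := by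
  have h := cardG_torsion_count_baseChange W hW hΔ hn
  have e : (W⁄K) = W := WeierstrassCurve.map_id W
  rw [e] at h
  exact h

end count

section frey

local notation "Qbar" => AlgebraicClosure ℚ

/-- **[CARD]** without division polynomials. -/
theorem cardG_card : CardStatement := by
  intro P
  have hFact : Fact P.p.Prime := ⟨P.pp⟩
  have hp : P.p.Prime := P.pp
  have h2 : (2 : Qbar) ≠ 0 := two_ne_zero
  have hΔs : (shiftCurve (P.freyCurve⁄Qbar) 0).Δ ≠ 0 := by
    rw [gt_shiftCurve_Δ (P.freyCurve⁄Qbar) (frey_a₁ P) (frey_a₃ P) (frey_a₆ P)]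
    exact mul_ne_zero (by norm_num) (gt_frey_Δ_ne_zero P)
  obtain ⟨hfin, hcard⟩ := cardG_torsion_count (shiftCurve (P.freyCurve⁄Qbar) 0)
    (gt_shiftCurve_isShort (P.freyCurve⁄Qbar)) hΔs (n := P.p) hp.ne_zero
  -- the injection into the torsion of the short model
  let φ : Submodule.torsionBy ℤ (P.freyCurve⁄Qbar).Point P.p →
      {Q : (shiftCurve (P.freyCurve⁄Qbar) 0).Point | P.p • Q = 0} := fun x =>
    ⟨transport (P.freyCurve⁄Qbar) (frey_a₁ P) (frey_a₃ P) (frey_a₆ P) 0 h2 x.1, by
      have hx := (Submodule.mem_torsionBy_iff _ _).mp x.2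
      rw [natCast_zsmul] at hx
      show P.p • transport (P.freyCurve⁄Qbar) (frey_a₁ P) (frey_a₃ P) (frey_a₆ P) 0 h2 x.1 = 0
      rw [← map_nsmul, hx, map_zero]⟩
  have hφ : Function.Injective φ := by
    intro x y hxy
    have := congrArg Subtype.val hxy
    exact Subtype.ext (transport_injective (P.freyCurve⁄Qbar) (frey_a₁ P) (frey_a₃ P)
      (frey_a₆ P) 0 h2 this)
  have hT : Finite {Q : (shiftCurve (P.freyCurve⁄Qbar) 0).Point | P.p • Q = 0} := hfin
  have hV : Finite (Submodule.torsionBy ℤ (P.freyCurve⁄Qbar).Point P.p) :=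
    Finite.of_injective φ hφ
  refine ⟨hV, ?_⟩
  have hle : Nat.card (Submodule.torsionBy ℤ (P.freyCurve⁄Qbar).Point P.p) + 1 ≤
      2 * P.p ^ 2 := by
    have h1 := Nat.card_le_card_of_injective φ hφ
    have h3 : Nat.card {Q : (shiftCurve (P.freyCurve⁄Qbar) 0).Point | P.p • Q = 0} =
        {Q : (shiftCurve (P.freyCurve⁄Qbar) 0).Point | P.p • Q = 0}.ncard :=
      Nat.card_coe_set_eq _
    omega
  -- the cardinality is a power of `p`
  have hpow := Module.natCard_eq_pow_finrank (K := ZMod P.p)
    (V := Submodule.torsionBy ℤ (P.freyCurve⁄Qbar).Point P.p)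
  rw [Nat.card_zmod] at hpow
  rw [hpow] at hle ⊢
  have hp3 : 3 ≤ P.p := by have := P.hp5; omega
  by_contra hcon
  rw [not_le] at hcon
  have hr : 2 < Module.finrank (ZMod P.p) (Submodule.torsionBy ℤ (P.freyCurve⁄Qbar).Point P.p) :=
    (Nat.pow_lt_pow_iff_right hp.one_lt).1 hcon
  have h3 : P.p ^ 3 ≤
      P.p ^ Module.finrank (ZMod P.p) (Submodule.torsionBy ℤ (P.freyCurve⁄Qbar).Point P.p) :=
    Nat.pow_le_pow_right hp.pos hr
  have h4 : 3 * P.p ^ 2 ≤ P.p ^ 3 := by
    have : P.p ^ 3 = P.p * P.p ^ 2 := by ring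
    rw [this]
    exact Nat.mul_le_mul_right _ hp3
  have h5 : 0 < P.p ^ 2 := pow_pos hp.pos 2
  omega

end frey

end Fermat.Agent.S13
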