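import Mathlib
import Fermat.Agent.S13.Defs
import Fermat.Agent.S13.Loc2
import Fermat.Agent.S05.Inertia

/-!
# S13, LOC2: bridge facts over `Qbar` (hedge)

`loc2H_val_eq` : elements of the inertia group of a place `A` preserve the valuation of `A`.
-/

set_option autoImplicit false

namespace Fermat.Agent.S13

local notation "Qbar" => AlgebraicClosure ℚ
local notation "GQ" => (AlgebraicClosure ℚ ≃ₐ[ℚ] AlgebraicClosure ℚ)

/-- An element of the inertia group preserves the order of valuations. -/
theorem loc2H_val_le_iff (A : ValuationSubring Qbar) (σ : GQ) (hσ : σ ∈ A.inertiaSubgroupIn ℚ)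
    (x y : Qbar) : A.valuation (σ x) ≤ A.valuation (σ y) ↔ A.valuation x ≤ A.valuation y := by
  by_cases hy : y = 0
  · subst hy
    simp
  · have hσy : σ y ≠ 0 := fun h => hy (by simpa using h)
    have hvy : A.valuation y ≠ 0 := (Valuation.ne_zero_iff _).2 hy
    have hvσy : A.valuation (σ y) ≠ 0 := (Valuation.ne_zero_iff _).2 hσy
    have h1 : A.valuation x ≤ A.valuation y ↔ x / y ∈ A := by
      rw [← A.valuation_le_one_iff, map_div₀, div_le_one₀ (zero_lt_iff.2 hvy)]
    have h2 : A.valuation (σ x) ≤ A.valuation (σ y) ↔ σ (x / y) ∈ A := by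
      rw [← A.valuation_le_one_iff, map_div₀, map_div₀, div_le_one₀ (zero_lt_iff.2 hvσy)]
    rw [h1, h2]
    exact Fermat.Agent.S05.inertia_mem_iff A σ hσ (x / y)

theorem loc2H_val_lt_iff (A : ValuationSubring Qbar) (σ : GQ) (hσ : σ ∈ A.inertiaSubgroupIn ℚ)
    (x y : Qbar) : A.valuation (σ x) < A.valuation (σ y) ↔ A.valuation x < A.valuation y := by
  rw [← not_le, ← not_le, loc2H_val_le_iff A σ hσ]

/-- Every element of `Qbar` is fixed by a positive power of any automorphism. -/
theorem loc2H_exists_pow_fixed (σ : GQ) (a : Qbar) : ∃ n : ℕ, 0 < n ∧ (σ ^ n) a = a := by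
  have halg : IsAlgebraic ℚ a := (AlgebraicClosure.isAlgebraic ℚ).isAlgebraic a
  have hint : IsIntegral ℚ a := halg.isIntegral
  have hfin : ((minpoly ℚ a).rootSet Qbar).Finite := Polynomial.rootSet_finite _ _
  have hmem : ∀ k : ℕ, (σ ^ k) a ∈ (minpoly ℚ a).rootSet Qbar := by
    intro k
    rw [Polynomial.mem_rootSet]
    refine ⟨minpoly.ne_zero hint, ?_⟩
    have := Polynomial.aeval_algHom_apply ((σ ^ k : GQ) : Qbar →ₐ[ℚ] Qbar) a (minpoly ℚ a)
    rw [minpoly.aeval, map_zero] at this
    exact this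
  obtain ⟨i, j, hij, h⟩ := hfin.exists_lt_map_eq_of_forall_mem hmem
  refine ⟨j - i, Nat.sub_pos_of_lt hij, ?_⟩
  have hj : σ ^ j = σ ^ i * σ ^ (j - i) := by
    rw [← pow_add, Nat.add_sub_cancel' hij.le]
  rw [hj, AlgEquiv.mul_apply] at h
  exact ((σ ^ i).injective h).symm

/-- (LOC2-BRIDGE) elements of the inertia group of `A` preserve the valuation of `A`. -/
theorem loc2H_val_eq (A : ValuationSubring Qbar) (σ : GQ) (hσ : σ ∈ A.inertiaSubgroupIn ℚ)
    (a : Qbar) : A.valuation (σ a) = A.valuation a := by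
  obtain ⟨n, hn, hfix⟩ := loc2H_exists_pow_fixed σ a
  have hstep : ∀ k : ℕ, (σ ^ (k + 1)) a = σ ((σ ^ k) a) := by
    intro k
    rw [pow_succ', AlgEquiv.mul_apply]
  rcases lt_trichotomy (A.valuation (σ a)) (A.valuation a) with h | h | h
  · exfalso
    have key : ∀ k : ℕ, A.valuation ((σ ^ (k + 1)) a) < A.valuation a := by
      intro k
      induction k with
      | zero => simpa using h
      | succ k ih =>
        have h1 : A.valuation (σ ((σ ^ (k + 1)) a)) < A.valuation (σ a) :=
          (loc2H_val_lt_iff A σ hσ _ _).2 ih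
        rw [hstep (k + 1)]
        exact h1.trans h
    have := key (n - 1)
    rw [Nat.sub_add_cancel hn, hfix] at this
    exact lt_irrefl _ this
  · exact h
  · exfalso
    have key : ∀ k : ℕ, A.valuation a < A.valuation ((σ ^ (k + 1)) a) := by
      intro k
      induction k with
      | zero => simpa using h
      | succ k ih =>
        have h1 : A.valuation (σ a) < A.valuation (σ ((σ ^ (k + 1)) a)) :=
          (loc2H_val_lt_iff A σ hσ _ _).2 ih
        rw [hstep (k + 1)]
        exact h.trans h1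
    have := key (n - 1)
    rw [Nat.sub_add_cancel hn, hfix] at this
    exact lt_irrefl _ this

/-- (bridge) `Loc2ValStatement`, hedge version. -/
theorem loc2H_val : Loc2ValStatement := fun A σ hσ a => loc2H_val_eq A σ hσ a

end Fermat.Agent.S13
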