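/-
S13, LOC2 bridge (VAL): the inertia group (indeed the decomposition group) of a place of `Qbar`
preserves its valuation.
Owner: helper24.  Prefix `loc2V_`.
-/
import Mathlib
import Fermat.Agent.S13.Defs
import Fermat.Agent.S13.Loc2
import Fermat.Agent.S05.Inertia

set_option autoImplicit false

namespace Fermat.Agent.S13

local notation "Qbar" => AlgebraicClosure ℚ
local notation "GQ" => (AlgebraicClosure ℚ ≃ₐ[ℚ] AlgebraicClosure ℚ)

/-- comparison of valuations through membership in the valuation ring. -/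
theorem loc2V_le_iff (A : ValuationSubring Qbar) (x y : Qbar) (hy : y ≠ 0) :
    A.valuation x ≤ A.valuation y ↔ x * y⁻¹ ∈ A := by
  have hvy : 0 < A.valuation y := by
    rw [Valuation.pos_iff]
    exact hy
  rw [← A.valuation_le_one_iff, map_mul, map_inv₀, mul_inv_le_iff₀ hvy, one_mul]

/-- an automorphism stabilising `A` preserves the order of the valuations. -/
theorem loc2V_le_iff_of_stab (A : ValuationSubring Qbar) (σ : GQ)
    (hσ : ∀ a : Qbar, σ a ∈ A ↔ a ∈ A) (x y : Qbar) :
    A.valuation (σ x) ≤ A.valuation (σ y) ↔ A.valuation x ≤ A.valuation y := by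
  by_cases hy : y = 0
  · subst hy
    rw [map_zero, map_zero, le_zero_iff, le_zero_iff, Valuation.zero_iff, Valuation.zero_iff]
    exact map_eq_zero_iff σ σ.injective
  · have hσy : σ y ≠ 0 := fun h => hy ((map_eq_zero_iff σ σ.injective).mp h)
    rw [loc2V_le_iff A _ _ hσy, loc2V_le_iff A _ _ hy, ← map_inv₀, ← map_mul]
    exact hσ _

theorem loc2V_lt_iff_of_stab (A : ValuationSubring Qbar) (σ : GQ)
    (hσ : ∀ a : Qbar, σ a ∈ A ↔ a ∈ A) (x y : Qbar) :
    A.valuation (σ x) < A.valuation (σ y) ↔ A.valuation x < A.valuation y := by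
  rw [lt_iff_not_ge, lt_iff_not_ge, loc2V_le_iff_of_stab A σ hσ]

/-- the orbit of an algebraic number under the powers of an automorphism is finite. -/
theorem loc2V_exists_pow_fix (σ : GQ) (a : Qbar) : ∃ n : ℕ, 0 < n ∧ (σ ^ n) a = a := by
  have halg : Algebra.IsAlgebraic ℚ (AlgebraicClosure ℚ) := AlgebraicClosure.isAlgebraic ℚ
  have hint : IsIntegral ℚ a := (halg.isAlgebraic a).isIntegral
  have hfin : ((minpoly ℚ a).rootSet Qbar).Finite := Polynomial.rootSet_finite _ _
  have hmem : ∀ n : ℕ, (σ ^ n) a ∈ (minpoly ℚ a).rootSet Qbar := by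
    intro n
    rw [Polynomial.mem_rootSet]
    refine ⟨minpoly.ne_zero hint, ?_⟩
    have h := Polynomial.aeval_algHom_apply ((σ ^ n : GQ) : Qbar →ₐ[ℚ] Qbar) a (minpoly ℚ a)
    rw [minpoly.aeval, map_zero] at h
    exact h
  obtain ⟨m, n, hmn, h⟩ := hfin.exists_lt_map_eq_of_forall_mem hmem
  refine ⟨n - m, Nat.sub_pos_of_lt hmn, ?_⟩
  have hn : n = m + (n - m) := by omega
  rw [hn, pow_add] at h
  exact ((σ ^ m).injective h).symm

/-- an automorphism stabilising `A` preserves the valuation of `A`. -/
theorem loc2V_val_eq_of_stab (A : ValuationSubring Qbar) (σ : GQ)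
    (hσ : ∀ a : Qbar, σ a ∈ A ↔ a ∈ A) (a : Qbar) :
    A.valuation (σ a) = A.valuation a := by
  obtain ⟨n, hn, hfix⟩ := loc2V_exists_pow_fix σ a
  have hstep : ∀ k : ℕ, (σ ^ (k + 1)) a = σ ((σ ^ k) a) := by
    intro k
    rw [pow_succ', AlgEquiv.mul_apply]
  rcases lt_trichotomy (A.valuation (σ a)) (A.valuation a) with h | h | h
  · exfalso
    have key : ∀ k : ℕ, A.valuation ((σ ^ (k + 1)) a) < A.valuation a := by
      intro k
      induction k with
      | zero => simpa using h
      | succ k ih =>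
        rw [hstep (k + 1)]
        exact lt_trans ((loc2V_lt_iff_of_stab A σ hσ _ _).mpr ih) h
    have := key (n - 1)
    rw [Nat.sub_add_cancel hn, hfix] at this
    exact lt_irrefl _ this
  · exact h
  · exfalso
    have key : ∀ k : ℕ, A.valuation a < A.valuation ((σ ^ (k + 1)) a) := by
      intro k
      induction k with
      | zero => simpa using h
      | succ k ih =>
        rw [hstep (k + 1)]
        exact lt_trans h ((loc2V_lt_iff_of_stab A σ hσ _ _).mpr ih)
    have := key (n - 1)
    rw [Nat.sub_add_cancel hn, hfix] at this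
    exact lt_irrefl _ this

/-- **(LOC2-VAL)** the inertia group preserves the valuation. -/
theorem loc2Val : Loc2ValStatement := by
  intro A σ hσ a
  exact loc2V_val_eq_of_stab A σ (Fermat.Agent.S05.inertia_mem_iff A σ hσ) a

end Fermat.Agent.S13
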