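import Mathlib
import Fermat.Agent.S05.ShortForm
import Fermat.Agent.S05.KernelReduction

/-!
# S13 / LOCp: the exact addition law on the kernel of reduction in the `(t, s)`-chart

For a short Weierstrass curve `y² = x³ + a₂ x² + a₄ x` with integral coefficients over a valued
field, the chart `t = x / y`, `s = 1 / y` turns the kernel of reduction into the set of solutions
of `s = t³ + a₂ t² s + a₄ t s²` with `v t < 1`, and the group law is given by *division-free up to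
units* formulas.  This file proves these formulas against Mathlib's group law.
-/

set_option autoImplicit false
set_option linter.unusedSectionVars false
set_option linter.unusedVariables false

namespace Fermat.Agent.S13

open WeierstrassCurve WeierstrassCurve.Affine
open Fermat.Agent.S05 Fermat.Agent.S05.KR

variable {K : Type*} [Field K] [DecidableEq K] {Γ : Type*} [LinearOrderedCommGroupWithZero Γ]
  {v : Valuation K Γ} {W : WeierstrassCurve.Affine K}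

/-- The `s`-coordinate `1 / y` of a point (`0` at infinity). -/
noncomputable def locp_sOf : W.Point → K
  | .zero => 0
  | .some _ y _ => 1 / y

/-- Membership in the kernel of reduction. -/
def locp_InE1 (v : Valuation K Γ) : W.Point → Prop
  | .zero => True
  | .some x _ _ => 1 < v x

omit [DecidableEq K] in
@[simp] theorem locp_sOf_zero : locp_sOf (0 : W.Point) = 0 := rfl

omit [DecidableEq K] in
@[simp] theorem locp_sOf_some {x y : K} (h : W.Nonsingular x y) :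
    locp_sOf (Point.some x y h) = 1 / y := rfl

omit [DecidableEq K] in
@[simp] theorem locp_inE1_zero : locp_InE1 v (0 : W.Point) := trivial

omit [DecidableEq K] in
@[simp] theorem locp_inE1_some {x y : K} (h : W.Nonsingular x y) :
    locp_InE1 v (Point.some x y h) ↔ 1 < v x := Iff.rfl

/-- Numerator of the slope in the `(t, s)`-chart. -/
def locp_M (W : WeierstrassCurve.Affine K) (t₁ t₂ s₂ : K) : K :=
  t₁ ^ 2 + t₁ * t₂ + t₂ ^ 2 + W.a₂ * (t₁ + t₂) * s₂ + W.a₄ * s₂ ^ 2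

/-- Denominator of the slope in the `(t, s)`-chart. -/
def locp_D (W : WeierstrassCurve.Affine K) (t₁ s₁ s₂ : K) : K :=
  1 - W.a₂ * t₁ ^ 2 - W.a₄ * t₁ * (s₁ + s₂)

/-- The slope of the line through two points in the `(t, s)`-chart. -/
noncomputable def locp_lam (W : WeierstrassCurve.Affine K) (t₁ s₁ t₂ s₂ : K) : K :=
  locp_M W t₁ t₂ s₂ / locp_D W t₁ s₁ s₂

/-- The intercept of the line through two points in the `(t, s)`-chart. -/
noncomputable def locp_nu (W : WeierstrassCurve.Affine K) (t₁ s₁ t₂ s₂ : K) : K :=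
  s₁ - locp_lam W t₁ s₁ t₂ s₂ * t₁

/-- The `t`-coordinate of the sum. -/
noncomputable def locp_addT (W : WeierstrassCurve.Affine K) (t₁ s₁ t₂ s₂ : K) : K :=
  t₁ + t₂ + locp_nu W t₁ s₁ t₂ s₂ * (W.a₂ + 2 * W.a₄ * locp_lam W t₁ s₁ t₂ s₂) /
    (1 + W.a₂ * locp_lam W t₁ s₁ t₂ s₂ + W.a₄ * locp_lam W t₁ s₁ t₂ s₂ ^ 2)

/-- The `s`-coordinate of the sum. -/
noncomputable def locp_addS (W : WeierstrassCurve.Affine K) (t₁ s₁ t₂ s₂ : K) : K :=
  locp_lam W t₁ s₁ t₂ s₂ * locp_addT W t₁ s₁ t₂ s₂ - locp_nu W t₁ s₁ t₂ s₂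

omit [DecidableEq K] in
theorem locp_integralCoeffs (hW : IsShort W) (h₂ : v W.a₂ ≤ 1) (h₄ : v W.a₄ ≤ 1) :
    IntegralCoeffs v W :=
  ⟨by rw [hW.a₁, map_zero]; exact zero_le_one, h₂, by rw [hW.a₃, map_zero]; exact zero_le_one,
    h₄, by rw [hW.a₆, map_zero]; exact zero_le_one⟩

omit [DecidableEq K] in
/-- The curve equation in the `(t, s)`-chart, short form. -/
theorem locp_ts_equation (hW : IsShort W) {x y : K} (h : W.Equation x y) (hy : y ≠ 0) :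
    1 / y = (x / y) ^ 3 + W.a₂ * (x / y) ^ 2 * (1 / y) + W.a₄ * (x / y) * (1 / y) ^ 2 := by
  have := ts_equation h hy
  rw [hW.a₁, hW.a₃, hW.a₆] at this
  linear_combination this

omit [DecidableEq K] in
theorem locp_val_D {t₁ s₁ s₂ : K} (h₂ : v W.a₂ ≤ 1) (h₄ : v W.a₄ ≤ 1) (ht₁ : v t₁ < 1)
    (hs₁ : v s₁ ≤ 1) (hs₂ : v s₂ ≤ 1) : v (locp_D W t₁ s₁ s₂) = 1 := by
  have hsmall : v (-(W.a₂ * t₁ ^ 2) - W.a₄ * t₁ * (s₁ + s₂)) < 1 := by
    refine lt_of_le_of_lt (v.map_sub_le (g := v t₁) ?_ ?_) ht₁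
    · rw [Valuation.map_neg, map_mul, map_pow]
      calc v W.a₂ * v t₁ ^ 2 ≤ 1 * v t₁ ^ 2 := by gcongr
        _ = v t₁ ^ 2 := one_mul _
        _ ≤ v t₁ := sq_le_self_of_le_one ht₁.le
    · rw [map_mul, map_mul]
      have : v (s₁ + s₂) ≤ 1 := v.map_add_le hs₁ hs₂
      calc v W.a₄ * v t₁ * v (s₁ + s₂) ≤ 1 * v t₁ * 1 := by gcongr
        _ = v t₁ := by simp
  have : locp_D W t₁ s₁ s₂ = 1 + (-(W.a₂ * t₁ ^ 2) - W.a₄ * t₁ * (s₁ + s₂)) := by
    rw [locp_D]; ring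
  rw [this]
  exact v.map_one_add_of_lt hsmall

omit [DecidableEq K] in
theorem locp_D_ne_zero {t₁ s₁ s₂ : K} (h₂ : v W.a₂ ≤ 1) (h₄ : v W.a₄ ≤ 1) (ht₁ : v t₁ < 1)
    (hs₁ : v s₁ ≤ 1) (hs₂ : v s₂ ≤ 1) : locp_D W t₁ s₁ s₂ ≠ 0 := by
  intro h0
  have := locp_val_D (W := W) h₂ h₄ ht₁ hs₁ hs₂
  rw [h0, map_zero] at this
  exact zero_ne_one this

omit [DecidableEq K] in
/-- The difference identity in the `(t, s)`-chart, short form. -/
theorem locp_ts_diff (hW : IsShort W) {t₁ s₁ t₂ s₂ : K}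
    (h₁ : s₁ = t₁ ^ 3 + W.a₂ * t₁ ^ 2 * s₁ + W.a₄ * t₁ * s₁ ^ 2)
    (h₂ : s₂ = t₂ ^ 3 + W.a₂ * t₂ ^ 2 * s₂ + W.a₄ * t₂ * s₂ ^ 2) :
    (s₂ - s₁) * locp_D W t₁ s₁ s₂ = (t₂ - t₁) * locp_M W t₁ t₂ s₂ := by
  rw [locp_D, locp_M]
  linear_combination h₂ - h₁


/-- The exact addition law in the `(t, s)`-chart, affine generic case. -/
theorem locp_add_generic (hW : IsShort W) (h₂' : v W.a₂ ≤ 1) (h₄' : v W.a₄ ≤ 1)
    {x₁ y₁ x₂ y₂ : K} (h₁ : W.Equation x₁ y₁) (h₂ : W.Equation x₂ y₂)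
    (hx₁ : 1 < v x₁) (hx₂ : 1 < v x₂) (hxy : ¬(x₁ = x₂ ∧ y₁ = W.negY x₂ y₂)) :
    W.addX x₁ x₂ (W.slope x₁ x₂ y₁ y₂) / W.addY x₁ x₂ y₁ (W.slope x₁ x₂ y₁ y₂)
        = locp_addT W (x₁ / y₁) (1 / y₁) (x₂ / y₂) (1 / y₂) ∧
      1 / W.addY x₁ x₂ y₁ (W.slope x₁ x₂ y₁ y₂)
        = locp_addS W (x₁ / y₁) (1 / y₁) (x₂ / y₂) (1 / y₂) := by
  have hI : IntegralCoeffs v W := locp_integralCoeffs hW h₂' h₄'
  have hy₁0 : y₁ ≠ 0 := y_ne_zero hI h₁ hx₁
  have hy₂0 : y₂ ≠ 0 := y_ne_zero hI h₂ hx₂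
  have ht₁ : v (x₁ / y₁) < 1 := val_t_lt_one hI h₁ hx₁
  have ht₂ : v (x₂ / y₂) < 1 := val_t_lt_one hI h₂ hx₂
  have hs₁ : v (1 / y₁) ≤ 1 := by
    rw [val_s_eq hI h₁ hx₁]; exact pow_le_one₀ zero_le ht₁.le
  have hs₂ : v (1 / y₂) ≤ 1 := by
    rw [val_s_eq hI h₂ hx₂]; exact pow_le_one₀ zero_le ht₂.le
  set γ : Γ := max (v (x₁ / y₁)) (v (x₂ / y₂)) with hγdef
  have hγ : γ < 1 := max_lt ht₁ ht₂
  obtain ⟨hc, hμv, hκv, hy₂⟩ := line_bounds hI hγ h₁ h₂ hx₁ hx₂ (le_max_left _ _)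
    (le_max_right _ _) hxy
  obtain ⟨E2, E3⟩ := vieta h₁ h₂ hxy
  have hEq₃' := WeierstrassCurve.Affine.equation_negAdd h₁ h₂ hxy
  set ℓ := W.slope x₁ x₂ y₁ y₂ with hℓ
  set c := y₁ - ℓ * x₁ with hcdef
  set x₃ := W.addX x₁ x₂ ℓ with hx₃def
  set y₃' := W.negAddY x₁ x₂ y₁ ℓ with hy₃'def
  set y₃ := W.addY x₁ x₂ y₁ ℓ with hy₃def
  have E1 : x₁ + x₂ + x₃ = ℓ ^ 2 + W.a₁ * ℓ - W.a₂ := by
    rw [hx₃def, WeierstrassCurve.Affine.addX]; ring
  have hy₁ : y₁ = ℓ * x₁ + c := by rw [hcdef]; ring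
  have hy₃' : y₃' = ℓ * x₃ + c := by
    rw [hy₃'def, WeierstrassCurve.Affine.negAddY, hcdef]; ring
  have hy₃ : y₃ = -y₃' := by
    rw [hy₃def, WeierstrassCurve.Affine.addY, hW.negY]
  have hP := prod_y_formula (a₁ := W.a₁) E1 E2 E3 hy₁ hy₂ hy₃' hc
  have hS := sum_xyy_formula (a₁ := W.a₁) E1 E2 E3 hy₁ hy₂ hy₃' hc
  rw [hW.a₁, hW.a₃, hW.a₆] at hS
  rw [hW.a₆] at hP
  -- the slope
  have hD0 : locp_D W (x₁ / y₁) (1 / y₁) (1 / y₂) ≠ 0 := locp_D_ne_zero h₂' h₄' ht₁ hs₁ hs₂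
  have hts₁ := locp_ts_equation hW h₁ hy₁0
  have hts₂ := locp_ts_equation hW h₂ hy₂0
  have hdiff := locp_ts_diff hW hts₁ hts₂
  have hline₁ : 1 / y₁ = 1 / c - ℓ / c * (x₁ / y₁) := by
    field_simp
    rw [hy₁]; ring
  have hline₂ : 1 / y₂ = 1 / c - ℓ / c * (x₂ / y₂) := by
    field_simp
    rw [hy₂]; ring
  have hlam : locp_lam W (x₁ / y₁) (1 / y₁) (x₂ / y₂) (1 / y₂) = -(ℓ / c) := by
    rw [locp_lam, div_eq_iff hD0]
    by_cases hne : x₁ / y₁ = x₂ / y₂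
    · -- tangent case
      have hs : 1 / y₁ = 1 / y₂ := by rw [hline₁, hline₂, hne]
      have hyy : y₁ = y₂ := by
        have := congrArg (fun z => 1 / z) hs
        simpa using this
      have hxx : x₁ = x₂ := by
        rw [hyy] at hne
        field_simp at hne
        exact hne
      have hyne : y₁ ≠ W.negY x₂ y₂ := fun h => hxy ⟨hxx, h⟩
      have hℓ' : ℓ = (3 * x₁ ^ 2 + 2 * W.a₂ * x₁ + W.a₄ - W.a₁ * y₁) / (y₁ - W.negY x₁ y₁) := by
        rw [hℓ]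
        exact WeierstrassCurve.Affine.slope_of_Y_ne hxx hyne
      rw [hW.negY, hW.a₁] at hℓ'
      have h2y : y₁ - -y₁ ≠ 0 := by
        rw [hW.negY, ← hyy] at hyne
        exact sub_ne_zero.2 hyne
      have hG : ℓ * (2 * y₁) - (3 * x₁ ^ 2 + 2 * W.a₂ * x₁ + W.a₄) = 0 := by
        have : ℓ * (y₁ - -y₁) = 3 * x₁ ^ 2 + 2 * W.a₂ * x₁ + W.a₄ - 0 * y₁ := by
          rw [hℓ', div_mul_cancel₀ _ h2y]
        linear_combination this
      have heq := hW.equation h₁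
      have key : (3 * x₁ ^ 2 + 2 * W.a₂ * x₁ + W.a₄) * c
          + ℓ * (y₁ ^ 2 - W.a₂ * x₁ ^ 2 - 2 * W.a₄ * x₁) = 0 := by
        rw [hcdef]
        linear_combination 3 * ℓ * heq - y₁ * hG
      rw [← hxx, ← hyy, locp_M, locp_D]
      field_simp
      linear_combination key
    · have hne' : x₂ / y₂ - x₁ / y₁ ≠ 0 := sub_ne_zero.2 (Ne.symm hne)
      apply mul_left_cancel₀ hne'
      rw [← hdiff, hline₁, hline₂]
      ring
  have hnu : locp_nu W (x₁ / y₁) (1 / y₁) (x₂ / y₂) (1 / y₂) = 1 / c := by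
    rw [locp_nu, hlam, hline₁]; ring
  -- the denominator
  have hμ1 : v (ℓ / c) < 1 := lt_of_le_of_lt hμv (lt_of_le_of_lt (sq_le_self_of_le_one hγ.le) hγ)
  have hdenv : v (1 - W.a₂ * (ℓ / c) + W.a₄ * (ℓ / c) ^ 2) = 1 := by
    have hsmall : v (-(W.a₂ * (ℓ / c)) + W.a₄ * (ℓ / c) ^ 2) < 1 := by
      refine lt_of_le_of_lt (v.map_add_le (g := v (ℓ / c)) ?_ ?_) hμ1
      · rw [Valuation.map_neg, map_mul]
        exact mul_le_of_le_one_left' h₂'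
      · rw [map_mul, map_pow]
        exact (mul_le_of_le_one_left' h₄').trans (sq_le_self_of_le_one hμ1.le)
    have : 1 - W.a₂ * (ℓ / c) + W.a₄ * (ℓ / c) ^ 2
        = 1 + (-(W.a₂ * (ℓ / c)) + W.a₄ * (ℓ / c) ^ 2) := by ring
    rw [this]
    exact v.map_one_add_of_lt hsmall
  have hden0 : 1 - W.a₂ * (ℓ / c) + W.a₄ * (ℓ / c) ^ 2 ≠ 0 := by
    intro h0; rw [h0, map_zero] at hdenv; exact zero_ne_one hdenv
  have hc3 : c ^ 3 ≠ 0 := pow_ne_zero 3 hc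
  have hP' : y₁ * y₂ * y₃' = c ^ 3 * (1 - W.a₂ * (ℓ / c) + W.a₄ * (ℓ / c) ^ 2) := by
    rw [hP]; ring
  have hy₃'0 : y₃' ≠ 0 := by
    intro h0
    rw [h0, mul_zero] at hP'
    exact mul_ne_zero hc3 hden0 hP'.symm
  have hsum : x₁ / y₁ + x₂ / y₂ + x₃ / y₃'
      = (-W.a₂ * (1 / c) + 2 * W.a₄ * (ℓ / c) * (1 / c)) /
        (1 - W.a₂ * (ℓ / c) + W.a₄ * (ℓ / c) ^ 2) := by
    have h1 : x₁ / y₁ + x₂ / y₂ + x₃ / y₃'
        = (x₁ * y₂ * y₃' + x₂ * y₁ * y₃' + x₃ * y₁ * y₂) / (y₁ * y₂ * y₃') := by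
      field_simp
    rw [h1, hS, hP']
    rw [mul_div_mul_left _ _ hc3]
    congr 1
    ring
  have hT : x₃ / y₃ = locp_addT W (x₁ / y₁) (1 / y₁) (x₂ / y₂) (1 / y₂) := by
    rw [locp_addT, hlam, hnu]
    have e1 : x₃ / y₃ = -(x₃ / y₃') := by rw [hy₃]; field_simp
    have e2 : (1 : K) + W.a₂ * -(ℓ / c) + W.a₄ * (-(ℓ / c)) ^ 2
        = 1 - W.a₂ * (ℓ / c) + W.a₄ * (ℓ / c) ^ 2 := by ring
    rw [e1, e2]
    have : x₃ / y₃' = (x₁ / y₁ + x₂ / y₂ + x₃ / y₃') - x₁ / y₁ - x₂ / y₂ := by ring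
    rw [this, hsum]
    field_simp
    ring
  refine ⟨hT, ?_⟩
  rw [locp_addS, ← hT, hlam, hnu]
  have hy₃0 : y₃ ≠ 0 := by rw [hy₃]; exact neg_ne_zero.2 hy₃'0
  field_simp
  rw [hy₃, hy₃']
  ring


/-! ### Basic facts on points of the kernel of reduction -/

omit [DecidableEq K] in
theorem locp_val_tOf_lt_one (hW : IsShort W) (h₂ : v W.a₂ ≤ 1) (h₄ : v W.a₄ ≤ 1) {P : W.Point}
    (hP : locp_InE1 v P) : v (tOf P) < 1 := by
  rcases P with _ | ⟨x, y, h⟩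
  · show v (0 : K) < 1
    rw [map_zero]; exact zero_lt_one
  · exact val_t_lt_one (locp_integralCoeffs hW h₂ h₄) h.1 hP

omit [DecidableEq K] in
theorem locp_val_sOf (hW : IsShort W) (h₂ : v W.a₂ ≤ 1) (h₄ : v W.a₄ ≤ 1) {P : W.Point}
    (hP : locp_InE1 v P) : v (locp_sOf P) = v (tOf P) ^ 3 := by
  rcases P with _ | ⟨x, y, h⟩
  · show v (0 : K) = v (0 : K) ^ 3
    rw [map_zero]; simp
  · exact val_s_eq (locp_integralCoeffs hW h₂ h₄) h.1 hP

omit [DecidableEq K] in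
theorem locp_val_sOf_le (hW : IsShort W) (h₂ : v W.a₂ ≤ 1) (h₄ : v W.a₄ ≤ 1) {P : W.Point}
    (hP : locp_InE1 v P) : v (locp_sOf P) ≤ v (tOf P) := by
  rw [locp_val_sOf hW h₂ h₄ hP]
  exact cube_le_self_of_le_one (locp_val_tOf_lt_one hW h₂ h₄ hP).le

omit [DecidableEq K] in
theorem locp_ts_eq (hW : IsShort W) (h₂ : v W.a₂ ≤ 1) (h₄ : v W.a₄ ≤ 1) {P : W.Point}
    (hP : locp_InE1 v P) :
    locp_sOf P = tOf P ^ 3 + W.a₂ * tOf P ^ 2 * locp_sOf P + W.a₄ * tOf P * locp_sOf P ^ 2 := by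
  rcases P with _ | ⟨x, y, h⟩
  · show (0 : K) = (0 : K) ^ 3 + W.a₂ * (0 : K) ^ 2 * 0 + W.a₄ * 0 * 0 ^ 2
    ring
  · exact locp_ts_equation hW h.1 (y_ne_zero (locp_integralCoeffs hW h₂ h₄) h.1 hP)

omit [DecidableEq K] in
theorem locp_inE1_iff_inKer (hW : IsShort W) (h₂ : v W.a₂ ≤ 1) (h₄ : v W.a₄ ≤ 1) {P : W.Point} :
    locp_InE1 v P ↔ InKer v (v (tOf P)) P := by
  rcases P with _ | ⟨x, y, h⟩
  · exact ⟨fun _ => trivial, fun _ => trivial⟩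
  · exact ⟨fun hP => ⟨hP, le_rfl⟩, fun hP => hP.1⟩

omit [DecidableEq K] in
theorem locp_inKer_of_inE1 {P : W.Point} {γ : Γ} (hP : locp_InE1 v P) (hγ : v (tOf P) ≤ γ) :
    InKer v γ P := by
  rcases P with _ | ⟨x, y, h⟩
  · trivial
  · exact ⟨hP, hγ⟩

omit [DecidableEq K] in
theorem locp_inE1_of_inKer {P : W.Point} {γ : Γ} (hP : InKer v γ P) : locp_InE1 v P := by
  rcases P with _ | ⟨x, y, h⟩
  · trivial
  · exact hP.1

omit [DecidableEq K] in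
theorem locp_val_tOf_le_of_inKer {P : W.Point} {γ : Γ} (hP : InKer v γ P) : v (tOf P) ≤ γ := by
  rcases P with _ | ⟨x, y, h⟩
  · show v (0 : K) ≤ γ
    rw [map_zero]; exact zero_le
  · exact hP.2

theorem locp_inE1_add (hW : IsShort W) (h₂ : v W.a₂ ≤ 1) (h₄ : v W.a₄ ≤ 1) {P Q : W.Point}
    (hP : locp_InE1 v P) (hQ : locp_InE1 v Q) : locp_InE1 v (P + Q) := by
  have hγ : max (v (tOf P)) (v (tOf Q)) < 1 :=
    max_lt (locp_val_tOf_lt_one hW h₂ h₄ hP) (locp_val_tOf_lt_one hW h₂ h₄ hQ)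
  exact locp_inE1_of_inKer (inKer_add (locp_integralCoeffs hW h₂ h₄) hγ
    (locp_inKer_of_inE1 hP (le_max_left _ _)) (locp_inKer_of_inE1 hQ (le_max_right _ _))).1

theorem locp_inE1_neg (hW : IsShort W) {P : W.Point} (hP : locp_InE1 v P) :
    locp_InE1 v (-P) := by
  rcases P with _ | ⟨x, y, h⟩
  · exact hP
  · rw [hW.neg_some h]; exact hP

theorem locp_inE1_nsmul (hW : IsShort W) (h₂ : v W.a₂ ≤ 1) (h₄ : v W.a₄ ≤ 1) {P : W.Point}
    (hP : locp_InE1 v P) (n : ℕ) : locp_InE1 v (n • P) := by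
  induction n with
  | zero => rw [zero_nsmul]; exact locp_inE1_zero
  | succ n ih => rw [succ_nsmul]; exact locp_inE1_add hW h₂ h₄ ih hP

theorem locp_val_tOf_nsmul_le (hW : IsShort W) (h₂ : v W.a₂ ≤ 1) (h₄ : v W.a₄ ≤ 1) {P : W.Point}
    (hP : locp_InE1 v P) (n : ℕ) : v (tOf (n • P)) ≤ v (tOf P) :=
  locp_val_tOf_le_of_inKer (inKer_nsmul (locp_integralCoeffs hW h₂ h₄)
    (locp_val_tOf_lt_one hW h₂ h₄ hP) (locp_inKer_of_inE1 hP le_rfl) n).1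

theorem locp_tOf_neg (hW : IsShort W) (P : W.Point) : tOf (-P) = -tOf P := by
  rcases P with _ | ⟨x, y, h⟩
  · show tOf (0 : W.Point) = -tOf (0 : W.Point)
    simp
  · rw [hW.neg_some h]
    simp only [tOf_some]
    ring

omit [DecidableEq K] in
@[simp] theorem locp_sOf_zero' : locp_sOf (Point.zero : W.Point) = 0 := rfl

omit [DecidableEq K] in
@[simp] theorem locp_tOf_zero' : tOf (Point.zero : W.Point) = 0 := rfl

/-- The exact addition law in the `(t, s)`-chart on the kernel of reduction. -/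
theorem locp_tOf_add (hW : IsShort W) (h₂ : v W.a₂ ≤ 1) (h₄ : v W.a₄ ≤ 1) {P Q : W.Point}
    (hP : locp_InE1 v P) (hQ : locp_InE1 v Q) :
    tOf (P + Q) = locp_addT W (tOf P) (locp_sOf P) (tOf Q) (locp_sOf Q) ∧
      locp_sOf (P + Q) = locp_addS W (tOf P) (locp_sOf P) (tOf Q) (locp_sOf Q) := by
  have hI := locp_integralCoeffs hW h₂ h₄
  have htsQ := locp_ts_eq hW h₂ h₄ hQ
  have htsP := locp_ts_eq hW h₂ h₄ hP
  have hDne : locp_D W (tOf P) (locp_sOf P) (locp_sOf Q) ≠ 0 :=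
    locp_D_ne_zero h₂ h₄ (locp_val_tOf_lt_one hW h₂ h₄ hP)
      ((locp_val_sOf_le hW h₂ h₄ hP).trans (locp_val_tOf_lt_one hW h₂ h₄ hP).le)
      ((locp_val_sOf_le hW h₂ h₄ hQ).trans (locp_val_tOf_lt_one hW h₂ h₄ hQ).le)
  rcases P with _ | ⟨x₁, y₁, h₁⟩
  · -- `P = 0`
    have e0 : (Point.zero : W.Point) = 0 := rfl
    rw [e0, zero_add]
    simp only [tOf_zero, locp_sOf_zero]
    have hD : locp_D W 0 0 (locp_sOf Q) = 1 := by
      rw [locp_D]; ring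
    have hlam : locp_lam W 0 0 (tOf Q) (locp_sOf Q)
        = tOf Q ^ 2 + W.a₂ * tOf Q * locp_sOf Q + W.a₄ * locp_sOf Q ^ 2 := by
      rw [locp_lam, hD, div_one, locp_M]; ring
    have hnu : locp_nu W 0 0 (tOf Q) (locp_sOf Q) = 0 := by
      rw [locp_nu]; ring
    have hT : locp_addT W 0 0 (tOf Q) (locp_sOf Q) = tOf Q := by
      rw [locp_addT, hnu]; ring
    refine ⟨hT.symm, ?_⟩
    rw [locp_addS, hT, hnu, hlam]
    linear_combination htsQ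
  rcases Q with _ | ⟨x₂, y₂, h₂'⟩
  · -- `Q = 0`
    have e0 : (Point.zero : W.Point) = 0 := rfl
    rw [e0, add_zero]
    simp only [tOf_zero, locp_sOf_zero, locp_sOf_zero'] at hDne ⊢
    set t := tOf (Point.some x₁ y₁ h₁) with ht
    set s := locp_sOf (Point.some x₁ y₁ h₁) with hs
    have hD : locp_D W t s 0 = 1 - W.a₂ * t ^ 2 - W.a₄ * t * s := by
      rw [locp_D]; ring
    have hlam : locp_lam W t s 0 0 * locp_D W t s 0 = t ^ 2 := by
      rw [locp_lam, div_mul_cancel₀ _ hDne, locp_M]; ring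
    have hsD : s * locp_D W t s 0 = t ^ 3 := by
      rw [hD]; linear_combination htsP
    have hlamt : locp_lam W t s 0 0 * t = s := by
      apply mul_right_cancel₀ hDne
      rw [hsD]
      linear_combination t * hlam
    have hnu : locp_nu W t s 0 0 = 0 := by
      rw [locp_nu, hlamt]; ring
    have hT : locp_addT W t s 0 0 = t := by
      rw [locp_addT, hnu]; ring
    refine ⟨hT.symm, ?_⟩
    rw [locp_addS, hT, hnu, hlamt]; ring
  by_cases hxy : x₁ = x₂ ∧ y₁ = W.negY x₂ y₂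
  · -- `P + Q = 0`
    rw [Point.add_of_Y_eq hxy.1 hxy.2]
    simp only [tOf_zero, locp_sOf_zero, tOf_some, locp_sOf_some] at htsP htsQ hDne ⊢
    obtain ⟨rfl, hy⟩ := hxy
    rw [hW.negY] at hy
    have hy₂0 : y₂ ≠ 0 := y_ne_zero hI h₂'.1 hQ
    have hy₁0 : y₁ ≠ 0 := y_ne_zero hI h₁.1 hP
    have et : x₁ / y₁ = -(x₁ / y₂) := by rw [hy]; field_simp
    have es : 1 / y₁ = -(1 / y₂) := by rw [hy]; field_simp
    rw [et, es] at hDne ⊢
    set t := x₁ / y₂ with ht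
    set s := 1 / y₂ with hs
    have hD : locp_D W (-t) (-s) s = 1 - W.a₂ * t ^ 2 := by
      rw [locp_D]; ring
    have hlam : locp_lam W (-t) (-s) t s * locp_D W (-t) (-s) s = t ^ 2 + W.a₄ * s ^ 2 := by
      rw [locp_lam, div_mul_cancel₀ _ hDne, locp_M]; ring
    have hnu : locp_nu W (-t) (-s) t s = 0 := by
      apply mul_right_cancel₀ hDne
      rw [zero_mul, locp_nu, sub_mul, mul_assoc, mul_comm (-t), ← mul_assoc, hlam, hD]
      linear_combination -htsQ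
    have hT : locp_addT W (-t) (-s) t s = 0 := by
      rw [locp_addT, hnu]; ring
    refine ⟨hT.symm, ?_⟩
    rw [locp_addS, hT, hnu]; ring
  · rw [Point.add_some hxy]
    simp only [tOf_some, locp_sOf_some]
    exact locp_add_generic hW h₂ h₄ h₁.1 h₂'.1 hP hQ hxy

end Fermat.Agent.S13
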