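import Mathlib

/-!
# S13 / LOCp: polynomial approximation calculus on a valued field

`locp_Approx v τ N φ c` says that the function `φ : X → K` is approximated, up to an error of
valuation `≤ v (τ x) ^ (N + 1)`, by `f (τ x)` for a polynomial `f` with integral coefficients,
zero constant term and linear coefficient `c`.  Here `τ : X → K` is a "parameter" with
`v (τ x) < 1`.  The class of approximable functions is closed under the ring operations and under
division by `1 - δ`; this is a poor man's substitute for formal power series.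
-/

set_option autoImplicit false
set_option linter.unusedSectionVars false
set_option linter.unusedVariables false

namespace Fermat.Agent.S13

open Polynomial

variable {K : Type*} [Field K] {Γ : Type*} [LinearOrderedCommGroupWithZero Γ]
  (v : Valuation K Γ)

/-- A polynomial with integral coefficients. -/
def locp_IntPoly (f : K[X]) : Prop := ∀ i, v (f.coeff i) ≤ 1

variable {v}

theorem locp_intPoly_zero : locp_IntPoly v (0 : K[X]) := fun i => by simp

theorem locp_intPoly_X : locp_IntPoly v (X : K[X]) := fun i => by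
  rw [coeff_X]
  split_ifs
  · rw [map_one]
  · rw [map_zero]; exact zero_le_one

theorem locp_intPoly_C {a : K} (ha : v a ≤ 1) : locp_IntPoly v (C a : K[X]) := fun i => by
  rw [coeff_C]
  split_ifs
  · exact ha
  · rw [map_zero]; exact zero_le_one

theorem locp_intPoly_add {f g : K[X]} (hf : locp_IntPoly v f) (hg : locp_IntPoly v g) :
    locp_IntPoly v (f + g) := fun i => by
  rw [coeff_add]
  exact v.map_add_le (hf i) (hg i)

theorem locp_intPoly_mul {f g : K[X]} (hf : locp_IntPoly v f) (hg : locp_IntPoly v g) :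
    locp_IntPoly v (f * g) := fun i => by
  rw [coeff_mul]
  refine v.map_sum_le fun x _ => ?_
  rw [map_mul]
  exact mul_le_one' (hf _) (hg _)

theorem locp_intPoly_C_mul {a : K} (ha : v a ≤ 1) {f : K[X]} (hf : locp_IntPoly v f) :
    locp_IntPoly v (C a * f) := locp_intPoly_mul (locp_intPoly_C ha) hf

theorem locp_intPoly_pow {f : K[X]} (hf : locp_IntPoly v f) (n : ℕ) :
    locp_IntPoly v (f ^ n) := by
  induction n with
  | zero =>
    rw [pow_zero]
    have : (1 : K[X]) = C 1 := by simp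
    rw [this]
    exact locp_intPoly_C (by rw [map_one])
  | succ n ih => rw [pow_succ]; exact locp_intPoly_mul ih hf

theorem locp_eval_le_one {f : K[X]} (hf : locp_IntPoly v f) {t : K} (ht : v t ≤ 1) :
    v (f.eval t) ≤ 1 := by
  rw [eval_eq_sum_range]
  refine v.map_sum_le fun i _ => ?_
  rw [map_mul, map_pow]
  exact mul_le_one' (hf i) (pow_le_one₀ zero_le ht)

theorem locp_eval_le {f : K[X]} (hf : locp_IntPoly v f) (h0 : f.coeff 0 = 0) {t : K}
    (ht : v t ≤ 1) : v (f.eval t) ≤ v t := by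
  rw [eval_eq_sum_range]
  refine v.map_sum_le fun i _ => ?_
  rcases Nat.eq_zero_or_pos i with rfl | hi
  · rw [h0, zero_mul, map_zero]; exact zero_le
  · rw [map_mul, map_pow]
    calc v (f.coeff i) * v t ^ i ≤ 1 * v t ^ i := by gcongr; exact hf i
      _ = v t ^ i := one_mul _
      _ ≤ v t := pow_le_of_le_one zero_le ht hi.ne'

variable {Ω : Type*} (v) (τ : Ω → K)

/-- `φ` is approximated modulo `τ ^ (N + 1)` by an integral polynomial in `τ` without constant
term and with linear coefficient `c`. -/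
def locp_Approx (N : ℕ) (φ : Ω → K) (c : K) : Prop :=
  ∃ f : K[X], locp_IntPoly v f ∧ f.coeff 0 = 0 ∧ f.coeff 1 = c ∧
    ∀ x, v (φ x - f.eval (τ x)) ≤ v (τ x) ^ (N + 1)

/-- `φ` is approximated to every order. -/
def locp_Appr (φ : Ω → K) (c : K) : Prop := ∀ N, locp_Approx v τ N φ c

variable {v τ}

section closure

variable (hτ : ∀ x, v (τ x) < 1)
include hτ

theorem locp_Approx.val_le {N : ℕ} {φ : Ω → K} {c : K} (h : locp_Approx v τ N φ c) (x : Ω) :
    v (φ x) ≤ v (τ x) := by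
  obtain ⟨f, hf, h0, -, hx⟩ := h
  have h1 : v (f.eval (τ x)) ≤ v (τ x) := locp_eval_le hf h0 (hτ x).le
  have h2 : v (φ x - f.eval (τ x)) ≤ v (τ x) :=
    (hx x).trans (pow_le_of_le_one zero_le (hτ x).le (Nat.succ_ne_zero N))
  have : φ x = (φ x - f.eval (τ x)) + f.eval (τ x) := by ring
  rw [this]
  exact v.map_add_le h2 h1

theorem locp_Approx.val_lt_one {N : ℕ} {φ : Ω → K} {c : K} (h : locp_Approx v τ N φ c)
    (x : Ω) : v (φ x) < 1 := lt_of_le_of_lt (h.val_le hτ x) (hτ x)

omit hτ in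
theorem locp_Approx.congr {N : ℕ} {φ ψ : Ω → K} {c d : K} (h : locp_Approx v τ N φ c)
    (hφ : ∀ x, ψ x = φ x) (hc : d = c) : locp_Approx v τ N ψ d := by
  obtain ⟨f, hf, h0, h1, hx⟩ := h
  exact ⟨f, hf, h0, by rw [h1, hc], fun x => by rw [hφ x]; exact hx x⟩

omit hτ in
theorem locp_Approx.zero (N : ℕ) : locp_Approx v τ N (fun _ => (0 : K)) 0 :=
  ⟨0, locp_intPoly_zero, by simp, by simp, fun x => by simp⟩

omit hτ in
theorem locp_Approx.param (N : ℕ) : locp_Approx v τ N τ 1 :=
  ⟨X, locp_intPoly_X, by simp, by simp, fun x => by simp⟩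

omit hτ in
theorem locp_Approx.add {N : ℕ} {φ ψ : Ω → K} {c d : K} (h₁ : locp_Approx v τ N φ c)
    (h₂ : locp_Approx v τ N ψ d) : locp_Approx v τ N (fun x => φ x + ψ x) (c + d) := by
  obtain ⟨f, hf, hf0, hf1, hfx⟩ := h₁
  obtain ⟨g, hg, hg0, hg1, hgx⟩ := h₂
  refine ⟨f + g, locp_intPoly_add hf hg, by rw [coeff_add, hf0, hg0, add_zero],
    by rw [coeff_add, hf1, hg1], fun x => ?_⟩
  have : φ x + ψ x - (f + g).eval (τ x) = (φ x - f.eval (τ x)) + (ψ x - g.eval (τ x)) := by
    rw [eval_add]; ring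
  rw [this]
  exact v.map_add_le (hfx x) (hgx x)

omit hτ in
theorem locp_Approx.const_mul {N : ℕ} {φ : Ω → K} {c : K} {a : K} (ha : v a ≤ 1)
    (h : locp_Approx v τ N φ c) : locp_Approx v τ N (fun x => a * φ x) (a * c) := by
  obtain ⟨f, hf, hf0, hf1, hfx⟩ := h
  refine ⟨C a * f, locp_intPoly_C_mul ha hf, by rw [coeff_C_mul, hf0, mul_zero],
    by rw [coeff_C_mul, hf1], fun x => ?_⟩
  have : a * φ x - (C a * f).eval (τ x) = a * (φ x - f.eval (τ x)) := by
    rw [eval_mul, eval_C]; ring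
  rw [this, map_mul]
  exact (mul_le_of_le_one_left' ha).trans (hfx x)

omit hτ in
theorem locp_Approx.neg {N : ℕ} {φ : Ω → K} {c : K} (h : locp_Approx v τ N φ c) :
    locp_Approx v τ N (fun x => -φ x) (-c) :=
  (h.const_mul (a := -1) (by rw [Valuation.map_neg, map_one])).congr (fun x => by ring)
    (by ring)

omit hτ in
theorem locp_Approx.sub {N : ℕ} {φ ψ : Ω → K} {c d : K} (h₁ : locp_Approx v τ N φ c)
    (h₂ : locp_Approx v τ N ψ d) : locp_Approx v τ N (fun x => φ x - ψ x) (c - d) :=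
  (h₁.add h₂.neg).congr (fun x => by ring) (by ring)

theorem locp_Approx.mul {N : ℕ} {φ ψ : Ω → K} {c d : K} (h₁ : locp_Approx v τ N φ c)
    (h₂ : locp_Approx v τ N ψ d) : locp_Approx v τ N (fun x => φ x * ψ x) 0 := by
  have hφ1 : ∀ x, v (φ x) ≤ 1 := fun x => (h₁.val_lt_one hτ x).le
  obtain ⟨f, hf, hf0, hf1, hfx⟩ := h₁
  obtain ⟨g, hg, hg0, hg1, hgx⟩ := h₂
  refine ⟨f * g, locp_intPoly_mul hf hg, by rw [mul_coeff_zero, hf0, zero_mul],
    by rw [mul_coeff_one, hf0, hg0, zero_mul, mul_zero, add_zero], fun x => ?_⟩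
  have : φ x * ψ x - (f * g).eval (τ x)
      = φ x * (ψ x - g.eval (τ x)) + (φ x - f.eval (τ x)) * g.eval (τ x) := by
    rw [eval_mul]; ring
  rw [this]
  refine v.map_add_le ?_ ?_
  · rw [map_mul]
    exact (mul_le_of_le_one_left' (hφ1 x)).trans (hgx x)
  · rw [map_mul]
    exact (mul_le_of_le_one_right' (locp_eval_le_one hg (hτ x).le)).trans (hfx x)

theorem locp_Approx.pow {N : ℕ} {φ : Ω → K} {c : K} (h : locp_Approx v τ N φ c) (k : ℕ) :
    locp_Approx v τ N (fun x => φ x ^ (k + 2)) 0 := by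
  induction k with
  | zero => exact (h.mul hτ h).congr (fun x => by ring) rfl
  | succ k ih => exact (ih.mul hτ h).congr (fun x => by ring) rfl

/-- The fixed point lemma, induction step. -/
theorem locp_Approx.fix {N : ℕ} {φ α β : Ω → K} {c d e : K}
    (hfix : ∀ x, φ x = α x + β x * φ x) (hα : locp_Approx v τ (N + 1) α c)
    (hβ : locp_Approx v τ N β d) (hφ : locp_Approx v τ N φ e) :
    locp_Approx v τ (N + 1) φ c := by
  have hβτ : ∀ x, v (β x) ≤ v (τ x) := fun x => hβ.val_le hτ x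
  obtain ⟨f, hf, hf0, hf1, hfx⟩ := hα
  obtain ⟨g, hg, hg0, hg1, hgx⟩ := hβ
  obtain ⟨h, hh, hh0, hh1, hhx⟩ := hφ
  refine ⟨f + g * h, locp_intPoly_add hf (locp_intPoly_mul hg hh),
    by rw [coeff_add, mul_coeff_zero, hf0, hg0, zero_mul, add_zero],
    by rw [coeff_add, hf1, mul_coeff_one, hg0, hh0, zero_mul, mul_zero, add_zero, add_zero], fun x => ?_⟩
  have e1 : φ x - (f + g * h).eval (τ x)
      = (α x - f.eval (τ x)) + (β x * (φ x - h.eval (τ x))
        + (β x - g.eval (τ x)) * h.eval (τ x)) := by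
    rw [eval_add, eval_mul]
    linear_combination hfix x
  rw [e1]
  have hpow : v (τ x) * v (τ x) ^ (N + 1) = v (τ x) ^ (N + 1 + 1) := by
    rw [pow_succ (v (τ x)) (N + 1)]; exact mul_comm _ _
  refine v.map_add_le (hfx x) (v.map_add_le ?_ ?_)
  · rw [map_mul, ← hpow]
    exact mul_le_mul' (hβτ x) (hhx x)
  · rw [map_mul, ← hpow, mul_comm (v (τ x))]
    exact mul_le_mul' (hgx x) (locp_eval_le hh hh0 (hτ x).le)

/-- The fixed point lemma, base case. -/
theorem locp_Approx.fix_zero {φ α β : Ω → K} {c d : K}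
    (hfix : ∀ x, φ x = α x + β x * φ x) (hα : locp_Approx v τ 0 α c)
    (hβ : locp_Approx v τ 0 β d) : locp_Approx v τ 0 φ c := by
  have hβτ : ∀ x, v (β x) ≤ v (τ x) := fun x => hβ.val_le hτ x
  have hατ : ∀ x, v (α x) ≤ v (τ x) := fun x => hα.val_le hτ x
  have hφ1 : ∀ x, v (φ x) ≤ 1 := by
    intro x
    have h1 : φ x * (1 - β x) = α x := by linear_combination hfix x
    have h2 : v (1 - β x) = 1 := by
      rw [sub_eq_add_neg]
      exact v.map_one_add_of_lt (by rw [Valuation.map_neg]; exact lt_of_le_of_lt (hβτ x) (hτ x))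
    have h3 : v (φ x) = v (α x) := by
      rw [← h1, map_mul, h2, mul_one]
    rw [h3]
    exact (hατ x).trans (hτ x).le
  obtain ⟨f, hf, hf0, hf1, hfx⟩ := hα
  refine ⟨f, hf, hf0, hf1, fun x => ?_⟩
  have e1 : φ x - f.eval (τ x) = (α x - f.eval (τ x)) + β x * φ x := by
    linear_combination hfix x
  rw [e1]
  refine v.map_add_le (hfx x) ?_
  rw [map_mul, zero_add, pow_one]
  exact (mul_le_of_le_one_right' (hφ1 x)).trans (hβτ x)

end closure

section appr

variable (hτ : ∀ x, v (τ x) < 1)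
include hτ

omit hτ in
theorem locp_Appr.congr {φ ψ : Ω → K} {c d : K} (h : locp_Appr v τ φ c)
    (hφ : ∀ x, ψ x = φ x) (hc : d = c) : locp_Appr v τ ψ d :=
  fun N => (h N).congr hφ hc

omit hτ in
theorem locp_Appr.zero : locp_Appr v τ (fun _ => (0 : K)) 0 := fun N => locp_Approx.zero N

omit hτ in
theorem locp_Appr.param : locp_Appr v τ τ 1 := fun N => locp_Approx.param N

omit hτ in
theorem locp_Appr.add {φ ψ : Ω → K} {c d : K} (h₁ : locp_Appr v τ φ c)
    (h₂ : locp_Appr v τ ψ d) : locp_Appr v τ (fun x => φ x + ψ x) (c + d) :=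
  fun N => (h₁ N).add (h₂ N)

omit hτ in
theorem locp_Appr.const_mul {φ : Ω → K} {c : K} {a : K} (ha : v a ≤ 1)
    (h : locp_Appr v τ φ c) : locp_Appr v τ (fun x => a * φ x) (a * c) :=
  fun N => (h N).const_mul ha

omit hτ in
theorem locp_Appr.neg {φ : Ω → K} {c : K} (h : locp_Appr v τ φ c) :
    locp_Appr v τ (fun x => -φ x) (-c) := fun N => (h N).neg

omit hτ in
theorem locp_Appr.sub {φ ψ : Ω → K} {c d : K} (h₁ : locp_Appr v τ φ c)
    (h₂ : locp_Appr v τ ψ d) : locp_Appr v τ (fun x => φ x - ψ x) (c - d) :=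
  fun N => (h₁ N).sub (h₂ N)

theorem locp_Appr.mul {φ ψ : Ω → K} {c d : K} (h₁ : locp_Appr v τ φ c)
    (h₂ : locp_Appr v τ ψ d) : locp_Appr v τ (fun x => φ x * ψ x) 0 :=
  fun N => (h₁ N).mul hτ (h₂ N)

theorem locp_Appr.val_le {φ : Ω → K} {c : K} (h : locp_Appr v τ φ c) (x : Ω) :
    v (φ x) ≤ v (τ x) := (h 0).val_le hτ x

theorem locp_Appr.val_lt_one {φ : Ω → K} {c : K} (h : locp_Appr v τ φ c) (x : Ω) :
    v (φ x) < 1 := (h 0).val_lt_one hτ x

theorem locp_Appr.one_sub_ne_zero {δ : Ω → K} {d : K} (h : locp_Appr v τ δ d) (x : Ω) :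
    1 - δ x ≠ 0 := by
  intro h0
  have h2 : v (1 - δ x) = 1 := by
    rw [sub_eq_add_neg]
    exact v.map_one_add_of_lt (by rw [Valuation.map_neg]; exact h.val_lt_one hτ x)
  rw [h0, map_zero] at h2
  exact zero_ne_one h2

/-- Fixed points of contracting affine maps are approximable. -/
theorem locp_Appr.fix {φ α β : Ω → K} {c d : K} (hfix : ∀ x, φ x = α x + β x * φ x)
    (hα : locp_Appr v τ α c) (hβ : locp_Appr v τ β d) : locp_Appr v τ φ c := by
  intro N
  induction N with
  | zero => exact locp_Approx.fix_zero hτ hfix (hα 0) (hβ 0)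
  | succ N ih => exact locp_Approx.fix hτ hfix (hα (N + 1)) (hβ N) ih

/-- Division by `1 - δ`. -/
theorem locp_Appr.div {ψ δ : Ω → K} {c d : K} (hψ : locp_Appr v τ ψ c)
    (hδ : locp_Appr v τ δ d) : locp_Appr v τ (fun x => ψ x / (1 - δ x)) c := by
  refine locp_Appr.fix hτ (fun x => ?_) hψ hδ
  have := hδ.one_sub_ne_zero hτ x
  field_simp
  ring

end appr

end Fermat.Agent.S13
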