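import Mathlib
import Fermat.Agent.S13.LocPAdd
import Fermat.Agent.S13.LocPApprox

/-!
# S13 / LOCp: multiplication by `n` on the kernel of reduction is approximately polynomial

For a short Weierstrass curve with integral coefficients over a valued field, the `t`-coordinate
of `n • P`, for `P` in the kernel of reduction, is approximated to any order by an integral
polynomial `n T + O(T²)` in the `t`-coordinate of `P` (the same polynomial for all `P`).
-/

set_option autoImplicit false
set_option linter.unusedSectionVars false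
set_option linter.unusedVariables false

namespace Fermat.Agent.S13

open WeierstrassCurve WeierstrassCurve.Affine Polynomial
open Fermat.Agent.S05 Fermat.Agent.S05.KR

variable {K : Type*} [Field K] [DecidableEq K] {Γ : Type*} [LinearOrderedCommGroupWithZero Γ]
  {v : Valuation K Γ} {W : WeierstrassCurve.Affine K}

/-- The parameter `t` on the kernel of reduction. -/
noncomputable def locp_tau (v : Valuation K Γ) (W : WeierstrassCurve.Affine K) :
    {P : W.Point // locp_InE1 v P} → K := fun P => tOf P.1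

/-- The coordinate `s` on the kernel of reduction. -/
noncomputable def locp_sig (v : Valuation K Γ) (W : WeierstrassCurve.Affine K) :
    {P : W.Point // locp_InE1 v P} → K := fun P => locp_sOf P.1

omit [DecidableEq K] in
theorem locp_tau_lt_one (hW : IsShort W) (h₂ : v W.a₂ ≤ 1) (h₄ : v W.a₄ ≤ 1)
    (P : {P : W.Point // locp_InE1 v P}) : v (locp_tau v W P) < 1 :=
  locp_val_tOf_lt_one hW h₂ h₄ P.2

omit [DecidableEq K] in
theorem locp_appr_sig (hW : IsShort W) (h₂ : v W.a₂ ≤ 1) (h₄ : v W.a₄ ≤ 1) :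
    locp_Appr v (locp_tau v W) (locp_sig v W) 0 := by
  have hτ := locp_tau_lt_one (v := v) (W := W) hW h₂ h₄
  intro N
  induction N with
  | zero =>
    refine ⟨0, locp_intPoly_zero, by simp, by simp, fun P => ?_⟩
    rw [eval_zero, sub_zero, zero_add, pow_one]
    exact locp_val_sOf_le hW h₂ h₄ P.2
  | succ N ih =>
    have hα : locp_Approx v (locp_tau v W) (N + 1) (fun P => locp_tau v W P ^ (1 + 2)) 0 :=
      (locp_Approx.param (N + 1)).pow hτ 1
    have hβ : locp_Approx v (locp_tau v W) N
        (fun P => W.a₂ * locp_tau v W P ^ (0 + 2) + W.a₄ * (locp_tau v W P * locp_sig v W P))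
        (W.a₂ * 0 + W.a₄ * 0) :=
      (((locp_Approx.param N).pow hτ 0).const_mul h₂).add
        (((locp_Approx.param N).mul hτ ih).const_mul h₄)
    refine locp_Approx.fix hτ (fun P => ?_) hα hβ ih
    have := locp_ts_eq hW h₂ h₄ P.2
    show locp_sOf P.1 = tOf P.1 ^ (1 + 2)
      + (W.a₂ * tOf P.1 ^ (0 + 2) + W.a₄ * (tOf P.1 * locp_sOf P.1)) * locp_sOf P.1
    linear_combination this

/-- The inductive statement: both coordinates of `n • P` are approximable. -/
theorem locp_appr_nsmul (hW : IsShort W) (h₂ : v W.a₂ ≤ 1) (h₄ : v W.a₄ ≤ 1) (n : ℕ) :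
    locp_Appr v (locp_tau v W) (fun P => tOf (n • P.1)) (n : K) ∧
      locp_Appr v (locp_tau v W) (fun P => locp_sOf (n • P.1)) 0 := by
  have hτ := locp_tau_lt_one (v := v) (W := W) hW h₂ h₄
  have hsig := locp_appr_sig (v := v) (W := W) hW h₂ h₄
  have hpar : locp_Appr v (locp_tau v W) (locp_tau v W) 1 := locp_Appr.param
  have h2 : v (2 : K) ≤ 1 := val_two_le_one v
  induction n with
  | zero =>
    refine ⟨locp_Appr.zero.congr (fun P => ?_) (by simp),
      locp_Appr.zero.congr (fun P => ?_) rfl⟩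
    · rw [zero_nsmul]; rfl
    · rw [zero_nsmul]; rfl
  | succ n ih =>
    obtain ⟨ihT, ihS⟩ := ih
    set φ : {P : W.Point // locp_InE1 v P} → K := fun P => tOf (n • P.1) with hφ
    set σ : {P : W.Point // locp_InE1 v P} → K := fun P => locp_sOf (n • P.1) with hσ
    set τ := locp_tau v W with hτdef
    set s := locp_sig v W with hsdef
    -- the addition formula
    have hadd : ∀ P : {P : W.Point // locp_InE1 v P},
        tOf ((n + 1) • P.1) = locp_addT W (φ P) (σ P) (τ P) (s P) ∧
          locp_sOf ((n + 1) • P.1) = locp_addS W (φ P) (σ P) (τ P) (s P) := by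
      intro P
      rw [succ_nsmul]
      exact locp_tOf_add hW h₂ h₄ (locp_inE1_nsmul hW h₂ h₄ P.2 n) P.2
    -- the slope
    have hM : locp_Appr v τ (fun P => locp_M W (φ P) (τ P) (s P)) 0 := by
      have h1 := (ihT.mul hτ ihT).add (ihT.mul hτ hpar)
      have h2 := h1.add (hpar.mul hτ hpar)
      have h3 := ((ihT.add hpar).mul hτ hsig).const_mul h₂
      have h4 := (hsig.mul hτ hsig).const_mul h₄
      refine ((h2.add h3).add h4).congr (fun P => ?_) (by ring)
      rw [locp_M]; ring
    have hδ₁ : locp_Appr v τ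
        (fun P => W.a₂ * (φ P * φ P) + W.a₄ * (φ P * (σ P + s P))) (W.a₂ * 0 + W.a₄ * 0) :=
      ((ihT.mul hτ ihT).const_mul h₂).add ((ihT.mul hτ (ihS.add hsig)).const_mul h₄)
    have hlam : locp_Appr v τ (fun P => locp_lam W (φ P) (σ P) (τ P) (s P)) 0 := by
      refine (hM.div hτ hδ₁).congr (fun P => ?_) rfl
      rw [locp_lam, locp_D]
      congr 1
      ring
    have hnu : locp_Appr v τ (fun P => locp_nu W (φ P) (σ P) (τ P) (s P)) 0 := by
      refine (ihS.sub (hlam.mul hτ ihT)).congr (fun P => ?_) (by ring)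
      rw [locp_nu]
    have hnum : locp_Appr v τ (fun P => locp_nu W (φ P) (σ P) (τ P) (s P) *
        (W.a₂ + 2 * W.a₄ * locp_lam W (φ P) (σ P) (τ P) (s P))) 0 := by
      have h1 := hnu.const_mul h₂
      have h2' := ((hnu.mul hτ hlam).const_mul h₄).const_mul h2
      refine (h1.add h2').congr (fun P => ?_) (by ring)
      ring
    have hδ₂ : locp_Appr v τ (fun P => -(W.a₂ * locp_lam W (φ P) (σ P) (τ P) (s P)
        + W.a₄ * (locp_lam W (φ P) (σ P) (τ P) (s P) * locp_lam W (φ P) (σ P) (τ P) (s P))))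
        (-(W.a₂ * 0 + W.a₄ * 0)) :=
      ((hlam.const_mul h₂).add ((hlam.mul hτ hlam).const_mul h₄)).neg
    have hT : locp_Appr v τ (fun P => locp_addT W (φ P) (σ P) (τ P) (s P)) ((n : K) + 1) := by
      refine ((ihT.add hpar).add (hnum.div hτ hδ₂)).congr (fun P => ?_) (by ring)
      rw [locp_addT]
      congr 2
      ring
    have hS : locp_Appr v τ (fun P => locp_addS W (φ P) (σ P) (τ P) (s P)) 0 := by
      refine ((hlam.mul hτ hT).sub hnu).congr (fun P => ?_) (by ring)
      rw [locp_addS]
    refine ⟨hT.congr (fun P => (hadd P).1) (by push_cast; ring),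
      hS.congr (fun P => (hadd P).2) rfl⟩

/-- **(FG)** Multiplication by `n` on the kernel of reduction is approximated to any order by an
integral polynomial `n T + O(T²)`. -/
theorem locp_formal_nsmul (hW : IsShort W) (h₂ : v W.a₂ ≤ 1) (h₄ : v W.a₄ ≤ 1) (n N : ℕ) :
    ∃ f : K[X], (∀ i, v (f.coeff i) ≤ 1) ∧ f.coeff 0 = 0 ∧ f.coeff 1 = (n : K) ∧
      ∀ P : W.Point, locp_InE1 v P → v (tOf (n • P) - f.eval (tOf P)) ≤ v (tOf P) ^ (N + 1) := by
  obtain ⟨f, hf, h0, h1, hx⟩ := (locp_appr_nsmul (v := v) (W := W) hW h₂ h₄ n).1 N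
  exact ⟨f, hf, h0, h1, fun P hP => hx ⟨P, hP⟩⟩

end Fermat.Agent.S13
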