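import Mathlib

/-!
# S13, LOCP slice (PF): the product formula

Pure valuation theory.  If polynomials `f` with integral coefficients, `f(0) = 0`,
`f'(0) = n`, vanish to arbitrarily high precision on a finite set `T ∋ 0` of elements of
valuation `< 1`, then `v n ≤ ∏_{t ∈ T, t ≠ 0} v t`.

The proof is by successive division by `X - t` (Newton's divided differences); no Lagrange
interpolation is needed.
-/

set_option autoImplicit false

open Polynomial

namespace Fermat.Agent.S13

section

variable {K : Type*} [Field K] {Γ : Type*} [LinearOrderedCommGroupWithZero Γ]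

/-- A finite family of nonzero elements of `Γ` has a nonzero lower bound. -/
lemma locpP_exists_lower_bound {ι : Type*} (S : Finset ι) (f : ι → Γ)
    (hf : ∀ i ∈ S, f i ≠ 0) : ∃ m : Γ, m ≠ 0 ∧ ∀ i ∈ S, m ≤ f i := by
  classical
  induction S using Finset.induction_on with
  | empty => exact ⟨1, one_ne_zero, by simp⟩
  | insert a S ha ih =>
    obtain ⟨m, hm0, hm⟩ := ih (fun i hi => hf i (Finset.mem_insert_of_mem hi))
    refine ⟨min m (f a), ?_, ?_⟩
    · rcases min_choice m (f a) with h | h
      · rw [h]; exact hm0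
      · rw [h]; exact hf a (Finset.mem_insert_self a S)
    · intro i hi
      rcases Finset.mem_insert.mp hi with rfl | hi
      · exact min_le_right _ _
      · exact (min_le_left _ _).trans (hm i hi)

/-- Key lemma: for a finite set `S` of nonzero integral elements there is a precision `η ≠ 0`
such that every polynomial with integral coefficients which is `η`-small on `S` has constant
term of valuation at most `∏ v s`. -/
lemma locpP_const_le (v : Valuation K Γ) [DecidableEq K] (S : Finset K)
    (hS : ∀ s ∈ S, s ≠ 0 ∧ v s ≤ 1) :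
    ∃ η : Γ, η ≠ 0 ∧ ∀ g : (v.integer)[X],
      (∀ s ∈ S, v ((g.map v.integer.subtype).eval s) ≤ η) →
        v ((g.map v.integer.subtype).eval 0) ≤ ∏ s ∈ S, v s := by
  induction S using Finset.induction_on with
  | empty =>
    refine ⟨1, one_ne_zero, fun g _ => ?_⟩
    rw [Finset.prod_empty]
    have h0 : (g.map v.integer.subtype).eval 0 = v.integer.subtype (g.eval 0) := by
      rw [← Polynomial.eval_map_apply, map_zero]
    rw [h0]
    exact (g.eval 0).2
  | insert t S ht ih =>
    obtain ⟨η', hη'0, hη'⟩ := ih (fun s hs => hS s (Finset.mem_insert_of_mem hs))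
    have htS := hS t (Finset.mem_insert_self t S)
    -- lower bound for the differences
    obtain ⟨m, hm0, hm⟩ := locpP_exists_lower_bound S (fun s => v (s - t)) (by
      intro s hs
      have hst : s ≠ t := fun h => ht (h ▸ hs)
      exact (Valuation.ne_zero_iff v).mpr (sub_ne_zero.mpr hst))
    set E : Γ := ∏ s ∈ insert t S, v s with hE
    have hE0 : E ≠ 0 := by
      rw [hE, Finset.prod_ne_zero_iff]
      intro s hs
      exact (Valuation.ne_zero_iff v).mpr (hS s hs).1
    refine ⟨min E (η' * m), ?_, ?_⟩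
    · rcases min_choice E (η' * m) with h | h
      · rw [h]; exact hE0
      · rw [h]; exact mul_ne_zero hη'0 hm0
    intro g hg
    -- divide by `X - t`
    set t₀ : v.integer := ⟨t, htS.2⟩ with ht₀
    obtain ⟨q, hq⟩ := Polynomial.X_sub_C_dvd_sub_C_eval (a := t₀) (p := g)
    set G := g.map v.integer.subtype with hG
    set Q := q.map v.integer.subtype with hQ
    have hGt : G.eval t = v.integer.subtype (g.eval t₀) := by
      rw [hG, ← Polynomial.eval_map_apply]; rfl
    have hmap : G - C (G.eval t) = (X - C t) * Q := by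
      have := congrArg (Polynomial.map v.integer.subtype) hq
      rw [Polynomial.map_sub, Polynomial.map_mul, Polynomial.map_sub, Polynomial.map_X,
        Polynomial.map_C, Polynomial.map_C] at this
      rw [hGt]
      exact this
    have heval : ∀ x : K, G.eval x - G.eval t = (x - t) * Q.eval x := by
      intro x
      have := congrArg (Polynomial.eval x) hmap
      simpa using this
    have hgt : v (G.eval t) ≤ min E (η' * m) := hg t (Finset.mem_insert_self t S)
    -- `Q` is small on `S`
    have hQS : ∀ s ∈ S, v (Q.eval s) ≤ η' := by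
      intro s hs
      have hst : s ≠ t := fun h => ht (h ▸ hs)
      have hvst : v (s - t) ≠ 0 := (Valuation.ne_zero_iff v).mpr (sub_ne_zero.mpr hst)
      have h1 : v (G.eval s - G.eval t) ≤ η' * m := by
        refine (Valuation.map_sub v _ _).trans (max_le ?_ ?_)
        · exact (hg s (Finset.mem_insert_of_mem hs)).trans (min_le_right _ _)
        · exact hgt.trans (min_le_right _ _)
      rw [heval s, Valuation.map_mul] at h1
      have h2 : v (s - t) * v (Q.eval s) ≤ v (s - t) * η' :=
        h1.trans (by rw [mul_comm]; gcongr; exact hm s hs)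
      exact le_of_mul_le_mul_left h2 (zero_lt_iff.mpr hvst)
    have hQ0 := hη' q hQS
    -- evaluate at `0`
    have h0 : G.eval 0 = G.eval t - t * Q.eval 0 := by
      have := heval 0
      rw [zero_sub] at this
      linear_combination this
    rw [h0]
    have hprod : E = v t * ∏ s ∈ S, v s := by
      rw [hE, Finset.prod_insert ht]
    refine (Valuation.map_sub v _ _).trans (max_le (hgt.trans (min_le_left _ _)) ?_)
    rw [Valuation.map_mul, hprod]
    gcongr

/-- **(PF) product formula.**  (The hypothesis `hn` is not used.) -/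
theorem locpP_prod_formula [DecidableEq K] (v : Valuation K Γ)
    (harch : ∀ γ : Γ, γ < 1 → ∀ δ : Γ, δ ≠ 0 → ∃ N : ℕ, γ ^ N < δ)
    (n : ℕ) (hn : (n : K) ≠ 0) (T : Finset K) (hT0 : (0 : K) ∈ T)
    (hT : ∀ t ∈ T, v t < 1)
    (hf : ∀ N : ℕ, ∃ f : Polynomial K, (∀ i, v (f.coeff i) ≤ 1) ∧ f.coeff 0 = 0 ∧
      f.coeff 1 = (n : K) ∧ ∀ t ∈ T, v (f.eval t) ≤ v t ^ N) :
    v (n : K) ≤ ∏ t ∈ T.erase 0, v t := by
  have _ := hn
  have hS : ∀ s ∈ T.erase 0, s ≠ 0 ∧ v s ≤ 1 := fun s hs =>
    ⟨Finset.ne_of_mem_erase hs, (hT s (Finset.mem_of_mem_erase hs)).le⟩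
  obtain ⟨η, hη0, hη⟩ := locpP_const_le v (T.erase 0) hS
  -- a uniform bound `γ < 1` for the valuations of the elements of `T`
  obtain ⟨γ, hγ1, hγ⟩ : ∃ γ : Γ, γ < 1 ∧ ∀ t ∈ T, v t ≤ γ := by
    obtain ⟨t₁, ht₁, hmax⟩ := Finset.exists_max_image T (fun t => v t) ⟨0, hT0⟩
    exact ⟨v t₁, hT t₁ ht₁, hmax⟩
  obtain ⟨N₀, hN₀⟩ := harch γ hγ1 η hη0
  obtain ⟨f, hfint, hf0, hf1, hfT⟩ := hf (N₀ + 1)
  -- `g = f / X`
  have hgl : f.divX ∈ Polynomial.lifts v.integer.subtype := by
    rw [Polynomial.lifts_iff_coeff_lifts]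
    intro i
    exact ⟨⟨f.divX.coeff i, by rw [Polynomial.coeff_divX]; exact hfint _⟩, rfl⟩
  obtain ⟨g, hg⟩ := hgl
  have hfg : f = f.divX * X := by
    have := Polynomial.divX_mul_X_add f
    rw [hf0, map_zero, add_zero] at this
    exact this.symm
  have hg0 : (g.map v.integer.subtype).eval 0 = (n : K) := by
    have : Polynomial.map v.integer.subtype g = f.divX := hg
    rw [this, ← Polynomial.coeff_zero_eq_eval_zero, Polynomial.coeff_divX, zero_add, hf1]
  rw [← hg0]
  apply hη
  intro s hs
  have hsT := Finset.mem_of_mem_erase hs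
  have hs0 : v s ≠ 0 := (Valuation.ne_zero_iff v).mpr (hS s hs).1
  have : Polynomial.map v.integer.subtype g = f.divX := hg
  rw [this]
  have h1 : v (f.eval s) ≤ v s ^ (N₀ + 1) := hfT s hsT
  have h2 : f.eval s = f.divX.eval s * s := by
    conv_lhs => rw [hfg]
    simp
  rw [h2, Valuation.map_mul, pow_succ] at h1
  have h3 : v (f.divX.eval s) ≤ v s ^ N₀ :=
    le_of_mul_le_mul_right h1 (zero_lt_iff.mpr hs0)
  have h4 : v s ^ N₀ ≤ γ ^ N₀ := pow_le_pow_left₀ zero_le (hγ s hsT) N₀
  exact (h3.trans h4).trans hN₀.le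

end

end Fermat.Agent.S13
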