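import Mathlib
import Fermat.Agent.S13.Defs
import Fermat.Agent.S13.LocP
import Fermat.Agent.S13.LocPKer
import Fermat.Agent.S13.LocPFormal
import Fermat.Agent.S13.ProdFormula
import Fermat.Agent.S14.ReductionVal
import Fermat.Agent.S05.Transport
import Fermat.Agent.S05.Inertia
import Fermat.Agent.S05.Final

/-!
# S13 / LOCP without division polynomials

Owner: helper27.

* `locpF_tOf_inj` : on the kernel of reduction of a short integral model the parameter
  `t = x / y` is injective.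
* `locpF_harch` : the valuation of a place of `Qbar` over a prime is archimedean in the sense
  required by the product formula.
* `locpF_exists_val_le_one` : step 2 of LOCP (not all of `V` lies in the kernel of reduction at
  `p`), from the formal multiplication-by-`p` and the product formula.
* `locP` : the package LOCP.
-/

set_option autoImplicit false

open WeierstrassCurve WeierstrassCurve.Affine WeierstrassCurve.Affine.Point

namespace Fermat.Agent.S13

open Fermat.Agent.S05 Fermat.Agent.S05.KR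

section general

variable {K : Type*} [Field K] [DecidableEq K] {Γ : Type*} [LinearOrderedCommGroupWithZero Γ]
  {v : Valuation K Γ} {W : WeierstrassCurve.Affine K}

omit [DecidableEq K] in
/-- On the kernel of reduction of a short integral model the parameter `t = x / y` is
injective. -/
theorem locpF_tOf_inj (hW : IsShort W) (h₂ : v W.a₂ ≤ 1) (h₄ : v W.a₄ ≤ 1) {P Q : W.Point}
    (hP : locp_InE1 v P) (hQ : locp_InE1 v Q) (h : tOf P = tOf Q) : P = Q := by
  have htP := locp_val_tOf_lt_one hW h₂ h₄ hP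
  have htQ := locp_val_tOf_lt_one hW h₂ h₄ hQ
  have hsP : v (locp_sOf P) ≤ 1 := (locp_val_sOf_le hW h₂ h₄ hP).trans htP.le
  have hsQ : v (locp_sOf Q) ≤ 1 := (locp_val_sOf_le hW h₂ h₄ hQ).trans htQ.le
  have hD := locp_D_ne_zero (W := W) h₂ h₄ htP hsP hsQ
  have hdiff := locp_ts_diff hW (locp_ts_eq hW h₂ h₄ hP) (locp_ts_eq hW h₂ h₄ hQ)
  rw [h, sub_self, zero_mul] at hdiff
  rw [h] at hD
  have hs : locp_sOf P = locp_sOf Q := by
    rcases mul_eq_zero.mp hdiff with h0 | h0
    · exact (sub_eq_zero.mp h0).symm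
    · exact absurd h0 hD
  have hI := locp_integralCoeffs hW h₂ h₄ (v := v)
  rcases P with _ | ⟨x₁, y₁, h₁⟩ <;> rcases Q with _ | ⟨x₂, y₂, h₂'⟩
  · rfl
  · exfalso
    have hy := y_ne_zero hI h₂'.1 hQ
    have : (0 : K) = 1 / y₂ := hs
    exact one_div_ne_zero hy this.symm
  · exfalso
    have hy := y_ne_zero hI h₁.1 hP
    have : 1 / y₁ = (0 : K) := hs
    exact one_div_ne_zero hy this
  · have hy₁ := y_ne_zero hI h₁.1 hP
    have hy₂ := y_ne_zero hI h₂'.1 hQ
    have hs' : 1 / y₁ = 1 / y₂ := hs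
    have ht' : x₁ / y₁ = x₂ / y₂ := h
    have hy : y₁ = y₂ := by
      have := congrArg (fun z => z⁻¹) hs'
      simpa using this
    subst hy
    have hx : x₁ = x₂ := by
      field_simp at ht'
      exact ht'
    subst hx
    rfl

omit [DecidableEq K] in
/-- A nonzero point of the kernel of reduction has a nonzero parameter. -/
theorem locpF_tOf_ne_zero (hW : IsShort W) (h₂ : v W.a₂ ≤ 1) (h₄ : v W.a₄ ≤ 1) {P : W.Point}
    (hP : locp_InE1 v P) (h0 : P ≠ 0) : tOf P ≠ 0 := by
  intro h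
  apply h0
  exact locpF_tOf_inj hW h₂ h₄ hP locp_inE1_zero (by rw [h]; rfl)

/-- A product of elements `< 1` over a nonempty finite set is `< 1`. -/
theorem locpF_prod_lt_one {ι : Type*} (s : Finset ι) (f : ι → Γ) (hf : ∀ i ∈ s, f i < 1)
    (hs : s.Nonempty) : ∏ i ∈ s, f i < 1 := by
  classical
  induction s using Finset.induction_on with
  | empty => exact absurd hs (by simp)
  | insert a s ha ih =>
    rw [Finset.prod_insert ha]
    have h1 : f a < 1 := hf a (Finset.mem_insert_self a s)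
    by_cases hs' : s.Nonempty
    · have h2 := ih (fun i hi => hf i (Finset.mem_insert_of_mem hi)) hs'
      calc f a * ∏ i ∈ s, f i ≤ 1 * ∏ i ∈ s, f i := by gcongr
        _ = ∏ i ∈ s, f i := one_mul _
        _ < 1 := h2
    · rw [Finset.not_nonempty_iff_eq_empty] at hs'
      rw [hs', Finset.prod_empty, mul_one]
      exact h1

end general

section qbar

local notation "Qbar" => AlgebraicClosure ℚ
local notation "GQ" => (AlgebraicClosure ℚ ≃ₐ[ℚ] AlgebraicClosure ℚ)

/-- An element of valuation `< 1` at a place over `p` has a power of valuation `≤ v p`. -/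
theorem locpF_exists_pow_le (A : ValuationSubring Qbar) {p : ℕ} (hp : p.Prime)
    (hA : A.LiesOverPrime p) (z : Qbar) (hz : A.valuation z < 1) :
    ∃ j : ℕ, A.valuation z ^ j ≤ A.valuation ((p : ℕ) : Qbar) := by
  by_cases hz0 : z = 0
  · exact ⟨1, by rw [hz0, _root_.map_zero, pow_one]; exact zero_le⟩
  have halg : IsAlgebraic ℤ z := by
    have h1 : IsAlgebraic ℚ z := (AlgebraicClosure.isAlgebraic ℚ).isAlgebraic _
    exact (IsFractionRing.isAlgebraic_iff ℤ ℚ Qbar).mpr h1
  obtain ⟨g, hg0, hgz⟩ := halg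
  -- the primitive part
  have hfprim : g.primPart.IsPrimitive := g.isPrimitive_primPart
  have hfz : Polynomial.aeval z g.primPart = 0 := by
    have h1 := g.eq_C_content_mul_primPart
    have h2 : Polynomial.aeval z g =
        ((g.content : ℤ) : Qbar) * Polynomial.aeval z g.primPart := by
      conv_lhs => rw [h1]
      rw [map_mul, Polynomial.aeval_C]
      simp
    rw [hgz] at h2
    have hc : ((g.content : ℤ) : Qbar) ≠ 0 := by
      have : g.content ≠ 0 := fun h => hg0 (Polynomial.content_eq_zero_iff.mp h)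
      exact_mod_cast this
    exact (mul_eq_zero.mp h2.symm).resolve_left hc
  generalize g.primPart = f at hfprim hfz
  -- some coefficient is prime to `p`
  have hex : ∃ j, ¬ ((p : ℕ) : ℤ) ∣ f.coeff j := by
    by_contra hcon
    push Not at hcon
    have hdvd : Polynomial.C ((p : ℕ) : ℤ) ∣ f := (Polynomial.C_dvd_iff_dvd_coeff _ _).mpr hcon
    have hu := hfprim _ hdvd
    exact (Nat.prime_iff_prime_int.mp hp).not_isUnit hu
  classical
  obtain ⟨j, hj, hjmin⟩ : ∃ j, ¬ ((p : ℕ) : ℤ) ∣ f.coeff j ∧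
      ∀ i < j, ((p : ℕ) : ℤ) ∣ f.coeff i :=
    ⟨Nat.find hex, Nat.find_spec hex, fun i hi => not_not.mp (Nat.find_min hex hi)⟩
  refine ⟨j, ?_⟩
  -- valuations
  have hpv : A.valuation ((p : ℕ) : Qbar) < 1 := (ValuationSubring.mem_nonunits_iff A).1 hA
  have hint : ∀ k : ℤ, A.valuation (k : Qbar) ≤ 1 := fun k =>
    (A.valuation_le_one_iff _).2 (intCast_mem A k)
  have hvj : A.valuation ((f.coeff j : ℤ) : Qbar) = 1 := by
    have := valuation_intCast_eq_one A hp hA (f.coeff j) hj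
    simpa using this
  have hz0' : A.valuation z ≠ 0 := (Valuation.ne_zero_iff _).mpr hz0
  have hzpos : 0 < A.valuation z := zero_lt_iff.mpr hz0'
  have hjdeg : j ∈ Finset.range (f.natDegree + 1) := by
    rw [Finset.mem_range, Nat.lt_succ_iff]
    apply Polynomial.le_natDegree_of_ne_zero
    intro h0
    exact hj (h0 ▸ dvd_zero _)
  -- the sum
  have hsum : ∑ i ∈ Finset.range (f.natDegree + 1), ((f.coeff i : ℤ) : Qbar) * z ^ i = 0 := by
    rw [← hfz, Polynomial.aeval_eq_sum_range]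
    refine Finset.sum_congr rfl fun i _ => ?_
    rw [zsmul_eq_mul]
  rw [← Finset.add_sum_erase _ _ hjdeg] at hsum
  have hcj : ((f.coeff j : ℤ) : Qbar) * z ^ j =
      -∑ i ∈ (Finset.range (f.natDegree + 1)).erase j, ((f.coeff i : ℤ) : Qbar) * z ^ i :=
    eq_neg_of_add_eq_zero_left hsum
  have hbound : A.valuation (∑ i ∈ (Finset.range (f.natDegree + 1)).erase j,
      ((f.coeff i : ℤ) : Qbar) * z ^ i) ≤
        max (A.valuation ((p : ℕ) : Qbar)) (A.valuation z ^ (j + 1)) := by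
    apply Valuation.map_sum_le
    intro i hi
    have hij : i ≠ j := Finset.ne_of_mem_erase hi
    rw [map_mul, map_pow]
    rcases lt_or_gt_of_ne hij with hlt | hgt
    · refine le_trans ?_ (le_max_left _ _)
      obtain ⟨k, hk⟩ := hjmin i hlt
      have h1 : A.valuation ((f.coeff i : ℤ) : Qbar) ≤ A.valuation ((p : ℕ) : Qbar) := by
        rw [hk]
        push_cast
        rw [map_mul]
        calc A.valuation ((p : ℕ) : Qbar) * A.valuation (k : Qbar)
            ≤ A.valuation ((p : ℕ) : Qbar) * 1 := by gcongr; exact hint k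
          _ = A.valuation ((p : ℕ) : Qbar) := mul_one _
      calc A.valuation ((f.coeff i : ℤ) : Qbar) * A.valuation z ^ i
          ≤ A.valuation ((p : ℕ) : Qbar) * 1 := by
            gcongr
            exact pow_le_one₀ zero_le hz.le
        _ = A.valuation ((p : ℕ) : Qbar) := mul_one _
    · refine le_trans ?_ (le_max_right _ _)
      calc A.valuation ((f.coeff i : ℤ) : Qbar) * A.valuation z ^ i
          ≤ 1 * A.valuation z ^ (j + 1) :=
            mul_le_mul' (hint _) (pow_le_pow_of_le_one zero_le hz.le hgt)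
        _ = A.valuation z ^ (j + 1) := one_mul _
  have hval : A.valuation z ^ j ≤
      max (A.valuation ((p : ℕ) : Qbar)) (A.valuation z ^ (j + 1)) := by
    have := congrArg A.valuation hcj
    rw [map_mul, map_pow, hvj, one_mul, Valuation.map_neg] at this
    rw [this]
    exact hbound
  rcases le_max_iff.mp hval with h | h
  · exact h
  · exfalso
    have hlt : A.valuation z ^ (j + 1) < A.valuation z ^ j := by
      rw [pow_succ]
      calc A.valuation z ^ j * A.valuation z < A.valuation z ^ j * 1 := by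
            gcongr
            exact pow_pos hzpos j
        _ = A.valuation z ^ j := mul_one _
    exact absurd h (not_le.mpr hlt)

/-- The archimedean property of the valuation at a place over `p`. -/
theorem locpF_harch (A : ValuationSubring Qbar) {p : ℕ} (hp : p.Prime)
    (hA : A.LiesOverPrime p) :
    ∀ γ : A.ValueGroup, γ < 1 → ∀ δ : A.ValueGroup, δ ≠ 0 → ∃ N : ℕ, γ ^ N < δ := by
  intro γ hγ δ hδ
  obtain ⟨z, rfl⟩ := A.valuation_surjective γ
  obtain ⟨x, rfl⟩ := A.valuation_surjective δ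
  have hx : x ≠ 0 := (Valuation.ne_zero_iff _).mp hδ
  obtain ⟨j, hj⟩ := locpF_exists_pow_le A hp hA z hγ
  obtain ⟨M, hM⟩ := Fermat.Agent.S14.redE_exists_pow_lt A hp hA x hx
  refine ⟨j * M, ?_⟩
  rw [pow_mul]
  exact lt_of_le_of_lt (pow_le_pow_left₀ zero_le hj M) hM

/-- The parameter `t = x / y` of the short model is compatible with the Galois action. -/
theorem locpF_tau_smul (P : FreyPackage) (σ : GQ) (Q : (P.freyCurve⁄Qbar).Point) :
    tOf (transport (P.freyCurve⁄Qbar) (frey_a₁ P) (frey_a₃ P) (frey_a₆ P) (0 : Qbar)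
        two_ne_zero (σ • Q)) =
      σ (tOf (transport (P.freyCurve⁄Qbar) (frey_a₁ P) (frey_a₃ P) (frey_a₆ P) (0 : Qbar)
        two_ne_zero Q)) := by
  rcases Q with _ | ⟨x, y, h⟩
  · have e0 : σ • (Point.zero : (P.freyCurve⁄Qbar).Point) = 0 := by
      show Point.map σ.toAlgHom (0 : (P.freyCurve⁄Qbar).Point) = 0
      rw [Point.map_zero]
    rw [e0]
    show tOf (transport (P.freyCurve⁄Qbar) (frey_a₁ P) (frey_a₃ P) (frey_a₆ P) (0 : Qbar)
        two_ne_zero 0) =
      σ (tOf (transport (P.freyCurve⁄Qbar) (frey_a₁ P) (frey_a₃ P) (frey_a₆ P) (0 : Qbar)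
        two_ne_zero 0))
    rw [_root_.map_zero, tOf_zero, _root_.map_zero]
  · obtain ⟨hσ, hmap⟩ : ∃ hσ : (P.freyCurve⁄Qbar).Nonsingular (σ x) (σ y),
        σ • Point.some x y h = Point.some (σ x) (σ y) hσ :=
      ⟨_, Point.map_some (f := σ.toAlgHom) h⟩
    rw [hmap, transport_some, transport_some, tOf_some, tOf_some, map_div₀, map_sub, map_add,
      map_mul, map_mul, _root_.map_zero]
    have h4 : σ (4 : Qbar) = 4 := map_ofNat σ 4
    have h8 : σ (8 : Qbar) = 8 := map_ofNat σ 8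
    rw [h4, h8]

/-- **LOCP, step 2, without division polynomials**: not all of `V` lies in the kernel of
reduction at a place over `p`. -/
theorem locpF_exists_val_le_one (P : FreyPackage)
    (N : Submodule (ZMod P.p) (Submodule.torsionBy ℤ (P.freyCurve⁄Qbar).Point P.p))
    (hN : IsGaloisStable ℚ N) (hN0 : N ≠ ⊥) (hN1 : N ≠ ⊤)
    (hcard : Nat.card (Submodule.torsionBy ℤ (P.freyCurve⁄Qbar).Point P.p) = P.p ^ 2)
    (A : ValuationSubring Qbar) (hA : A.LiesOverPrime P.p) :
    ∃ Q : Submodule.torsionBy ℤ (P.freyCurve⁄Qbar).Point P.p,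
      Q ≠ 0 ∧ A.valuation (locP_xc (Q : (P.freyCurve⁄Qbar).Point)) ≤ 1 := by
  classical
  by_contra hcon
  push Not at hcon
  have hp : P.p.Prime := P.pp
  have hp5 := P.hp5
  have hfin : Finite (Submodule.torsionBy ℤ (P.freyCurve⁄Qbar).Point P.p) :=
    Nat.finite_of_card_ne_zero (by rw [hcard]; positivity)
  let _ : Fintype (Submodule.torsionBy ℤ (P.freyCurve⁄Qbar).Point P.p) := Fintype.ofFinite _
  -- valuations
  have hpv : A.valuation ((P.p : ℕ) : Qbar) < 1 := (ValuationSubring.mem_nonunits_iff A).1 hA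
  have hpQ : ((P.p : ℕ) : Qbar) ≠ 0 := by exact_mod_cast hp.ne_zero
  have hpv0 : A.valuation ((P.p : ℕ) : Qbar) ≠ 0 := (Valuation.ne_zero_iff _).mpr hpQ
  have hppos : 0 < A.valuation ((P.p : ℕ) : Qbar) := zero_lt_iff.mpr hpv0
  have hint : ∀ k : ℤ, A.valuation (k : Qbar) ≤ 1 := fun k =>
    (A.valuation_le_one_iff _).2 (intCast_mem A k)
  have h4 : ¬ ((P.p : ℕ) : ℤ) ∣ 4 := by
    intro h
    have := Int.le_of_dvd (by norm_num) h
    omega
  have hv4 : A.valuation (4 : Qbar) = 1 := by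
    have := valuation_intCast_eq_one A P.pp hA 4 h4
    simpa using this
  -- the short model
  have hshort : IsShort (shiftCurve (P.freyCurve⁄Qbar) (0 : Qbar)) :=
    ⟨shiftCurve_a₁ _ _, shiftCurve_a₃ _ _, by rw [shiftCurve_a₆]; ring⟩
  have h₂ : A.valuation (shiftCurve (P.freyCurve⁄Qbar) (0 : Qbar)).a₂ ≤ 1 := by
    rw [shiftCurve_a₂, mul_zero, zero_add, frey_a₂ P]
    exact hint _
  have h₄ : A.valuation (shiftCurve (P.freyCurve⁄Qbar) (0 : Qbar)).a₄ ≤ 1 := by
    have e : (shiftCurve (P.freyCurve⁄Qbar) (0 : Qbar)).a₄ =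
        ((-(P.a ^ P.p * P.b ^ P.p) : ℤ) : Qbar) := by
      rw [shiftCurve_a₄, ← frey_a₄ P]; ring
    rw [e]
    exact hint _
  -- every point of `V` lies in the kernel of reduction of the short model
  have htors : ∀ Q : Submodule.torsionBy ℤ (P.freyCurve⁄Qbar).Point P.p,
      P.p • (Q : (P.freyCurve⁄Qbar).Point) = 0 := by
    intro Q
    have := (Submodule.mem_torsionBy_iff _ _).mp Q.2
    rw [← natCast_zsmul]
    exact this
  have hE1 : ∀ Q : Submodule.torsionBy ℤ (P.freyCurve⁄Qbar).Point P.p,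
      locp_InE1 A.valuation (transport (P.freyCurve⁄Qbar) (frey_a₁ P) (frey_a₃ P) (frey_a₆ P)
        (0 : Qbar) two_ne_zero (Q : (P.freyCurve⁄Qbar).Point)) := by
    intro Q
    by_cases hQ : Q = 0
    · rw [hQ]
      show locp_InE1 A.valuation (transport (P.freyCurve⁄Qbar) (frey_a₁ P) (frey_a₃ P)
        (frey_a₆ P) (0 : Qbar) two_ne_zero 0)
      rw [_root_.map_zero]
      exact locp_inE1_zero
    · have hx := hcon Q hQ
      rcases hQc : (Q : (P.freyCurve⁄Qbar).Point) with _ | ⟨x, y, h⟩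
      · exact absurd (Subtype.ext hQc) hQ
      · rw [hQc, locP_xc_some] at hx
        rw [transport_some, locp_inE1_some, sub_zero, map_mul, hv4, one_mul]
        exact hx
  -- the parameter
  set τ : Submodule.torsionBy ℤ (P.freyCurve⁄Qbar).Point P.p → Qbar := fun Q =>
    tOf (transport (P.freyCurve⁄Qbar) (frey_a₁ P) (frey_a₃ P) (frey_a₆ P) (0 : Qbar)
      two_ne_zero (Q : (P.freyCurve⁄Qbar).Point)) with hτ
  have hτinj : Function.Injective τ := by
    intro Q Q' h
    exact Subtype.ext (transport_injective (P.freyCurve⁄Qbar) (frey_a₁ P) (frey_a₃ P)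
      (frey_a₆ P) (0 : Qbar) two_ne_zero (locpF_tOf_inj hshort h₂ h₄ (hE1 Q) (hE1 Q') h))
  have hτ0 : τ 0 = 0 := by
    show tOf (transport (P.freyCurve⁄Qbar) (frey_a₁ P) (frey_a₃ P) (frey_a₆ P) (0 : Qbar)
      two_ne_zero 0) = 0
    rw [_root_.map_zero, tOf_zero]
  have hτne : ∀ Q, Q ≠ 0 → τ Q ≠ 0 := fun Q hQ h => hQ (hτinj (h.trans hτ0.symm))
  have hτlt : ∀ Q, A.valuation (τ Q) < 1 := fun Q =>
    locp_val_tOf_lt_one hshort h₂ h₄ (hE1 Q)
  have hτσ : ∀ (σ : GQ) (Q : Submodule.torsionBy ℤ (P.freyCurve⁄Qbar).Point P.p),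
      τ (σ • Q) = σ (τ Q) := fun σ Q =>
    locpF_tau_smul P σ (Q : (P.freyCurve⁄Qbar).Point)
  -- the set of parameters
  set T : Finset Qbar := Finset.univ.image τ with hTdef
  have hT0 : (0 : Qbar) ∈ T := Finset.mem_image.mpr ⟨0, Finset.mem_univ _, hτ0⟩
  have hT : ∀ t ∈ T, A.valuation t < 1 := by
    intro t ht
    obtain ⟨Q, -, rfl⟩ := Finset.mem_image.mp ht
    exact hτlt Q
  have hf : ∀ M : ℕ, ∃ f : Polynomial Qbar, (∀ i, A.valuation (f.coeff i) ≤ 1) ∧
      f.coeff 0 = 0 ∧ f.coeff 1 = ((P.p : ℕ) : Qbar) ∧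
      ∀ t ∈ T, A.valuation (f.eval t) ≤ A.valuation t ^ M := by
    intro M
    obtain ⟨f, hfint, hf0, hf1, hfP⟩ :=
      locp_formal_nsmul (v := A.valuation) hshort h₂ h₄ P.p M
    refine ⟨f, hfint, hf0, hf1, ?_⟩
    intro t ht
    obtain ⟨Q, -, rfl⟩ := Finset.mem_image.mp ht
    have h1 := hfP _ (hE1 Q)
    rw [← map_nsmul, htors Q, _root_.map_zero, tOf_zero, zero_sub, Valuation.map_neg] at h1
    exact h1.trans (pow_le_pow_of_le_one zero_le (hτlt Q).le (Nat.le_succ M))
  have hPF := locpP_prod_formula A.valuation (locpF_harch A hp hA) P.p hpQ T hT0 hT hf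
  -- the parameters of the points of `N`
  set TN : Finset Qbar := (Finset.univ.filter
    (fun Q : Submodule.torsionBy ℤ (P.freyCurve⁄Qbar).Point P.p => Q ∈ N ∧ Q ≠ 0)).image τ
    with hTN
  have hmemTN : ∀ t, t ∈ TN ↔ ∃ Q, Q ∈ N ∧ Q ≠ 0 ∧ τ Q = t := by
    intro t
    rw [hTN, Finset.mem_image]
    constructor
    · rintro ⟨Q, hQ, rfl⟩
      rw [Finset.mem_filter] at hQ
      exact ⟨Q, hQ.2.1, hQ.2.2, rfl⟩
    · rintro ⟨Q, hQN, hQ0, rfl⟩
      exact ⟨Q, Finset.mem_filter.mpr ⟨Finset.mem_univ _, hQN, hQ0⟩, rfl⟩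
  have hTNsub : TN ⊆ T.erase 0 := by
    intro t ht
    obtain ⟨Q, -, hQ0, rfl⟩ := (hmemTN t).mp ht
    exact Finset.mem_erase.mpr ⟨hτne Q hQ0, Finset.mem_image.mpr ⟨Q, Finset.mem_univ _, rfl⟩⟩
  have hTNne : TN.Nonempty := by
    obtain ⟨Q', hQ'N, hQ'0⟩ := (Submodule.ne_bot_iff N).mp hN0
    exact ⟨τ Q', (hmemTN _).mpr ⟨Q', hQ'N, hQ'0, rfl⟩⟩
  have hrest : (T.erase 0 \ TN).Nonempty := by
    obtain ⟨Q', hQ'⟩ : ∃ Q' : Submodule.torsionBy ℤ (P.freyCurve⁄Qbar).Point P.p, Q' ∉ N := by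
      by_contra h
      push Not at h
      exact hN1 (eq_top_iff.mpr fun x _ => h x)
    have hQ'0 : Q' ≠ 0 := by
      rintro rfl
      exact hQ' N.zero_mem
    refine ⟨τ Q', Finset.mem_sdiff.mpr ⟨Finset.mem_erase.mpr
      ⟨hτne Q' hQ'0, Finset.mem_image.mpr ⟨Q', Finset.mem_univ _, rfl⟩⟩, ?_⟩⟩
    intro hmem
    obtain ⟨R, hRN, -, hR⟩ := (hmemTN _).mp hmem
    exact hQ' (hτinj hR ▸ hRN)
  -- the product over `TN` is rational
  set y : Qbar := ∏ t ∈ TN, t with hy
  have hσTN : ∀ σ : GQ, TN.image σ = TN := by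
    intro σ
    apply Finset.eq_of_subset_of_card_le
    · intro η hη
      obtain ⟨t, ht, rfl⟩ := Finset.mem_image.mp hη
      obtain ⟨Q, hQN, hQ0, rfl⟩ := (hmemTN t).mp ht
      have hσ0 : σ • Q ≠ 0 := by
        intro h
        apply hQ0
        have := congrArg (fun z => σ⁻¹ • z) h
        simpa using this
      exact (hmemTN _).mpr ⟨σ • Q, hN σ Q hQN, hσ0, hτσ σ Q⟩
    · rw [Finset.card_image_of_injective _ σ.injective]
  have hσy : ∀ σ : GQ, σ y = y := by
    intro σ
    rw [hy, map_prod]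
    conv_rhs => rw [← hσTN σ]
    rw [Finset.prod_image (fun a _ b _ h => σ.injective h)]
  have halgQ : Algebra.IsAlgebraic ℚ (AlgebraicClosure ℚ) := AlgebraicClosure.isAlgebraic ℚ
  have hclosQ : IsAlgClosure ℚ (AlgebraicClosure ℚ) := AlgebraicClosure.instIsAlgClosure ℚ
  have hgalQ : IsGalois ℚ Qbar := inferInstance
  obtain ⟨r, hr⟩ := (InfiniteGalois.mem_range_algebraMap_iff_fixed (k := ℚ) (K := Qbar) y).mpr hσy
  have hyval : A.valuation y < 1 := by
    rw [hy, map_prod]
    exact locpF_prod_lt_one TN _ (fun t ht => hT t (Finset.mem_of_mem_erase (hTNsub ht))) hTNne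
  have hy0 : y ≠ 0 := by
    rw [hy, Finset.prod_ne_zero_iff]
    intro t ht
    exact Finset.ne_of_mem_erase (hTNsub ht)
  have hyv0 : A.valuation y ≠ 0 := (Valuation.ne_zero_iff _).mpr hy0
  have hypos : 0 < A.valuation y := zero_lt_iff.mpr hyv0
  have hyle : A.valuation y ≤ A.valuation ((P.p : ℕ) : Qbar) := by
    have h1 : algebraMap ℚ Qbar r⁻¹ = y⁻¹ := by rw [map_inv₀, hr]
    have h2 : 1 < A.valuation (algebraMap ℚ Qbar r⁻¹) := by
      rw [h1, map_inv₀]
      exact (one_lt_inv₀ hypos).mpr hyval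
    have h3 := locP_val_rat A hp hA r⁻¹ h2
    rw [h1, map_inv₀] at h3
    exact (inv_le_inv₀ hppos hypos).mp h3
  -- the final estimate
  have hsplit : ∏ t ∈ T.erase 0, A.valuation t =
      (∏ t ∈ T.erase 0 \ TN, A.valuation t) * A.valuation y := by
    rw [hy, map_prod, Finset.prod_sdiff hTNsub]
  have hrestval : ∏ t ∈ T.erase 0 \ TN, A.valuation t < 1 :=
    locpF_prod_lt_one _ _
      (fun t ht => hT t (Finset.mem_of_mem_erase (Finset.mem_sdiff.mp ht).1)) hrest
  rw [hsplit] at hPF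
  have hlt : (∏ t ∈ T.erase 0 \ TN, A.valuation t) * A.valuation y <
      A.valuation ((P.p : ℕ) : Qbar) := by
    calc (∏ t ∈ T.erase 0 \ TN, A.valuation t) * A.valuation y
        < 1 * A.valuation y := by
          gcongr
      _ = A.valuation y := one_mul _
      _ ≤ A.valuation ((P.p : ℕ) : Qbar) := hyle
  exact absurd hPF (not_le.mpr hlt)

/-- **LOCP**: for a Galois-stable line `N` in the two-dimensional `V` and a place `A` over `p`,
inertia at `A` acts trivially on `N` or on `V / N`.  (No division polynomials.) -/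
theorem locP : LocPStatement := by
  intro P N hN hN0 hN1 hcard A hA
  have : Fact P.p.Prime := ⟨P.pp⟩
  obtain ⟨C, hC1, hC2⟩ := locPKer P A hA
  obtain ⟨Q₀, hQ₀, hQ₀v⟩ := locpF_exists_val_le_one P N hN hN0 hN1 hcard A hA
  -- the trace of `C` on `V`, as a subspace
  let CV₀ : AddSubgroup (Submodule.torsionBy ℤ (P.freyCurve⁄Qbar).Point P.p) :=
    C.comap (Submodule.torsionBy ℤ (P.freyCurve⁄Qbar).Point P.p).subtype.toAddMonoidHom
  let CV : Submodule (ZMod P.p) (Submodule.torsionBy ℤ (P.freyCurve⁄Qbar).Point P.p) :=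
    AddSubgroup.toZModSubmodule P.p CV₀
  have hmemCV : ∀ x : Submodule.torsionBy ℤ (P.freyCurve⁄Qbar).Point P.p,
      x ∈ CV ↔ (x : (P.freyCurve⁄Qbar).Point) ∈ C := fun x => Iff.rfl
  have htors : ∀ x : Submodule.torsionBy ℤ (P.freyCurve⁄Qbar).Point P.p,
      (P.p : ℤ) • (x : (P.freyCurve⁄Qbar).Point) = 0 := fun x =>
    (Submodule.mem_torsionBy_iff _ _).mp x.2
  -- `CV` is proper
  have hCV : CV ≠ ⊤ := by
    intro htop
    have hmem : Q₀ ∈ CV := htop ▸ Submodule.mem_top
    rw [hmemCV] at hmem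
    have hQ₀' : (Q₀ : (P.freyCurve⁄Qbar).Point) ≠ 0 := fun h => hQ₀ (Subtype.ext h)
    rcases hQ : (Q₀ : (P.freyCurve⁄Qbar).Point) with _ | ⟨x, y, h⟩
    · exact hQ₀' hQ
    · rw [hQ] at hmem hQ₀v
      have hlt := hC1 x y h hmem (hQ ▸ htors Q₀)
      rw [locP_xc_some] at hQ₀v
      exact absurd hlt (not_lt.mpr hQ₀v)
  -- inertia moves points only inside `CV`
  have hmove : ∀ σ ∈ A.inertiaSubgroupIn ℚ,
      ∀ x : Submodule.torsionBy ℤ (P.freyCurve⁄Qbar).Point P.p, σ • x - x ∈ CV := by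
    intro σ hσ x
    rw [hmemCV]
    exact hC2 σ hσ (x : (P.freyCurve⁄Qbar).Point) (htors x)
  rcases locP_linalg hcard N CV hN0 hN1 hCV with h | h
  · right
    intro σ hσ x
    rw [h]
    exact hmove σ hσ x
  · left
    intro σ hσ x hx
    have h1 : σ • x - x ∈ N ⊓ CV := ⟨N.sub_mem (hN σ x hx) hx, hmove σ hσ x⟩
    rw [h, Submodule.mem_bot] at h1
    exact sub_eq_zero.mp h1

end qbar

end Fermat.Agent.S13
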